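import Fermat.Agent.S16.AlgHecke

/-!
# S16, piece A (algebra): the final reduction in the shape used by the analytic pieces

* `sigmaP_eq_sum` : `sigmaP p k = ∑ d ∈ k.divisors with ¬ p ∣ d, d`.
* `alg_main_sum` : the S16 statement from
  (LB) a cusp form with integer `q`-coefficients `≡ σ'(k)` modulo `eisensteinNumerator p`, and
  (UB) every `m` such that some cusp form has integer `q`-coefficients `≡ σ'(k)` modulo `m`
  divides `eisensteinNumerator p`;
  here `σ'(k) = ∑ d ∈ k.divisors with ¬ p ∣ d, d` and the hypotheses are phrased with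
  `(qExpansion 1 f).coeff k`.
-/

set_option autoImplicit false

namespace Fermat.Agent.S16

open CuspForm ModularFormClass ModularCurve CongruenceSubgroup UpperHalfPlane

/-- The divisors of `k` divisible by `p` are the `p`-multiples of the divisors of `k / p`. -/
theorem alg_sum_divisors_dvd {p : ℕ} (hp : p ≠ 0) (k : ℕ) :
    (∑ d ∈ k.divisors with p ∣ d, (d : ℤ)) =
      if p ∣ k then (p : ℤ) * ∑ d ∈ (k / p).divisors, (d : ℤ) else 0 := by
  rcases eq_or_ne k 0 with rfl | hk
  · simp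
  split_ifs with hpk
  · obtain ⟨j, rfl⟩ := hpk
    have hj : j ≠ 0 := fun h => hk (by rw [h, mul_zero])
    rw [Nat.mul_div_cancel_left j (Nat.pos_of_ne_zero hp), Finset.mul_sum]
    symm
    refine Finset.sum_bij (fun e _ => p * e) ?_ ?_ ?_ ?_
    · intro e he
      rw [Nat.mem_divisors] at he
      rw [Finset.mem_filter, Nat.mem_divisors]
      exact ⟨⟨Nat.mul_dvd_mul_left p he.1, hk⟩, Dvd.intro _ rfl⟩
    · intro e _ e' _ hee
      exact Nat.eq_of_mul_eq_mul_left (Nat.pos_of_ne_zero hp) hee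
    · intro d hd
      rw [Finset.mem_filter, Nat.mem_divisors] at hd
      obtain ⟨⟨hdn, -⟩, e, rfl⟩ := hd
      refine ⟨e, ?_, rfl⟩
      rw [Nat.mem_divisors]
      exact ⟨Nat.dvd_of_mul_dvd_mul_left (Nat.pos_of_ne_zero hp) hdn, hj⟩
    · intro e _
      push_cast
      ring
  · refine Finset.sum_eq_zero fun d hd => ?_
    rw [Finset.mem_filter, Nat.mem_divisors] at hd
    exact absurd (hd.2.trans hd.1.1) hpk

/-- `σ'(k)` is the sum of the divisors of `k` prime to `p`. -/
theorem sigmaP_eq_sum {p : ℕ} (hp : p ≠ 0) (k : ℕ) :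
    sigmaP p k = ∑ d ∈ k.divisors with ¬ p ∣ d, (d : ℤ) := by
  have h1 := alg_sum_divisors_dvd hp k
  have h2 : (∑ d ∈ k.divisors, (d : ℤ)) = (∑ d ∈ k.divisors with p ∣ d, (d : ℤ)) +
      ∑ d ∈ k.divisors with ¬ p ∣ d, (d : ℤ) :=
    (Finset.sum_filter_add_sum_filter_not k.divisors (fun d => p ∣ d) _).symm
  have hs : ∀ j : ℕ, ((ArithmeticFunction.sigma 1 j : ℕ) : ℤ) = ∑ d ∈ j.divisors, (d : ℤ) := by
    intro j
    rw [ArithmeticFunction.sigma_one_apply]
    push_cast
    rfl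
  rw [sigmaP, hs k, hs (k / p), h2, h1]
  ring

variable (p : ℕ) [Fact p.Prime]

/-- **Piece A, final form.** The S16 statement follows from the lower bound (LB) and the upper
bound (UB), in the shapes produced by `lb_core` and `ub_main_of`. -/
theorem alg_main_sum
    (hLB : ∃ f0 : CuspForm (Gamma0 p) 2, ∀ k, 1 ≤ k →
      ∃ a : ℤ, (qExpansion 1 f0).coeff k = (a : ℂ) ∧
        (eisensteinNumerator p : ℤ) ∣ a - ∑ d ∈ k.divisors with ¬ p ∣ d, (d : ℤ))
    (hUB : ∀ (m : ℕ) (f : CuspForm (Gamma0 p) 2) (a : ℕ → ℤ),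
      (∀ k, (qExpansion 1 f).coeff k = (a k : ℂ)) →
      (∀ k, 1 ≤ k → (m : ℤ) ∣ a k - ∑ d ∈ k.divisors with ¬ p ∣ d, (d : ℤ)) →
      m ∣ eisensteinNumerator p) :
    Nat.card (↥(heckeLatticeAlgebra p ∅) ⧸
        Ideal.map ((latticeRestrictHom p ∅).toRingHom.comp (heckeEvalForms p 2))
          (eisensteinIdeal p)) =
      eisensteinNumerator p := by
  have hp0 : p ≠ 0 := (Fact.out : p.Prime).ne_zero
  refine alg_main p ?_ ?_
  · obtain ⟨f0, hf0⟩ := hLB
    refine ⟨f0, fun k hk => ?_⟩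
    obtain ⟨a, ha, ha'⟩ := hf0 k hk
    exact ⟨a, ha, by rw [sigmaP_eq_sum hp0]; exact ha'⟩
  · intro m f hf
    choose! c hc hc' using hf
    refine hUB m f (fun k => if k = 0 then 0 else c k) (fun k => ?_) (fun k hk => ?_)
    · rcases Nat.eq_zero_or_pos k with rfl | hk
      · rw [if_pos rfl, Int.cast_zero]
        exact S49.qCoeff_zero_eq_zero f
      · rw [if_neg hk.ne']
        exact hc k hk
    · rw [if_neg (Nat.pos_iff_ne_zero.1 hk), ← sigmaP_eq_sum hp0]
      exact hc' k hk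

end Fermat.Agent.S16
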