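import Fermat.Agent.S28.Hermite
import Fermat.Agent.S20.Basic
import Fermat.Prelude.Thm_CongruenceSubgroup_one_mem_strictPeriods_Gamma0

/-!
# S16 piece E: the weight two Eisenstein series `E₂(z) - p E₂(pz)` of level `Γ₀(p)`

* `e2p p` : the function `z ↦ E₂(z) - p E₂(pz)`.
* `e2p_slash` : for every `γ ∈ SL(2, ℤ)`, `(e2p p ∣[2] γ)(z) = E₂(z) - (p/d'²) E₂((a z + b)/d')`
  with `a d' = p`, `a = gcd(c, p)`.
* `e2p_mem_MF` : `e2p p ∈ MF (G0 p) 2`; `e2pForm p` the corresponding `ModularForm`.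
* `e2p_hasSum`, `e2p_qExpansion_coeff` : the `q`-expansion `(1 - p) - 24 ∑ σ'(n) qⁿ`, `σ'(n)` the
  sum of the divisors of `n` prime to `p` (`e2pSigma`).
* `e2p_fricke` : `e2p(-1/(pz)) = - p z² e2p(z)`.
-/

set_option autoImplicit false

open UpperHalfPlane ModularForm Complex EisensteinSeries
open scoped Real MatrixGroups CongruenceSubgroup Manifold ArithmeticFunction.sigma

noncomputable section

namespace Fermat.Agent.S16

open Fermat.Agent.S28 (scaleH affH coe_scaleH coe_affH)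

/-- The transformation law of `E₂` under `SL(2, ℤ)` in pointwise form. -/
theorem e2p_E2_smul (γ : SL(2, ℤ)) (z : ℍ) :
    E2 (γ • z) = (((γ 1 0 : ℤ) : ℂ) * z + ((γ 1 1 : ℤ) : ℂ)) ^ 2 * E2 z
      - 6 * Complex.I / π * ((γ 1 0 : ℤ) : ℂ) *
        (((γ 1 0 : ℤ) : ℂ) * z + ((γ 1 1 : ℤ) : ℂ)) := by
  have h := congrFun (E2_slash_action γ) z
  rw [ModularForm.SL_slash_apply] at h
  have hden : denom γ z = ((γ 1 0 : ℤ) : ℂ) * z + ((γ 1 1 : ℤ) : ℂ) := by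
    rw [ModularGroup.denom_apply]
  have hne : ((γ 1 0 : ℤ) : ℂ) * z + ((γ 1 1 : ℤ) : ℂ) ≠ 0 :=
    Fermat.Agent.S28.hermite_denom_ne_zero γ z
  simp only [Pi.sub_apply, Pi.smul_apply, D2, smul_eq_mul, riemannZeta_two] at h
  rw [hden] at h
  have hpi : (π : ℂ) ≠ 0 := by exact_mod_cast Real.pi_ne_zero
  rw [zpow_neg, ← div_eq_mul_inv, div_eq_iff (zpow_ne_zero _ hne)] at h
  rw [h]
  have h2 : (((γ 1 0 : ℤ) : ℂ) * z + ((γ 1 1 : ℤ) : ℂ)) ^ (2 : ℤ) =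
      (((γ 1 0 : ℤ) : ℂ) * z + ((γ 1 1 : ℤ) : ℂ)) ^ 2 := by
    norm_cast
  rw [h2]
  field_simp

/-- `E₂` is `1`-periodic. -/
theorem e2p_E2_affH_one (a : ℕ) [NeZero a] (b : ℤ) (z : ℍ) :
    E2 (affH a 1 b z) = E2 (scaleH a z) := by
  have h1 : affH a 1 b z = (ModularGroup.T ^ b) • scaleH a z := by
    apply UpperHalfPlane.ext
    rw [Fermat.Agent.S28.hermite_coe_smul, coe_affH, coe_scaleH]
    simp [ModularGroup.coe_T_zpow]
  rw [h1, e2p_E2_smul]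
  simp [ModularGroup.coe_T_zpow]

/-- The function `E₂(z) - p E₂(pz)`. -/
def e2p (p : ℕ) [NeZero p] : ℍ → ℂ := fun z => E2 z - (p : ℂ) * E2 (scaleH p z)

theorem e2p_apply (p : ℕ) [NeZero p] (z : ℍ) :
    e2p p z = E2 z - (p : ℂ) * E2 (scaleH p z) := rfl

/-- The translates of `e2p` in terms of the Hermite normal form. -/
theorem e2p_slash_apply (p : ℕ) [NeZero p] (γ γ' : SL(2, ℤ)) (a d' : ℕ) [NeZero a] [NeZero d']
    (b : ℤ) (had : a * d' = p) (h00 : (p : ℤ) * γ 0 0 = γ' 0 0 * a)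
    (h01 : (p : ℤ) * γ 0 1 = γ' 0 0 * b + γ' 0 1 * d')
    (h10 : γ 1 0 = γ' 1 0 * a) (h11 : γ 1 1 = γ' 1 0 * b + γ' 1 1 * d') (z : ℍ) :
    (e2p p ∣[(2 : ℤ)] γ) z = E2 z - (p : ℂ) / (d' : ℂ) ^ 2 * E2 (affH a d' b z) := by
  obtain ⟨e1, e2⟩ := Fermat.Agent.S28.hermite_scaleH_smul γ γ' p a d' b h00 h01 h10 h11 z
  have hne : ((γ 1 0 : ℤ) : ℂ) * z + ((γ 1 1 : ℤ) : ℂ) ≠ 0 :=
    Fermat.Agent.S28.hermite_denom_ne_zero γ z
  have hd' : (d' : ℂ) ≠ 0 := Nat.cast_ne_zero.mpr (NeZero.ne d')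
  have hpi : (π : ℂ) ≠ 0 := by exact_mod_cast Real.pi_ne_zero
  have e10 : ((γ 1 0 : ℤ) : ℂ) = ((γ' 1 0 : ℤ) : ℂ) * (a : ℂ) := by
    exact_mod_cast congrArg (Int.cast : ℤ → ℂ) h10
  have hp : (p : ℂ) = (a : ℂ) * (d' : ℂ) := by
    exact_mod_cast congrArg (Nat.cast : ℕ → ℂ) had.symm
  rw [ModularForm.SL_slash_apply, ModularGroup.denom_apply, e2p_apply, e1, e2p_E2_smul γ z,
    e2p_E2_smul γ' (affH a d' b z), e2, zpow_neg]
  have h2 : (((γ 1 0 : ℤ) : ℂ) * z + ((γ 1 1 : ℤ) : ℂ)) ^ (2 : ℤ) =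
      (((γ 1 0 : ℤ) : ℂ) * z + ((γ 1 1 : ℤ) : ℂ)) ^ 2 := by
    norm_cast
  rw [h2]
  generalize ((γ 1 0 : ℤ) : ℂ) * z + ((γ 1 1 : ℤ) : ℂ) = D at hne ⊢
  rw [hp, e10]
  field_simp
  ring

/-- The translates of `e2p` under `SL(2, ℤ)`. -/
theorem e2p_slash (p : ℕ) [NeZero p] (γ : SL(2, ℤ)) :
    ∃ (a d' : ℕ) (_ : NeZero a) (_ : NeZero d') (b : ℤ), a = Int.gcd (γ 1 0) p ∧ a * d' = p ∧
      ∀ z : ℍ, (e2p p ∣[(2 : ℤ)] γ) z = E2 z - (p : ℂ) / (d' : ℂ) ^ 2 * E2 (affH a d' b z) := by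
  obtain ⟨γ', a, d', b, ha, had, hapos, hd'pos, h00, h01, h10, h11⟩ :=
    Fermat.Agent.S28.exists_hermite γ p
  have ia : NeZero a := ⟨hapos.ne'⟩
  have id' : NeZero d' := ⟨hd'pos.ne'⟩
  exact ⟨a, d', ia, id', b, ha, had,
    fun z => e2p_slash_apply p γ γ' a d' b had h00 h01 h10 h11 z⟩

/-- `e2p p` is invariant under `Γ₀(p)`. -/
theorem e2p_slash_gamma0 (p : ℕ) [NeZero p] (γ : SL(2, ℤ)) (hγ : γ ∈ CongruenceSubgroup.Gamma0 p) :
    e2p p ∣[(2 : ℤ)] γ = e2p p := by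
  obtain ⟨a, d', ia, id', b, ha, had, h⟩ := e2p_slash p γ
  have hN : (p : ℤ) ∣ γ 1 0 := by
    rw [CongruenceSubgroup.Gamma0_mem] at hγ
    exact (ZMod.intCast_zmod_eq_zero_iff_dvd _ p).mp hγ
  have hap : a = p := by
    rw [ha]
    show Nat.gcd (γ 1 0).natAbs (p : ℤ).natAbs = p
    rw [Int.natAbs_natCast]
    exact Nat.gcd_eq_right (Int.natCast_dvd.mp hN)
  have hd1 : d' = 1 := by
    rw [hap] at had
    have hp0 : 0 < p := Nat.pos_of_ne_zero (NeZero.ne p)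
    exact Nat.eq_of_mul_eq_mul_left hp0 (by rw [had, mul_one])
  subst hap
  subst hd1
  funext z
  rw [h z, e2p_E2_affH_one, e2p_apply]
  simp

/-- All `SL(2, ℤ)`-translates of `e2p p` are bounded at infinity. -/
theorem e2p_isBoundedAtImInfty_slash (p : ℕ) [NeZero p] (γ : SL(2, ℤ)) :
    IsBoundedAtImInfty (e2p p ∣[(2 : ℤ)] γ) := by
  obtain ⟨a, d', ia, id', b, ha, had, h⟩ := e2p_slash p γ
  obtain ⟨M, A, hMA⟩ := UpperHalfPlane.isBoundedAtImInfty_iff.mp isBoundedAtImInfty_E2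
  rw [UpperHalfPlane.isBoundedAtImInfty_iff]
  have ha0 : (0 : ℝ) < a := by exact_mod_cast Nat.pos_of_ne_zero (NeZero.ne a)
  have hd0 : (0 : ℝ) < d' := by exact_mod_cast Nat.pos_of_ne_zero (NeZero.ne d')
  refine ⟨M + ‖(p : ℂ) / (d' : ℂ) ^ 2‖ * M, max A (A * d' / a), fun z hz => ?_⟩
  rw [h z]
  have h1 : ‖E2 z‖ ≤ M := hMA z (le_trans (le_max_left _ _) hz)
  have him : (affH a d' b z).im = a * z.im / d' := by
    show (((a : ℂ) * z + b) / d').im = a * z.im / d'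
    rw [Complex.div_natCast_im]
    simp
  have h2 : ‖E2 (affH a d' b z)‖ ≤ M := by
    apply hMA
    rw [him, le_div_iff₀ hd0]
    have h3 : A * d' / a ≤ z.im := le_trans (le_max_right _ _) hz
    rw [div_le_iff₀ ha0] at h3
    linarith
  calc ‖E2 z - (p : ℂ) / (d' : ℂ) ^ 2 * E2 (affH a d' b z)‖
      ≤ ‖E2 z‖ + ‖(p : ℂ) / (d' : ℂ) ^ 2 * E2 (affH a d' b z)‖ := norm_sub_le _ _
    _ = ‖E2 z‖ + ‖(p : ℂ) / (d' : ℂ) ^ 2‖ * ‖E2 (affH a d' b z)‖ := by rw [norm_mul]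
    _ ≤ M + ‖(p : ℂ) / (d' : ℂ) ^ 2‖ * M :=
        add_le_add h1 (mul_le_mul_of_nonneg_left h2 (norm_nonneg _))

/-- `z ↦ E₂(pz)` is holomorphic. -/
theorem e2p_mdiff_scale (p : ℕ) [NeZero p] : MDiff (fun z : ℍ => E2 (scaleH p z)) := by
  rw [UpperHalfPlane.mdifferentiable_iff]
  have hE := UpperHalfPlane.mdifferentiable_iff.mp E2_mdifferentiable
  have hp0 : (0 : ℝ) < p := by exact_mod_cast Nat.pos_of_ne_zero (NeZero.ne p)
  have hmaps : Set.MapsTo (fun z : ℂ => (p : ℂ) * z) {z : ℂ | 0 < z.im} {z : ℂ | 0 < z.im} := by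
    intro z hz
    simp only [Set.mem_ofPred_eq] at hz ⊢
    simpa using mul_pos hp0 hz
  have hcomp : DifferentiableOn ℂ ((E2 ∘ ofComplex) ∘ (fun z : ℂ => (p : ℂ) * z))
      {z : ℂ | 0 < z.im} :=
    hE.comp (by fun_prop) hmaps
  refine hcomp.congr fun z hz => ?_
  simp only [Set.mem_ofPred_eq] at hz
  have hz' : 0 < ((p : ℂ) * z).im := hmaps hz
  simp only [Function.comp_apply]
  congr 1
  apply UpperHalfPlane.ext
  rw [coe_scaleH, UpperHalfPlane.ofComplex_apply_of_im_pos hz,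
    UpperHalfPlane.ofComplex_apply_of_im_pos hz']

theorem e2p_mdiff (p : ℕ) [NeZero p] : MDiff (e2p p) := by
  have h : e2p p = E2 - (fun _ : ℍ => (p : ℂ)) * (fun z : ℍ => E2 (scaleH p z)) := by
    funext z
    rfl
  rw [h]
  exact E2_mdifferentiable.sub (mdifferentiable_const.mul (e2p_mdiff_scale p))

/-- `e2p p` is a modular form of weight `2` and level `Γ₀(p)`. -/
theorem e2p_mem_MF (p : ℕ) [NeZero p] :
    e2p p ∈ Fermat.Agent.S20.MF (Fermat.Agent.S20.G0 p) 2 :=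
  Fermat.Agent.S20.mem_MF_of_slash p (e2p_mdiff p) (e2p_slash_gamma0 p)
    (e2p_isBoundedAtImInfty_slash p)

/-- The divisors of `n` divisible by `p` are the `p`-multiples of the divisors of `n / p`. -/
theorem e2p_sum_divisors_dvd (p : ℕ) (hp : p ≠ 0) (n : ℕ) (hn : n ≠ 0) :
    (∑ d ∈ n.divisors with p ∣ d, (d : ℤ)) =
      if p ∣ n then (p : ℤ) * ∑ d ∈ (n / p).divisors, (d : ℤ) else 0 := by
  split_ifs with hpn
  · obtain ⟨k, rfl⟩ := hpn
    have hk : k ≠ 0 := fun h => hn (by rw [h, mul_zero])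
    rw [Nat.mul_div_cancel_left k (Nat.pos_of_ne_zero hp), Finset.mul_sum]
    symm
    refine Finset.sum_bij (fun e _ => p * e) ?_ ?_ ?_ ?_
    · intro e he
      rw [Nat.mem_divisors] at he
      rw [Finset.mem_filter, Nat.mem_divisors]
      exact ⟨⟨Nat.mul_dvd_mul_left p he.1, hn⟩, Dvd.intro _ rfl⟩
    · intro e _ e' _ hee
      exact Nat.eq_of_mul_eq_mul_left (Nat.pos_of_ne_zero hp) hee
    · intro d hd
      rw [Finset.mem_filter, Nat.mem_divisors] at hd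
      obtain ⟨⟨hdn, -⟩, e, rfl⟩ := hd
      refine ⟨e, ?_, rfl⟩
      rw [Nat.mem_divisors]
      exact ⟨Nat.dvd_of_mul_dvd_mul_left (Nat.pos_of_ne_zero hp) hdn, hk⟩
    · intro e _
      push_cast
      ring
  · refine Finset.sum_eq_zero fun d hd => ?_
    rw [Finset.mem_filter, Nat.mem_divisors] at hd
    exact absurd (hd.2.trans hd.1.1) hpn

/-- The `q`-expansion coefficients of `e2p p`: `1 - p`, and `-24` times the sum of the divisors
of `n` prime to `p`. -/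
def e2pCoeff (p n : ℕ) : ℤ :=
  if n = 0 then 1 - (p : ℤ) else -24 * ∑ d ∈ n.divisors with ¬ p ∣ d, (d : ℤ)

theorem e2pCoeff_zero (p : ℕ) : e2pCoeff p 0 = 1 - (p : ℤ) := by simp [e2pCoeff]

theorem e2pCoeff_of_ne_zero (p n : ℕ) (hn : n ≠ 0) :
    e2pCoeff p n = -24 * ∑ d ∈ n.divisors with ¬ p ∣ d, (d : ℤ) := by simp [e2pCoeff, hn]

/-- The coefficients of `E₂(z) - p E₂(pz)` computed from those of `E₂`. -/
theorem e2pCoeff_eq (p : ℕ) (hp : p ≠ 0) (n : ℕ) :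
    ((e2pCoeff p n : ℤ) : ℂ) = (if n = 0 then (1 : ℂ) else -24 * (σ 1 n : ℂ)) -
      (p : ℂ) * (if p ∣ n then (if n / p = 0 then (1 : ℂ) else -24 * (σ 1 (n / p) : ℂ)) else 0) := by
  rcases eq_or_ne n 0 with rfl | hn
  · simp [e2pCoeff]
  · have h1 := e2p_sum_divisors_dvd p hp n hn
    have h2 : (∑ d ∈ n.divisors, (d : ℤ)) = (∑ d ∈ n.divisors with p ∣ d, (d : ℤ)) +
        ∑ d ∈ n.divisors with ¬ p ∣ d, (d : ℤ) :=
      (Finset.sum_filter_add_sum_filter_not n.divisors (fun d => p ∣ d) _).symm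
    have hs : ∀ m : ℕ, ((σ 1 m : ℕ) : ℂ) = ((∑ d ∈ m.divisors, (d : ℤ) : ℤ) : ℂ) := by
      intro m
      rw [ArithmeticFunction.sigma_one_apply]
      push_cast
      rfl
    rw [e2pCoeff_of_ne_zero p n hn, if_neg hn, hs n, h2, h1]
    split_ifs with hpn h0
    · exfalso
      obtain ⟨k, rfl⟩ := hpn
      rw [Nat.mul_div_cancel_left k (Nat.pos_of_ne_zero hp)] at h0
      exact hn (by rw [h0, mul_zero])
    · rw [hs (n / p)]
      push_cast
      ring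
    · push_cast
      ring

/-- The `q`-expansion of `e2p p` as a convergent series. -/
theorem e2p_hasSum (p : ℕ) [NeZero p] (z : ℍ) :
    HasSum (fun m : ℕ => ((e2pCoeff p m : ℤ) : ℂ) • Function.Periodic.qParam 1 z ^ m)
      (e2p p z) := by
  have hp : p ≠ 0 := NeZero.ne p
  have hq : Function.Periodic.qParam 1 z = cexp (2 * π * Complex.I * z) := by
    simp [Function.Periodic.qParam]
  have hqs : cexp (2 * π * Complex.I * (scaleH p z : ℂ)) = Function.Periodic.qParam 1 z ^ p := by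
    rw [hq, coe_scaleH, ← Complex.exp_nat_mul]
    congr 1
    ring
  have h1 := hasSum_qExpansion_E2 z
  have h2 := hasSum_qExpansion_E2 (scaleH p z)
  rw [← hq] at h1
  rw [hqs] at h2
  set q := Function.Periodic.qParam 1 z with hqdef
  set c : ℕ → ℂ := fun m => if m = 0 then 1 else -24 * (σ 1 m : ℂ) with hc
  let g : ℕ → ℂ := fun n => if p ∣ n then c (n / p) • q ^ n else 0
  have hinj : Function.Injective (fun m : ℕ => p * m) := fun a b hab =>
    Nat.eq_of_mul_eq_mul_left (Nat.pos_of_ne_zero hp) hab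
  have h3 : HasSum g (E2 (scaleH p z)) := by
    rw [← hinj.hasSum_iff (f := g)]
    · convert h2 using 1
      funext m
      simp only [Function.comp_apply, g, dvd_mul_right, if_true,
        Nat.mul_div_cancel_left m (Nat.pos_of_ne_zero hp), pow_mul]
      rfl
    · intro n hn
      simp only [g]
      rw [if_neg]
      rintro ⟨k, rfl⟩
      exact hn ⟨k, rfl⟩
  have h4 := h1.sub (h3.mul_left (p : ℂ))
  rw [e2p_apply]
  have h5 : (fun m : ℕ => ((e2pCoeff p m : ℤ) : ℂ) • q ^ m) =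
      fun b => (if b = 0 then (1 : ℂ) else -24 * (σ 1 b : ℂ)) • q ^ b - (p : ℂ) * g b := by
    funext n
    rw [e2pCoeff_eq p hp n]
    simp only [g, hc, smul_eq_mul]
    split_ifs <;> ring
  rw [h5]
  exact h4

/-- `e2p p` as a `ModularForm`. -/
def e2pForm (p : ℕ) [NeZero p] : ModularForm (Fermat.Agent.S20.G0 p) 2 := (e2p_mem_MF p).choose

theorem coe_e2pForm (p : ℕ) [NeZero p] : ⇑(e2pForm p) = e2p p := (e2p_mem_MF p).choose_spec

/-- The `q`-expansion coefficients of `e2p p`. -/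
theorem e2p_qExpansion_coeff (p : ℕ) [NeZero p] (n : ℕ) :
    (qExpansion 1 (e2p p)).coeff n = ((e2pCoeff p n : ℤ) : ℂ) := by
  rw [← coe_e2pForm p]
  exact (ModularFormClass.qExpansion_coeff_unique (c := fun m => ((e2pCoeff p m : ℤ) : ℂ)) one_pos
    (CongruenceSubgroup.one_mem_strictPeriods_Gamma0 p) (f := e2pForm p)
    (fun τ => by rw [coe_e2pForm p]; exact e2p_hasSum p τ) n).symm

/-- The integral `q`-series of `e2p p`. -/
def e2pZ (p : ℕ) : PowerSeries ℤ := PowerSeries.mk (e2pCoeff p)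

theorem coeff_e2pZ (p n : ℕ) : PowerSeries.coeff n (e2pZ p) = e2pCoeff p n := by
  simp [e2pZ]

theorem e2p_qExpansion (p : ℕ) [NeZero p] :
    qExpansion 1 (e2p p) = (e2pZ p).map (Int.castRingHom ℂ) := by
  ext n
  rw [e2p_qExpansion_coeff, PowerSeries.coeff_map, coeff_e2pZ]
  rfl

/-- The Fricke involution: `e2p(-1/(pz)) = -p z² e2p(z)`. -/
theorem e2p_fricke (p : ℕ) [NeZero p] (z w : ℍ) (h : (w : ℂ) * ((p : ℂ) * z) = -1) :
    e2p p w = -(p : ℂ) * (z : ℂ) ^ 2 * e2p p z := by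
  have hp : (p : ℂ) ≠ 0 := Nat.cast_ne_zero.mpr (NeZero.ne p)
  have hz : (z : ℂ) ≠ 0 := UpperHalfPlane.ne_zero z
  have hpi : (π : ℂ) ≠ 0 := by exact_mod_cast Real.pi_ne_zero
  have hS : ∀ τ : ℍ, E2 (ModularGroup.S • τ) =
      (τ : ℂ) ^ 2 * E2 τ - 6 * Complex.I / π * τ := by
    intro τ
    rw [e2p_E2_smul]
    simp [ModularGroup.S]
  have hw : w = ModularGroup.S • scaleH p z := by
    apply UpperHalfPlane.ext
    rw [Fermat.Agent.S28.hermite_coe_smul, coe_scaleH]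
    simp only [ModularGroup.S]
    simp
    field_simp
    linear_combination h
  have hw2 : scaleH p w = ModularGroup.S • z := by
    apply UpperHalfPlane.ext
    rw [Fermat.Agent.S28.hermite_coe_smul, coe_scaleH]
    simp only [ModularGroup.S]
    simp
    field_simp
    linear_combination h
  rw [e2p_apply, e2p_apply, hw2, hS z]
  conv_lhs => rw [hw]
  rw [hS (scaleH p z), coe_scaleH]
  field_simp
  ring

end Fermat.Agent.S16
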