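import Fermat.Agent.S20.LevelOne
import Fermat.Prelude.Thm_CongruenceSubgroup_one_mem_strictPeriods_Gamma0

/-!
# S16: a weight-two form on `Γ₀(p)` with vanishing constant term is a cusp form

The trace of a weight-two form to level one vanishes; since all conjugates other than the form
itself are translates of `f ∣ S`, the constant term of `f ∣ S` is `-1/p` times the constant term of
`f` (we only need: it vanishes when that of `f` does).
-/

set_option autoImplicit false
set_option linter.unusedSectionVars false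
set_option linter.style.haveILetI false

namespace Fermat.Agent.S16

open UpperHalfPlane Complex Filter Topology ModularForm CongruenceSubgroup
open Fermat.Agent.S20
open scoped Real Manifold MatrixGroups

/-- Translation by `T ^ j` preserves limits at `i∞`. -/
theorem ct_tendsto_slash_T {g : ℍ → ℂ} {L : ℂ} (hg : Tendsto g atImInfty (𝓝 L)) (j : ℤ) :
    Tendsto (g ∣[(2 : ℤ)] (ModularGroup.T ^ j)) atImInfty (𝓝 L) := by
  have h1 : Tendsto (fun z : ℍ => ((j : ℝ) +ᵥ z : ℍ)) atImInfty atImInfty := by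
    rw [atImInfty, tendsto_comap_iff]
    have : (UpperHalfPlane.im ∘ fun z : ℍ => ((j : ℝ) +ᵥ z : ℍ)) = UpperHalfPlane.im := by
      funext z
      simp [vadd_im]
    rw [this]
    exact tendsto_comap
  have h2 : (g ∣[(2 : ℤ)] (ModularGroup.T ^ j)) = fun z : ℍ => g ((j : ℝ) +ᵥ z) := by
    funext z
    rw [ModularForm.SL_slash_apply, modular_T_zpow_smul]
    have : denom (Matrix.SpecialLinearGroup.toGL ((Matrix.SpecialLinearGroup.map
        (Int.castRingHom ℝ)) (ModularGroup.T ^ j))) (z : ℂ) = 1 := by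
      rw [ModularGroup.denom_apply, ModularGroup.coe_T_zpow]
      simp
    rw [this]
    simp
  rw [h2]
  exact hg.comp h1

/-- A bounded holomorphic periodic function has a limit at `i∞`. -/
theorem ct_exists_tendsto {g : ℍ → ℂ} (h : ℕ) (hh : 0 < h)
    (hper : Function.Periodic (g ∘ ofComplex) (h : ℂ)) (hhol : MDiff g)
    (hbdd : IsBoundedAtImInfty g) : ∃ L : ℂ, Tendsto g atImInfty (𝓝 L) := by
  have hh' : (0 : ℝ) < h := by exact_mod_cast hh
  have hper' : Function.Periodic (g ∘ ofComplex) ((h : ℝ) : ℂ) := by exact_mod_cast hper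
  have han := analyticAt_cuspFunction_zero hh' hper' hhol hbdd
  have hcomp : (cuspFunction (h : ℝ) g ∘ fun τ : ℍ ↦ Function.Periodic.qParam (h : ℝ) τ) = g := by
    funext τ
    simpa using eq_cuspFunction (h := (h : ℝ)) τ hh'.ne' hper'
  have := han.continuousAt.tendsto.comp (qParam_tendsto_atImInfty hh')
  rw [hcomp] at this
  exact ⟨_, this⟩

/-- Decomposition of the elements of `SL(2, ℤ)` outside `Γ₀(p)`. -/
theorem ct_exists_decomp (p : ℕ) [Fact p.Prime] (γ : SL(2, ℤ)) (hγ : γ ∉ Gamma0 p) :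
    ∃ (δ : SL(2, ℤ)) (j : ℤ), δ ∈ Gamma0 p ∧ γ = δ * ModularGroup.S * ModularGroup.T ^ j := by
  rw [Gamma0_mem] at hγ
  have hc : ((γ 1 0 : ℤ) : ZMod p) ≠ 0 := hγ
  -- choose `j` with `c * j = d` mod `p`
  obtain ⟨j, hj⟩ : ∃ j : ℤ, ((γ 1 0 : ℤ) : ZMod p) * (j : ZMod p) = ((γ 1 1 : ℤ) : ZMod p) := by
    refine ⟨((((γ 1 0 : ℤ) : ZMod p)⁻¹ * ((γ 1 1 : ℤ) : ZMod p)).val : ℤ), ?_⟩
    rw [Int.cast_natCast, ZMod.natCast_val, ZMod.cast_id', id, ← mul_assoc,
      mul_inv_cancel₀ hc, one_mul]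
  refine ⟨γ * (ModularGroup.T ^ j)⁻¹ * ModularGroup.S⁻¹, j, ?_, ?_⟩
  · rw [Gamma0_mem]
    have hS : (ModularGroup.S⁻¹ : SL(2, ℤ)).1 = !![0, 1; -1, 0] := by
      rw [Matrix.SpecialLinearGroup.coe_inv, ModularGroup.coe_S]
      ext i k
      fin_cases i <;> fin_cases k <;> simp [Matrix.adjugate_fin_two]
    have hT : ((ModularGroup.T ^ j)⁻¹ : SL(2, ℤ)).1 = !![1, -j; 0, 1] := by
      rw [← zpow_neg, ModularGroup.coe_T_zpow]
    have hval : (γ * (ModularGroup.T ^ j)⁻¹ * ModularGroup.S⁻¹ : SL(2, ℤ)) 1 0 =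
        γ 1 0 * j - γ 1 1 := by
      show (γ * (ModularGroup.T ^ j)⁻¹ * ModularGroup.S⁻¹ : SL(2, ℤ)).1 1 0 = _
      rw [Matrix.SpecialLinearGroup.coe_mul, Matrix.SpecialLinearGroup.coe_mul, hS, hT]
      simp [Matrix.mul_apply, Fin.sum_univ_two]
      ring
    rw [hval]
    push_cast
    rw [hj, sub_self]
  · group

variable (p : ℕ) [Fact p.Prime]

theorem ct_mem_CF_of_coeff_zero {f : ℍ → ℂ} (hf : f ∈ MF (G0 p) 2)
    (h0 : (qExpansion 1 f).coeff 0 = 0) : f ∈ CF (G0 p) 2 := by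
  haveI : NeZero p := ⟨(Fact.out : p.Prime).ne_zero⟩
  have hf' := hf
  obtain ⟨F, rfl⟩ := hf
  have hinv : ∀ γ : SL(2, ℤ), γ ∈ Gamma0 p → (mfCoe (G0 p) 2 F : ℍ → ℂ) ∣[(2 : ℤ)] γ =
      mfCoe (G0 p) 2 F := fun γ hγ => F.slash_action_eq' _ ⟨γ, hγ, rfl⟩
  set f : ℍ → ℂ := mfCoe (G0 p) 2 F with hfdef
  have hfF : f = ⇑F := rfl
  -- `f` tends to `0`
  have hper1 := CongruenceSubgroup.one_mem_strictPeriods_Gamma0 p
  have hf0 : Tendsto f atImInfty (𝓝 0) := by
    have han := ModularFormClass.analyticAt_cuspFunction_zero F one_pos hper1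
    have hper : Function.Periodic (⇑F ∘ ofComplex) ((1 : ℝ) : ℂ) :=
      SlashInvariantFormClass.periodic_comp_ofComplex F hper1
    have hcomp : (cuspFunction 1 ⇑F ∘ fun τ : ℍ ↦ Function.Periodic.qParam 1 τ) = ⇑F := by
      funext τ
      simpa using eq_cuspFunction (h := 1) τ one_ne_zero hper
    have h := han.continuousAt.tendsto.comp (qParam_tendsto_atImInfty one_pos)
    have hc0 : cuspFunction 1 ⇑F 0 = 0 := by
      have := h0
      rw [hfF] at this
      simpa [qExpansion_coeff] using this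
    rw [hcomp, hc0] at h
    exact h
  -- `g = f ∣ S`
  set g : ℍ → ℂ := f ∣[(2 : ℤ)] ModularGroup.S with hg
  have hinv' : ∀ δ γ : SL(2, ℤ), δ ∈ Gamma0 p → f ∣[(2 : ℤ)] (δ * γ) = f ∣[(2 : ℤ)] γ := by
    intro δ γ hδ
    rw [SlashAction.slash_mul, hinv δ hδ]
  have hgbdd : IsBoundedAtImInfty g := by
    rw [hg, slash_eq_cj p hf' ModularGroup.S]
    exact isBoundedAtImInfty_cj p hf' _
  have hghol : MDiff g := by
    rw [hg, slash_eq_cj p hf' ModularGroup.S]
    exact mdiff_cj p hf' _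
  have hgT : g ∣[(2 : ℤ)] (ModularGroup.T ^ (p : ℤ)) = g := by
    rw [hg, ← SlashAction.slash_mul]
    have h1 : ModularGroup.S * ModularGroup.T ^ (p : ℤ) =
        (ModularGroup.S * ModularGroup.T ^ (p : ℤ) * ModularGroup.S⁻¹) * ModularGroup.S := by
      group
    rw [h1]
    refine hinv' _ _ ?_
    rw [Gamma0_mem]
    have hS : (ModularGroup.S⁻¹ : SL(2, ℤ)).1 = !![0, 1; -1, 0] := by
      rw [Matrix.SpecialLinearGroup.coe_inv, ModularGroup.coe_S]
      ext i k
      fin_cases i <;> fin_cases k <;> simp [Matrix.adjugate_fin_two]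
    have hval : (ModularGroup.S * ModularGroup.T ^ (p : ℤ) * ModularGroup.S⁻¹ : SL(2, ℤ)) 1 0 =
        -(p : ℤ) := by
      show (ModularGroup.S * ModularGroup.T ^ (p : ℤ) * ModularGroup.S⁻¹ : SL(2, ℤ)).1 1 0 = _
      rw [Matrix.SpecialLinearGroup.coe_mul, Matrix.SpecialLinearGroup.coe_mul, hS,
        ModularGroup.coe_S, ModularGroup.coe_T_zpow]
      simp [Matrix.mul_apply, Fin.sum_univ_two]
    rw [hval]
    simp
  have hgper : Function.Periodic (g ∘ ofComplex) ((p : ℕ) : ℂ) := by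
    intro w
    simp only [Function.comp_apply]
    by_cases hw : 0 < w.im
    · have hw' : 0 < (w + (p : ℂ)).im := by simpa using hw
      rw [ofComplex_apply_of_im_pos hw', ofComplex_apply_of_im_pos hw]
      have h1 := congrFun hgT ⟨w, hw⟩
      rw [ModularForm.SL_slash_apply, modular_T_zpow_smul] at h1
      have hden : denom (Matrix.SpecialLinearGroup.toGL ((Matrix.SpecialLinearGroup.map
          (Int.castRingHom ℝ)) (ModularGroup.T ^ (p : ℤ)))) ((⟨w, hw⟩ : ℍ) : ℂ) = 1 := by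
        rw [ModularGroup.denom_apply, ModularGroup.coe_T_zpow]
        simp
      rw [hden] at h1
      simp only [one_zpow, mul_one] at h1
      rw [← h1]
      congr 1
      ext
      simp [add_comm]
    · have hw' : ¬ 0 < (w + (p : ℂ)).im := by simpa using hw
      rw [ofComplex_apply_of_im_nonpos (not_lt.mp hw'),
        ofComplex_apply_of_im_nonpos (not_lt.mp hw)]
  obtain ⟨L, hL⟩ := ct_exists_tendsto p (Fact.out : p.Prime).pos hgper hghol hgbdd
  -- limits of all translates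
  have hlim : ∀ γ : SL(2, ℤ), Tendsto (f ∣[(2 : ℤ)] γ) atImInfty (𝓝 0) ∨
      Tendsto (f ∣[(2 : ℤ)] γ) atImInfty (𝓝 L) := by
    intro γ
    by_cases hγ : γ ∈ Gamma0 p
    · left
      rw [hinv γ hγ]
      exact hf0
    · right
      obtain ⟨δ, j, hδ, rfl⟩ := ct_exists_decomp p γ hγ
      rw [mul_assoc, hinv' δ _ hδ, SlashAction.slash_mul]
      exact ct_tendsto_slash_T hL j
  -- the trace vanishes
  have htr : trP p 2 f = 0 := lo_eq_zero_of_two (trP_mem p hf')
  have hL0 : L = 0 := by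
    by_contra hne
    -- every conjugate tends to `c q * L` with `c q ∈ {0, 1}`
    have hq : ∀ q : QQ p, ∃ c : ℕ, Tendsto (cj p 2 f q) atImInfty (𝓝 ((c : ℂ) * L)) ∧
        (Tendsto (cj p 2 f q) atImInfty (𝓝 L) → c = 1) := by
      intro q
      obtain ⟨γ, hγ⟩ := exists_cj_eq p q
      rw [hγ]
      rcases hlim γ with h | h
      · refine ⟨0, by simpa using h, fun h' => ?_⟩
        exact absurd (tendsto_nhds_unique h' h) hne
      · exact ⟨1, by simpa using h, fun _ => rfl⟩
    choose c hc hc1 using hq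
    have hsum : Tendsto (fun z => ∑ q : QQ p, cj p 2 f q z) atImInfty
        (𝓝 (∑ q : QQ p, (c q : ℂ) * L)) :=
      tendsto_finsetSum _ fun q _ => hc q
    have htr' : (fun z => ∑ q : QQ p, cj p 2 f q z) = fun _ => (0 : ℂ) := by
      funext z
      have := congrFun htr z
      simpa [trP] using this
    rw [htr'] at hsum
    have h1 : (∑ q : QQ p, (c q : ℂ) * L) = 0 := (tendsto_nhds_unique hsum tendsto_const_nhds)
    rw [← Finset.sum_mul] at h1
    have h2 : (∑ q : QQ p, (c q : ℂ)) = 0 := by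
      rcases mul_eq_zero.mp h1 with h | h
      · exact h
      · exact absurd h hne
    have h3 : (∑ q : QQ p, c q) = 0 := by exact_mod_cast h2
    have h4 := (Finset.sum_eq_zero_iff.mp h3) (QuotientGroup.mk (Fermat.Agent.S23.slMem
      ModularGroup.S)⁻¹) (Finset.mem_univ _)
    have h5 := hc1 (QuotientGroup.mk (Fermat.Agent.S23.slMem ModularGroup.S)⁻¹) (by
      rw [← slash_eq_cj p hf' ModularGroup.S]
      exact hL)
    omega
  rw [hL0] at hlim
  refine mem_CF_of_slash p (mdiff_of_mem_MF hf') hinv fun γ => ?_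
  rcases hlim γ with h | h <;> exact h

end Fermat.Agent.S16
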