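import Mathlib

/-!
# S16, theta block: the quaternary quadratic form of level `p` (shared definitions, piece TH1)

For integers `s, r, m` with `(4 s - 1) m = r² + p` we consider the quaternary form

`Q(x) = x₀² + x₀x₁ + s x₁² + r x₁x₃ + p s x₂² + p x₂x₃ + m x₃²`   (`thetaQ`),

its Gram matrix `A = thetaA` (so `2 Q(x) = xᵀ A x`), the matrix `B = thetaB = p A⁻¹`
(`A B = B A = p`) and the dual form `Q_B = thetaQB` (`2 Q_B(x) = xᵀ B x`,
`Q(B x) = p Q_B(x)`, `Q_B(A x) = p Q(x)`).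
-/

set_option autoImplicit false

namespace Fermat.Agent.S16

open Matrix

/-- The quaternary form `Q`. -/
def thetaQ (p : ℕ) (s r m : ℤ) (x : Fin 4 → ℤ) : ℤ :=
  x 0 ^ 2 + x 0 * x 1 + s * x 1 ^ 2 + r * x 1 * x 3 + p * s * x 2 ^ 2 + p * x 2 * x 3
    + m * x 3 ^ 2

/-- The dual form `Q_B` (`= p Q ∘ A⁻¹`). -/
def thetaQB (p : ℕ) (s r m : ℤ) (a : Fin 4 → ℤ) : ℤ :=
  s * m * a 0 ^ 2 - (4 * s * m - p) * a 0 * a 1 + (4 * s * m - p) * a 1 ^ 2 - r * a 0 * a 2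
    + 2 * s * r * a 0 * a 3 + 2 * r * a 1 * a 2 - 4 * s * r * a 1 * a 3 + a 2 ^ 2
    - (4 * s - 1) * a 2 * a 3 + s * (4 * s - 1) * a 3 ^ 2

/-- The Gram matrix `A` of `Q`. -/
def thetaA (p : ℕ) (s r m : ℤ) : Matrix (Fin 4) (Fin 4) ℤ :=
  !![2, 1, 0, 0; 1, 2 * s, 0, r; 0, 0, 2 * p * s, p; 0, r, p, 2 * m]

/-- The Gram matrix `B = p A⁻¹` of `Q_B`. -/
def thetaB (p : ℕ) (s r m : ℤ) : Matrix (Fin 4) (Fin 4) ℤ :=
  !![2 * s * m, -(4 * s * m - p), -r, 2 * s * r;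
     -(4 * s * m - p), 2 * (4 * s * m - p), 2 * r, -(4 * s * r);
     -r, 2 * r, 2, -(4 * s - 1);
     2 * s * r, -(4 * s * r), -(4 * s - 1), 2 * s * (4 * s - 1)]

variable (p : ℕ) (s r m : ℤ)

theorem thetaA_mulVec (x : Fin 4 → ℤ) :
    thetaA p s r m *ᵥ x =
      ![2 * x 0 + x 1, x 0 + 2 * s * x 1 + r * x 3, 2 * p * s * x 2 + p * x 3,
        r * x 1 + p * x 2 + 2 * m * x 3] := by
  ext i
  fin_cases i <;> simp [thetaA, Matrix.mulVec, dotProduct, Fin.sum_univ_four]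

theorem thetaB_mulVec (x : Fin 4 → ℤ) :
    thetaB p s r m *ᵥ x =
      ![2 * s * m * x 0 - (4 * s * m - p) * x 1 - r * x 2 + 2 * s * r * x 3,
        -(4 * s * m - p) * x 0 + 2 * (4 * s * m - p) * x 1 + 2 * r * x 2 - 4 * s * r * x 3,
        -r * x 0 + 2 * r * x 1 + 2 * x 2 - (4 * s - 1) * x 3,
        2 * s * r * x 0 - 4 * s * r * x 1 - (4 * s - 1) * x 2 + 2 * s * (4 * s - 1) * x 3] := by
  ext i
  fin_cases i <;> simp [thetaB, Matrix.mulVec, dotProduct, Fin.sum_univ_four] <;> ring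

theorem two_mul_thetaQ (x : Fin 4 → ℤ) :
    2 * thetaQ p s r m x = x ⬝ᵥ (thetaA p s r m *ᵥ x) := by
  rw [thetaA_mulVec]
  simp [thetaQ, dotProduct, Fin.sum_univ_four]
  ring

theorem two_mul_thetaQB (x : Fin 4 → ℤ) :
    2 * thetaQB p s r m x = x ⬝ᵥ (thetaB p s r m *ᵥ x) := by
  rw [thetaB_mulVec]
  simp [thetaQB, dotProduct, Fin.sum_univ_four]
  ring

theorem thetaA_transpose : (thetaA p s r m)ᵀ = thetaA p s r m := by
  ext i j
  fin_cases i <;> fin_cases j <;> simp [thetaA, Matrix.transpose_apply]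

theorem thetaB_transpose : (thetaB p s r m)ᵀ = thetaB p s r m := by
  ext i j
  fin_cases i <;> fin_cases j <;> simp [thetaB, Matrix.transpose_apply]

variable {p s r m}

theorem thetaA_mul_thetaB (h : (4 * s - 1) * m = r ^ 2 + p) :
    thetaA p s r m * thetaB p s r m = (p : ℤ) • (1 : Matrix (Fin 4) (Fin 4) ℤ) := by
  have hp : (p : ℤ) = (4 * s - 1) * m - r ^ 2 := by linarith
  ext i j
  fin_cases i <;> fin_cases j <;>
    simp [thetaA, thetaB, Matrix.mul_apply, Fin.sum_univ_four] <;> (try rw [hp]) <;> ring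

theorem thetaB_mul_thetaA (h : (4 * s - 1) * m = r ^ 2 + p) :
    thetaB p s r m * thetaA p s r m = (p : ℤ) • (1 : Matrix (Fin 4) (Fin 4) ℤ) := by
  have hp : (p : ℤ) = (4 * s - 1) * m - r ^ 2 := by linarith
  ext i j
  fin_cases i <;> fin_cases j <;>
    simp [thetaA, thetaB, Matrix.mul_apply, Fin.sum_univ_four] <;> (try rw [hp]) <;> ring

theorem thetaQ_mulVec_thetaB (h : (4 * s - 1) * m = r ^ 2 + p) (x : Fin 4 → ℤ) :
    thetaQ p s r m (thetaB p s r m *ᵥ x) = p * thetaQB p s r m x := by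
  have hp : (p : ℤ) = (4 * s - 1) * m - r ^ 2 := by linarith
  rw [thetaB_mulVec]
  simp only [thetaQ, thetaQB, Matrix.cons_val_zero, Matrix.cons_val_one, Matrix.cons_val]
  rw [hp]
  ring

theorem thetaQB_mulVec_thetaA (h : (4 * s - 1) * m = r ^ 2 + p) (x : Fin 4 → ℤ) :
    thetaQB p s r m (thetaA p s r m *ᵥ x) = p * thetaQ p s r m x := by
  have hp : (p : ℤ) = (4 * s - 1) * m - r ^ 2 := by linarith
  rw [thetaA_mulVec]
  simp only [thetaQ, thetaQB, Matrix.cons_val_zero, Matrix.cons_val_one, Matrix.cons_val]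
  rw [hp]
  ring

theorem thetaB_mulVec_thetaA_mulVec (h : (4 * s - 1) * m = r ^ 2 + p) (x : Fin 4 → ℤ) :
    thetaB p s r m *ᵥ (thetaA p s r m *ᵥ x) = (p : ℤ) • x := by
  rw [Matrix.mulVec_mulVec, thetaB_mul_thetaA h, Matrix.smul_mulVec, Matrix.one_mulVec]

theorem thetaA_mulVec_thetaB_mulVec (h : (4 * s - 1) * m = r ^ 2 + p) (x : Fin 4 → ℤ) :
    thetaA p s r m *ᵥ (thetaB p s r m *ᵥ x) = (p : ℤ) • x := by
  rw [Matrix.mulVec_mulVec, thetaA_mul_thetaB h, Matrix.smul_mulVec, Matrix.one_mulVec]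

/-- `Q` as a sum of squares. -/
theorem thetaQ_sos (h : (4 * s - 1) * m = r ^ 2 + p) (x : Fin 4 → ℤ) :
    4 * (4 * s - 1) * thetaQ p s r m x =
      (4 * s - 1) * (2 * x 0 + x 1) ^ 2 + ((4 * s - 1) * x 1 + 2 * r * x 3) ^ 2
        + p * (4 * s - 1) * x 2 ^ 2 + p * ((4 * s - 1) * x 2 + 2 * x 3) ^ 2 := by
  have hp : (p : ℤ) = (4 * s - 1) * m - r ^ 2 := by linarith
  simp only [thetaQ]
  rw [hp]
  ring

theorem thetaQ_neg (x : Fin 4 → ℤ) : thetaQ p s r m (-x) = thetaQ p s r m x := by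
  simp only [thetaQ, Pi.neg_apply]
  ring

theorem thetaQB_neg (x : Fin 4 → ℤ) : thetaQB p s r m (-x) = thetaQB p s r m x := by
  simp only [thetaQB, Pi.neg_apply]
  ring

theorem thetaQ_zero : thetaQ p s r m 0 = 0 := by
  simp [thetaQ]

theorem thetaQB_zero : thetaQB p s r m 0 = 0 := by
  simp [thetaQB]

theorem thetaQ_nonneg (hs : 0 < s) (h : (4 * s - 1) * m = r ^ 2 + p) (x : Fin 4 → ℤ) :
    0 ≤ thetaQ p s r m x := by
  have h1 := thetaQ_sos h x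
  have hq : (0 : ℤ) < 4 * s - 1 := by linarith
  have hp0 : (0 : ℤ) ≤ p := Nat.cast_nonneg p
  have h2 : 0 ≤ 4 * (4 * s - 1) * thetaQ p s r m x := by
    rw [h1]
    positivity
  have h3 : (0 : ℤ) < 4 * (4 * s - 1) := by linarith
  exact nonneg_of_mul_nonneg_right h2 h3

/-- Coordinate bounds: `Q` is positive definite (quantitatively). -/
theorem thetaQ_lower (hp : 0 < p) (hs : 0 < s) (h : (4 * s - 1) * m = r ^ 2 + p) :
    ∃ C : ℤ, 0 < C ∧ ∀ (x : Fin 4 → ℤ) (i : Fin 4), x i ^ 2 ≤ C * thetaQ p s r m x := by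
  set q0 : ℤ := 4 * s - 1 with hq0
  have hq : (0 : ℤ) < q0 := by rw [hq0]; linarith
  have hq1 : (1 : ℤ) ≤ q0 := hq
  have hp1 : (1 : ℤ) ≤ p := by exact_mod_cast hp
  refine ⟨4 + 20 * q0 ^ 2 + 40 * r ^ 2 * q0 ^ 2, by positivity, ?_⟩
  intro x i
  have hsos := thetaQ_sos h x
  rw [← hq0] at hsos
  set K := thetaQ p s r m x with hK
  have hK0 : 0 ≤ K := thetaQ_nonneg hs h x
  set a := 2 * x 0 + x 1 with ha
  set b := q0 * x 1 + 2 * r * x 3 with hb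
  set c := q0 * x 2 + 2 * x 3 with hc
  have t1 : 0 ≤ q0 * a ^ 2 := by positivity
  have t2 : 0 ≤ b ^ 2 := sq_nonneg b
  have t3 : 0 ≤ (p : ℤ) * q0 * x 2 ^ 2 := by positivity
  have t4 : 0 ≤ (p : ℤ) * c ^ 2 := by positivity
  have f1 : a ^ 2 ≤ 4 * K := by
    have h1 : q0 * a ^ 2 ≤ q0 * (4 * K) := by linarith
    exact le_of_mul_le_mul_left h1 hq
  have f2 : x 2 ^ 2 ≤ 4 * K := by
    have h0 : 0 ≤ q0 * x 2 ^ 2 := by positivity
    have h1 : q0 * x 2 ^ 2 ≤ (p : ℤ) * (q0 * x 2 ^ 2) := le_mul_of_one_le_left h0 hp1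
    have h2 : q0 * x 2 ^ 2 ≤ q0 * (4 * K) := by linarith
    exact le_of_mul_le_mul_left h2 hq
  have f4 : c ^ 2 ≤ 4 * q0 * K := by
    have h1 : c ^ 2 ≤ (p : ℤ) * c ^ 2 := le_mul_of_one_le_left (sq_nonneg c) hp1
    linarith
  have f3 : b ^ 2 ≤ 4 * q0 * K := by linarith
  have hq2 : (1 : ℤ) ≤ q0 ^ 2 := by nlinarith
  have hqK : 0 ≤ q0 * K := by positivity
  have hq2K : q0 * K ≤ q0 ^ 2 * K := by
    have : q0 * K ≤ q0 * (q0 * K) := le_mul_of_one_le_left hqK hq1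
    linarith [this, (by ring : q0 * (q0 * K) = q0 ^ 2 * K)]
  -- `x 3`
  have g3 : x 3 ^ 2 ≤ (2 * q0 + 2 * q0 ^ 2) * K := by
    have h5 : (2 * x 3) ^ 2 ≤ 2 * c ^ 2 + 2 * (q0 * x 2) ^ 2 := by
      have : 2 * x 3 = c - q0 * x 2 := by rw [hc]; ring
      rw [this]
      nlinarith [sq_nonneg (c + q0 * x 2)]
    have h6 : (q0 * x 2) ^ 2 ≤ q0 ^ 2 * (4 * K) := by
      have : (q0 * x 2) ^ 2 = q0 ^ 2 * x 2 ^ 2 := by ring
      rw [this]
      exact mul_le_mul_of_nonneg_left f2 (sq_nonneg q0)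
    have h7 : (2 * x 3) ^ 2 = 4 * x 3 ^ 2 := by ring
    linarith
  -- `x 1`
  have g1 : x 1 ^ 2 ≤ (8 * q0 + 8 * r ^ 2 * (2 * q0 + 2 * q0 ^ 2)) * K := by
    have h5 : (q0 * x 1) ^ 2 ≤ 2 * b ^ 2 + 2 * (2 * r * x 3) ^ 2 := by
      have : q0 * x 1 = b - 2 * r * x 3 := by rw [hb]; ring
      rw [this]
      nlinarith [sq_nonneg (b + 2 * r * x 3)]
    have h6 : (2 * r * x 3) ^ 2 ≤ 4 * r ^ 2 * ((2 * q0 + 2 * q0 ^ 2) * K) := by
      have : (2 * r * x 3) ^ 2 = 4 * r ^ 2 * x 3 ^ 2 := by ring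
      rw [this]
      exact mul_le_mul_of_nonneg_left g3 (by positivity)
    have h7 : x 1 ^ 2 ≤ (q0 * x 1) ^ 2 := by
      have : (q0 * x 1) ^ 2 = q0 ^ 2 * x 1 ^ 2 := by ring
      rw [this]
      exact le_mul_of_one_le_left (sq_nonneg _) hq2
    linarith
  -- `x 0`
  have g0 : 4 * x 0 ^ 2 ≤ (8 + 2 * (8 * q0 + 8 * r ^ 2 * (2 * q0 + 2 * q0 ^ 2))) * K := by
    have h5 : (2 * x 0) ^ 2 ≤ 2 * a ^ 2 + 2 * x 1 ^ 2 := by
      have : 2 * x 0 = a - x 1 := by rw [ha]; ring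
      rw [this]
      nlinarith [sq_nonneg (a + x 1)]
    have h7 : (2 * x 0) ^ 2 = 4 * x 0 ^ 2 := by ring
    linarith
  have hr0 : 0 ≤ r ^ 2 * (q0 * K) := by positivity
  have hr4 : r ^ 2 * (q0 * K) ≤ r ^ 2 * (q0 ^ 2 * K) :=
    mul_le_mul_of_nonneg_left hq2K (sq_nonneg r)
  have hq2K0 : 0 ≤ q0 ^ 2 * K := by positivity
  have hr5 : 0 ≤ r ^ 2 * (q0 ^ 2 * K) := by positivity
  have hC : (4 + 20 * q0 ^ 2 + 40 * r ^ 2 * q0 ^ 2) * K =
      4 * K + 20 * (q0 ^ 2 * K) + 40 * (r ^ 2 * (q0 ^ 2 * K)) := by ring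
  have e0 : (8 + 2 * (8 * q0 + 8 * r ^ 2 * (2 * q0 + 2 * q0 ^ 2))) * K =
      8 * K + 16 * (q0 * K) + 32 * (r ^ 2 * (q0 * K)) + 32 * (r ^ 2 * (q0 ^ 2 * K)) := by ring
  have e1 : (8 * q0 + 8 * r ^ 2 * (2 * q0 + 2 * q0 ^ 2)) * K =
      8 * (q0 * K) + 16 * (r ^ 2 * (q0 * K)) + 16 * (r ^ 2 * (q0 ^ 2 * K)) := by ring
  have e3 : (2 * q0 + 2 * q0 ^ 2) * K = 2 * (q0 * K) + 2 * (q0 ^ 2 * K) := by ring
  rw [hC]
  fin_cases i
  · show x 0 ^ 2 ≤ _
    linarith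
  · show x 1 ^ 2 ≤ _
    linarith
  · show x 2 ^ 2 ≤ _
    linarith
  · show x 3 ^ 2 ≤ _
    linarith

theorem thetaQ_eq_zero_iff (hp : 0 < p) (hs : 0 < s) (h : (4 * s - 1) * m = r ^ 2 + p)
    (x : Fin 4 → ℤ) : thetaQ p s r m x = 0 ↔ x = 0 := by
  constructor
  · intro h0
    obtain ⟨C, _, hC⟩ := thetaQ_lower hp hs h
    funext i
    have := hC x i
    rw [h0, mul_zero] at this
    have h2 : x i ^ 2 = 0 := le_antisymm this (sq_nonneg _)
    simpa using h2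
  · rintro rfl
    exact thetaQ_zero

/-! ### The dual form is positive definite -/

theorem thetaQB_nonneg (hp : 0 < p) (hs : 0 < s) (h : (4 * s - 1) * m = r ^ 2 + p)
    (x : Fin 4 → ℤ) : 0 ≤ thetaQB p s r m x := by
  have h1 := thetaQ_mulVec_thetaB h x
  have h2 := thetaQ_nonneg hs h (thetaB p s r m *ᵥ x)
  rw [h1] at h2
  have hp' : (0 : ℤ) < p := by exact_mod_cast hp
  exact nonneg_of_mul_nonneg_right h2 hp'

/-- Coordinate bounds for the dual form. -/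
theorem thetaQB_lower (hp : 0 < p) (hs : 0 < s) (h : (4 * s - 1) * m = r ^ 2 + p) :
    ∃ C : ℤ, 0 < C ∧ ∀ (x : Fin 4 → ℤ) (i : Fin 4), x i ^ 2 ≤ C * thetaQB p s r m x := by
  obtain ⟨C, hC0, hC⟩ := thetaQ_lower hp hs h
  have hp' : (1 : ℤ) ≤ p := by exact_mod_cast hp
  set S : ℤ := ∑ i : Fin 4, ∑ j : Fin 4, thetaA p s r m i j ^ 2 with hS
  have hS0 : 0 ≤ S := Finset.sum_nonneg fun i _ => Finset.sum_nonneg fun j _ => sq_nonneg _
  refine ⟨4 * (S + 1) * C * p, by positivity, ?_⟩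
  intro x i
  set y := thetaB p s r m *ᵥ x with hy
  have hQy : thetaQ p s r m y = p * thetaQB p s r m x := thetaQ_mulVec_thetaB h x
  have hB0 : 0 ≤ thetaQB p s r m x := thetaQB_nonneg hp hs h x
  have hpx : (p : ℤ) * x i = ∑ j : Fin 4, thetaA p s r m i j * y j := by
    have := congrFun (thetaA_mulVec_thetaB_mulVec h x) i
    rw [Pi.smul_apply, smul_eq_mul] at this
    rw [← this]
    rfl
  have h1 : ((p : ℤ) * x i) ^ 2 ≤ 4 * ∑ j : Fin 4, (thetaA p s r m i j * y j) ^ 2 := by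
    rw [hpx]
    have := sq_sum_le_card_mul_sum_sq (s := (Finset.univ : Finset (Fin 4)))
      (f := fun j => thetaA p s r m i j * y j)
    simpa using this
  have h2 : ∑ j : Fin 4, (thetaA p s r m i j * y j) ^ 2 ≤
      ∑ j : Fin 4, thetaA p s r m i j ^ 2 * (C * (p * thetaQB p s r m x)) := by
    refine Finset.sum_le_sum fun j _ => ?_
    rw [mul_pow]
    refine mul_le_mul_of_nonneg_left ?_ (sq_nonneg _)
    rw [← hQy]
    exact hC y j
  have h3 : ∑ j : Fin 4, thetaA p s r m i j ^ 2 * (C * (p * thetaQB p s r m x)) ≤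
      S * (C * (p * thetaQB p s r m x)) := by
    rw [← Finset.sum_mul]
    refine mul_le_mul_of_nonneg_right ?_ (by positivity)
    rw [hS]
    exact Finset.single_le_sum (f := fun i => ∑ j : Fin 4, thetaA p s r m i j ^ 2)
      (fun i _ => Finset.sum_nonneg fun j _ => sq_nonneg _) (Finset.mem_univ i)
  have h4 : x i ^ 2 ≤ ((p : ℤ) * x i) ^ 2 := by
    rw [mul_pow]
    have : (1 : ℤ) ≤ (p : ℤ) ^ 2 := by nlinarith
    exact le_mul_of_one_le_left (sq_nonneg _) this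
  have h5 : 0 ≤ C * (p * thetaQB p s r m x) := by positivity
  calc x i ^ 2 ≤ ((p : ℤ) * x i) ^ 2 := h4
    _ ≤ 4 * (S * (C * (p * thetaQB p s r m x))) := by linarith
    _ ≤ 4 * (S + 1) * C * p * thetaQB p s r m x := by nlinarith

theorem thetaQB_eq_zero_iff (hp : 0 < p) (hs : 0 < s) (h : (4 * s - 1) * m = r ^ 2 + p)
    (x : Fin 4 → ℤ) : thetaQB p s r m x = 0 ↔ x = 0 := by
  constructor
  · intro h0
    obtain ⟨C, _, hC⟩ := thetaQB_lower hp hs h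
    funext i
    have := hC x i
    rw [h0, mul_zero] at this
    have h2 : x i ^ 2 = 0 := le_antisymm this (sq_nonneg _)
    simpa using h2
  · rintro rfl
    exact thetaQB_zero

/-! ### The theta functions -/

open Complex in
/-- `Θ_Q(z) = ∑_{x ∈ ℤ⁴} e(Q(x) z)`. -/
noncomputable def thetaFun (p : ℕ) (s r m : ℤ) (z : ℂ) : ℂ :=
  ∑' x : Fin 4 → ℤ, Complex.exp (2 * Real.pi * Complex.I * (thetaQ p s r m x) * z)

open Complex in
/-- `Θ*(z) = ∑_{y ∈ ℤ⁴} e(Q_B(y) z / p)`. -/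
noncomputable def thetaDual (p : ℕ) (s r m : ℤ) (z : ℂ) : ℂ :=
  ∑' y : Fin 4 → ℤ, Complex.exp (2 * Real.pi * Complex.I * (thetaQB p s r m y) * z / p)

/-! ### Existence of the parameters -/

/-- For a prime `p ≡ 1 mod 4` there is a prime `q₀ ≡ 3 mod 4` such that `-p` is a square
modulo `q₀` (Dirichlet + quadratic reciprocity). -/
theorem thetaForm_exists_aux (p : ℕ) [Fact p.Prime] (hp1 : p % 4 = 1) :
    ∃ q0 : ℕ, q0.Prime ∧ q0 % 4 = 3 ∧ ¬ IsSquare (-(q0 : ZMod p)) ∧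
      ∃ r : ℤ, (q0 : ℤ) ∣ r ^ 2 + p := by
  have hp : p.Prime := Fact.out
  have hp2 : p ≠ 2 := by
    rintro rfl
    omega
  -- a non-residue modulo `p`
  obtain ⟨u, hu⟩ := FiniteField.exists_nonsquare (F := ZMod p)
    (by rw [ZMod.ringChar_zmod_n]; exact hp2)
  have hu0 : u ≠ 0 := by
    rintro rfl
    exact hu ⟨0, by simp⟩
  have hcop : Nat.Coprime 4 p := by
    have h2 : Nat.Coprime 2 p := (Nat.coprime_primes Nat.prime_two hp).mpr (Ne.symm hp2)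
    have : Nat.Coprime (2 ^ 2) p := Nat.Coprime.pow_left 2 h2
    simpa using this
  let e := ZMod.chineseRemainder hcop
  have : NeZero (4 * p) := ⟨by have := hp.pos; omega⟩
  have hunit : IsUnit (e.symm ((3 : ZMod 4), u)) := by
    have h3 : IsUnit ((3 : ZMod 4), u) := by
      rw [Prod.isUnit_iff]
      refine ⟨?_, isUnit_iff_ne_zero.mpr hu0⟩
      show IsUnit (3 : ZMod 4)
      decide
    exact h3.map e.symm
  obtain ⟨q0, hq0gt, hq0p, hq0⟩ := Nat.forall_exists_prime_gt_and_eq_mod hunit 2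
  have he : e (q0 : ZMod (4 * p)) = ((3 : ZMod 4), u) := by
    rw [hq0, RingEquiv.apply_symm_apply]
  rw [map_natCast] at he
  have h4 : (q0 : ZMod 4) = 3 := by
    have := congrArg Prod.fst he
    simpa using this
  have hup : (q0 : ZMod p) = u := by
    have := congrArg Prod.snd he
    simpa using this
  have hq4 : q0 % 4 = 3 := by
    have h5 : (q0 : ZMod 4) = ((3 : ℕ) : ZMod 4) := by
      rw [h4]; rfl
    have := (ZMod.natCast_eq_natCast_iff' q0 3 4).mp h5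
    omega
  have : Fact q0.Prime := ⟨hq0p⟩
  have hq02 : q0 ≠ 2 := by omega
  -- quadratic reciprocity
  have hns : ¬ IsSquare (p : ZMod q0) := by
    rw [← ZMod.exists_sq_eq_prime_iff_of_mod_four_eq_one hp1 hq02, hup]
    exact hu
  have hneg : ¬ IsSquare (-1 : ZMod q0) := by
    rw [ZMod.exists_sq_eq_neg_one_iff]
    simp [hq4]
  have hpq0 : (p : ZMod q0) ≠ 0 := by
    intro h0
    exact hns ⟨0, by simp [h0]⟩
  have hsq : IsSquare (-(p : ZMod q0)) := by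
    have h1 : quadraticChar (ZMod q0) (-(p : ZMod q0)) = 1 := by
      have e1 : -(p : ZMod q0) = (-1) * (p : ZMod q0) := by ring
      rw [e1, map_mul, quadraticChar_neg_one_iff_not_isSquare.mpr hneg,
        quadraticChar_neg_one_iff_not_isSquare.mpr hns]
      norm_num
    exact (quadraticChar_one_iff_isSquare (neg_ne_zero.mpr hpq0)).mp h1
  obtain ⟨t, ht⟩ := hsq
  have haniso : ¬ IsSquare (-(q0 : ZMod p)) := by
    have hm1 : IsSquare (-1 : ZMod p) := by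
      rw [ZMod.exists_sq_eq_neg_one_iff]
      omega
    have hm1' : quadraticChar (ZMod p) (-1) = 1 :=
      (quadraticChar_one_iff_isSquare (by simp)).mpr hm1
    rw [← quadraticChar_neg_one_iff_not_isSquare]
    have e1 : -(q0 : ZMod p) = (-1) * (q0 : ZMod p) := by ring
    rw [e1, map_mul, hm1', one_mul, quadraticChar_neg_one_iff_not_isSquare, hup]
    exact hu
  refine ⟨q0, hq0p, hq4, haniso, (t.val : ℤ), ?_⟩
  rw [← ZMod.intCast_zmod_eq_zero_iff_dvd]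
  push_cast
  rw [ZMod.natCast_zmod_val]
  linear_combination -ht

theorem thetaForm_pos_of_mul_pos {a b : ℤ} (h : 0 < a * b) (ha : 0 < a) :
    0 < b := by
  by_contra hb
  push Not at hb
  have : a * b ≤ 0 := mul_nonpos_of_nonneg_of_nonpos ha.le hb
  linarith

/-- **Existence of the quaternary form of level `p`.** -/
theorem thetaForm_exists (p : ℕ) (hp : p.Prime) (hp2 : p ≠ 2) :
    ∃ s r m : ℤ, 0 < s ∧ 0 < m ∧ (4 * s - 1) * m = r ^ 2 + p ∧
      ((4 * s - 1 = p ∧ r = 0 ∧ m = 1 ∧ p % 4 = 3) ∨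
        ¬ IsSquare (((-(4 * s - 1) : ℤ) : ZMod p))) := by
  have : Fact p.Prime := ⟨hp⟩
  have hodd : p % 2 = 1 := hp.eq_two_or_odd.resolve_left hp2
  rcases (by omega : p % 4 = 3 ∨ p % 4 = 1) with h3 | h1
  · have : (p : ℤ) = 4 * ((p / 4 : ℕ) : ℤ) + 3 := by
      have := Nat.div_add_mod p 4
      omega
    refine ⟨((p / 4 : ℕ) : ℤ) + 1, 0, 1, by positivity, one_pos, by linarith, Or.inl ?_⟩
    exact ⟨by linarith, rfl, rfl, h3⟩
  · obtain ⟨q0, hq0p, hq4, haniso, r, m, hm⟩ := thetaForm_exists_aux p h1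
    have hq0pos : (0 : ℤ) < q0 := by exact_mod_cast hq0p.pos
    have hm0 : 0 < m := by
      have h1 : 0 < (q0 : ℤ) * m := by
        rw [← hm]
        have := sq_nonneg r
        have : (0 : ℤ) < p := by exact_mod_cast hp.pos
        linarith
      exact thetaForm_pos_of_mul_pos h1 hq0pos
    have hq : (q0 : ℤ) = 4 * ((q0 / 4 : ℕ) : ℤ) + 3 := by
      have := Nat.div_add_mod q0 4
      omega
    have hq' : 4 * (((q0 / 4 : ℕ) : ℤ) + 1) - 1 = (q0 : ℤ) := by linarith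
    refine ⟨((q0 / 4 : ℕ) : ℤ) + 1, r, m, by positivity, hm0, by rw [hq', hm], Or.inr ?_⟩
    rw [hq']
    push_cast
    exact haniso


end Fermat.Agent.S16
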