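import Fermat.Agent.S16.ThetaInv

/-!
# S16, piece TH2 (instance): theta inversion for the quaternary form of level `p`

`Q(x) = x₀² + x₀x₁ + s x₁² + r x₁x₃ + p s x₂² + p x₂x₃ + m x₃²` with `(4s - 1) m = r² + p`, and
its dual form `Q_B` (`p Q_B(x) = Q(B x)`, `B = p A⁻¹`).  Main result: `thetaInv_quaternary`.
-/

set_option autoImplicit false

open Complex Real

namespace Fermat.Agent.S16

/-- The diagonal coefficients of the triangular form of the quaternary form. -/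
noncomputable def tqD (p s : ℝ) : Fin 4 → ℝ := ![1, (4 * s - 1) / 4, p * s, p / (4 * s * (4 * s - 1))]

/-- The off-diagonal coefficients of the triangular form of the quaternary form. -/
noncomputable def tqC (s r : ℝ) : Fin 4 → Fin 4 → ℝ :=
  ![![0, 1 / 2, 0, 0], ![0, 0, 0, 2 * r / (4 * s - 1)], ![0, 0, 0, 1 / (2 * s)], ![0, 0, 0, 0]]

theorem tq_eval (p s r m : ℝ) (hs : 0 < s) (hq : 0 < 4 * s - 1) (hm : (4 * s - 1) * m = r ^ 2 + p)
    (x : Fin 4 → ℝ) :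
    tiEval 4 (tqD p s) (tqC s r) x =
      x 0 ^ 2 + x 0 * x 1 + s * x 1 ^ 2 + r * x 1 * x 3 + p * s * x 2 ^ 2 + p * x 2 * x 3 +
        m * x 3 ^ 2 := by
  have hm' : m = (r ^ 2 + p) / (4 * s - 1) := by
    field_simp
    linarith
  simp [tiEval, tqD, tqC, Fin.sum_univ_succ]
  rw [hm']
  field_simp
  ring

theorem tq_dual (p s r m : ℝ) (hp : 0 < p) (hs : 0 < s) (hq : 0 < 4 * s - 1)
    (hm : (4 * s - 1) * m = r ^ 2 + p) (a : Fin 4 → ℝ) :
    p * tiDual 4 (tqD p s) (tqC s r) a =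
      4 * (s * m * a 0 ^ 2 - (4 * s * m - p) * a 0 * a 1 + (4 * s * m - p) * a 1 ^ 2 -
        r * a 0 * a 2 + 2 * s * r * a 0 * a 3 + 2 * r * a 1 * a 2 - 4 * s * r * a 1 * a 3 +
        a 2 ^ 2 - (4 * s - 1) * a 2 * a 3 + s * (4 * s - 1) * a 3 ^ 2) := by
  have hm' : m = (r ^ 2 + p) / (4 * s - 1) := by
    field_simp
    linarith
  simp [tiDual, tqD, tqC]
  rw [hm']
  field_simp
  ring

theorem tq_pos (p s : ℝ) (hp : 0 < p) (hs : 0 < s) (hq : 0 < 4 * s - 1) : ∀ i, 0 < tqD p s i := by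
  intro i
  fin_cases i
  · show (0 : ℝ) < 1
    exact one_pos
  · show 0 < (4 * s - 1) / 4
    exact div_pos hq (by norm_num)
  · show 0 < p * s
    exact mul_pos hp hs
  · show 0 < p / (4 * s * (4 * s - 1))
    exact div_pos hp (mul_pos (by positivity) hq)

/-- `(a * z) ^ (1/2) = √a * z ^ (1/2)` for real `a > 0`. -/
theorem tq_cpow_half (a : ℝ) (ha : 0 < a) (z : ℂ) (hz : z ≠ 0) :
    ((a : ℂ) * z) ^ (1 / 2 : ℂ) = (Real.sqrt a : ℂ) * z ^ (1 / 2 : ℂ) := by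
  have ha0 : (a : ℂ) ≠ 0 := by exact_mod_cast ha.ne'
  rw [Complex.cpow_def_of_ne_zero (mul_ne_zero ha0 hz), Complex.log_ofReal_mul ha hz, add_mul,
    Complex.exp_add, ← Complex.cpow_def_of_ne_zero hz]
  congr 1
  rw [Real.sqrt_eq_rpow, Complex.ofReal_cpow ha.le, Complex.cpow_def_of_ne_zero ha0,
    Complex.ofReal_log ha.le]
  push_cast
  rfl

/-- The prefactor for the quaternary form. -/
theorem tq_factor (p s : ℝ) (hp : 0 < p) (hs : 0 < s) (hq : 0 < 4 * s - 1) (τ : ℂ)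
    (hτ : 0 < τ.im) : tiFactor 4 (tqD p s) τ = -(1 / (p * τ ^ 2)) := by
  have hτ0 : τ ≠ 0 := by
    rintro rfl
    simp at hτ
  have hz : -I * τ ≠ 0 := mul_ne_zero (neg_ne_zero.mpr I_ne_zero) hτ0
  have hk : ∀ a : ℝ, 0 < a → (-I * (2 * (a : ℂ) * τ)) ^ (1 / 2 : ℂ) =
      (Real.sqrt (2 * a) : ℂ) * (-I * τ) ^ (1 / 2 : ℂ) := by
    intro a ha
    rw [← tq_cpow_half (2 * a) (by positivity) _ hz]
    congr 1
    push_cast
    ring
  have hsq : ((-I * τ) ^ (1 / 2 : ℂ)) ^ 2 = -I * τ := by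
    have h := Complex.cpow_nat_inv_pow (-I * τ) (two_ne_zero)
    have e : (1 / 2 : ℂ) = ((2 : ℕ) : ℂ)⁻¹ := by norm_num
    rw [e]
    exact h
  have hpos := tq_pos p s hp hs hq
  simp only [tiFactor, Fin.prod_univ_succ, Fin.prod_univ_zero, mul_one]
  rw [hk _ (hpos 0), hk _ (hpos (Fin.succ 0)), hk _ (hpos (Fin.succ (Fin.succ 0))),
    hk _ (hpos (Fin.succ (Fin.succ (Fin.succ 0))))]
  have hprod : (Real.sqrt (2 * tqD p s 0) : ℂ) * Real.sqrt (2 * tqD p s (Fin.succ 0)) *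
      Real.sqrt (2 * tqD p s (Fin.succ (Fin.succ 0))) *
      Real.sqrt (2 * tqD p s (Fin.succ (Fin.succ (Fin.succ 0)))) = (p : ℂ) := by
    rw [← Complex.ofReal_mul, ← Complex.ofReal_mul, ← Complex.ofReal_mul]
    congr 1
    rw [← Real.sqrt_mul (by have := hpos 0; positivity), ← Real.sqrt_mul (by
      have := hpos 0; have := hpos (Fin.succ 0); positivity), ← Real.sqrt_mul (by
      have := hpos 0; have := hpos (Fin.succ 0); have := hpos (Fin.succ (Fin.succ 0)); positivity)]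
    have e : 2 * tqD p s 0 * (2 * tqD p s (Fin.succ 0)) * (2 * tqD p s (Fin.succ (Fin.succ 0))) *
        (2 * tqD p s (Fin.succ (Fin.succ (Fin.succ 0)))) = p ^ 2 := by
      simp [tqD]
      field_simp
      norm_num
    rw [e, Real.sqrt_sq hp.le]
  have hp0 : (p : ℂ) ≠ 0 := by exact_mod_cast hp.ne'
  have hk0 : (-I * τ) ^ (1 / 2 : ℂ) ≠ 0 := by
    intro h0
    rw [h0] at hsq
    exact hz (by rw [← hsq]; ring)
  have h4 : ((-I * τ) ^ (1 / 2 : ℂ)) ^ 4 = -τ ^ 2 := by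
    have : ((-I * τ) ^ (1 / 2 : ℂ)) ^ 4 = (((-I * τ) ^ (1 / 2 : ℂ)) ^ 2) ^ 2 := by ring
    rw [this, hsq]
    ring_nf
    rw [Complex.I_sq]
    ring
  have hsq0 : ∀ i, (Real.sqrt (2 * tqD p s i) : ℂ) ≠ 0 := by
    intro i
    have := hpos i
    have h2 : 0 < Real.sqrt (2 * tqD p s i) := Real.sqrt_pos.mpr (by positivity)
    exact_mod_cast h2.ne'
  have key : (Real.sqrt (2 * tqD p s 0) : ℂ) * (-I * τ) ^ (1 / 2 : ℂ) *
      ((Real.sqrt (2 * tqD p s (Fin.succ 0)) : ℂ) * (-I * τ) ^ (1 / 2 : ℂ) *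
      ((Real.sqrt (2 * tqD p s (Fin.succ (Fin.succ 0))) : ℂ) * (-I * τ) ^ (1 / 2 : ℂ) *
      ((Real.sqrt (2 * tqD p s (Fin.succ (Fin.succ (Fin.succ 0)))) : ℂ) *
        (-I * τ) ^ (1 / 2 : ℂ)))) = -((p : ℂ) * τ ^ 2) := by
    have : (Real.sqrt (2 * tqD p s 0) : ℂ) * (-I * τ) ^ (1 / 2 : ℂ) *
      ((Real.sqrt (2 * tqD p s (Fin.succ 0)) : ℂ) * (-I * τ) ^ (1 / 2 : ℂ) *
      ((Real.sqrt (2 * tqD p s (Fin.succ (Fin.succ 0))) : ℂ) * (-I * τ) ^ (1 / 2 : ℂ) *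
      ((Real.sqrt (2 * tqD p s (Fin.succ (Fin.succ (Fin.succ 0)))) : ℂ) *
        (-I * τ) ^ (1 / 2 : ℂ)))) =
      ((Real.sqrt (2 * tqD p s 0) : ℂ) * Real.sqrt (2 * tqD p s (Fin.succ 0)) *
      Real.sqrt (2 * tqD p s (Fin.succ (Fin.succ 0))) *
      Real.sqrt (2 * tqD p s (Fin.succ (Fin.succ (Fin.succ 0))))) *
        ((-I * τ) ^ (1 / 2 : ℂ)) ^ 4 := by ring
    rw [this, hprod, h4]
    ring
  have hne : (p : ℂ) * τ ^ 2 ≠ 0 := mul_ne_zero hp0 (pow_ne_zero 2 hτ0)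
  have e2 : ∀ w x y z : ℂ, 1 / w * (1 / x * (1 / y * (1 / z))) = 1 / (w * (x * (y * z))) := by
    intro w x y z
    rw [one_div, one_div, one_div, one_div, one_div, mul_inv, mul_inv, mul_inv]
  rw [e2, key]
  field_simp

/-- positivity of the imaginary part of `-1 / (a z)` -/
theorem tq_im_pos (a : ℝ) (ha : 0 < a) (z : ℂ) (hz : 0 < z.im) : 0 < (-1 / ((a : ℂ) * z)).im := by
  have h := ti_im_pos ((a / 4 : ℝ) * z) (by
    rw [im_ofReal_mul]
    positivity)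
  have e : (-1 / (4 * (((a / 4 : ℝ) : ℂ) * z))) = -1 / ((a : ℂ) * z) := by
    push_cast
    congr 1
    ring
  rwa [e] at h

/-- **TH2 for the quaternary form**: summability and the two inversion formulas. -/
theorem thetaInv_quaternary (p : ℕ) (hp : 0 < p) (s r m : ℤ) (hs : 0 < s)
    (hm : (4 * s - 1) * m = r ^ 2 + p) (Q QB : (Fin 4 → ℤ) → ℤ)
    (hQ : ∀ x, Q x = x 0 ^ 2 + x 0 * x 1 + s * x 1 ^ 2 + r * x 1 * x 3 + p * s * x 2 ^ 2 +
      p * x 2 * x 3 + m * x 3 ^ 2)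
    (hQB : ∀ a, QB a = s * m * a 0 ^ 2 - (4 * s * m - p) * a 0 * a 1 + (4 * s * m - p) * a 1 ^ 2 -
      r * a 0 * a 2 + 2 * s * r * a 0 * a 3 + 2 * r * a 1 * a 2 - 4 * s * r * a 1 * a 3 +
      a 2 ^ 2 - (4 * s - 1) * a 2 * a 3 + s * (4 * s - 1) * a 3 ^ 2) :
    (∀ z : ℂ, 0 < z.im → Summable (fun x : Fin 4 → ℤ => cexp (2 * π * I * (Q x) * z))) ∧
    (∀ z : ℂ, 0 < z.im → Summable (fun x : Fin 4 → ℤ => cexp (2 * π * I * (QB x) * z))) ∧
    (∀ z : ℂ, 0 < z.im → ∑' x : Fin 4 → ℤ, cexp (2 * π * I * (Q x) * (-1 / z)) =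
      -(z ^ 2 / p) * ∑' y : Fin 4 → ℤ, cexp (2 * π * I * (QB y) * z / p)) ∧
    (∀ (a : Fin 4 → ℤ) (τ : ℂ), 0 < τ.im →
      ∑' w : Fin 4 → ℤ, cexp (2 * π * I * τ * (QB (p • w + a)) / p ^ 2) =
        -(1 / (p * τ ^ 2)) * ∑' u : Fin 4 → ℤ,
          cexp (2 * π * I * (-(Q u) / (p * τ))) * cexp (2 * π * I * (u ⬝ᵥ a) / p)) := by
  have hP : (0 : ℝ) < (p : ℝ) := by exact_mod_cast hp
  have hS : (0 : ℝ) < (s : ℝ) := by exact_mod_cast hs
  have hq : (0 : ℝ) < 4 * (s : ℝ) - 1 := by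
    have : (1 : ℝ) ≤ (s : ℝ) := by exact_mod_cast hs
    linarith
  have hmR : (4 * (s : ℝ) - 1) * (m : ℝ) = (r : ℝ) ^ 2 + (p : ℝ) := by exact_mod_cast hm
  have hd := tq_pos (p : ℝ) (s : ℝ) hP hS hq
  have hPc : (p : ℂ) ≠ 0 := by exact_mod_cast hp.ne'
  -- the forms in triangular shape
  have hQr : ∀ x : Fin 4 → ℤ, tiEval 4 (tqD p s) (tqC s r) (fun i => (x i : ℝ)) = ((Q x : ℤ) : ℝ) := by
    intro x
    rw [tq_eval (p : ℝ) (s : ℝ) (r : ℝ) (m : ℝ) hS hq hmR, hQ]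
    push_cast
    ring
  have hQBr : ∀ y : Fin 4 → ℤ, (p : ℝ) * tiDual 4 (tqD p s) (tqC s r) (fun i => (y i : ℝ)) =
      4 * ((QB y : ℤ) : ℝ) := by
    intro y
    rw [tq_dual (p : ℝ) (s : ℝ) (r : ℝ) (m : ℝ) hP hS hq hmR, hQB]
    push_cast
    ring
  have hQBr' : ∀ y a : Fin 4 → ℤ, (p : ℝ) ^ 3 * tiDual 4 (tqD p s) (tqC s r)
      (fun i => (y i : ℝ) - (a i : ℝ) / p) = 4 * ((QB (p • y - a) : ℤ) : ℝ) := by
    intro y a
    have h := tq_dual (p : ℝ) (s : ℝ) (r : ℝ) (m : ℝ) hP hS hq hmR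
      (fun i => (y i : ℝ) - (a i : ℝ) / p)
    have h2 : (p : ℝ) ^ 3 * tiDual 4 (tqD p s) (tqC s r) (fun i => (y i : ℝ) - (a i : ℝ) / p) =
        (p : ℝ) ^ 2 * ((p : ℝ) * tiDual 4 (tqD p s) (tqC s r)
          (fun i => (y i : ℝ) - (a i : ℝ) / p)) := by ring
    rw [h2, h, hQB]
    simp only [Pi.sub_apply, Pi.mul_apply, Pi.natCast_apply, nsmul_eq_mul]
    push_cast
    field_simp
  have hQBeven : ∀ x : Fin 4 → ℤ, QB (-x) = QB x := by
    intro x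
    rw [hQB, hQB]
    simp only [Pi.neg_apply]
    ring
  -- summability
  have hs1 : ∀ z : ℂ, 0 < z.im → Summable (fun x : Fin 4 → ℤ => cexp (2 * π * I * (Q x) * z)) := by
    intro z hz
    refine (ti_summable_L 4 (tqD p s) hd (tqC s r) z hz 0 0).congr (fun x => ?_)
    simp only [tiL, Pi.zero_apply, add_zero, zero_mul, Finset.sum_const_zero, ofReal_zero]
    rw [hQr x]
    congr 1
    push_cast
    ring
  have hs2 : ∀ z : ℂ, 0 < z.im → Summable (fun x : Fin 4 → ℤ => cexp (2 * π * I * (QB x) * z)) := by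
    intro z hz
    have hz0 : z ≠ 0 := by
      rintro rfl
      simp at hz
    have hτ₁ := tq_im_pos (p : ℝ) hP z hz
    refine (ti_summable_R 4 (tqD p s) hd (tqC s r) _ hτ₁ 0 0).congr (fun x => ?_)
    simp only [tiR, Pi.zero_apply, sub_zero, mul_zero, Finset.sum_const_zero, ofReal_zero,
      add_zero]
    have h1c : (p : ℂ) * ((tiDual 4 (tqD p s) (tqC s r) (fun i => (x i : ℝ)) : ℝ) : ℂ) =
        4 * (QB x : ℂ) := by exact_mod_cast hQBr x
    congr 1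
    have e : -((tiDual 4 (tqD p s) (tqC s r) (fun i => (x i : ℝ)) : ℝ) : ℂ) /
        (4 * (-1 / (((p : ℝ) : ℂ) * z))) =
        (p : ℂ) * ((tiDual 4 (tqD p s) (tqC s r) (fun i => (x i : ℝ)) : ℝ) : ℂ) * z / 4 := by
      push_cast
      field_simp
    rw [e, h1c]
    ring
  refine ⟨hs1, hs2, ?_, ?_⟩
  · -- (a)
    intro z hz
    have hz0 : z ≠ 0 := by
      rintro rfl
      simp at hz
    have hτ : 0 < (-1 / z).im := by
      have h := tq_im_pos 1 one_pos z hz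
      simpa using h
    have key := ti_inversion 4 (tqD p s) hd (tqC s r) (-1 / z) hτ 0 0
    rw [tq_factor (p : ℝ) (s : ℝ) hP hS hq _ hτ] at key
    have eL : ∀ x : Fin 4 → ℤ, cexp (2 * π * I * (-1 / z *
        ((tiEval 4 (tqD p s) (tqC s r) (fun i => (x i : ℝ) + (0 : Fin 4 → ℝ) i) : ℝ) : ℂ) +
        ((∑ i, (0 : Fin 4 → ℝ) i * (x i : ℝ) : ℝ) : ℂ))) =
        cexp (2 * π * I * (Q x) * (-1 / z)) := by
      intro x
      simp only [Pi.zero_apply, add_zero, zero_mul, Finset.sum_const_zero, ofReal_zero]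
      rw [hQr x]
      congr 1
      push_cast
      ring
    have eR : ∀ y : Fin 4 → ℤ, cexp (2 * π * I *
        (-((tiDual 4 (tqD p s) (tqC s r) (fun i => (y i : ℝ) - (0 : Fin 4 → ℝ) i) : ℝ) : ℂ) /
          (4 * (-1 / z)) + ((∑ i, ((y i : ℝ) - (0 : Fin 4 → ℝ) i) * (0 : Fin 4 → ℝ) i : ℝ) : ℂ))) =
        cexp (2 * π * I * (QB y) * z / p) := by
      intro y
      simp only [Pi.zero_apply, sub_zero, mul_zero, Finset.sum_const_zero, ofReal_zero, add_zero]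
      have h1c : (p : ℂ) * ((tiDual 4 (tqD p s) (tqC s r) (fun i => (y i : ℝ)) : ℝ) : ℂ) =
          4 * (QB y : ℂ) := by exact_mod_cast hQBr y
      congr 1
      have e : -((tiDual 4 (tqD p s) (tqC s r) (fun i => (y i : ℝ)) : ℝ) : ℂ) / (4 * (-1 / z)) =
          (p : ℂ) * ((tiDual 4 (tqD p s) (tqC s r) (fun i => (y i : ℝ)) : ℝ) : ℂ) * z / (4 * p) := by
        field_simp
      rw [e, h1c]
      field_simp
    rw [tsum_congr eL, tsum_congr eR] at key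
    rw [key]
    congr 1
    push_cast
    field_simp
  · -- (b)
    intro a τ hτ
    have hτ0 : τ ≠ 0 := by
      rintro rfl
      simp at hτ
    have hτ₁ := tq_im_pos (p : ℝ) hP τ hτ
    have key := ti_inversion 4 (tqD p s) hd (tqC s r) _ hτ₁ 0 (fun i => (a i : ℝ) / p)
    rw [tq_factor (p : ℝ) (s : ℝ) hP hS hq _ hτ₁] at key
    have eL : ∀ x : Fin 4 → ℤ, cexp (2 * π * I * (-1 / (((p : ℝ) : ℂ) * τ) *
        ((tiEval 4 (tqD p s) (tqC s r) (fun i => (x i : ℝ) + (0 : Fin 4 → ℝ) i) : ℝ) : ℂ) +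
        ((∑ i, (a i : ℝ) / p * (x i : ℝ) : ℝ) : ℂ))) =
        cexp (2 * π * I * (-(Q x) / (p * τ))) * cexp (2 * π * I * (x ⬝ᵥ a) / p) := by
      intro x
      simp only [Pi.zero_apply, add_zero]
      rw [hQr x, ← Complex.exp_add]
      congr 1
      have hdot : ((∑ i, (a i : ℝ) / p * (x i : ℝ) : ℝ) : ℂ) = ((x ⬝ᵥ a : ℤ) : ℂ) / p := by
        simp only [dotProduct]
        push_cast
        rw [Finset.sum_div]
        refine Finset.sum_congr rfl (fun i _ => ?_)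
        field_simp
      rw [hdot]
      push_cast
      field_simp
    have eR : ∀ y : Fin 4 → ℤ, cexp (2 * π * I *
        (-((tiDual 4 (tqD p s) (tqC s r) (fun i => (y i : ℝ) - (a i : ℝ) / p) : ℝ) : ℂ) /
          (4 * (-1 / (((p : ℝ) : ℂ) * τ))) +
          ((∑ i, ((y i : ℝ) - (a i : ℝ) / p) * (0 : Fin 4 → ℝ) i : ℝ) : ℂ))) =
        cexp (2 * π * I * τ * (QB (p • y - a)) / p ^ 2) := by
      intro y
      simp only [Pi.zero_apply, mul_zero, Finset.sum_const_zero, ofReal_zero, add_zero]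
      have h1c : (p : ℂ) ^ 3 * ((tiDual 4 (tqD p s) (tqC s r)
          (fun i => (y i : ℝ) - (a i : ℝ) / p) : ℝ) : ℂ) = 4 * (QB (p • y - a) : ℂ) := by
        exact_mod_cast hQBr' y a
      congr 1
      generalize tiDual 4 (tqD p s) (tqC s r) (fun i => (y i : ℝ) - (a i : ℝ) / p) = D at h1c ⊢
      have e : -((D : ℝ) : ℂ) / (4 * (-1 / (((p : ℝ) : ℂ) * τ))) =
          (p : ℂ) ^ 3 * ((D : ℝ) : ℂ) * τ / (4 * p ^ 2) := by
        push_cast
        field_simp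
      rw [e, h1c]
      field_simp
    rw [tsum_congr eL, tsum_congr eR] at key
    -- reindex the left-hand side by `w ↦ -w`
    have hneg : ∑' w : Fin 4 → ℤ, cexp (2 * π * I * τ * (QB (p • w + a)) / p ^ 2) =
        ∑' y : Fin 4 → ℤ, cexp (2 * π * I * τ * (QB (p • y - a)) / p ^ 2) := by
      rw [← (Equiv.neg (Fin 4 → ℤ)).tsum_eq]
      refine tsum_congr (fun y => ?_)
      have e : (p • (Equiv.neg (Fin 4 → ℤ)) y + a) = -(p • y - a) := by
        rw [Equiv.neg_apply, smul_neg]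
        abel
      rw [e, hQBeven]
    rw [hneg, key]
    have hne : ((p : ℝ) : ℂ) * τ ≠ 0 := mul_ne_zero (by exact_mod_cast hP.ne') hτ0
    rw [← mul_assoc]
    have hfac : -(1 / ((p : ℂ) * τ ^ 2)) * -(1 / (((p : ℝ) : ℂ) * (-1 / (((p : ℝ) : ℂ) * τ)) ^ 2)) = 1 := by
      push_cast
      field_simp
    rw [hfac, one_mul]

end Fermat.Agent.S16
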