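import Fermat.Agent.S16.ThetaPack
import Fermat.Agent.S16.CuspTwo
import Fermat.Agent.S16.ThetaInvQ
import Fermat.Agent.S16.ThetaDefs

/-!
# S16, piece TH4 (adapter): the quaternary theta series is a modular form of weight 2 on `Γ₀(p)`

Input: the `Γ₀(p)`-invariance of `Θ_Q` (piece TH3).  Output: a Mathlib modular form with
`q`-expansion `1 + 2 t`, `t ∈ q ℤ[[q]]`.
-/

set_option autoImplicit false
set_option linter.unusedSectionVars false
set_option linter.style.haveILetI false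
set_option linter.unusedTactic false

namespace Fermat.Agent.S16

open UpperHalfPlane Complex Filter Topology ModularForm CongruenceSubgroup
open scoped Real Manifold MatrixGroups

section adapter

variable (p : ℕ) [Fact p.Prime] (s r m : ℤ)

/-- The value function of the theta series, as a natural number. -/
noncomputable def thfN (x : Fin 4 → ℤ) : ℕ := (thetaQ p s r m x).toNat

/-- The value function of the dual theta series, as a natural number. -/
noncomputable def thfN' (x : Fin 4 → ℤ) : ℕ := (thetaQB p s r m x).toNat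

variable {p s r m}

theorem thetaQB_nonneg' (hs : 0 < s) (hm : (4 * s - 1) * m = r ^ 2 + p) (x : Fin 4 → ℤ) :
    0 ≤ thetaQB p s r m x := by
  have hp : (0 : ℤ) < p := by exact_mod_cast (Fact.out : p.Prime).pos
  have h1 := thetaQ_nonneg hs hm (Matrix.mulVec (thetaB p s r m) x)
  rw [thetaQ_mulVec_thetaB hm] at h1
  exact nonneg_of_mul_nonneg_right h1 hp

theorem thf_hasSum (hs : 0 < s) (hm : (4 * s - 1) * m = r ^ 2 + p) (z : ℍ) :
    HasSum (fun x : Fin 4 → ℤ => thpTerm 1 (thfN p s r m x) z) (thetaFun p s r m z) := by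
  have hp : 0 < p := (Fact.out : p.Prime).pos
  obtain ⟨s1, -, -, -⟩ := thetaInv_quaternary p hp s r m hs hm (thetaQ p s r m) (thetaQB p s r m)
    (fun x => rfl) (fun a => rfl)
  have h : HasSum (fun x : Fin 4 → ℤ => cexp (2 * π * Complex.I * (thetaQ p s r m x) * (z : ℂ)))
      (thetaFun p s r m z) := (s1 z z.im_pos).hasSum
  have h' : (fun x : Fin 4 → ℤ => thpTerm 1 (thfN p s r m x) z) =
      fun x : Fin 4 → ℤ => cexp (2 * π * Complex.I * (thetaQ p s r m x) * (z : ℂ)) := by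
    funext x
    unfold thpTerm thfN
    have h0 := thetaQ_nonneg hs hm x
    have : (((thetaQ p s r m x).toNat : ℕ) : ℂ) = ((thetaQ p s r m x : ℤ) : ℂ) := by
      have := Int.toNat_of_nonneg h0
      exact_mod_cast congrArg (Int.cast : ℤ → ℂ) this
    rw [this]
    simp
  rw [h']
  exact h

theorem thf_hasSum_dual (hs : 0 < s) (hm : (4 * s - 1) * m = r ^ 2 + p) (z : ℍ) :
    HasSum (fun x : Fin 4 → ℤ => thpTerm p (thfN' p s r m x) z) (thetaDual p s r m z) := by
  have hp : 0 < p := (Fact.out : p.Prime).pos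
  have hpC : (p : ℂ) ≠ 0 := by exact_mod_cast hp.ne'
  obtain ⟨-, s2, -, -⟩ := thetaInv_quaternary p hp s r m hs hm (thetaQ p s r m) (thetaQB p s r m)
    (fun x => rfl) (fun a => rfl)
  have him : 0 < ((z : ℂ) / p).im := by
    rw [Complex.div_natCast_im]
    exact div_pos z.im_pos (by exact_mod_cast hp)
  have h := (s2 ((z : ℂ) / p) him).hasSum
  have hsum : (∑' x : Fin 4 → ℤ,
      cexp (2 * π * Complex.I * (thetaQB p s r m x) * ((z : ℂ) / p))) =
      thetaDual p s r m z := by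
    unfold thetaDual
    refine tsum_congr fun x => ?_
    congr 1
    ring
  rw [hsum] at h
  have h' : (fun x : Fin 4 → ℤ => thpTerm p (thfN' p s r m x) z) =
      fun x : Fin 4 → ℤ => cexp (2 * π * Complex.I * (thetaQB p s r m x) * ((z : ℂ) / p)) := by
    funext x
    unfold thpTerm thfN'
    have h0 := thetaQB_nonneg' hs hm x
    have : (((thetaQB p s r m x).toNat : ℕ) : ℂ) = ((thetaQB p s r m x : ℤ) : ℂ) := by
      have := Int.toNat_of_nonneg h0
      exact_mod_cast congrArg (Int.cast : ℤ → ℂ) this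
    rw [this]
    congr 1
    ring
  rw [h']
  exact h

/-- `Θ ∣ S = -(1/p) Θ*`. -/
theorem thf_slash_S (hs : 0 < s) (hm : (4 * s - 1) * m = r ^ 2 + p) :
    (fun z : ℍ => thetaFun p s r m z) ∣[(2 : ℤ)] ModularGroup.S =
      fun z : ℍ => -(1 / (p : ℂ)) * thetaDual p s r m z := by
  have hp : 0 < p := (Fact.out : p.Prime).pos
  have hpC : (p : ℂ) ≠ 0 := by exact_mod_cast hp.ne'
  obtain ⟨-, -, sa, -⟩ := thetaInv_quaternary p hp s r m hs hm (thetaQ p s r m) (thetaQB p s r m)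
    (fun x => rfl) (fun a => rfl)
  funext z
  have hz : (z : ℂ) ≠ 0 := ne_zero z
  rw [ModularForm.SL_slash_apply, ModularGroup.denom_apply, modular_S_smul]
  have hS10 : (ModularGroup.S : SL(2, ℤ)).1 1 0 = 1 := by
    rw [ModularGroup.coe_S]; rfl
  have hS11 : (ModularGroup.S : SL(2, ℤ)).1 1 1 = 0 := by
    rw [ModularGroup.coe_S]; rfl
  have hden : (((ModularGroup.S : SL(2, ℤ)) 1 0 : ℤ) : ℂ) * (z : ℂ) +
      (((ModularGroup.S : SL(2, ℤ)) 1 1 : ℤ) : ℂ) = z := by
    have h10 : (ModularGroup.S : SL(2, ℤ)) 1 0 = 1 := hS10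
    have h11 : (ModularGroup.S : SL(2, ℤ)) 1 1 = 0 := hS11
    rw [h10, h11]
    simp
  rw [hden]
  have hval : thetaFun p s r m (((⟨(-(z : ℂ))⁻¹, by
      simpa using UpperHalfPlane.im_inv_neg_coe_pos z⟩ : ℍ) : ℂ)) =
      -((z : ℂ) ^ 2 / p) * thetaDual p s r m z := by
    have h1 := sa z z.im_pos
    have e : (-(z : ℂ))⁻¹ = -1 / z := by
      field_simp
    show thetaFun p s r m ((-(z : ℂ))⁻¹) = _
    rw [e]
    exact h1
  rw [hval]
  have : ((z : ℂ) ^ (-(2 : ℤ))) = ((z : ℂ) ^ 2)⁻¹ := by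
    rw [zpow_neg]
    norm_cast
  rw [this]
  field_simp

/-- **TH4**: from the `Γ₀(p)`-invariance of `Θ_Q` to a modular form with `q`-expansion `1 + 2 t`. -/
theorem theta_form_of (hs : 0 < s) (hm : (4 * s - 1) * m = r ^ 2 + p)
    (hΓ : ∀ γ : SL(2, ℤ), γ ∈ Gamma0 p →
      (fun z : ℍ => thetaFun p s r m z) ∣[(2 : ℤ)] γ = fun z : ℍ => thetaFun p s r m z) :
    ∃ F : ModularForm (Gamma0 p) 2, (⇑F = fun z : ℍ => thetaFun p s r m z) ∧
      (qExpansion 1 F).coeff 0 = 1 ∧
      ∀ n, 1 ≤ n → ∃ k : ℤ, (qExpansion 1 F).coeff n = 2 * (k : ℂ) := by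
  haveI : NeZero p := ⟨(Fact.out : p.Prime).ne_zero⟩
  have hp : 0 < p := (Fact.out : p.Prime).pos
  set Θ : ℍ → ℂ := fun z : ℍ => thetaFun p s r m z with hΘdef
  have hΘ : ∀ z : ℍ, HasSum (fun x : Fin 4 → ℤ => thpTerm 1 (thfN p s r m x) z) (Θ z) :=
    fun z => thf_hasSum hs hm z
  have hΘs : ∀ z : ℍ, HasSum (fun x : Fin 4 → ℤ => thpTerm p (thfN' p s r m x) z)
      ((fun z : ℍ => thetaDual p s r m z) z) := fun z => thf_hasSum_dual hs hm z
  -- boundedness of all translates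
  have hSbdd : IsBoundedAtImInfty (Θ ∣[(2 : ℤ)] ModularGroup.S) := by
    rw [hΘdef, thf_slash_S hs hm]
    have h1 := thp_bdd p (thfN' p s r m) (fun z : ℍ => thetaDual p s r m z) hΘs
    have h2 := thp_bdd_translate (g := thetaDual p s r m) h1 (-(1 / (p : ℂ))) 0
    simpa using h2
  have hbdd : ∀ γ : SL(2, ℤ), IsBoundedAtImInfty (Θ ∣[(2 : ℤ)] γ) := by
    intro γ
    by_cases hγ : γ ∈ Gamma0 p
    · rw [hΓ γ hγ]
      exact thp_bdd 1 (thfN p s r m) Θ hΘ
    · obtain ⟨δ, j, hδ, rfl⟩ := ct_exists_decomp p γ hγ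
      rw [mul_assoc, SlashAction.slash_mul, hΓ δ hδ, SlashAction.slash_mul]
      rw [ModularForm.SL_slash (Θ ∣[(2 : ℤ)] ModularGroup.S) (ModularGroup.T ^ j)]
      refine IsBoundedAtImInfty.slash 2 ?_ hSbdd
      have h : ((ModularGroup.T ^ j : SL(2, ℤ)) 1 0 : ℤ) = 0 := by
        show (ModularGroup.T ^ j : SL(2, ℤ)).1 1 0 = 0
        rw [ModularGroup.coe_T_zpow]; rfl
      show ((Int.castRingHom ℝ) ((ModularGroup.T ^ j : SL(2, ℤ)) 1 0) : ℝ) = 0
      rw [h]; simp
  -- the fibre cardinalities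
  have hN0 : ∀ x, thfN p s r m x = 0 ↔ x = 0 := by
    intro x
    unfold thfN
    rw [Int.toNat_eq_zero]
    constructor
    · intro h
      exact (thetaQ_eq_zero_iff hp hs hm x).mp (le_antisymm h (thetaQ_nonneg hs hm x))
    · rintro rfl
      rw [thetaQ_zero]
  have h0 : Nat.card {x : Fin 4 → ℤ // thfN p s r m x = 0} = 1 := thp_card_zero _ hN0
  have hev : ∀ n, 1 ≤ n → Even (Nat.card {x : Fin 4 → ℤ // thfN p s r m x = n}) := by
    intro n hn
    haveI := thp_fiber_finite 1 (thfN p s r m) UpperHalfPlane.I (hΘ UpperHalfPlane.I).summable n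
    refine thp_even_fiber (thfN p s r m) (fun x => ?_) (fun x hx => ?_) n hn
    · unfold thfN
      rw [thetaQ_neg]
    · have hx0 : x = 0 := by
        funext i
        have := congrFun hx i
        simp only [Pi.neg_apply, Pi.zero_apply] at this ⊢
        omega
      exact (hN0 x).mpr hx0
  obtain ⟨F, hF, hF0, hFn⟩ := thp_pack p (thfN p s r m) Θ hΘ hΓ hbdd h0 hev
  exact ⟨F, hF, hF0, hFn⟩

end adapter

end Fermat.Agent.S16
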