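import Mathlib

/-!
# S16, piece TH3: the `Γ₀(p)` transformation law of a quaternary theta series

Abstract version: `Q`, `QB` are integral quadratic forms on `ℤ⁴` with Gram matrices `A`, `B`
such that `A * B = B * A = p`.  From the two theta inversion formulas (hypotheses `inv_a`,
`inv_b`) and the value `-p³` of the quadratic Gauss sum of `QB` on `(ℤ/p)⁴` we derive the
transformation behaviour of `Θ(z) = ∑ e(Q(x) z)` under all of `SL(2, ℤ)`.
-/

namespace Fermat.Agent.S16.TH3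

open Complex Matrix

open scoped Real

noncomputable section

/-! ## Quadratic forms with a Gram matrix -/

section Gram

variable {n : Type*} [Fintype n]

theorem gram_dot_symm {M : Matrix n n ℤ} (hM : Mᵀ = M) (x y : n → ℤ) :
    x ⬝ᵥ (M *ᵥ y) = y ⬝ᵥ (M *ᵥ x) := by
  rw [Matrix.dotProduct_mulVec, ← Matrix.mulVec_transpose, hM, dotProduct_comm]

theorem gram_add {F : (n → ℤ) → ℤ} {M : Matrix n n ℤ} (hF : ∀ x, 2 * F x = x ⬝ᵥ (M *ᵥ x))
    (hM : Mᵀ = M) (x y : n → ℤ) : F (x + y) = F x + F y + x ⬝ᵥ (M *ᵥ y) := by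
  have h := hF (x + y)
  rw [Matrix.mulVec_add, add_dotProduct, dotProduct_add, dotProduct_add, ← hF, ← hF,
    gram_dot_symm hM y x] at h
  linarith

theorem gram_smul {F : (n → ℤ) → ℤ} {M : Matrix n n ℤ} (hF : ∀ x, 2 * F x = x ⬝ᵥ (M *ᵥ x))
    (c : ℤ) (x : n → ℤ) : F (c • x) = c ^ 2 * F x := by
  have h := hF (c • x)
  rw [Matrix.mulVec_smul, smul_dotProduct, dotProduct_smul, ← hF, smul_eq_mul, smul_eq_mul] at h
  have h2 : 2 * F (c • x) = 2 * (c ^ 2 * F x) := by rw [h]; ring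
  exact mul_left_cancel₀ two_ne_zero h2

theorem gram_mulVec [DecidableEq n] {F G : (n → ℤ) → ℤ} {M N : Matrix n n ℤ} {p : ℤ}
    (hF : ∀ x, 2 * F x = x ⬝ᵥ (M *ᵥ x)) (hG : ∀ x, 2 * G x = x ⬝ᵥ (N *ᵥ x))
    (hMN : M * N = p • (1 : Matrix n n ℤ)) (t : n → ℤ) :
    F (N *ᵥ t) = p * G t := by
  have h := hF (N *ᵥ t)
  rw [Matrix.mulVec_mulVec, hMN, Matrix.smul_mulVec, Matrix.one_mulVec, dotProduct_smul,
    dotProduct_comm, ← hG, smul_eq_mul] at h
  have h2 : 2 * F (N *ᵥ t) = 2 * (p * G t) := by rw [h]; ring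
  exact mul_left_cancel₀ two_ne_zero h2

end Gram

/-! ## Reduction modulo `p` -/

/-- Reduction of an integer vector modulo `p`. -/
def vbar (p : ℕ) {n : Type*} (y : n → ℤ) : n → ZMod p := fun i => (y i : ZMod p)

theorem vbar_add (p : ℕ) {n : Type*} (x y : n → ℤ) : vbar p (x + y) = vbar p x + vbar p y := by
  funext i; simp [vbar]

theorem vbar_dot (p : ℕ) {n : Type*} [Fintype n] (x y : n → ℤ) :
    ((x ⬝ᵥ y : ℤ) : ZMod p) = vbar p x ⬝ᵥ vbar p y := by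
  simp [vbar, dotProduct]

theorem vbar_surj (p : ℕ) [NeZero p] {n : Type*} (a : n → ZMod p) :
    ∃ y : n → ℤ, vbar p y = a :=
  ⟨fun i => ((a i).val : ℤ), by funext i; simp [vbar]⟩

/-! ## Gauss sums with a linear term -/

section GaussShift

variable {p : ℕ} [Fact p.Prime] {Q QB : (Fin 4 → ℤ) → ℤ} {A B : Matrix (Fin 4) (Fin 4) ℤ}
  {qB : (Fin 4 → ZMod p) → ZMod p}

/-- The quadratic Gauss sum of `qB` with a linear term. -/
def gsum (qB : (Fin 4 → ZMod p) → ZMod p) (j : ZMod p) (v : Fin 4 → ZMod p) : ℂ :=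
  ∑ a : Fin 4 → ZMod p, ZMod.stdAddChar (j * qB a + v ⬝ᵥ a)

theorem qB_shift_A (hQ : ∀ x, 2 * Q x = x ⬝ᵥ (A *ᵥ x)) (hQB : ∀ x, 2 * QB x = x ⬝ᵥ (B *ᵥ x))
    (hBA : B * A = (p : ℤ) • (1 : Matrix (Fin 4) (Fin 4) ℤ)) (hBt : Bᵀ = B)
    (hred : ∀ y : Fin 4 → ℤ, ((QB y : ℤ) : ZMod p) = qB (vbar p y))
    (a : Fin 4 → ZMod p) (c : Fin 4 → ℤ) : qB (a + vbar p (A *ᵥ c)) = qB a := by
  obtain ⟨y, rfl⟩ := vbar_surj p a
  rw [← vbar_add, ← hred, ← hred, gram_add hQB hBt, gram_mulVec hQB hQ hBA c,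
    Matrix.mulVec_mulVec, hBA, Matrix.smul_mulVec, Matrix.one_mulVec, dotProduct_smul]
  push_cast
  simp

theorem gsum_eq_zero (hQ : ∀ x, 2 * Q x = x ⬝ᵥ (A *ᵥ x)) (hQB : ∀ x, 2 * QB x = x ⬝ᵥ (B *ᵥ x))
    (hBA : B * A = (p : ℤ) • (1 : Matrix (Fin 4) (Fin 4) ℤ)) (hAt : Aᵀ = A) (hBt : Bᵀ = B)
    (hred : ∀ y : Fin 4 → ℤ, ((QB y : ℤ) : ZMod p) = qB (vbar p y))
    (j : ZMod p) (u : Fin 4 → ℤ) (i : Fin 4) (hi : ¬ (p : ℤ) ∣ (A *ᵥ u) i) :
    gsum qB j (vbar p u) = 0 := by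
  set c : Fin 4 → ℤ := Pi.single i 1 with hc
  set d : Fin 4 → ZMod p := vbar p (A *ᵥ c) with hd
  have h1 : gsum qB j (vbar p u) =
      ZMod.stdAddChar (((A *ᵥ u) i : ℤ) : ZMod p) * gsum qB j (vbar p u) := by
    conv_lhs => rw [gsum, ← Equiv.sum_comp (Equiv.addRight d)]
    rw [gsum, Finset.mul_sum]
    refine Finset.sum_congr rfl fun a _ => ?_
    rw [Equiv.coe_addRight, qB_shift_A hQ hQB hBA hBt hred, dotProduct_add, ← add_assoc,
      AddChar.map_add_eq_mul, mul_comm]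
    congr 2
    rw [hd, ← vbar_dot, gram_dot_symm hAt, hc, single_dotProduct, one_mul]
  have h2 : ZMod.stdAddChar (((A *ᵥ u) i : ℤ) : ZMod p) ≠ 1 := by
    intro h
    rw [← AddChar.map_zero_eq_one (ZMod.stdAddChar (N := p)), ZMod.injective_stdAddChar.eq_iff,
      ZMod.intCast_zmod_eq_zero_iff_dvd] at h
    exact hi h
  have h3 : (1 - ZMod.stdAddChar (((A *ᵥ u) i : ℤ) : ZMod p)) * gsum qB j (vbar p u) = 0 := by
    linear_combination h1
  rcases mul_eq_zero.mp h3 with h | h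
  · exact absurd (sub_eq_zero.mp h).symm h2
  · exact h

theorem gsum_mulVec (hQB : ∀ x, 2 * QB x = x ⬝ᵥ (B *ᵥ x)) (hBt : Bᵀ = B)
    (hred : ∀ y : Fin 4 → ℤ, ((QB y : ℤ) : ZMod p) = qB (vbar p y))
    (j j' : ℤ) (hjj : (p : ℤ) ∣ j * j' - 1) (t : Fin 4 → ℤ) :
    gsum qB (j : ZMod p) (vbar p (B *ᵥ t)) =
      ZMod.stdAddChar (((-(j' * QB t) : ℤ)) : ZMod p) * gsum qB (j : ZMod p) 0 := by
  have hjj' : ((j : ZMod p)) * (j' : ZMod p) = 1 := by
    have := (ZMod.intCast_zmod_eq_zero_iff_dvd (j * j' - 1) p).mpr hjj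
    push_cast at this
    linear_combination this
  set d : Fin 4 → ZMod p := vbar p (j' • t) with hd
  have h1 : gsum qB (j : ZMod p) 0 = ZMod.stdAddChar (((j' * QB t : ℤ)) : ZMod p) *
      gsum qB (j : ZMod p) (vbar p (B *ᵥ t)) := by
    conv_lhs => rw [gsum, ← Equiv.sum_comp (Equiv.addRight d)]
    rw [gsum, Finset.mul_sum]
    refine Finset.sum_congr rfl fun a _ => ?_
    obtain ⟨y, rfl⟩ := vbar_surj p a
    simp only [Equiv.coe_addRight]
    rw [hd, ← vbar_add, ← hred, gram_add hQB hBt, gram_smul hQB,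
      Matrix.mulVec_smul, dotProduct_smul, smul_eq_mul, zero_dotProduct, add_zero,
      ← AddChar.map_add_eq_mul,
      ← hred, ← vbar_dot, dotProduct_comm (B *ᵥ t) y]
    congr 1
    push_cast
    linear_combination ((j' : ZMod p) * (QB t : ZMod p) + ((y ⬝ᵥ B *ᵥ t : ℤ) : ZMod p)) * hjj'
  rw [h1, ← mul_assoc, ← AddChar.map_add_eq_mul]
  simp

end GaussShift

/-! ## Splitting a sum over `ℤ⁴` according to residues modulo `p` -/

/-- Euclidean division by `p`, coordinatewise. -/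
def splitEquiv (p : ℕ) [NeZero p] : (Fin 4 → ℤ) × (Fin 4 → ZMod p) ≃ (Fin 4 → ℤ) where
  toFun wa := (p : ℤ) • wa.1 + fun i => ((wa.2 i).val : ℤ)
  invFun y := (fun i => y i / p, fun i => (y i : ZMod p))
  left_inv := by
    rintro ⟨w, a⟩
    have hp : (p : ℤ) ≠ 0 := by exact_mod_cast NeZero.ne p
    refine Prod.ext (funext fun i => ?_) (funext fun i => ?_)
    · have h1 : ((a i).val : ℤ) / p = 0 :=
        Int.ediv_eq_zero_of_lt (by positivity) (by exact_mod_cast ZMod.val_lt (a i))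
      simp only [Pi.add_apply, Pi.smul_apply, smul_eq_mul]
      rw [add_comm, Int.add_mul_ediv_left _ _ hp, h1, zero_add]
    · simp
  right_inv := by
    intro y
    funext i
    simp only [Pi.add_apply, Pi.smul_apply, smul_eq_mul]
    rw [ZMod.val_intCast]
    exact Int.mul_ediv_add_emod (y i) p

theorem tsum_split (p : ℕ) [NeZero p] {f : (Fin 4 → ℤ) → ℂ} (hf : Summable f) :
    ∑' y, f y = ∑ a : Fin 4 → ZMod p, ∑' w : Fin 4 → ℤ,
      f ((p : ℤ) • w + fun i => ((a i).val : ℤ)) := by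
  have hs : Summable (f ∘ splitEquiv p) := (splitEquiv p).summable_iff.mpr hf
  have hs' : Summable (fun aw : (Fin 4 → ZMod p) × (Fin 4 → ℤ) =>
      f (splitEquiv p (aw.2, aw.1))) := (Equiv.prodComm _ _).summable_iff.mpr hs
  rw [← (splitEquiv p).tsum_eq, ← (Equiv.prodComm _ _).tsum_eq]
  exact (hs'.tsum_prod).trans (tsum_fintype _)

/-! ## The hypotheses and the key identity -/

/-- The theta series of an integral quaternary form. -/
def thetaQ (Q : (Fin 4 → ℤ) → ℤ) (z : ℂ) : ℂ :=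
  ∑' x : Fin 4 → ℤ, cexp (2 * π * I * (Q x) * z)

/-- The input of the `Γ₀(p)` transformation law: a pair of integral quaternary forms with
Gram matrices `A`, `B`, `A * B = p`, the two theta inversion formulas and the Gauss sum. -/
structure ThetaHyp (p : ℕ) [NeZero p] (Q QB : (Fin 4 → ℤ) → ℤ) (A B : Matrix (Fin 4) (Fin 4) ℤ)
    (qB : (Fin 4 → ZMod p) → ZMod p) : Prop where
  hQ : ∀ x, 2 * Q x = x ⬝ᵥ (A *ᵥ x)
  hQB : ∀ x, 2 * QB x = x ⬝ᵥ (B *ᵥ x)
  hAB : A * B = (p : ℤ) • (1 : Matrix (Fin 4) (Fin 4) ℤ)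
  hBA : B * A = (p : ℤ) • (1 : Matrix (Fin 4) (Fin 4) ℤ)
  hAt : Aᵀ = A
  hBt : Bᵀ = B
  hred : ∀ y : Fin 4 → ℤ, ((QB y : ℤ) : ZMod p) = qB (vbar p y)
  hgauss : ∀ j : ZMod p, j ≠ 0 →
    ∑ a : Fin 4 → ZMod p, ZMod.stdAddChar (j * qB a) = -(p : ℂ) ^ 3
  sumQ : ∀ z : ℂ, 0 < z.im → Summable (fun x : Fin 4 → ℤ => cexp (2 * π * I * (Q x) * z))
  sumQB : ∀ z : ℂ, 0 < z.im → Summable (fun x : Fin 4 → ℤ => cexp (2 * π * I * (QB x) * z))
  inv_a : ∀ z : ℂ, 0 < z.im → thetaQ Q (-1 / z) = -(z ^ 2 / p) * thetaQ QB (z / p)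
  inv_b : ∀ (a : Fin 4 → ℤ) (τ : ℂ), 0 < τ.im →
    ∑' w : Fin 4 → ℤ, cexp (2 * π * I * τ * (QB ((p : ℤ) • w + a)) / p ^ 2) =
      -(1 / (p * τ ^ 2)) * ∑' u : Fin 4 → ℤ,
        cexp (2 * π * I * (-(Q u) / (p * τ))) * cexp (2 * π * I * ((u ⬝ᵥ a : ℤ)) / p)

theorem im_neg_one_div_pos {z : ℂ} (hz : 0 < z.im) : 0 < (-1 / z).im := by
  have hz0 : z ≠ 0 := by rintro rfl; simp at hz
  rw [neg_div, one_div, Complex.neg_im, Complex.inv_im, neg_div, neg_neg]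
  exact div_pos hz (Complex.normSq_pos.mpr hz0)

theorem im_div_natCast_pos {z : ℂ} (hz : 0 < z.im) {n : ℕ} (hn : 0 < n) : 0 < (z / n).im := by
  rw [Complex.div_natCast_im]; positivity

section Star

variable {p : ℕ} [Fact p.Prime] {Q QB : (Fin 4 → ℤ) → ℤ} {A B : Matrix (Fin 4) (Fin 4) ℤ}
  {qB : (Fin 4 → ZMod p) → ZMod p}

theorem mulVec_B_injective (H : ThetaHyp p Q QB A B qB) :
    Function.Injective (fun t : Fin 4 → ℤ => B *ᵥ t) := by
  intro t t' h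
  have hp : (p : ℤ) ≠ 0 := by exact_mod_cast (Fact.out : p.Prime).ne_zero
  have h2 : A *ᵥ (B *ᵥ t) = A *ᵥ (B *ᵥ t') := congrArg (fun v => A *ᵥ v) h
  rw [Matrix.mulVec_mulVec, Matrix.mulVec_mulVec, H.hAB, Matrix.smul_mulVec, Matrix.smul_mulVec,
    Matrix.one_mulVec, Matrix.one_mulVec] at h2
  funext i
  have h3 := congrFun h2 i
  simp only [Pi.smul_apply, smul_eq_mul] at h3
  exact mul_left_cancel₀ hp h3

theorem exists_eq_mulVec_B (H : ThetaHyp p Q QB A B qB) (u : Fin 4 → ℤ)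
    (hu : ∀ i, (p : ℤ) ∣ (A *ᵥ u) i) : ∃ t : Fin 4 → ℤ, B *ᵥ t = u := by
  have hp : (p : ℤ) ≠ 0 := by exact_mod_cast (Fact.out : p.Prime).ne_zero
  choose t ht using hu
  refine ⟨t, ?_⟩
  have h1 : A *ᵥ u = (p : ℤ) • t := funext fun i => by simpa using ht i
  have h2 : B *ᵥ (A *ᵥ u) = B *ᵥ ((p : ℤ) • t) := congrArg (fun v => B *ᵥ v) h1
  rw [Matrix.mulVec_mulVec, H.hBA, Matrix.smul_mulVec, Matrix.one_mulVec, Matrix.mulVec_smul]
    at h2
  funext i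
  have h3 := congrFun h2 i
  simp only [Pi.smul_apply, smul_eq_mul] at h3
  exact (mul_left_cancel₀ hp h3).symm

theorem thetaQ_star (H : ThetaHyp p Q QB A B qB) {z : ℂ} (hz : 0 < z.im) (j j' : ℤ)
    (hjj : (p : ℤ) ∣ j * j' - 1) :
    thetaQ QB (((j : ℂ) - 1 / z) / p) = z ^ 2 * thetaQ QB ((z - j') / p) := by
  have hpp : p.Prime := Fact.out
  have hp0 : (p : ℂ) ≠ 0 := Nat.cast_ne_zero.mpr hpp.ne_zero
  have hz0 : z ≠ 0 := by rintro rfl; simp at hz
  have hjj' : ((j : ZMod p)) * (j' : ZMod p) = 1 := by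
    have := (ZMod.intCast_zmod_eq_zero_iff_dvd (j * j' - 1) p).mpr hjj
    push_cast at this
    linear_combination this
  have hj0 : (j : ZMod p) ≠ 0 := left_ne_zero_of_mul_eq_one hjj'
  set τ : ℂ := -(p : ℂ) / z with hτdef
  have hτ0 : τ ≠ 0 := div_ne_zero (neg_ne_zero.mpr hp0) hz0
  have hτ : 0 < τ.im := by
    have h1 : τ = (-1 / z) * ((p : ℝ) : ℂ) := by
      rw [hτdef]; push_cast; field_simp
    rw [h1, Complex.im_mul_ofReal]
    exact mul_pos (im_neg_one_div_pos hz) (Nat.cast_pos.mpr hpp.pos)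
  set K : ℂ := -(1 / (p * τ ^ 2)) with hK
  set g : (Fin 4 → ℤ) → ℂ := fun u => cexp (2 * π * I * (-(Q u) / (p * τ))) with hg
  -- summability
  have him1 : 0 < (((j : ℂ) - 1 / z) / p).im := by
    have h0 : ((j : ℂ) - 1 / z) / p = (j : ℂ) / p + (-1 / z) / p := by ring
    have h1 : (((j : ℂ) - 1 / z) / p).im = (-1 / z).im / p := by
      rw [h0, Complex.add_im, Complex.div_natCast_im, Complex.div_natCast_im, Complex.intCast_im,
        zero_div, zero_add]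
    rw [h1]
    exact div_pos (im_neg_one_div_pos hz) (Nat.cast_pos.mpr hpp.pos)
  have hsum := H.sumQB _ him1
  have hgsum : Summable g := by
    have him2 : 0 < (z / ((p ^ 2 : ℕ) : ℂ)).im := im_div_natCast_pos hz (pow_pos hpp.pos 2)
    refine (H.sumQ _ him2).congr fun u => ?_
    rw [hg]
    congr 1
    rw [hτdef]; push_cast; field_simp
  -- rewrite each term
  have hterm : ∀ y : Fin 4 → ℤ, cexp (2 * π * I * (QB y) * (((j : ℂ) - 1 / z) / p)) =
      ZMod.stdAddChar (((j * QB y : ℤ)) : ZMod p) * cexp (2 * π * I * τ * (QB y) / p ^ 2) := by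
    intro y
    rw [ZMod.stdAddChar_coe, ← Complex.exp_add]
    congr 1
    rw [hτdef]; push_cast; field_simp; ring
  have hsum' : Summable (fun y : Fin 4 → ℤ =>
      ZMod.stdAddChar (((j * QB y : ℤ)) : ZMod p) * cexp (2 * π * I * τ * (QB y) / p ^ 2)) :=
    hsum.congr hterm
  -- the sum over a residue class
  have hclass : ∀ a : Fin 4 → ZMod p,
      (∑' w : Fin 4 → ℤ, ZMod.stdAddChar
        (((j * QB ((p : ℤ) • w + fun i => ((a i).val : ℤ)) : ℤ)) : ZMod p) *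
        cexp (2 * π * I * τ * (QB ((p : ℤ) • w + fun i => ((a i).val : ℤ))) / p ^ 2)) =
      ZMod.stdAddChar ((j : ZMod p) * qB a) *
        (K * ∑' u : Fin 4 → ℤ, g u * ZMod.stdAddChar (vbar p u ⬝ᵥ a)) := by
    intro a
    have hv : ∀ w : Fin 4 → ℤ, vbar p ((p : ℤ) • w + fun i => ((a i).val : ℤ)) = a := by
      intro w; funext i; simp [vbar]
    have hv' : vbar p (fun i => ((a i).val : ℤ)) = a := by
      funext i; simp [vbar]
    have h1 : ∀ w : Fin 4 → ℤ, ZMod.stdAddChar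
        (((j * QB ((p : ℤ) • w + fun i => ((a i).val : ℤ)) : ℤ)) : ZMod p) =
        ZMod.stdAddChar ((j : ZMod p) * qB a) := by
      intro w
      rw [Int.cast_mul, H.hred, hv]
    simp_rw [h1]
    rw [tsum_mul_left, H.inv_b _ τ hτ]
    congr 2
    refine tsum_congr fun u => ?_
    rw [← ZMod.stdAddChar_coe, vbar_dot, hv']
  -- interchange
  have hD : ∑ a : Fin 4 → ZMod p, ZMod.stdAddChar ((j : ZMod p) * qB a) *
        (K * ∑' u : Fin 4 → ℤ, g u * ZMod.stdAddChar (vbar p u ⬝ᵥ a)) =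
      K * ∑' u : Fin 4 → ℤ, g u * gsum qB (j : ZMod p) (vbar p u) := by
    have hsm : ∀ a : Fin 4 → ZMod p, Summable (fun u : Fin 4 → ℤ =>
        K * (g u * ZMod.stdAddChar ((j : ZMod p) * qB a + vbar p u ⬝ᵥ a))) := by
      intro a
      refine Summable.of_norm_bounded (g := fun u => ‖K‖ * ‖g u‖) (hgsum.norm.mul_left _)
        (fun u => ?_)
      rw [norm_mul, norm_mul, AddChar.norm_apply, mul_one]
    calc ∑ a : Fin 4 → ZMod p, ZMod.stdAddChar ((j : ZMod p) * qB a) *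
          (K * ∑' u : Fin 4 → ℤ, g u * ZMod.stdAddChar (vbar p u ⬝ᵥ a))
        = ∑ a : Fin 4 → ZMod p, ∑' u : Fin 4 → ℤ,
            K * (g u * ZMod.stdAddChar ((j : ZMod p) * qB a + vbar p u ⬝ᵥ a)) := by
          refine Finset.sum_congr rfl fun a _ => ?_
          rw [← tsum_mul_left, ← tsum_mul_left]
          refine tsum_congr fun u => ?_
          rw [AddChar.map_add_eq_mul]; ring
      _ = ∑' u : Fin 4 → ℤ, ∑ a : Fin 4 → ZMod p,
            K * (g u * ZMod.stdAddChar ((j : ZMod p) * qB a + vbar p u ⬝ᵥ a)) :=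
          (Summable.tsum_finsetSum fun a _ => hsm a).symm
      _ = K * ∑' u : Fin 4 → ℤ, g u * gsum qB (j : ZMod p) (vbar p u) := by
          rw [← tsum_mul_left]
          refine tsum_congr fun u => ?_
          rw [gsum, Finset.mul_sum, Finset.mul_sum]
  -- restrict to the image of `B`
  have hE : ∑' u : Fin 4 → ℤ, g u * gsum qB (j : ZMod p) (vbar p u) =
      ∑' t : Fin 4 → ℤ, g (B *ᵥ t) * gsum qB (j : ZMod p) (vbar p (B *ᵥ t)) := by
    refine ((mulVec_B_injective H).tsum_eq ?_).symm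
    intro u hu
    rw [Function.mem_support] at hu
    have hu2 : gsum qB (j : ZMod p) (vbar p u) ≠ 0 := right_ne_zero_of_mul hu
    have hu3 : ∀ i, (p : ℤ) ∣ (A *ᵥ u) i := by
      intro i
      by_contra hi
      exact hu2 (gsum_eq_zero H.hQ H.hQB H.hBA H.hAt H.hBt H.hred _ u i hi)
    obtain ⟨t, ht⟩ := exists_eq_mulVec_B H u hu3
    exact ⟨t, ht⟩
  have hG0 : gsum qB (j : ZMod p) 0 = -(p : ℂ) ^ 3 := by
    rw [gsum]
    simp only [zero_dotProduct, add_zero]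
    exact H.hgauss _ hj0
  have hF : ∀ t : Fin 4 → ℤ, g (B *ᵥ t) * gsum qB (j : ZMod p) (vbar p (B *ᵥ t)) =
      cexp (2 * π * I * (QB t) * ((z - j') / p)) * (-(p : ℂ) ^ 3) := by
    intro t
    rw [gsum_mulVec H.hQB H.hBt H.hred j j' hjj t, hG0, hg]
    simp only
    rw [gram_mulVec H.hQ H.hQB H.hAB t, ZMod.stdAddChar_coe, ← mul_assoc, ← Complex.exp_add]
    congr 2
    rw [hτdef]; push_cast; field_simp; ring
  calc thetaQ QB (((j : ℂ) - 1 / z) / p)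
      = ∑' y : Fin 4 → ℤ,
          ZMod.stdAddChar (((j * QB y : ℤ)) : ZMod p) * cexp (2 * π * I * τ * (QB y) / p ^ 2) :=
        tsum_congr hterm
    _ = ∑ a : Fin 4 → ZMod p, ZMod.stdAddChar ((j : ZMod p) * qB a) *
          (K * ∑' u : Fin 4 → ℤ, g u * ZMod.stdAddChar (vbar p u ⬝ᵥ a)) := by
        rw [tsum_split p hsum']
        exact Finset.sum_congr rfl fun a _ => hclass a
    _ = K * ∑' t : Fin 4 → ℤ, cexp (2 * π * I * (QB t) * ((z - j') / p)) * (-(p : ℂ) ^ 3) := by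
        rw [hD, hE]
        congr 1
        exact tsum_congr hF
    _ = z ^ 2 * thetaQ QB ((z - j') / p) := by
        have hKz : K * (-(p : ℂ) ^ 3) = z ^ 2 := by
          rw [hK, hτdef]; field_simp
        rw [tsum_mul_right, thetaQ, ← hKz]
        ring

end Star

/-! ## The action of `SL(2, ℤ)` -/

open UpperHalfPlane hiding I

open ModularGroup

open scoped MatrixGroups ModularForm

/-- The theta function on the upper half plane. -/
def thetaH (Q : (Fin 4 → ℤ) → ℤ) : ℍ → ℂ := fun z => thetaQ Q (z : ℂ)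

/-- The translates of the theta function at the cusp `0`. -/
def thetaF (p : ℕ) (QB : (Fin 4 → ℤ) → ℤ) (j : ℤ) : ℍ → ℂ :=
  fun z => -(1 / (p : ℂ)) * thetaQ QB (((z : ℂ) + j) / p)

theorem thetaQ_add_int (Q : (Fin 4 → ℤ) → ℤ) (z : ℂ) (n : ℤ) :
    thetaQ Q (z + n) = thetaQ Q z := by
  refine tsum_congr fun x => ?_
  have h : 2 * π * I * (Q x) * (z + n) =
      2 * π * I * (Q x) * z + ((Q x * n : ℤ) : ℂ) * (2 * π * I) := by
    push_cast; ring
  rw [h, Complex.exp_add, Complex.exp_int_mul_two_pi_mul_I, mul_one]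

theorem thetaF_congr (p : ℕ) [NeZero p] (QB : (Fin 4 → ℤ) → ℤ) {j j₂ : ℤ}
    (h : (p : ℤ) ∣ j - j₂) : thetaF p QB j = thetaF p QB j₂ := by
  obtain ⟨k, hk⟩ := h
  have hp0 : (p : ℂ) ≠ 0 := Nat.cast_ne_zero.mpr (NeZero.ne p)
  funext z
  have h1 : ((z : ℂ) + j) / p = ((z : ℂ) + j₂) / p + (k : ℤ) := by
    have : (j : ℂ) = j₂ + p * k := by
      have := congrArg (Int.cast : ℤ → ℂ) hk
      push_cast at this
      linear_combination this
    rw [this]; field_simp; ring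
  rw [thetaF, thetaF, h1, thetaQ_add_int]

theorem slash_T_apply (f : ℍ → ℂ) (z : ℍ) : (f ∣[(2 : ℤ)] T) z = f ((1 : ℝ) +ᵥ z) := by
  rw [ModularForm.SL_slash_apply, modular_T_smul, ModularGroup.denom_apply]
  simp [ModularGroup.T]

theorem slash_T_inv_apply (f : ℍ → ℂ) (z : ℍ) :
    (f ∣[(2 : ℤ)] T⁻¹) z = f ((-1 : ℝ) +ᵥ z) := by
  have h : (T⁻¹ : SL(2, ℤ)) • z = (-1 : ℝ) +ᵥ z := by
    have := modular_T_zpow_smul z (-1)
    simpa using this
  rw [ModularForm.SL_slash_apply, h, ModularGroup.denom_apply]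
  simp

theorem slash_S_apply' (f : ℍ → ℂ) (z : ℍ) :
    (f ∣[(2 : ℤ)] S) z = f (UpperHalfPlane.mk (-z : ℂ)⁻¹ z.im_inv_neg_coe_pos) *
      ((z : ℂ) ^ 2)⁻¹ := by
  rw [ModularForm.SL_slash_apply, modular_S_smul, ModularGroup.denom_S]
  rfl

section Family

variable {p : ℕ} [Fact p.Prime] {Q QB : (Fin 4 → ℤ) → ℤ} {A B : Matrix (Fin 4) (Fin 4) ℤ}
  {qB : (Fin 4 → ZMod p) → ZMod p}

theorem slash_T_thetaH (Q : (Fin 4 → ℤ) → ℤ) : thetaH Q ∣[(2 : ℤ)] T = thetaH Q := by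
  funext z
  rw [slash_T_apply, thetaH, thetaH, UpperHalfPlane.coe_vadd, add_comm]
  simpa using thetaQ_add_int Q (z : ℂ) 1

theorem slash_T_inv_thetaH (Q : (Fin 4 → ℤ) → ℤ) : thetaH Q ∣[(2 : ℤ)] T⁻¹ = thetaH Q := by
  funext z
  rw [slash_T_inv_apply, thetaH, thetaH, UpperHalfPlane.coe_vadd, add_comm]
  simpa using thetaQ_add_int Q (z : ℂ) (-1)

theorem slash_T_thetaF (p : ℕ) (QB : (Fin 4 → ℤ) → ℤ) (j : ℤ) :
    thetaF p QB j ∣[(2 : ℤ)] T = thetaF p QB (j + 1) := by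
  funext z
  rw [slash_T_apply, thetaF, thetaF, UpperHalfPlane.coe_vadd]
  congr 2
  push_cast; ring

theorem slash_T_inv_thetaF (p : ℕ) (QB : (Fin 4 → ℤ) → ℤ) (j : ℤ) :
    thetaF p QB j ∣[(2 : ℤ)] T⁻¹ = thetaF p QB (j - 1) := by
  funext z
  rw [slash_T_inv_apply, thetaF, thetaF, UpperHalfPlane.coe_vadd]
  congr 2
  push_cast; ring

theorem slash_S_thetaH (H : ThetaHyp p Q QB A B qB) :
    thetaH Q ∣[(2 : ℤ)] S = thetaF p QB 0 := by
  have hp0 : (p : ℂ) ≠ 0 := Nat.cast_ne_zero.mpr (Fact.out : p.Prime).ne_zero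
  funext z
  have hz0 : (z : ℂ) ≠ 0 := z.ne_zero
  have h1 : (-(z : ℂ))⁻¹ = -1 / (z : ℂ) := by field_simp
  rw [slash_S_apply', thetaH, thetaF, UpperHalfPlane.coe_mk, h1, H.inv_a _ z.im_pos]
  simp only [Int.cast_zero, add_zero]
  field_simp

theorem slash_S_thetaF_zero (H : ThetaHyp p Q QB A B qB) :
    thetaF p QB 0 ∣[(2 : ℤ)] S = thetaH Q := by
  have hp0 : (p : ℂ) ≠ 0 := Nat.cast_ne_zero.mpr (Fact.out : p.Prime).ne_zero
  funext z
  have hz0 : (z : ℂ) ≠ 0 := z.ne_zero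
  have h1 : (-(z : ℂ))⁻¹ = -1 / (z : ℂ) := by field_simp
  have h2 := H.inv_a (-1 / (z : ℂ)) (im_neg_one_div_pos z.im_pos)
  have h3 : -1 / (-1 / (z : ℂ)) = z := by field_simp
  rw [h3] at h2
  rw [slash_S_apply', thetaH, thetaF, UpperHalfPlane.coe_mk, h1, h2]
  simp only [Int.cast_zero, add_zero]
  field_simp

theorem slash_S_thetaF (H : ThetaHyp p Q QB A B qB) (j j' : ℤ) (hjj : (p : ℤ) ∣ j * j' - 1) :
    thetaF p QB j ∣[(2 : ℤ)] S = thetaF p QB (-j') := by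
  have hp0 : (p : ℂ) ≠ 0 := Nat.cast_ne_zero.mpr (Fact.out : p.Prime).ne_zero
  funext z
  have hz0 : (z : ℂ) ≠ 0 := z.ne_zero
  have h1 : ((-(z : ℂ))⁻¹ + j) / p = ((j : ℂ) - 1 / (z : ℂ)) / p := by field_simp; ring
  have h2 : ((z : ℂ) + ((-j' : ℤ) : ℂ)) / p = ((z : ℂ) - j') / p := by push_cast; ring
  rw [slash_S_apply', thetaF, thetaF, UpperHalfPlane.coe_mk, h1, thetaQ_star H z.im_pos j j' hjj,
    h2]
  field_simp

/-- The tracking predicate: `Θ ∣ γ` is the member of the family `{Θ} ∪ {F_j}` determined by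
the bottom row of `γ` modulo `p`. -/
def ThetaRel (p : ℕ) (Q QB : (Fin 4 → ℤ) → ℤ) (γ : SL(2, ℤ)) : Prop :=
  ((p : ℤ) ∣ γ 1 0 ∧ thetaH Q ∣[(2 : ℤ)] γ = thetaH Q) ∨
  (¬ (p : ℤ) ∣ γ 1 0 ∧ ∃ j : ℤ, (p : ℤ) ∣ j * γ 1 0 - γ 1 1 ∧
    thetaH Q ∣[(2 : ℤ)] γ = thetaF p QB j)

theorem thetaRel_one (p : ℕ) (Q QB : (Fin 4 → ℤ) → ℤ) : ThetaRel p Q QB 1 := by
  left
  refine ⟨by simp, ?_⟩
  exact SlashAction.slash_one _ _

omit [Fact p.Prime] in
theorem thetaRel_mul_T {γ : SL(2, ℤ)} (h : ThetaRel p Q QB γ) : ThetaRel p Q QB (γ * T) := by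
  have h10 : (γ * T) 1 0 = γ 1 0 := by
    simp [Matrix.SpecialLinearGroup.coe_mul, Matrix.mul_apply, Fin.sum_univ_two,
      ModularGroup.coe_T]
  have h11 : (γ * T) 1 1 = γ 1 0 + γ 1 1 := by
    simp [Matrix.SpecialLinearGroup.coe_mul, Matrix.mul_apply, Fin.sum_univ_two,
      ModularGroup.coe_T]
  rw [ThetaRel, h10, h11, SlashAction.slash_mul]
  rcases h with ⟨hc, hθ⟩ | ⟨hc, j, hj, hθ⟩
  · left
    exact ⟨hc, by rw [hθ, slash_T_thetaH]⟩
  · right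
    refine ⟨hc, j + 1, ?_, by rw [hθ, slash_T_thetaF]⟩
    have : (j + 1) * γ 1 0 - (γ 1 0 + γ 1 1) = j * γ 1 0 - γ 1 1 := by ring
    rw [this]; exact hj

omit [Fact p.Prime] in
theorem thetaRel_mul_T_inv {γ : SL(2, ℤ)} (h : ThetaRel p Q QB γ) :
    ThetaRel p Q QB (γ * T⁻¹) := by
  have h10 : (γ * T⁻¹) 1 0 = γ 1 0 := by
    simp [Matrix.SpecialLinearGroup.coe_mul, Matrix.mul_apply, Fin.sum_univ_two]
  have h11 : (γ * T⁻¹) 1 1 = γ 1 1 - γ 1 0 := by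
    simp [Matrix.SpecialLinearGroup.coe_mul, Matrix.mul_apply, Fin.sum_univ_two]
    ring
  rw [ThetaRel, h10, h11, SlashAction.slash_mul]
  rcases h with ⟨hc, hθ⟩ | ⟨hc, j, hj, hθ⟩
  · left
    exact ⟨hc, by rw [hθ, slash_T_inv_thetaH]⟩
  · right
    refine ⟨hc, j - 1, ?_, by rw [hθ, slash_T_inv_thetaF]⟩
    have : (j - 1) * γ 1 0 - (γ 1 1 - γ 1 0) = j * γ 1 0 - γ 1 1 := by ring
    rw [this]; exact hj

theorem thetaRel_mul_S (H : ThetaHyp p Q QB A B qB) {γ : SL(2, ℤ)} (h : ThetaRel p Q QB γ) :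
    ThetaRel p Q QB (γ * S) := by
  have hpp : p.Prime := Fact.out
  have hpZ : Prime (p : ℤ) := Nat.prime_iff_prime_int.mp hpp
  have hdet : γ 0 0 * γ 1 1 - γ 0 1 * γ 1 0 = 1 := by
    have := γ.det_coe
    rwa [Matrix.det_fin_two] at this
  have h10 : (γ * S) 1 0 = γ 1 1 := by
    simp [Matrix.SpecialLinearGroup.coe_mul, Matrix.mul_apply, Fin.sum_univ_two,
      ModularGroup.coe_S]
  have h11 : (γ * S) 1 1 = -γ 1 0 := by
    simp [Matrix.SpecialLinearGroup.coe_mul, Matrix.mul_apply, Fin.sum_univ_two,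
      ModularGroup.coe_S]
  rw [ThetaRel, h10, h11, SlashAction.slash_mul]
  rcases h with ⟨hc, hθ⟩ | ⟨hc, j, hj, hθ⟩
  · have hd : ¬ (p : ℤ) ∣ γ 1 1 := by
      intro hd
      have h1 : (p : ℤ) ∣ 1 := by
        rw [← hdet]
        exact dvd_sub (dvd_mul_of_dvd_right hd _) (dvd_mul_of_dvd_right hc _)
      exact hpZ.not_dvd_one h1
    right
    refine ⟨hd, 0, by simpa using hc, ?_⟩
    rw [hθ]
    exact slash_S_thetaH H
  · by_cases hd : (p : ℤ) ∣ γ 1 1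
    · left
      refine ⟨hd, ?_⟩
      have hj0 : (p : ℤ) ∣ j := by
        have h1 : (p : ℤ) ∣ j * γ 1 0 := by
          have := dvd_add hj hd
          simpa using this
        exact (hpZ.dvd_or_dvd h1).resolve_right hc
      rw [hθ, thetaF_congr p QB (j₂ := 0) (by simpa using hj0)]
      exact slash_S_thetaF_zero H
    · right
      have hj0 : ¬ (p : ℤ) ∣ j := by
        intro hj0
        apply hd
        have := dvd_sub (dvd_mul_of_dvd_left hj0 (γ 1 0)) hj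
        simpa using this
      have hjne : (j : ZMod p) ≠ 0 := by
        rwa [Ne, ZMod.intCast_zmod_eq_zero_iff_dvd]
      obtain ⟨j', hj'⟩ := ZMod.intCast_surjective ((j : ZMod p)⁻¹)
      have hjj : (p : ℤ) ∣ j * j' - 1 := by
        rw [← ZMod.intCast_zmod_eq_zero_iff_dvd]
        push_cast
        rw [hj', mul_inv_cancel₀ hjne, sub_self]
      refine ⟨hd, -j', ?_, ?_⟩
      · have : -j' * γ 1 1 - -γ 1 0 = j' * (j * γ 1 0 - γ 1 1) - γ 1 0 * (j * j' - 1) := by ring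
        rw [this]
        exact dvd_sub (dvd_mul_of_dvd_right hj _) (dvd_mul_of_dvd_right hjj _)
      · rw [hθ]
        exact slash_S_thetaF H j j' hjj

theorem thetaRel_all (H : ThetaHyp p Q QB A B qB) (γ : SL(2, ℤ)) : ThetaRel p Q QB γ := by
  have hmem : γ ∈ Subgroup.closure {S, T} := by
    rw [SpecialLinearGroup.SL2Z_generators]; trivial
  induction hmem using Subgroup.closure_induction_right with
  | one => exact thetaRel_one p Q QB
  | mul_right x hx y hy ih =>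
    rcases hy with rfl | rfl
    · exact thetaRel_mul_S H ih
    · exact thetaRel_mul_T ih
  | mul_inv_cancel x hx y hy ih =>
    rcases hy with rfl | rfl
    · have hS : (S⁻¹ : SL(2, ℤ)) = S * S * S := by decide
      rw [hS, ← mul_assoc, ← mul_assoc]
      exact thetaRel_mul_S H (thetaRel_mul_S H (thetaRel_mul_S H ih))
    · exact thetaRel_mul_T_inv ih

/-- **`Γ₀(p)`-invariance** of the theta series. -/
theorem thetaH_slash_Gamma0 (H : ThetaHyp p Q QB A B qB) (γ : SL(2, ℤ))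
    (hγ : γ ∈ CongruenceSubgroup.Gamma0 p) : thetaH Q ∣[(2 : ℤ)] γ = thetaH Q := by
  have hc : (p : ℤ) ∣ γ 1 0 := by
    rw [← ZMod.intCast_zmod_eq_zero_iff_dvd]
    exact CongruenceSubgroup.Gamma0_mem.mp hγ
  rcases thetaRel_all H γ with ⟨_, hθ⟩ | ⟨hc', _⟩
  · exact hθ
  · exact absurd hc hc'

/-- The translates of the theta series under all of `SL(2, ℤ)`. -/
theorem thetaH_slash_family (H : ThetaHyp p Q QB A B qB) (γ : SL(2, ℤ)) :
    thetaH Q ∣[(2 : ℤ)] γ = thetaH Q ∨ ∃ j : ℤ, thetaH Q ∣[(2 : ℤ)] γ = thetaF p QB j := by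
  rcases thetaRel_all H γ with ⟨_, hθ⟩ | ⟨_, j, _, hθ⟩
  · exact Or.inl hθ
  · exact Or.inr ⟨j, hθ⟩

end Family

end

end Fermat.Agent.S16.TH3
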