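import Mathlib

/-!
# S16, piece TH3: the quadratic Gauss sum of the dual quaternary form on `(ℤ/p)⁴`

The reduction of the dual form `QB` modulo `p` has rank two and is anisotropic; its Gauss sum
is therefore `-p³`.
-/

namespace Fermat.Agent.S16.TH3

noncomputable section

section QuadGauss

variable {p : ℕ} [Fact p.Prime]

/-- The one-variable quadratic Gauss sum. -/
def qgs (p : ℕ) [Fact p.Prime] (c : ZMod p) : ℂ :=
  ∑ x : ZMod p, ZMod.stdAddChar (c * x ^ 2)

theorem sum_sq_eq (hp2 : p ≠ 2) (f : ZMod p → ℂ) :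
    ∑ x : ZMod p, f (x ^ 2) =
      ∑ y : ZMod p, (((quadraticChar (ZMod p) y : ℤ) : ℂ) + 1) * f y := by
  have hF : ringChar (ZMod p) ≠ 2 := by rwa [ZMod.ringChar_zmod_n]
  rw [← Finset.sum_fiberwise (s := Finset.univ) (g := fun x : ZMod p => x ^ 2)
    (f := fun x => f (x ^ 2))]
  refine Finset.sum_congr rfl fun y _ => ?_
  have h1 : ∑ x ∈ Finset.univ with x ^ 2 = y, f (x ^ 2) =
      ∑ x ∈ Finset.univ with x ^ 2 = y, f y :=
    Finset.sum_congr rfl fun x hx => by rw [(Finset.mem_filter.mp hx).2]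
  rw [h1, Finset.sum_const, nsmul_eq_mul]
  congr 1
  have h2 := quadraticChar_card_sqrts hF y
  have h3 : ({x : ZMod p | x ^ 2 = y}.toFinset) = Finset.univ.filter (fun x => x ^ 2 = y) := by
    ext x; simp
  rw [h3] at h2
  have := congrArg (Int.cast : ℤ → ℂ) h2
  push_cast at this
  exact this

/-- The complex-valued quadratic character. -/
def qchar (p : ℕ) [Fact p.Prime] : MulChar (ZMod p) ℂ :=
  (quadraticChar (ZMod p)).ringHomComp (Int.castRingHom ℂ)

theorem qgs_eq (hp2 : p ≠ 2) {c : ZMod p} (hc : c ≠ 0) :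
    qgs p c = ((quadraticChar (ZMod p) c : ℤ) : ℂ) * gaussSum (qchar p) ZMod.stdAddChar := by
  have hsq : (((quadraticChar (ZMod p) c : ℤ) : ℂ)) ^ 2 = 1 := by
    have := congrArg (Int.cast : ℤ → ℂ) (quadraticChar_sq_one hc)
    push_cast at this
    exact this
  have h0 : ∑ y : ZMod p, ZMod.stdAddChar (N := p) (c * y) = 0 := by
    have := AddChar.sum_mulShift c (ZMod.isPrimitive_stdAddChar p)
    rw [if_neg hc] at this
    simpa [mul_comm] using this
  have h1 : qgs p c = gaussSum (qchar p) (AddChar.mulShift ZMod.stdAddChar c) := by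
    rw [qgs, sum_sq_eq hp2 (fun y => ZMod.stdAddChar (c * y)), gaussSum]
    simp only [add_mul, one_mul, Finset.sum_add_distrib, h0, add_zero]
    refine Finset.sum_congr rfl fun y _ => ?_
    rw [qchar, MulChar.ringHomComp_apply, AddChar.mulShift_apply]
    rfl
  have h2 := gaussSum_mulShift (qchar p) (ZMod.stdAddChar (N := p)) (Units.mk0 c hc)
  rw [Units.val_mk0, ← h1] at h2
  have h3 : qchar p c = ((quadraticChar (ZMod p) c : ℤ) : ℂ) := by
    rw [qchar, MulChar.ringHomComp_apply]; rfl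
  rw [h3] at h2
  rw [← h2, ← mul_assoc, ← pow_two, hsq, one_mul]

theorem gaussSum_qchar_sq (hp2 : p ≠ 2) :
    gaussSum (qchar p) ZMod.stdAddChar ^ 2 =
      ((quadraticChar (ZMod p) (-1) : ℤ) : ℂ) * (p : ℂ) := by
  have hF : ringChar (ZMod p) ≠ 2 := by rwa [ZMod.ringChar_zmod_n]
  have h1 : qchar p ≠ 1 :=
    (MulChar.ringHomComp_ne_one_iff (Int.castRingHom ℂ).injective_int).mpr
      (quadraticChar_ne_one hF)
  have h2 : (qchar p).IsQuadratic := (quadraticChar_isQuadratic (ZMod p)).comp _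
  have h3 := gaussSum_sq h1 h2 (ZMod.isPrimitive_stdAddChar p)
  rw [h3, ZMod.card p, qchar, MulChar.ringHomComp_apply]
  rfl

/-- The Gauss sum of an anisotropic binary form `x² + e y²` is `-p`. -/
theorem qgs_mul_qgs (hp2 : p ≠ 2) {e : ZMod p} (he : ¬ IsSquare (-e)) {c : ZMod p}
    (hc : c ≠ 0) : qgs p c * qgs p (c * e) = -(p : ℂ) := by
  have he0 : e ≠ 0 := by
    rintro rfl
    exact he (by simp)
  have hsq : (((quadraticChar (ZMod p) c : ℤ) : ℂ)) ^ 2 = 1 := by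
    have := congrArg (Int.cast : ℤ → ℂ) (quadraticChar_sq_one hc)
    push_cast at this
    exact this
  have hne : ((quadraticChar (ZMod p) (-1) : ℤ) : ℂ) * ((quadraticChar (ZMod p) e : ℤ) : ℂ)
      = -1 := by
    have h1 : quadraticChar (ZMod p) (-e) = -1 := quadraticChar_neg_one_iff_not_isSquare.mpr he
    rw [neg_eq_neg_one_mul, map_mul] at h1
    have := congrArg (Int.cast : ℤ → ℂ) h1
    push_cast at this
    exact this
  have hmul : ((quadraticChar (ZMod p) (c * e) : ℤ) : ℂ) =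
      ((quadraticChar (ZMod p) c : ℤ) : ℂ) * ((quadraticChar (ZMod p) e : ℤ) : ℂ) := by
    rw [map_mul]; push_cast; rfl
  rw [qgs_eq hp2 hc, qgs_eq hp2 (mul_ne_zero hc he0), hmul]
  have hG := gaussSum_qchar_sq (p := p) hp2
  linear_combination
    (((quadraticChar (ZMod p) e : ℤ) : ℂ) * gaussSum (qchar p) ZMod.stdAddChar ^ 2) * hsq +
    ((quadraticChar (ZMod p) e : ℤ) : ℂ) * hG + (p : ℂ) * hne

theorem four_ne_zero_zmod (hp2 : p ≠ 2) : (4 : ZMod p) ≠ 0 := by
  have hpp : p.Prime := Fact.out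
  have h2 : (2 : ZMod p) ≠ 0 := by
    intro h
    have h' : ((2 : ℕ) : ZMod p) = 0 := by exact_mod_cast h
    rw [ZMod.natCast_eq_zero_iff] at h'
    exact hp2 ((Nat.prime_dvd_prime_iff_eq hpp Nat.prime_two).mp h')
  have : (4 : ZMod p) = 2 * 2 := by norm_num
  rw [this]
  exact mul_ne_zero h2 h2

/-- Gauss sum of a quaternary form which, after a linear change of variables, is the
anisotropic binary form `x₂² + e x₃²`. -/
theorem gauss_four (hp2 : p ≠ 2) (qB : (Fin 4 → ZMod p) → ZMod p)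
    (L : (Fin 4 → ZMod p) ≃ (Fin 4 → ZMod p)) (e : ZMod p) (he : ¬ IsSquare (-e))
    (h4 : ∀ a, 4 * qB a = (L a 2) ^ 2 + e * (L a 3) ^ 2) (j : ZMod p) (hj : j ≠ 0) :
    ∑ a : Fin 4 → ZMod p, ZMod.stdAddChar (j * qB a) = -(p : ℂ) ^ 3 := by
  have h4' := four_ne_zero_zmod (p := p) hp2
  set c : ZMod p := j * 4⁻¹ with hc
  have hc0 : c ≠ 0 := mul_ne_zero hj (inv_ne_zero h4')
  set f : Fin 4 → ZMod p → ℂ :=
    ![fun _ => 1, fun _ => 1, fun x => ZMod.stdAddChar (c * x ^ 2),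
      fun x => ZMod.stdAddChar (c * e * x ^ 2)] with hf
  have h1 : ∀ a : Fin 4 → ZMod p, ZMod.stdAddChar (j * qB a) = ∏ i, f i (L a i) := by
    intro a
    have h5 : j * qB a = c * (L a 2) ^ 2 + c * e * (L a 3) ^ 2 := by
      have h6 : j * qB a = c * (4 * qB a) := by
        rw [hc, mul_assoc, inv_mul_cancel_left₀ h4']
      rw [h6, h4 a]; ring
    rw [Fin.prod_univ_four, h5, AddChar.map_add_eq_mul]
    simp [hf]
  calc ∑ a : Fin 4 → ZMod p, ZMod.stdAddChar (j * qB a)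
      = ∑ a : Fin 4 → ZMod p, ∏ i, f i (L a i) := Finset.sum_congr rfl fun a _ => h1 a
    _ = ∑ b : Fin 4 → ZMod p, ∏ i, f i (b i) := Equiv.sum_comp L (fun b => ∏ i, f i (b i))
    _ = ∏ i, ∑ x : ZMod p, f i x := (Fintype.prod_sum f).symm
    _ = -(p : ℂ) ^ 3 := by
        have hq := qgs_mul_qgs hp2 he hc0
        have e0 : ∑ x : ZMod p, f 0 x = (p : ℂ) := by simp [hf, ZMod.card]
        have e1 : ∑ x : ZMod p, f 1 x = (p : ℂ) := by simp [hf, ZMod.card]
        have e2 : ∑ x : ZMod p, f 2 x = qgs p c := by rw [hf]; rfl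
        have e3 : ∑ x : ZMod p, f 3 x = qgs p (c * e) := by rw [hf]; rfl
        rw [Fin.prod_univ_four, e0, e1, e2, e3, mul_assoc, hq]
        ring

theorem two_ne_zero_zmod (hp2 : p ≠ 2) : (2 : ZMod p) ≠ 0 := by
  intro h
  apply four_ne_zero_zmod (p := p) hp2
  have : (4 : ZMod p) = 2 * 2 := by norm_num
  rw [this, h, mul_zero]

/-- Change of variables, degenerate case. -/
def gaussL1 (p : ℕ) [Fact p.Prime] (h2 : (2 : ZMod p) ≠ 0) :
    (Fin 4 → ZMod p) ≃ (Fin 4 → ZMod p) where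
  toFun a := ![a 1, a 3, 2 * a 2, a 0 - 2 * a 1]
  invFun b := ![b 3 + 2 * b 0, b 0, 2⁻¹ * b 2, b 1]
  left_inv := by
    intro a
    funext i
    fin_cases i
    · simp
    · simp
    · simp [inv_mul_cancel_left₀ h2]
    · simp
  right_inv := by
    intro b
    funext i
    fin_cases i
    · simp
    · simp
    · simp [mul_inv_cancel_left₀ h2]
    · simp

/-- Change of variables, generic case. -/
def gaussL2 (p : ℕ) [Fact p.Prime] (h2 : (2 : ZMod p) ≠ 0) (r q0 k : ZMod p) :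
    (Fin 4 → ZMod p) ≃ (Fin 4 → ZMod p) where
  toFun a := ![a 0, a 1, 2 * a 2 - r * (a 0 - 2 * a 1) - q0 * a 3, a 3 + k * (a 0 - 2 * a 1)]
  invFun b := ![b 0, b 1,
    2⁻¹ * (b 2 + r * (b 0 - 2 * b 1) + q0 * (b 3 - k * (b 0 - 2 * b 1))),
    b 3 - k * (b 0 - 2 * b 1)]
  left_inv := by
    intro a
    funext i
    fin_cases i
    · simp
    · simp
    · simp
      field_simp
      ring
    · simp
  right_inv := by
    intro b
    funext i
    fin_cases i
    · simp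
    · simp
    · simp
      field_simp
      ring
    · simp

/-- **The Gauss sum of the dual form.**  `qB` is any function on `(ℤ/p)⁴` with
`4 qB(a) = X² + (m u² + 2 r u a₃ + q0 a₃²)`, `u = a₀ - 2 a₁`, `X = 2 a₂ - r u - q0 a₃`,
where `q0 m = r²` in `ℤ/p` and the binary form is anisotropic. -/
theorem gauss_explicit (hp2 : p ≠ 2) (r m q0 : ZMod p) (hrel : q0 * m = r ^ 2)
    (haniso : (q0 = 0 ∧ r = 0 ∧ m = 1 ∧ ¬ IsSquare (-1 : ZMod p)) ∨ ¬ IsSquare (-q0))
    (qB : (Fin 4 → ZMod p) → ZMod p)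
    (h4 : ∀ a, 4 * qB a = (2 * a 2 - r * (a 0 - 2 * a 1) - q0 * a 3) ^ 2 +
      (m * (a 0 - 2 * a 1) ^ 2 + 2 * r * (a 0 - 2 * a 1) * a 3 + q0 * (a 3) ^ 2))
    (j : ZMod p) (hj : j ≠ 0) :
    ∑ a : Fin 4 → ZMod p, ZMod.stdAddChar (j * qB a) = -(p : ℂ) ^ 3 := by
  have h2 := two_ne_zero_zmod (p := p) hp2
  rcases haniso with ⟨hq, hr, hm, hsq⟩ | hsq
  · refine gauss_four hp2 qB (gaussL1 p h2) 1 hsq (fun a => ?_) j hj
    rw [h4 a, hq, hr, hm]
    simp [gaussL1]
  · have hq0 : q0 ≠ 0 := by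
      rintro rfl
      exact hsq (by simp)
    refine gauss_four hp2 qB (gaussL2 p h2 r q0 (r * q0⁻¹)) q0 hsq (fun a => ?_) j hj
    rw [h4 a]
    simp [gaussL2]
    field_simp
    linear_combination (a 0 - 2 * a 1) ^ 2 * hrel

end QuadGauss

end

end Fermat.Agent.S16.TH3
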