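import Fermat.Agent.S16.ThetaDefs
import Fermat.Agent.S16.ThetaInvQ

/-!
# S16, piece TH2: theta inversion for `thetaQ` / `thetaQB`
-/

set_option autoImplicit false

open Complex Real

namespace Fermat.Agent.S16

/-- **TH2** for the forms `thetaQ`, `thetaQB` of `ThetaDefs.lean`: summability (s1), (s2) and
the inversion formulas (a), (b). -/
theorem thetaInv_thetaQ (p : ℕ) (hp : 0 < p) (s r m : ℤ) (hs : 0 < s)
    (hm : (4 * s - 1) * m = r ^ 2 + p) :
    (∀ z : ℂ, 0 < z.im →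
      Summable (fun x : Fin 4 → ℤ => cexp (2 * π * I * (thetaQ p s r m x) * z))) ∧
    (∀ z : ℂ, 0 < z.im →
      Summable (fun x : Fin 4 → ℤ => cexp (2 * π * I * (thetaQB p s r m x) * z))) ∧
    (∀ z : ℂ, 0 < z.im →
      ∑' x : Fin 4 → ℤ, cexp (2 * π * I * (thetaQ p s r m x) * (-1 / z)) =
        -(z ^ 2 / p) * ∑' y : Fin 4 → ℤ, cexp (2 * π * I * (thetaQB p s r m y) * z / p)) ∧
    (∀ (a : Fin 4 → ℤ) (τ : ℂ), 0 < τ.im →
      ∑' w : Fin 4 → ℤ, cexp (2 * π * I * τ * (thetaQB p s r m (p • w + a)) / p ^ 2) =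
        -(1 / (p * τ ^ 2)) * ∑' u : Fin 4 → ℤ,
          cexp (2 * π * I * (-(thetaQ p s r m u) / (p * τ))) *
            cexp (2 * π * I * (u ⬝ᵥ a) / p)) :=
  thetaInv_quaternary p hp s r m hs hm (thetaQ p s r m) (thetaQB p s r m)
    (fun _ => rfl) (fun _ => rfl)

end Fermat.Agent.S16
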