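import Fermat.Agent.S16.ThetaDefs
import Fermat.Agent.S16.ThetaInvDefs
import Fermat.Agent.S16.ThetaGamma
import Fermat.Agent.S16.ThetaGauss

/-!
# S16, piece TH3 (glue): `Γ₀(p)`-invariance of the quaternary theta series `thetaFun`

We instantiate the abstract transformation law of `ThetaGamma.lean` with the forms
`thetaQ`, `thetaQB` of `ThetaDefs.lean`, the inversion formulas of `ThetaInvDefs.lean` and the
Gauss sum of `ThetaGauss.lean`.
-/

namespace Fermat.Agent.S16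

open Complex Matrix

open scoped Real MatrixGroups ModularForm

open UpperHalfPlane hiding I

noncomputable section

/-- The reduction of `thetaQB` modulo `p`. -/
def thetaQBbar (p : ℕ) (s r m : ℤ) (a : Fin 4 → ZMod p) : ZMod p :=
  (s : ZMod p) * m * a 0 ^ 2 - (4 * s * m - p) * a 0 * a 1 + (4 * s * m - p) * a 1 ^ 2
    - r * a 0 * a 2 + 2 * s * r * a 0 * a 3 + 2 * r * a 1 * a 2 - 4 * s * r * a 1 * a 3
    + a 2 ^ 2 - (4 * s - 1) * a 2 * a 3 + s * (4 * s - 1) * a 3 ^ 2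

theorem thetaQBbar_red (p : ℕ) (s r m : ℤ) (y : Fin 4 → ℤ) :
    ((thetaQB p s r m y : ℤ) : ZMod p) = thetaQBbar p s r m (TH3.vbar p y) := by
  simp only [thetaQB, thetaQBbar, TH3.vbar]
  push_cast
  ring

theorem thetaQBbar_gauss (p : ℕ) [Fact p.Prime] (hp2 : p ≠ 2) (s r m : ℤ)
    (hm : (4 * s - 1) * m = r ^ 2 + p)
    (haniso : (4 * s - 1 = p ∧ r = 0 ∧ m = 1 ∧ p % 4 = 3) ∨
      ¬ IsSquare (((-(4 * s - 1) : ℤ) : ZMod p)))
    (j : ZMod p) (hj : j ≠ 0) :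
    ∑ a : Fin 4 → ZMod p, ZMod.stdAddChar (j * thetaQBbar p s r m a) = -(p : ℂ) ^ 3 := by
  have hP : ((p : ℕ) : ZMod p) = 0 := ZMod.natCast_self p
  have hrel : (4 * (s : ZMod p) - 1) * (m : ZMod p) = (r : ZMod p) ^ 2 := by
    have := congrArg (Int.cast : ℤ → ZMod p) hm
    push_cast at this
    rw [hP, add_zero] at this
    exact this
  have han : ((4 * (s : ZMod p) - 1 = 0) ∧ (r : ZMod p) = 0 ∧ (m : ZMod p) = 1 ∧
      ¬ IsSquare (-1 : ZMod p)) ∨ ¬ IsSquare (-(4 * (s : ZMod p) - 1)) := by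
    rcases haniso with ⟨h1, h2, h3, h4⟩ | h
    · left
      refine ⟨?_, by rw [h2]; simp, by rw [h3]; simp, ?_⟩
      · have := congrArg (Int.cast : ℤ → ZMod p) h1
        push_cast at this
        rw [this, hP]
      · rw [ZMod.exists_sq_eq_neg_one_iff]
        simp [h4]
    · right
      have e : (((-(4 * s - 1) : ℤ)) : ZMod p) = -(4 * (s : ZMod p) - 1) := by push_cast; ring
      rwa [e] at h
  refine TH3.gauss_explicit hp2 (r : ZMod p) (m : ZMod p) (4 * (s : ZMod p) - 1) hrel han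
    (thetaQBbar p s r m) (fun a => ?_) j hj
  simp only [thetaQBbar]
  linear_combination (a 0 - 2 * a 1) ^ 2 * hrel + 4 * (a 0 * a 1 - a 1 ^ 2) * hP

/-- The hypotheses of the abstract transformation law hold for `thetaQ`, `thetaQB`. -/
theorem thetaHyp_thetaQ (p : ℕ) [Fact p.Prime] (hp2 : p ≠ 2) (s r m : ℤ) (hs : 0 < s)
    (hm : (4 * s - 1) * m = r ^ 2 + p)
    (haniso : (4 * s - 1 = p ∧ r = 0 ∧ m = 1 ∧ p % 4 = 3) ∨
      ¬ IsSquare (((-(4 * s - 1) : ℤ) : ZMod p))) :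
    TH3.ThetaHyp p (thetaQ p s r m) (thetaQB p s r m) (thetaA p s r m) (thetaB p s r m)
      (thetaQBbar p s r m) := by
  have hp : 0 < p := (Fact.out : p.Prime).pos
  obtain ⟨s1, s2, sa, sb⟩ := thetaInv_thetaQ p hp s r m hs hm
  refine
    { hQ := two_mul_thetaQ p s r m
      hQB := two_mul_thetaQB p s r m
      hAB := thetaA_mul_thetaB hm
      hBA := thetaB_mul_thetaA hm
      hAt := thetaA_transpose p s r m
      hBt := thetaB_transpose p s r m
      hred := thetaQBbar_red p s r m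
      hgauss := thetaQBbar_gauss p hp2 s r m hm haniso
      sumQ := s1
      sumQB := s2
      inv_a := ?_
      inv_b := ?_ }
  · intro z hz
    rw [TH3.thetaQ, TH3.thetaQ, sa z hz]
    congr 1
    refine tsum_congr fun y => ?_
    rw [mul_div_assoc]
  · intro a τ hτ
    simp only [Nat.cast_smul_eq_nsmul ℤ]
    exact sb a τ hτ

/-- **TH3**: the quaternary theta series is invariant under `Γ₀(p)` in weight 2. -/
theorem thetaFun_slash_Gamma0 (p : ℕ) [Fact p.Prime] (hp2 : p ≠ 2) (s r m : ℤ) (hs : 0 < s)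
    (hm : (4 * s - 1) * m = r ^ 2 + p)
    (haniso : (4 * s - 1 = p ∧ r = 0 ∧ m = 1 ∧ p % 4 = 3) ∨
      ¬ IsSquare (((-(4 * s - 1) : ℤ) : ZMod p)))
    (γ : SL(2, ℤ)) (hγ : γ ∈ CongruenceSubgroup.Gamma0 p) :
    (fun z : ℍ => thetaFun p s r m z) ∣[(2 : ℤ)] γ = fun z : ℍ => thetaFun p s r m z :=
  TH3.thetaH_slash_Gamma0 (thetaHyp_thetaQ p hp2 s r m hs hm haniso) γ hγ

/-- **TH3**, the other cusp: for `γ ∉ Γ₀(p)` the translate `Θ ∣ γ` is `-(1/p) Θ*(z + j)`. -/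
theorem thetaFun_slash_of_not_dvd (p : ℕ) [Fact p.Prime] (hp2 : p ≠ 2) (s r m : ℤ) (hs : 0 < s)
    (hm : (4 * s - 1) * m = r ^ 2 + p)
    (haniso : (4 * s - 1 = p ∧ r = 0 ∧ m = 1 ∧ p % 4 = 3) ∨
      ¬ IsSquare (((-(4 * s - 1) : ℤ) : ZMod p)))
    (γ : SL(2, ℤ)) (hγ : ¬ (p : ℤ) ∣ γ 1 0) :
    ∃ j : ℤ, (p : ℤ) ∣ j * γ 1 0 - γ 1 1 ∧
      (fun z : ℍ => thetaFun p s r m z) ∣[(2 : ℤ)] γ =
        fun z : ℍ => -(1 / (p : ℂ)) * thetaDual p s r m ((z : ℂ) + j) := by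
  rcases TH3.thetaRel_all (thetaHyp_thetaQ p hp2 s r m hs hm haniso) γ with ⟨hc, _⟩ | ⟨_, j, hj, hθ⟩
  · exact absurd hc hγ
  · refine ⟨j, hj, ?_⟩
    have e : TH3.thetaF p (thetaQB p s r m) j =
        fun z : ℍ => -(1 / (p : ℂ)) * thetaDual p s r m ((z : ℂ) + j) := by
      funext z
      rw [TH3.thetaF, TH3.thetaQ, thetaDual]
      congr 1
      refine tsum_congr fun y => ?_
      rw [mul_div_assoc]
    rw [← e]
    exact hθ

end

end Fermat.Agent.S16
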