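import Fermat.Agent.S16.LowerBoundCore
import Fermat.Agent.S16.ThetaFinal
import Fermat.Agent.S16.Eis2
import Fermat.Agent.S16.ThetaGlue

/-!
# S16: the lower bound (LB)

There is a cusp form of weight two on `Γ₀(p)` with integral `q`-expansion congruent to
`∑ σ'(k) q^k` modulo `n = (p - 1) / gcd (p - 1, 12)`, where `σ'(k)` is the sum of the divisors of
`k` prime to `p`.
-/

set_option autoImplicit false
set_option linter.unusedSectionVars false
set_option linter.style.haveILetI false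

namespace Fermat.Agent.S16

open UpperHalfPlane Complex ModularForm CongruenceSubgroup ModularCurve
open scoped MatrixGroups

/-- The lower bound, given the `Γ₀(p)`-invariance of the quaternary theta series. -/
theorem lb_exists_of (p : ℕ) [Fact p.Prime]
    (hglue : p ≠ 2 → ∃ s r m : ℤ, 0 < s ∧ (4 * s - 1) * m = r ^ 2 + p ∧
      ∀ γ : SL(2, ℤ), γ ∈ Gamma0 p →
        (fun z : ℍ => thetaFun p s r m z) ∣[(2 : ℤ)] γ = fun z : ℍ => thetaFun p s r m z) :
    ∃ f0 : CuspForm (Gamma0 p) 2, ∀ k, 1 ≤ k →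
      ∃ a : ℤ, (qExpansion 1 f0).coeff k = (a : ℂ) ∧
        (eisensteinNumerator p : ℤ) ∣ a - ∑ d ∈ k.divisors with ¬ p ∣ d, (d : ℤ) := by
  haveI : NeZero p := ⟨(Fact.out : p.Prime).ne_zero⟩
  by_cases hp2 : p = 2
  · subst hp2
    refine ⟨0, fun k _ => ⟨0, ?_, ?_⟩⟩
    · have : (⇑(0 : CuspForm (Gamma0 2) 2) : ℍ → ℂ) = 0 := rfl
      rw [this, qExpansion_zero]
      simp
    · have : eisensteinNumerator 2 = 1 := by decide
      rw [this]
      exact one_dvd _
  · obtain ⟨s, r, m, hs, hm, hΓ⟩ := hglue hp2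
    obtain ⟨FΘ, -, hΘ0, hΘ⟩ := theta_form_of hs hm hΓ
    refine lb_core p (fun k => ∑ d ∈ k.divisors with ¬ p ∣ d, (d : ℤ)) (e2pForm p) ?_ ?_ FΘ hΘ0 hΘ
      (fun f hf h0 => ct_mem_CF_of_coeff_zero p hf h0)
    · rw [coe_e2pForm, e2p_qExpansion_coeff, e2pCoeff_zero]
      push_cast
      ring
    · intro k hk
      rw [coe_e2pForm, e2p_qExpansion_coeff, e2pCoeff_of_ne_zero p k (by omega)]
      push_cast
      ring

/-- The quaternary theta series gives, for every odd prime `p`, a modular form of weight two on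
`Γ₀(p)` with `q`-expansion `1 + 2 t`, `t ∈ q ℤ[[q]]`. -/
theorem theta_exists (p : ℕ) [Fact p.Prime] (hp2 : p ≠ 2) :
    ∃ F : ModularForm (Gamma0 p) 2, (qExpansion 1 F).coeff 0 = 1 ∧
      ∀ n, 1 ≤ n → ∃ k : ℤ, (qExpansion 1 F).coeff n = 2 * (k : ℂ) := by
  obtain ⟨s, r, m, hs, -, hm, han⟩ := thetaForm_exists p Fact.out hp2
  obtain ⟨F, -, h0, hn⟩ := theta_form_of hs hm (thetaFun_slash_Gamma0 p hp2 s r m hs hm han)
  exact ⟨F, h0, hn⟩

/-- **The lower bound (LB)**, in the shape of the hypothesis `hLB` of `alg_main_sum`. -/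
theorem lb_exists (p : ℕ) [Fact p.Prime] :
    ∃ f0 : CuspForm (Gamma0 p) 2, ∀ k, 1 ≤ k →
      ∃ a : ℤ, (qExpansion 1 f0).coeff k = (a : ℂ) ∧
        (eisensteinNumerator p : ℤ) ∣ a - ∑ d ∈ k.divisors with ¬ p ∣ d, (d : ℤ) := by
  refine lb_exists_of p fun hp2 => ?_
  obtain ⟨s, r, m, hs, -, hm, han⟩ := thetaForm_exists p Fact.out hp2
  exact ⟨s, r, m, hs, hm, thetaFun_slash_Gamma0 p hp2 s r m hs hm han⟩

end Fermat.Agent.S16
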