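import Fermat.Statements.S16
import Fermat.Agent.S07
import Fermat.Agent.S24.Index

/-!
# S16 for the small primes `p = 2, 3`

For `p ∈ {2, 3}` there are no nonzero weight-2 cusp forms on `Γ₀(p)` (Sturm bound), so the
integral lattice is zero, the Hecke lattice algebra is the zero ring, and the quotient by any
ideal has exactly one element; `eisensteinNumerator 2 = eisensteinNumerator 3 = 1`.
-/

set_option autoImplicit false
open ModularCurve CuspForm
open ModularForm UpperHalfPlane

namespace Fermat.Agent.S16

/-- Every weight-2 cusp form of level `Γ₀(3)` vanishes (Sturm bound, index `4`). -/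
theorem small_cusp_three (f : CuspForm (CongruenceSubgroup.Gamma0 3) 2) : f = 0 := by
  let g : ModularForm (CongruenceSubgroup.Gamma0 3) 2 :=
    { toSlashInvariantForm := f.toSlashInvariantForm
      holo' := f.holo'
      bdd_at_cusps' := fun hc => ModularFormClass.bdd_at_cusps f hc }
  have hg : g = 0 := by
    apply ModularForm.sturm_bound_Gamma0 3 g
    intro n hn
    have hidx : (CongruenceSubgroup.Gamma0 3).index = 4 := by
      rw [Fermat.Agent.S24.idx_index_eq 3 (by norm_num)]
      unfold dedekindPsi
      have h3 : Nat.divisors 3 = {1, 3} := by decide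
      rw [h3, Finset.filter_true_of_mem]
      · simp
      · intro d hd
        simp only [Finset.mem_insert, Finset.mem_singleton] at hd
        rcases hd with rfl | rfl
        · exact squarefree_one
        · exact Nat.prime_three.squarefree
    have hn0 : n = 0 := by
      rw [hidx] at hn
      have : ((2 : ℤ) * ((4 : ℕ) : ℤ)).toNat / 12 = 0 := by decide
      omega
    subst hn0
    exact CuspFormClass.qExpansion_coeff_zero (f := f) one_pos
      (CongruenceSubgroup.one_mem_strictPeriods_Gamma0 3)
  ext z
  have := congrArg (fun φ : ModularForm (CongruenceSubgroup.Gamma0 3) 2 => φ z) hg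
  exact this

/-- A quotient of a subsingleton ring has one element. -/
theorem small_card_quot_eq_one {R : Type*} [CommRing R] [Subsingleton R] (I : Ideal R) :
    Nat.card (R ⧸ I) = 1 := by
  have hs : Subsingleton (R ⧸ I) := by
    refine ⟨fun a b => ?_⟩
    induction a using Quotient.inductionOn' with
    | _ a =>
      induction b using Quotient.inductionOn' with
      | _ b => rw [Subsingleton.elim a b]
  haveI : Unique (R ⧸ I) := ⟨⟨0⟩, fun a => Subsingleton.elim _ _⟩
  exact Nat.card_unique

/-- If all weight-2 cusp forms of level `Γ₀(p)` vanish, the S16 quotient has one element. -/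
theorem small_card_of_cusp_eq_zero (p : ℕ) [Fact p.Prime]
    (h : ∀ f : CuspForm (CongruenceSubgroup.Gamma0 p) 2, f = 0) :
    Nat.card (↥(heckeLatticeAlgebra p ∅) ⧸
        Ideal.map ((latticeRestrictHom p ∅).toRingHom.comp (heckeEvalForms p 2))
          (eisensteinIdeal p)) = 1 := by
  have h1 : Subsingleton (CuspForm (CongruenceSubgroup.Gamma0 p) 2) :=
    ⟨fun a b => (h a).trans (h b).symm⟩
  have h2 : Subsingleton ↥(intLattice p 2) := ⟨fun a b => Subtype.ext (Subsingleton.elim _ _)⟩
  have h3 : Subsingleton (Module.End ℤ ↥(intLattice p 2)) :=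
    ⟨fun a b => LinearMap.ext fun x => Subsingleton.elim _ _⟩
  haveI h4 : Subsingleton ↥(heckeLatticeAlgebra p ∅) :=
    ⟨fun a b => Subtype.ext (Subsingleton.elim _ _)⟩
  exact small_card_quot_eq_one _

/-- **S16 for `p = 2, 3`.** -/
theorem s16_small (p : ℕ) [Fact p.Prime] (hp : p = 2 ∨ p = 3) :
    Nat.card (↥(heckeLatticeAlgebra p ∅) ⧸
        Ideal.map ((latticeRestrictHom p ∅).toRingHom.comp (heckeEvalForms p 2))
          (eisensteinIdeal p)) =
      eisensteinNumerator p := by
  rcases hp with rfl | rfl
  · rw [small_card_of_cusp_eq_zero 2 Fermat.Agent.S07.result]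
    decide
  · rw [small_card_of_cusp_eq_zero 3 small_cusp_three]
    decide

end Fermat.Agent.S16
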