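import Fermat.Agent.S16.SharpConj

/-!
# S16 toolkit (TK), part 3: expansions of the conjugates and their symmetric functions

* `tkSer p k f o` : the expansion in `t = q^(1/p)` of the conjugate of `f` along `o`:
  `expand p (qExpansion 1 f)` for `o = none` and `rescale (ζ^j) (qExpansion 1 f♯)` for
  `o = some j` (`ζ = tkZeta p = exp(2πi/p)`); `tk_qExpansion_cj` identifies it with the
  period `p` expansion of the conjugate.
* `tk_esymm` : the `i`-th elementary symmetric function of the conjugates is a level one form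
  of weight `i * k` whose `q`-expansion (expanded by `p`) is the `i`-th elementary symmetric
  polynomial of the `tkSer p k f o`.
* `tk_trace_coeff` : `Tr f = f + p U(f♯)`; `tk_weight_two` : in weight two `a_n(f) + p a_{pn}(f♯) = 0`;
  `tk_mem_CF_of_coeff_zero`; `tk_qExpansion_V`.
* `tk_esymm_sub`, `tk_esymm_map` : the same over a subring `O ⊆ ℂ` and after a ring homomorphism
  `φ : O →+* κ` (`tkSerR`, `tkE` are the formal conjugate series and their `e_i`).
-/

set_option autoImplicit false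

namespace Fermat.Agent.S16

open UpperHalfPlane ModularForm CongruenceSubgroup SlashInvariantForm Function
open scoped MatrixGroups Manifold Real
open Fermat.Agent.S20 (MF CF G0 QQ cj trP jet bridgeHom bridgeEquiv)

/-- `F` has period `h > 0`, is holomorphic on the upper half plane and bounded at `i∞`. -/
structure TkNice (h : ℝ) (F : ℍ → ℂ) : Prop where
  pos : 0 < h
  per : Function.Periodic (F ∘ ofComplex) h
  holo : MDiff F
  bdd : IsBoundedAtImInfty F

namespace TkNice

variable {h : ℝ} {F G : ℍ → ℂ}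

theorem analyticAt (hF : TkNice h F) : AnalyticAt ℂ (cuspFunction h F) 0 :=
  analyticAt_cuspFunction_zero hF.pos hF.per hF.holo hF.bdd

theorem add (hF : TkNice h F) (hG : TkNice h G) : TkNice h (F + G) where
  pos := hF.pos
  per := fun z => by
    have h1 := hF.per z
    have h2 := hG.per z
    simp only [Function.comp_apply, Pi.add_apply] at h1 h2 ⊢
    rw [h1, h2]
  holo := hF.holo.add hG.holo
  bdd := Filter.BoundedAtFilter.add hF.bdd hG.bdd

theorem mul (hF : TkNice h F) (hG : TkNice h G) : TkNice h (F * G) where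
  pos := hF.pos
  per := fun z => by
    have h1 := hF.per z
    have h2 := hG.per z
    simp only [Function.comp_apply, Pi.mul_apply] at h1 h2 ⊢
    rw [h1, h2]
  holo := hF.holo.mul hG.holo
  bdd := Filter.BoundedAtFilter.mul hF.bdd hG.bdd

theorem const (hh : 0 < h) (a : ℂ) : TkNice h (fun _ => a) where
  pos := hh
  per := fun _ => rfl
  holo := fun _ => mdifferentiableAt_const
  bdd := Filter.const_boundedAtFilter atImInfty a

theorem sum {ι : Type*} (hh : 0 < h) (s : Finset ι) {f : ι → ℍ → ℂ}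
    (hf : ∀ i ∈ s, TkNice h (f i)) : TkNice h (∑ i ∈ s, f i) := by
  classical
  induction s using Finset.induction_on with
  | empty =>
    rw [Finset.sum_empty]
    exact const hh 0
  | insert i t hi IH =>
    rw [Finset.sum_insert hi]
    exact (hf i (Finset.mem_insert_self i t)).add
      (IH fun j hj => hf j (Finset.mem_insert_of_mem hj))

theorem prod {ι : Type*} (hh : 0 < h) (s : Finset ι) {f : ι → ℍ → ℂ}
    (hf : ∀ i ∈ s, TkNice h (f i)) : TkNice h (∏ i ∈ s, f i) := by
  classical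
  induction s using Finset.induction_on with
  | empty =>
    rw [Finset.prod_empty]
    exact const hh 1
  | insert i t hi IH =>
    rw [Finset.prod_insert hi]
    exact (hf i (Finset.mem_insert_self i t)).mul
      (IH fun j hj => hf j (Finset.mem_insert_of_mem hj))

theorem qExpansion_sum {ι : Type*} (hh : 0 < h) (s : Finset ι) {f : ι → ℍ → ℂ}
    (hf : ∀ i ∈ s, TkNice h (f i)) :
    qExpansion h (∑ i ∈ s, f i) = ∑ i ∈ s, qExpansion h (f i) := by
  classical
  induction s using Finset.induction_on with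
  | empty => simpa using UpperHalfPlane.qExpansion_zero h
  | insert i t hi IH =>
    rw [Finset.sum_insert hi, Finset.sum_insert hi,
      UpperHalfPlane.qExpansion_add (hf i (Finset.mem_insert_self i t)).analyticAt
        (sum hh t fun j hj => hf j (Finset.mem_insert_of_mem hj)).analyticAt,
      IH fun j hj => hf j (Finset.mem_insert_of_mem hj)]

theorem qExpansion_prod {ι : Type*} (hh : 0 < h) (s : Finset ι) {f : ι → ℍ → ℂ}
    (hf : ∀ i ∈ s, TkNice h (f i)) :
    qExpansion h (∏ i ∈ s, f i) = ∏ i ∈ s, qExpansion h (f i) := by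
  classical
  induction s using Finset.induction_on with
  | empty => simpa using UpperHalfPlane.qExpansion_one h
  | insert i t hi IH =>
    rw [Finset.prod_insert hi, Finset.prod_insert hi,
      UpperHalfPlane.qExpansion_mul (hf i (Finset.mem_insert_self i t)).analyticAt
        (prod hh t fun j hj => hf j (Finset.mem_insert_of_mem hj)).analyticAt,
      IH fun j hj => hf j (Finset.mem_insert_of_mem hj)]

end TkNice

section Expansions

variable (p : ℕ) [NeZero p]

/-- The root of unity `exp(2πi/p)`. -/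
noncomputable def tkZeta : ℂ := Complex.exp (2 * π * Complex.I / p)

theorem tkZeta_pow_p : tkZeta p ^ p = 1 := by
  unfold tkZeta
  rw [← Complex.exp_nat_mul]
  have : (p : ℂ) * (2 * π * Complex.I / p) = 2 * π * Complex.I := by
    field_simp [tk_p_ne p]
  rw [this, Complex.exp_two_pi_mul_I]

theorem tk_qParam_div (j : ℕ) (z : ℍ) :
    Periodic.qParam (1 : ℝ) (tkDiv p (j : ℤ) z) = tkZeta p ^ j * Periodic.qParam (p : ℝ) z := by
  unfold tkZeta Periodic.qParam
  rw [← Complex.exp_nat_mul, ← Complex.exp_add]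
  congr 1
  rw [tkDiv_coe]
  push_cast
  field_simp [tk_p_ne p]
  ring

theorem tk_qParam_pow (z : ℍ) :
    Periodic.qParam (p : ℝ) z ^ p = Periodic.qParam (1 : ℝ) z := by
  unfold Periodic.qParam
  rw [← Complex.exp_nat_mul]
  congr 1
  push_cast
  field_simp [tk_p_ne p]

omit [NeZero p] in
/-- A modular form on `Γ₀(p)` is nice (period one). -/
theorem tk_qnice {k : ℤ} {f : ℍ → ℂ} (hf : f ∈ MF (G0 p) k) : Fermat.Agent.S23.QNice f := by
  obtain ⟨F, rfl⟩ := hf
  exact Fermat.Agent.S23.qnice_Gamma0 F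

/-- Period `p` expansion of a function of period one. -/
theorem tk_qExpansion_expand {g : ℍ → ℂ} (hg : Fermat.Agent.S23.QNice g) :
    qExpansion (p : ℝ) g = PowerSeries.expand p (NeZero.ne p) (qExpansion 1 g) := by
  have hper : Periodic (g ∘ ofComplex) (p : ℝ) := by
    have := hg.per.nat_mul p
    simpa using this
  ext m
  symm
  refine Fermat.Agent.S20.jets_coeff_unique
    (c := fun m => (PowerSeries.expand p (NeZero.ne p) (qExpansion 1 g)).coeff m)
    (tk_p_pos p) hper hg.holo hg.bdd (fun τ => ?_) m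
  have h1 := hasSum_qExpansion one_pos hg.per hg.holo hg.bdd τ
  have hinj : Function.Injective (fun n : ℕ => p * n) :=
    fun a b h => Nat.eq_of_mul_eq_mul_left (NeZero.pos p) h
  have h2 : HasSum ((fun m : ℕ => (PowerSeries.expand p (NeZero.ne p) (qExpansion 1 g)).coeff m •
      Periodic.qParam (p : ℝ) τ ^ m) ∘ fun n : ℕ => p * n) (g τ) := by
    convert h1 using 1
    funext n
    simp only [Function.comp_apply]
    rw [PowerSeries.coeff_expand_mul, pow_mul, tk_qParam_pow]
  refine (hinj.hasSum_iff ?_).mp h2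
  intro m hm
  have hnd : ¬ p ∣ m := fun ⟨n, hn⟩ => hm ⟨n, hn.symm⟩
  rw [PowerSeries.coeff_expand_of_not_dvd p (NeZero.ne p) _ hnd, zero_smul]

/-- The expansion in `q^(1/p)` of the conjugate of `f` along `o`. -/
noncomputable def tkSer (k : ℤ) (f : ℍ → ℂ) : Option (ZMod p) → PowerSeries ℂ
  | none => PowerSeries.expand p (NeZero.ne p) (qExpansion 1 f)
  | some j => PowerSeries.rescale (tkZeta p ^ j.val) (qExpansion 1 (tkSharp p k f))

theorem tk_qExpansion_cj {k : ℤ} {f : ℍ → ℂ} (hf : f ∈ MF (G0 p) k) (o : Option (ZMod p)) :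
    qExpansion (p : ℝ) (cj p k f (tkCos p o)) = tkSer p k f o := by
  rcases o with _ | j
  · rw [tk_cj_none p hf]
    exact tk_qExpansion_expand p (tk_qnice p hf)
  · ext m
    symm
    refine Fermat.Agent.S20.jets_coeff_unique
      (c := fun m => (tkSer p k f (some j)).coeff m) (tk_p_pos p)
      (Fermat.Agent.S20.jets_periodic p hf _) (Fermat.Agent.S20.mdiff_cj p hf _)
      (Fermat.Agent.S20.isBoundedAtImInfty_cj p hf _) (fun τ => ?_) m
    have hs := tk_qnice p (tk_sharp_mem p hf)
    have h1 := hasSum_qExpansion one_pos hs.per hs.holo hs.bdd (tkDiv p (j.val : ℤ) τ)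
    rw [tk_cj_some p hf]
    convert h1 using 1
    funext n
    simp only [tkSer]
    rw [PowerSeries.coeff_rescale, tk_qParam_div, mul_pow, smul_eq_mul, smul_eq_mul]
    ring


theorem tk_nice_cj {k : ℤ} {f : ℍ → ℂ} (hf : f ∈ MF (G0 p) k) (q : QQ p) :
    TkNice (p : ℝ) (cj p k f q) :=
  ⟨tk_p_pos p, Fermat.Agent.S20.jets_periodic p hf q, Fermat.Agent.S20.mdiff_cj p hf q,
    Fermat.Agent.S20.isBoundedAtImInfty_cj p hf q⟩

theorem tk_aeval_esymm {σ : Type*} [Fintype σ] {A : Type*} [CommRing A] [Algebra ℂ A]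
    (g : σ → A) (i : ℕ) :
    MvPolynomial.aeval g (MvPolynomial.esymm σ ℂ i) =
      ∑ t ∈ Finset.powersetCard i (Finset.univ : Finset σ), ∏ q ∈ t, g q := by
  simp [MvPolynomial.esymm, map_sum, map_prod]

theorem tk_esymm_isHomogeneous (σ : Type*) [Fintype σ] (i : ℕ) :
    (MvPolynomial.esymm σ ℂ i).IsHomogeneous i := by
  unfold MvPolynomial.esymm
  refine MvPolynomial.IsHomogeneous.sum _ _ _ fun t ht => ?_
  have h := MvPolynomial.IsHomogeneous.prod t (fun q : σ => (MvPolynomial.X q : MvPolynomial σ ℂ))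
    (fun _ => 1) (fun q _ => MvPolynomial.isHomogeneous_X ℂ q)
  rw [Finset.mem_powersetCard] at ht
  simpa [ht.2] using h

/-- **Symmetric functions of the conjugates.**  For a form `f` of weight `k` on `Γ₀(p)`, `p`
prime, the `i`-th elementary symmetric function of its `p + 1` conjugates is a level one form
`E` of weight `i * k`, and its `q`-expansion, read as a series in `t = q^(1/p)`, is the `i`-th
elementary symmetric polynomial of the `p + 1` series `tkSer p k f o`. -/
theorem tk_esymm (hp : p.Prime) {k : ℤ} {f : ℍ → ℂ} (hf : f ∈ MF (G0 p) k) (i : ℕ) :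
    ∃ E : ModularForm 𝒮ℒ (i * k),
      (⇑E = ∑ t ∈ Finset.powersetCard i (Finset.univ : Finset (QQ p)), ∏ q ∈ t, cj p k f q) ∧
      PowerSeries.expand p (NeZero.ne p) (qExpansion 1 E) =
        MvPolynomial.aeval (tkSer p k f) (MvPolynomial.esymm (Option (ZMod p)) ℂ i) := by
  obtain ⟨F, hF⟩ := id hf
  have hF' : (⇑F : ℍ → ℂ) = f := hF
  obtain ⟨E, hE⟩ := Fermat.Agent.S23.exists_modularForm_eval_symm F
    (MvPolynomial.esymm (QQ p) ℂ i) i (MvPolynomial.esymm_isSymmetric _ _ _)
    (tk_esymm_isHomogeneous _ _)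
  have hfun : (⇑E : ℍ → ℂ) = ∑ t ∈ Finset.powersetCard i (Finset.univ : Finset (QQ p)),
      ∏ q ∈ t, cj p k f q := by
    funext z
    rw [hE z]
    simp only [MvPolynomial.esymm, map_sum, map_prod, MvPolynomial.eval_X, Finset.sum_apply,
      Finset.prod_apply]
    refine Finset.sum_congr rfl fun t _ => Finset.prod_congr rfl fun q _ => ?_
    rw [← hF', Fermat.Agent.S20.cj_eq_quotientFunc]
  refine ⟨E, hfun, ?_⟩
  have h1 : qExpansion (p : ℝ) (⇑E) = PowerSeries.expand p (NeZero.ne p) (qExpansion 1 E) :=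
    tk_qExpansion_expand p (Fermat.Agent.S23.qnice_SL E)
  have h2 : ∀ t ∈ Finset.powersetCard i (Finset.univ : Finset (QQ p)),
      qExpansion (p : ℝ) (∏ q ∈ t, cj p k f q) =
        ∏ q ∈ t, qExpansion (p : ℝ) (cj p k f q) :=
    fun t _ => TkNice.qExpansion_prod (tk_p_pos p) t fun q _ => tk_nice_cj p hf q
  have h3 : qExpansion (p : ℝ) (⇑E) = ∑ t ∈ Finset.powersetCard i (Finset.univ : Finset (QQ p)),
      ∏ q ∈ t, qExpansion (p : ℝ) (cj p k f q) := by
    rw [hfun, TkNice.qExpansion_sum (tk_p_pos p) _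
      (fun t _ => TkNice.prod (tk_p_pos p) t fun q _ => tk_nice_cj p hf q)]
    exact Finset.sum_congr rfl h2
  rw [← h1, h3, ← tk_aeval_esymm (fun q => qExpansion (p : ℝ) (cj p k f q)) i,
    ← MvPolynomial.rename_esymm (Option (ZMod p)) ℂ i (tkEquiv p hp), MvPolynomial.aeval_rename]
  have h4 : (fun q => qExpansion (p : ℝ) (cj p k f q)) ∘ ⇑(tkEquiv p hp) = tkSer p k f := by
    funext o
    exact tk_qExpansion_cj p hf o
  rw [h4]

end Expansions

section Trace

variable (p : ℕ) [NeZero p]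

theorem tk_jet_eq {k : ℤ} {f : ℍ → ℂ} (hf : f ∈ MF (G0 p) k) (o : Option (ZMod p)) (n : ℕ) :
    jet p k f (tkCos p o) n = (tkSer p k f o).coeff n := by
  unfold jet
  rw [tk_qExpansion_cj p hf o]

theorem tk_jet_none {k : ℤ} {f : ℍ → ℂ} (hf : f ∈ MF (G0 p) k) (n : ℕ) :
    jet p k f (tkCos p none) (p * n) = (qExpansion 1 f).coeff n := by
  rw [tk_jet_eq p hf]
  exact PowerSeries.coeff_expand_mul p (NeZero.ne p) _ n

theorem tk_jet_some {k : ℤ} {f : ℍ → ℂ} (hf : f ∈ MF (G0 p) k) (j : ZMod p) (n : ℕ) :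
    jet p k f (tkCos p (some j)) n =
      (tkZeta p ^ j.val) ^ n * (qExpansion 1 (tkSharp p k f)).coeff n := by
  rw [tk_jet_eq p hf]
  exact PowerSeries.coeff_rescale _ _ n

/-- **Trace formula**: `Tr f = f + p U(f♯)` on `q`-expansions. -/
theorem tk_trace_coeff (hp : p.Prime) {k : ℤ} {f : ℍ → ℂ} (hf : f ∈ MF (G0 p) k) (n : ℕ) :
    (qExpansion 1 (trP p k f)).coeff n =
      (qExpansion 1 f).coeff n + p * (qExpansion 1 (tkSharp p k f)).coeff (p * n) := by
  rw [Fermat.Agent.S20.jets_coeff_trP p hf n, ← (tkEquiv p hp).sum_comp, Fintype.sum_option]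
  simp only [tkEquiv_apply]
  rw [mul_comm n p, tk_jet_none p hf n]
  congr 1
  have h : ∀ j : ZMod p, jet p k f (tkCos p (some j)) (p * n) =
      (qExpansion 1 (tkSharp p k f)).coeff (p * n) := by
    intro j
    rw [tk_jet_some p hf j, ← pow_mul, mul_comm j.val, mul_assoc, pow_mul, tkZeta_pow_p, one_pow,
      one_mul]
  rw [Finset.sum_congr rfl fun j _ => h j, Finset.sum_const, Finset.card_univ, ZMod.card,
    nsmul_eq_mul]

/-- In weight two the trace vanishes: `a_n(f) = -p a_{pn}(f♯)`, i.e. `p f♯ = -U f`. -/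
theorem tk_weight_two (hp : p.Prime) {f : ℍ → ℂ} (hf : f ∈ MF (G0 p) 2) (n : ℕ) :
    (qExpansion 1 f).coeff n + p * (qExpansion 1 (tkSharp p 2 f)).coeff (p * n) = 0 := by
  rw [← tk_trace_coeff p hp hf n,
    Fermat.Agent.S20.lo_eq_zero_of_two (Fermat.Agent.S20.trP_mem p hf), UpperHalfPlane.qExpansion_zero]
  simp

/-- A weight two form on `Γ₀(p)` whose constant term at `∞` vanishes is a cusp form. -/
theorem tk_mem_CF_of_coeff_zero (hp : p.Prime) {f : ℍ → ℂ} (hf : f ∈ MF (G0 p) 2)
    (h0 : (qExpansion 1 f).coeff 0 = 0) : f ∈ CF (G0 p) 2 := by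
  rw [Fermat.Agent.S20.mem_CF_iff_jet p hf]
  intro q
  obtain ⟨o, rfl⟩ := (tkEquiv p hp).surjective q
  rw [tkEquiv_apply]
  have hb : (qExpansion 1 (tkSharp p 2 f)).coeff 0 = 0 := by
    have h := tk_weight_two p hp hf 0
    rw [h0, zero_add, mul_zero] at h
    exact (mul_eq_zero.mp h).resolve_left (tk_p_ne p)
  rcases o with _ | j
  · have := tk_jet_none p hf 0
    rw [mul_zero] at this
    rw [this, h0]
  · rw [tk_jet_some p hf j 0, hb, mul_zero]

/-- `q`-expansion of `V φ`. -/
theorem tk_qExpansion_V {k : ℤ} {φ : ℍ → ℂ} (hφ : φ ∈ MF 𝒮ℒ k) :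
    qExpansion 1 (tkV p φ) = PowerSeries.expand p (NeZero.ne p) (qExpansion 1 φ) := by
  have hV := tk_qnice p (tk_V_mem p hφ)
  have hn : Fermat.Agent.S23.QNice φ := by
    obtain ⟨F, rfl⟩ := hφ
    exact Fermat.Agent.S23.qnice_SL F
  ext m
  symm
  refine Fermat.Agent.S20.jets_coeff_unique
    (c := fun m => (PowerSeries.expand p (NeZero.ne p) (qExpansion 1 φ)).coeff m)
    one_pos hV.per hV.holo hV.bdd (fun τ => ?_) m
  have h1 := hasSum_qExpansion one_pos hn.per hn.holo hn.bdd (tkMul p τ)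
  have hq : Periodic.qParam (1 : ℝ) (tkMul p τ) = Periodic.qParam (1 : ℝ) τ ^ p := by
    unfold Periodic.qParam
    rw [← Complex.exp_nat_mul]
    congr 1
    rw [tkMul_coe]
    push_cast
    ring
  have hinj : Function.Injective (fun n : ℕ => p * n) :=
    fun a b h => Nat.eq_of_mul_eq_mul_left (NeZero.pos p) h
  have h2 : HasSum ((fun m : ℕ => (PowerSeries.expand p (NeZero.ne p) (qExpansion 1 φ)).coeff m •
      Periodic.qParam (1 : ℝ) τ ^ m) ∘ fun n : ℕ => p * n) (tkV p φ τ) := by
    show HasSum _ (φ (tkMul p τ))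
    convert h1 using 1
    funext n
    simp only [Function.comp_apply]
    rw [PowerSeries.coeff_expand_mul, pow_mul, hq]
  refine (hinj.hasSum_iff ?_).mp h2
  intro m hm
  have hnd : ¬ p ∣ m := fun ⟨n, hn⟩ => hm ⟨n, hn.symm⟩
  rw [PowerSeries.coeff_expand_of_not_dvd p (NeZero.ne p) _ hnd, zero_smul]

end Trace

section Reduction

variable (p : ℕ) [NeZero p]

/-- The series of the conjugates over a coefficient ring `R` containing a `p`-th root of unity
`ζ`: `a(t^p)` and `b(ζ^j t)`. -/
noncomputable def tkSerR {R : Type*} [CommRing R] (ζ : R) (a b : PowerSeries R) :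
    Option (ZMod p) → PowerSeries R
  | none => PowerSeries.expand p (NeZero.ne p) a
  | some j => PowerSeries.rescale (ζ ^ j.val) b

theorem tkSerR_map {R S : Type*} [CommRing R] [CommRing S] (φ : R →+* S) (ζ : R)
    (a b : PowerSeries R) (o : Option (ZMod p)) :
    (tkSerR p ζ a b o).map φ = tkSerR p (φ ζ) (a.map φ) (b.map φ) o := by
  rcases o with _ | j
  · exact PowerSeries.map_expand p (NeZero.ne p) φ a
  · show (PowerSeries.rescale (ζ ^ j.val) b).map φ = PowerSeries.rescale (φ ζ ^ j.val) (b.map φ)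
    rw [← map_pow, PowerSeries.rescale_map]

theorem tkSer_eq_tkSerR (k : ℤ) (f : ℍ → ℂ) :
    tkSer p k f = tkSerR p (tkZeta p) (qExpansion 1 f) (qExpansion 1 (tkSharp p k f)) := by
  funext o
  rcases o with _ | j <;> rfl

/-- The elementary symmetric polynomial `e_i` of the conjugate series. -/
noncomputable def tkE {R : Type*} [CommRing R] (ζ : R) (a b : PowerSeries R) (i : ℕ) :
    PowerSeries R :=
  ∑ t ∈ Finset.powersetCard i (Finset.univ : Finset (Option (ZMod p))), ∏ o ∈ t, tkSerR p ζ a b o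

theorem tkE_map {R S : Type*} [CommRing R] [CommRing S] (φ : R →+* S) (ζ : R)
    (a b : PowerSeries R) (i : ℕ) :
    (tkE p ζ a b i).map φ = tkE p (φ ζ) (a.map φ) (b.map φ) i := by
  unfold tkE
  rw [map_sum]
  refine Finset.sum_congr rfl fun t _ => ?_
  rw [map_prod]
  exact Finset.prod_congr rfl fun o _ => tkSerR_map p φ ζ a b o

/-- `tk_esymm` with the sum-of-products form of the right hand side. -/
theorem tk_esymm' (hp : p.Prime) {k : ℤ} {f : ℍ → ℂ} (hf : f ∈ MF (G0 p) k) (i : ℕ) :
    ∃ E : ModularForm 𝒮ℒ (i * k),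
      (⇑E = ∑ t ∈ Finset.powersetCard i (Finset.univ : Finset (QQ p)), ∏ q ∈ t, cj p k f q) ∧
      PowerSeries.expand p (NeZero.ne p) (qExpansion 1 E) =
        tkE p (tkZeta p) (qExpansion 1 f) (qExpansion 1 (tkSharp p k f)) i := by
  obtain ⟨E, hE1, hE2⟩ := tk_esymm p hp hf i
  refine ⟨E, hE1, ?_⟩
  rw [hE2, tk_aeval_esymm, tkSer_eq_tkSerR]
  rfl

/-- **Symmetric functions of the conjugates, over a subring.**  If the `q`-expansions of `f` and
`f♯` have coefficients in a subring `O ∋ ζ` of `ℂ` (given as `a b : PowerSeries O`), then the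
`i`-th elementary symmetric function of the conjugates is a level one form `E` of weight
`i * k` whose `q`-expansion has coefficients in `O` (given as `c : PowerSeries O`) and
`c(t^p) = e_i(a(t^p), b(ζ^j t) : j mod p)` in `PowerSeries O`. -/
theorem tk_esymm_sub (hp : p.Prime) {k : ℤ} {f : ℍ → ℂ} (hf : f ∈ MF (G0 p) k)
    (O : Subring ℂ) (hζ : tkZeta p ∈ O) (a b : PowerSeries O)
    (ha : qExpansion 1 f = a.map O.subtype)
    (hb : qExpansion 1 (tkSharp p k f) = b.map O.subtype) (i : ℕ) :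
    ∃ (E : ModularForm 𝒮ℒ (i * k)) (c : PowerSeries O),
      (⇑E = ∑ t ∈ Finset.powersetCard i (Finset.univ : Finset (QQ p)), ∏ q ∈ t, cj p k f q) ∧
      qExpansion 1 E = c.map O.subtype ∧
      PowerSeries.expand p (NeZero.ne p) c = tkE p (⟨tkZeta p, hζ⟩ : O) a b i := by
  obtain ⟨E, hE1, hE2⟩ := tk_esymm' p hp hf i
  set S : PowerSeries O := tkE p (⟨tkZeta p, hζ⟩ : O) a b i with hS
  have hmap : S.map O.subtype = PowerSeries.expand p (NeZero.ne p) (qExpansion 1 E) := by
    rw [hE2, hS, tkE_map, ha, hb]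
    rfl
  have hcoe : ∀ m, ((S.coeff m : O) : ℂ) =
      (PowerSeries.expand p (NeZero.ne p) (qExpansion 1 E)).coeff m := by
    intro m
    rw [← hmap, PowerSeries.coeff_map]
    rfl
  refine ⟨E, PowerSeries.mk fun n => S.coeff (p * n), hE1, ?_, ?_⟩
  · ext n
    rw [PowerSeries.coeff_map, PowerSeries.coeff_mk]
    show _ = ((S.coeff (p * n) : O) : ℂ)
    rw [hcoe, PowerSeries.coeff_expand_mul]
  · ext m
    by_cases hm : p ∣ m
    · obtain ⟨n, rfl⟩ := hm
      rw [PowerSeries.coeff_expand_mul, PowerSeries.coeff_mk]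
    · rw [PowerSeries.coeff_expand_of_not_dvd p (NeZero.ne p) _ hm]
      have h := hcoe m
      rw [PowerSeries.coeff_expand_of_not_dvd p (NeZero.ne p) _ hm] at h
      have h' : ((S.coeff m : O) : ℂ) = ((0 : O) : ℂ) := h
      exact h'.symm

/-- **Symmetric functions of the conjugates, reduced.**  In the situation of `tk_esymm_sub`,
for every ring homomorphism `φ : O →+* κ` the reduction of the `q`-expansion of `E` is the
`i`-th elementary symmetric polynomial of the reduced conjugate series. -/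
theorem tk_esymm_map (hp : p.Prime) {k : ℤ} {f : ℍ → ℂ} (hf : f ∈ MF (G0 p) k)
    (O : Subring ℂ) (hζ : tkZeta p ∈ O) (a b : PowerSeries O)
    (ha : qExpansion 1 f = a.map O.subtype)
    (hb : qExpansion 1 (tkSharp p k f) = b.map O.subtype) (i : ℕ) :
    ∃ (E : ModularForm 𝒮ℒ (i * k)) (c : PowerSeries O),
      (⇑E = ∑ t ∈ Finset.powersetCard i (Finset.univ : Finset (QQ p)), ∏ q ∈ t, cj p k f q) ∧
      qExpansion 1 E = c.map O.subtype ∧
      ∀ {κ : Type} [CommRing κ] (φ : O →+* κ),
        PowerSeries.expand p (NeZero.ne p) (c.map φ) =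
          tkE p (φ ⟨tkZeta p, hζ⟩) (a.map φ) (b.map φ) i := by
  obtain ⟨E, c, hE1, hE2, hE3⟩ := tk_esymm_sub p hp hf O hζ a b ha hb i
  refine ⟨E, c, hE1, hE2, fun {κ} _ φ => ?_⟩
  rw [← PowerSeries.map_expand, hE3, tkE_map]

end Reduction

end Fermat.Agent.S16
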