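import Fermat.Agent.S16.Eis2
import Fermat.Prelude.Def_ModularCurve_ModularUnit

/-!
# S16: assembly of the upper bound

From a cusp form `f ∈ S₂(Γ₀(p))` with integer `q`-coefficients `a_k ≡ σ'_p(k) mod m` (`k ≥ 1`)
we build `G₁ := (c/g) (E₂ₚ + 24 f)`, a weight two form of level `Γ₀(p)` with integer
coefficients which is `≡ 1 mod M`, `M = 24 m / gcd(p - 1, 24 m)` (`ub_exists_form`).

`UbCong p M` is the statement that such a form `≡ 1 mod M` exists; the `U`-lemmas restrict `M`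
and `ub_main_of` deduces `m ∣ (p - 1) / gcd(p - 1, 12)`.
-/

set_option autoImplicit false

open UpperHalfPlane ModularForm Complex
open scoped Real MatrixGroups CongruenceSubgroup Manifold

noncomputable section

namespace Fermat.Agent.S16

/-- There is a weight two modular form of level `Γ₀(p)` with integer `q`-coefficients which is
congruent to `1` modulo `M`. -/
def UbCong (p M : ℕ) : Prop :=
  ∃ (G : ModularForm (CongruenceSubgroup.Gamma0 p) 2) (b : ℕ → ℤ),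
    (∀ n, (qExpansion 1 G).coeff n = (b n : ℂ)) ∧ (M : ℤ) ∣ b 0 - 1 ∧
      ∀ n, 1 ≤ n → (M : ℤ) ∣ b n

theorem UbCong.of_dvd {p M M' : ℕ} (h : UbCong p M) (hd : M' ∣ M) : UbCong p M' := by
  obtain ⟨G, b, hb, h0, hn⟩ := h
  have hd' : (M' : ℤ) ∣ (M : ℤ) := Int.natCast_dvd_natCast.mpr hd
  exact ⟨G, b, hb, hd'.trans h0, fun n h1 => hd'.trans (hn n h1)⟩

/-- The form `G₁ = (c/g) (E₂ₚ + 24 f)`. -/
theorem ub_exists_form (p : ℕ) [NeZero p] (hp1 : 1 < p) (m : ℕ)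
    (f : CuspForm (CongruenceSubgroup.Gamma0 p) 2) (a : ℕ → ℤ)
    (ha : ∀ k, (qExpansion 1 f).coeff k = (a k : ℂ))
    (hcong : ∀ k, 1 ≤ k → (m : ℤ) ∣ a k - ∑ d ∈ k.divisors with ¬ p ∣ d, (d : ℤ)) :
    UbCong p (24 * m / Nat.gcd (p - 1) (24 * m)) := by
  set g : ℕ := Nat.gcd (p - 1) (24 * m) with hg
  have hg0 : 0 < g := Nat.gcd_pos_of_pos_left _ (by omega)
  set M : ℕ := 24 * m / g with hM
  obtain ⟨A, hA⟩ : g ∣ p - 1 := Nat.gcd_dvd_left _ _
  have hgM : 24 * m = g * M := (Nat.mul_div_cancel' (Nat.gcd_dvd_right _ _)).symm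
  have hcop : Nat.Coprime A M := by
    have h := Nat.coprime_div_gcd_div_gcd (m := p - 1) (n := 24 * m) hg0
    rw [← hg, ← hM] at h
    rwa [hA, Nat.mul_div_cancel_left A hg0] at h
  -- the scaling constant
  obtain ⟨c, hc⟩ : ∃ c : ℤ, (M : ℤ) ∣ c * (-(A : ℤ)) - 1 := by
    have hb := Nat.gcd_eq_gcd_ab A M
    rw [hcop] at hb
    refine ⟨-Nat.gcdA A M, ⟨-Nat.gcdB A M, ?_⟩⟩
    push_cast at hb
    linear_combination -hb
  have ha0 : a 0 = 0 := by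
    have h0 := CuspFormClass.qExpansion_coeff_zero (f := f) one_pos
      (CongruenceSubgroup.one_mem_strictPeriods_Gamma0 p)
    rw [ha 0] at h0
    exact_mod_cast h0
  have hp1' : ((p - 1 : ℕ) : ℤ) = (p : ℤ) - 1 := by
    rw [Nat.cast_sub hp1.le]; simp
  -- the integer coefficients of `(E₂ₚ + 24 f)/g`
  have hdiv : ∀ n, ∃ t : ℤ, e2pCoeff p n + 24 * a n = (g : ℤ) * t ∧
      (n = 0 → t = -(A : ℤ)) ∧ (1 ≤ n → (M : ℤ) ∣ t) := by
    intro n
    rcases Nat.eq_zero_or_pos n with rfl | hn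
    · refine ⟨-(A : ℤ), ?_, fun _ => rfl, fun h => absurd h (by norm_num)⟩
      rw [e2pCoeff_zero, ha0]
      have : ((p - 1 : ℕ) : ℤ) = (g : ℤ) * A := by exact_mod_cast hA
      rw [hp1'] at this
      linear_combination -this
    · obtain ⟨s, hs⟩ := hcong n hn
      refine ⟨(M : ℤ) * s, ?_, fun h => absurd h (by omega), fun _ => Dvd.intro _ rfl⟩
      rw [e2pCoeff_of_ne_zero p n (by omega)]
      have : (24 : ℤ) * m = (g : ℤ) * M := by exact_mod_cast hgM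
      linear_combination 24 * hs + s * this
  choose t ht1 ht2 ht3 using hdiv
  have hΓ := CongruenceSubgroup.one_mem_strictPeriods_Gamma0 p
  refine ⟨((c : ℂ) / (g : ℂ)) • (e2pForm p + (24 : ℂ) • Fermat.Agent.S20.basicCuspToMod f),
    fun n => c * t n, fun n => ?_, ?_, fun n hn => ?_⟩
  · have e1 : (⇑(((c : ℂ) / (g : ℂ)) •
        (e2pForm p + (24 : ℂ) • Fermat.Agent.S20.basicCuspToMod f)) : ℍ → ℂ) =
        ((c : ℂ) / (g : ℂ)) • ⇑(e2pForm p + (24 : ℂ) • Fermat.Agent.S20.basicCuspToMod f) := rfl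
    have e2 : (⇑(e2pForm p + (24 : ℂ) • Fermat.Agent.S20.basicCuspToMod f) : ℍ → ℂ) =
        ⇑(e2pForm p) + ⇑((24 : ℂ) • Fermat.Agent.S20.basicCuspToMod f) := rfl
    have e3 : (⇑((24 : ℂ) • Fermat.Agent.S20.basicCuspToMod f) : ℍ → ℂ) =
        (24 : ℂ) • ⇑(Fermat.Agent.S20.basicCuspToMod f) := rfl
    have e4 : (⇑(Fermat.Agent.S20.basicCuspToMod f) : ℍ → ℂ) = ⇑f := rfl
    rw [e1, ModularForm.qExpansion_smul one_pos hΓ, e2,
      ModularForm.qExpansion_add one_pos hΓ, e3, ModularForm.qExpansion_smul one_pos hΓ, e4,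
      coe_e2pForm]
    simp only [map_smul, map_add, smul_eq_mul, e2p_qExpansion_coeff, ha]
    have hgc : (g : ℂ) ≠ 0 := Nat.cast_ne_zero.mpr hg0.ne'
    have h1 : ((e2pCoeff p n : ℤ) : ℂ) + 24 * ((a n : ℤ) : ℂ) = (g : ℂ) * ((t n : ℤ) : ℂ) := by
      exact_mod_cast congrArg (Int.cast : ℤ → ℂ) (ht1 n)
    rw [h1]
    push_cast
    field_simp
  · show (M : ℤ) ∣ c * t 0 - 1
    rw [ht2 0 rfl]
    exact hc
  · exact Dvd.dvd.mul_left (ht3 n hn) c

/-- A positive integer with no prime factor `≥ 5`, not divisible by `8` or `9`, divides `12`. -/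
theorem ubm_dvd_twelve (M : ℕ) (hM : M ≠ 0) (h8 : ¬ 8 ∣ M) (h9 : ¬ 9 ∣ M)
    (hl : ∀ l : ℕ, l.Prime → 5 ≤ l → ¬ l ∣ M) : M ∣ 12 := by
  obtain ⟨a, r, hr2, hMr⟩ := Nat.exists_eq_pow_mul_and_not_dvd hM 2 (by norm_num)
  have hr0 : r ≠ 0 := by
    rintro rfl
    exact hr2 (dvd_zero 2)
  obtain ⟨b, s, hs3, hrs⟩ := Nat.exists_eq_pow_mul_and_not_dvd hr0 3 (by norm_num)
  have hsr : s ∣ r := ⟨3 ^ b, by rw [hrs]; ring⟩
  have hrM : r ∣ M := ⟨2 ^ a, by rw [hMr]; ring⟩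
  have hs1 : s = 1 := by
    by_contra hne
    obtain ⟨l, hlp, hls⟩ := Nat.exists_prime_and_dvd hne
    have hl2 : l ≠ 2 := by
      rintro rfl
      exact hr2 (hls.trans hsr)
    have hl3 : l ≠ 3 := by
      rintro rfl
      exact hs3 hls
    have hl5 : 5 ≤ l := by
      by_contra h
      have h2 := hlp.two_le
      have : l = 4 := by omega
      subst this
      exact absurd hlp (by norm_num)
    exact hl l hlp hl5 (hls.trans (hsr.trans hrM))
  subst hs1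
  rw [mul_one] at hrs
  subst hrs
  have ha : a ≤ 2 := by
    by_contra h
    exact h8 (by
      rw [hMr]
      exact Dvd.dvd.mul_right (pow_dvd_pow 2 (by omega : 3 ≤ a)) _)
  have hb : b ≤ 1 := by
    by_contra h
    exact h9 (by
      rw [hMr]
      exact Dvd.dvd.mul_left (pow_dvd_pow 3 (by omega : 2 ≤ b)) _)
  rw [hMr]
  exact Nat.mul_dvd_mul (pow_dvd_pow 2 ha) (pow_dvd_pow 3 hb)

/-- The final arithmetic. -/
theorem ubm_arith (p m : ℕ) (hp : 2 ≤ p)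
    (h12 : 24 * m / Nat.gcd (p - 1) (24 * m) ∣ 12)
    (h1 : 24 * m / Nat.gcd (p - 1) (24 * m) ∣ p + 1) :
    m ∣ ModularCurve.eisensteinNumerator p := by
  set g : ℕ := Nat.gcd (p - 1) (24 * m) with hg
  have hg0 : 0 < g := Nat.gcd_pos_of_pos_left _ (by omega)
  set M : ℕ := 24 * m / g with hM
  obtain ⟨A, hA⟩ : g ∣ p - 1 := Nat.gcd_dvd_left _ _
  have hgM : 24 * m = g * M := (Nat.mul_div_cancel' (Nat.gcd_dvd_right _ _)).symm
  set ν : ℕ := Nat.gcd (p - 1) 12 with hν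
  have hν12 : ν ∣ 12 := Nat.gcd_dvd_right _ _
  have hνP : ν ∣ p - 1 := Nat.gcd_dvd_left _ _
  have hν0 : 0 < ν := Nat.gcd_pos_of_pos_right _ (by norm_num)
  have hgcd : Nat.gcd M ν ∣ 2 := by
    have e1 : Nat.gcd M ν ∣ p + 1 := (Nat.gcd_dvd_left _ _).trans h1
    have e2 : Nat.gcd M ν ∣ p - 1 := (Nat.gcd_dvd_right _ _).trans hνP
    have e3 : p + 1 = (p - 1) + 2 := by omega
    rw [e3] at e1
    exact (Nat.dvd_add_right e2).mp e1
  have hlcm : Nat.lcm M ν ∣ 12 := Nat.lcm_dvd h12 hν12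
  have hMν : M * ν ∣ 24 := by
    rw [← Nat.gcd_mul_lcm M ν]
    exact Nat.mul_dvd_mul hgcd hlcm
  have hkey : ν * m ∣ p - 1 := by
    apply Nat.dvd_of_mul_dvd_mul_left (by norm_num : 0 < 24)
    have e1 : 24 * (ν * m) = g * (M * ν) := by
      calc 24 * (ν * m) = (24 * m) * ν := by ring
        _ = g * M * ν := by rw [hgM]
        _ = g * (M * ν) := by ring
    rw [e1, hA]
    calc g * (M * ν) ∣ g * 24 := Nat.mul_dvd_mul_left g hMν
      _ ∣ 24 * (g * A) := ⟨A, by ring⟩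
  show m ∣ (p - 1) / Nat.gcd (p - 1) 12
  exact Nat.dvd_div_of_mul_dvd hkey

/-- Assembly of the upper bound from the `U`-lemmas. -/
theorem ub_main_of (p : ℕ) [Fact p.Prime] (hp : 5 ≤ p)
    (hU1 : ∀ M : ℕ, Nat.Coprime M p → UbCong p M → M ∣ p + 1)
    (hU8 : p % 8 = 7 → ¬ UbCong p 8)
    (hU9 : 9 ∣ p + 1 → ¬ UbCong p 9)
    (hUl : ∀ l : ℕ, l.Prime → 5 ≤ l → ¬ UbCong p l)
    (m : ℕ) (f : CuspForm (CongruenceSubgroup.Gamma0 p) 2) (a : ℕ → ℤ)
    (ha : ∀ k, (qExpansion 1 f).coeff k = (a k : ℂ))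
    (hcong : ∀ k, 1 ≤ k → (m : ℤ) ∣ a k - ∑ d ∈ k.divisors with ¬ p ∣ d, (d : ℤ)) :
    m ∣ ModularCurve.eisensteinNumerator p := by
  have hpp : p.Prime := Fact.out
  have hC := ub_exists_form p (by omega) m f a ha hcong
  set M : ℕ := 24 * m / Nat.gcd (p - 1) (24 * m) with hM
  have hl : ∀ l : ℕ, l.Prime → 5 ≤ l → ¬ l ∣ M := fun l hlp h5 hd => hUl l hlp h5 (hC.of_dvd hd)
  have hcop : Nat.Coprime M p :=
    Nat.coprime_comm.mp ((Nat.Prime.coprime_iff_not_dvd hpp).mpr (hl p hpp hp))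
  have h1 : M ∣ p + 1 := hU1 M hcop hC
  have hM0 : M ≠ 0 := by
    intro h
    rw [h] at h1
    simp at h1
  have h8 : ¬ 8 ∣ M := fun h => hU8 (by have h' : 8 ∣ p + 1 := h.trans h1; omega) (hC.of_dvd h)
  have h9 : ¬ 9 ∣ M := fun h => hU9 (h.trans h1) (hC.of_dvd h)
  exact ubm_arith p m (by omega) (ubm_dvd_twelve M hM0 h8 h9 hl) h1

end Fermat.Agent.S16
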