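import Fermat.Agent.S16.U8Level3
import Fermat.Agent.S16.SharpEsymm
import Fermat.Agent.S16.UpperBound
import Fermat.Agent.S28.CycRing

/-!
# S16, piece U8: for `p ≡ 7 mod 8` there is no weight two form on `Γ₀(p)` with integer
`q`-expansion congruent to `1` modulo `8`

Let `G` be such a form.  With the level three forms `X4`, `X6` of `U8Level3` the function
`F = ∏_c (G_c · X4 - X6)` (product over the `p + 1` conjugates `G_c` of `G`) is a modular form
of weight `6 (p + 1)` on `Γ₀(3)` whose `q`-expansion is divisible by `8 ^ (p + 1)` in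
`O = ℤ_(2)[ζ_p]`; evaluating at the elliptic point `z₁` with the structure theorem
`u8_structure` gives `(9/4) ^ ((p + 1)/2) ∈ O`, which is absurd.
-/

set_option autoImplicit false

namespace Fermat.Agent.S16

open UpperHalfPlane ModularForm CongruenceSubgroup
open scoped MatrixGroups Manifold

open Fermat.Agent.S20 Fermat.Agent.S23

/-! ### Algebra -/

theorem u8_prod_expand {R ι : Type*} [CommRing R] [Fintype ι] (x : ι → R) (A B : R) :
    ∏ q, (x q * A - B) = ∑ i ∈ Finset.range (Fintype.card ι + 1),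
      (∑ t ∈ Finset.powersetCard i (Finset.univ : Finset ι), ∏ q ∈ t, x q) * A ^ i *
        (-B) ^ (Fintype.card ι - i) := by
  classical
  have h1 : ∀ q, x q * A - B = x q * A + -B := fun q => sub_eq_add_neg _ _
  simp_rw [h1]
  rw [Finset.prod_add]
  rw [← Finset.sum_fiberwise_of_maps_to (g := fun t : Finset ι => t.card)
    (t := Finset.range (Fintype.card ι + 1)) (fun t _ => by
      rw [Finset.mem_range, Nat.lt_succ_iff]
      exact Finset.card_le_univ t)]
  refine Finset.sum_congr rfl fun i hi => ?_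
  rw [← Finset.powersetCard_eq_filter, Finset.sum_mul, Finset.sum_mul]
  refine Finset.sum_congr rfl fun t ht => ?_
  rw [Finset.mem_powersetCard] at ht
  rw [Finset.prod_mul_distrib, Finset.prod_const, Finset.prod_const, ht.2,
    Finset.card_sdiff_of_subset ht.1, ht.2, Finset.card_univ]

/-! ### More bookkeeping for `u8InO` -/

theorem u8InO.neg {O : Subring ℂ} {P : PowerSeries ℂ} (hP : u8InO O P) : u8InO O (-P) :=
  fun n => by
    rw [map_neg]
    exact O.neg_mem (hP n)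

theorem u8InO.expand {O : Subring ℂ} {P : PowerSeries ℂ} (p : ℕ) (hp : p ≠ 0)
    (hP : u8InO O P) : u8InO O (PowerSeries.expand p hp P) := fun n => by
  rw [PowerSeries.coeff_expand]
  split_ifs
  · exact hP _
  · exact O.zero_mem

theorem u8InO.rescale {O : Subring ℂ} {P : PowerSeries ℂ} {ζ : ℂ} (hζ : ζ ∈ O)
    (hP : u8InO O P) : u8InO O (PowerSeries.rescale ζ P) := fun n => by
  rw [PowerSeries.coeff_rescale]
  exact O.mul_mem (O.pow_mem hζ n) (hP n)

theorem u8InO.prod {O : Subring ℂ} {ι : Type*} (s : Finset ι) {P : ι → PowerSeries ℂ}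
    (h : ∀ i ∈ s, u8InO O (P i)) : u8InO O (∏ i ∈ s, P i) := by
  classical
  induction s using Finset.induction_on with
  | empty => simpa using (u8InO.one : u8InO O 1)
  | insert i t hi IH =>
    rw [Finset.prod_insert hi]
    exact (h i (Finset.mem_insert_self i t)).mul (IH fun j hj => h j (Finset.mem_insert_of_mem hj))

/-- `P` is divisible by `8` in `O⟦X⟧`. -/
def u8D8 (O : Subring ℂ) (P : PowerSeries ℂ) : Prop := u8InO O ((8 : ℂ)⁻¹ • P)

theorem u8D8_of_coeff {O : Subring ℂ} {P : PowerSeries ℂ}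
    (h : ∀ n, ∃ c ∈ O, PowerSeries.coeff n P = 8 * c) : u8D8 O P := fun n => by
  obtain ⟨c, hc, hcn⟩ := h n
  rw [PowerSeries.coeff_smul, hcn, smul_eq_mul]
  have : (8 : ℂ)⁻¹ * (8 * c) = c := by field_simp
  rw [this]
  exact hc

theorem u8D8.add {O : Subring ℂ} {P Q : PowerSeries ℂ} (hP : u8D8 O P) (hQ : u8D8 O Q) :
    u8D8 O (P + Q) := by
  unfold u8D8
  rw [smul_add]
  exact u8InO.add hP hQ

theorem u8D8.mul_inO {O : Subring ℂ} {P Q : PowerSeries ℂ} (hP : u8D8 O P) (hQ : u8InO O Q) :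
    u8D8 O (P * Q) := by
  unfold u8D8
  rw [← smul_mul_assoc]
  exact u8InO.mul hP hQ

theorem u8D8.expand {O : Subring ℂ} {P : PowerSeries ℂ} (p : ℕ) (hp : p ≠ 0) (hP : u8D8 O P) :
    u8D8 O (PowerSeries.expand p hp P) := by
  unfold u8D8
  rw [← map_smul]
  exact u8InO.expand p hp hP

theorem u8D8_prod {O : Subring ℂ} {ι : Type*} (s : Finset ι) (f : ι → PowerSeries ℂ)
    (h : ∀ o ∈ s, u8D8 O (f o)) : u8InO O (((8 : ℂ) ^ s.card)⁻¹ • ∏ o ∈ s, f o) := by
  classical
  induction s using Finset.induction_on with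
  | empty => simpa using (u8InO.one : u8InO O 1)
  | insert i t hi IH =>
    rw [Finset.prod_insert hi, Finset.card_insert_of_notMem hi]
    have e : ((8 : ℂ) ^ (t.card + 1))⁻¹ • (f i * ∏ o ∈ t, f o) =
        ((8 : ℂ)⁻¹ • f i) * (((8 : ℂ) ^ t.card)⁻¹ • ∏ o ∈ t, f o) := by
      rw [smul_mul_smul_comm, pow_succ, mul_inv, mul_comm]
    rw [e]
    exact u8InO.mul (h i (Finset.mem_insert_self i t))
      (IH fun j hj => h j (Finset.mem_insert_of_mem hj))

/-! ### Arithmetic inputs -/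

/-- `p b_n = -a_{pn}` for the coefficients `b` of `G♯` (weight two). -/
theorem u8_sharp_coeff (p : ℕ) [NeZero p] (hp : p.Prime) {g : ℍ → ℂ} (hg : g ∈ MF (G0 p) 2)
    (n : ℕ) :
    (p : ℂ) * (qExpansion 1 (tkSharp p 2 g)).coeff n = -(qExpansion 1 g).coeff (p * n) := by
  have h := tk_weight_two p hp (tk_sharp_mem p hg) n
  rw [tk_sharp_sharp_of_mem p hg, QNice.qExpansion_smul _ (tk_qnice p hg),
    PowerSeries.coeff_smul, smul_eq_mul] at h
  have hp0 : (p : ℂ) ≠ 0 := tk_p_ne p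
  have e : (p : ℂ) ^ (-(2 : ℤ)) = ((p : ℂ) ^ 2)⁻¹ := by
    rw [zpow_neg]
    norm_cast
  rw [e] at h
  field_simp at h
  linear_combination h

theorem u8_inv_three_mem (p : ℕ) : (3 : ℂ)⁻¹ ∈ Fermat.Agent.S28.cycRing p 2 := by
  have h : ((3 : ℚ)⁻¹).den.Coprime 2 := by
    have e : ((3 : ℚ)⁻¹) = (((3 : ℕ) : ℚ))⁻¹ := by norm_num
    rw [e, Rat.inv_natCast_den_of_pos (by norm_num)]
    norm_num
  have := Fermat.Agent.S28.ratCast_mem_cycRing p 2 ⟨(3 : ℚ)⁻¹, h⟩
  simpa using this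

theorem u8_inv_p_mem (p : ℕ) (hp : 0 < p) (hodd : ¬ 2 ∣ p) :
    (p : ℂ)⁻¹ ∈ Fermat.Agent.S28.cycRing p 2 := by
  have h : ((p : ℚ)⁻¹).den.Coprime 2 := by
    rw [Rat.inv_natCast_den_of_pos hp]
    exact Nat.coprime_comm.mp ((Nat.Prime.coprime_iff_not_dvd Nat.prime_two).mpr hodd)
  have := Fermat.Agent.S28.ratCast_mem_cycRing p 2 ⟨(p : ℚ)⁻¹, h⟩
  simpa using this

theorem u8_not_mem (p : ℕ) [NeZero p] (m : ℕ) (hm : 1 ≤ m) :
    ((9 / 4 : ℂ)) ^ m ∉ Fermat.Agent.S28.cycRing p 2 := by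
  intro hmem
  have : Fact (Nat.Prime 2) := ⟨Nat.prime_two⟩
  have hrat : (((9 / 4 : ℚ) ^ m : ℚ) : ℂ) ∈ Fermat.Agent.S28.cycRing p 2 := by
    push_cast
    exact hmem
  have h := Fermat.Agent.S28.rat_mem_of_mem_cycRing p 2 _ hrat
  have h' : ((9 / 4 : ℚ) ^ m).den.Coprime 2 := h
  rw [Rat.den_pow] at h'
  have hden : (9 / 4 : ℚ).den = 4 := by norm_num
  rw [hden] at h'
  have h2 : 2 ∣ 4 ^ m := dvd_pow (by norm_num) (by omega)
  have := Nat.Coprime.eq_one_of_dvd (Nat.coprime_comm.mp h') h2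
  omega


/-! ### The main theorem -/

/-- **U8.** For `p ≡ 7 mod 8` there is no weight two form on `Γ₀(p)` with integer
`q`-coefficients which is congruent to `1` modulo `8`. -/
theorem u8_core (p : ℕ) (hp : p.Prime) (hp8 : p % 8 = 7)
    (G : ModularForm (Gamma0 p) 2) (a : ℕ → ℤ)
    (ha : ∀ n, (qExpansion 1 G).coeff n = (a n : ℂ)) (h0 : (8 : ℤ) ∣ a 0 - 1)
    (hn : ∀ n, 1 ≤ n → (8 : ℤ) ∣ a n) : False := by
  have : NeZero p := ⟨hp.ne_zero⟩
  have hg : (⇑G : ℍ → ℂ) ∈ MF (G0 p) 2 := ⟨G, rfl⟩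
  set g : ℍ → ℂ := ⇑G with hgdef
  set O : Subring ℂ := Fermat.Agent.S28.cycRing p 2 with hO
  have hζ : tkZeta p ∈ O := Fermat.Agent.S28.zetaN_mem_cycRing p 2
  have hpodd : ¬ 2 ∣ p := by omega
  have h3 : (3 : ℂ)⁻¹ ∈ O := u8_inv_three_mem p
  have hpinv : (p : ℂ)⁻¹ ∈ O := u8_inv_p_mem p hp.pos hpodd
  have hp0 : (p : ℂ) ≠ 0 := tk_p_ne p
  obtain ⟨m, hm⟩ : ∃ m, p + 1 = 2 * m := ⟨(p + 1) / 2, by omega⟩
  have hm1 : 1 ≤ m := by omega
  -- the symmetric functions of the conjugates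
  choose E hE1 hE2 using fun i => tk_esymm' p hp hg i
  set A := qExpansion 1 g with hA
  set B := qExpansion 1 (tkSharp p 2 g) with hB
  set X := qExpansion 1 u8X4 with hX
  set Y := qExpansion 1 u8X6 with hY
  have hX4 : QNice u8X4 := u8_qnice u8X4_mem
  have hX6 : QNice u8X6 := u8_qnice u8X6_mem
  -- the form `F`
  set F : ℍ → ℂ := ∑ i ∈ Finset.range (p + 1 + 1), ⇑(E i) * u8X4 ^ i * (-u8X6) ^ (p + 1 - i)
    with hF
  have hcardQ : Fintype.card (QQ p) = p + 1 := by
    rw [← Nat.card_eq_fintype_card]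
    exact tk_card_QQ p hp
  have hFprod : F = ∏ q : QQ p, (cj p 2 g q * u8X4 - u8X6) := by
    rw [u8_prod_expand, hcardQ]
    refine Finset.sum_congr rfl fun i _ => ?_
    rw [hE1 i]
  have hterm : ∀ i ∈ Finset.range (p + 1 + 1),
      ⇑(E i) * u8X4 ^ i * (-u8X6) ^ (p + 1 - i) ∈ MF (G0 3) (12 * m) := by
    intro i hi
    have hi' := Finset.mem_range.mp hi
    have h1 : (⇑(E i) : ℍ → ℂ) ∈ MF (G0 3) ((i : ℤ) * 2) := MF_levelOne_le 3 ⟨E i, rfl⟩
    have h2 := MF_pow u8X4_mem i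
    have h3 := MF_pow (Submodule.neg_mem _ u8X6_mem) (p + 1 - i)
    refine MF_congr ?_ (MF_mul (MF_mul h1 h2) h3)
    omega
  have hFmem : F ∈ MF (G0 3) (12 * m) := Submodule.sum_mem _ hterm
  -- its `q`-expansion
  have hqF : qExpansion 1 F = ∑ i ∈ Finset.range (p + 1 + 1),
      qExpansion 1 (E i) * X ^ i * (-Y) ^ (p + 1 - i) := by
    rw [hF, QNice.qExpansion_sum _ (fun i hi => u8_qnice (hterm i hi))]
    refine Finset.sum_congr rfl fun i hi => ?_
    have hEq : QNice (⇑(E i)) := qnice_SL (E i)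
    rw [QNice.qExpansion_mul (hEq.mul (hX4.pow i)) (hX6.neg.pow _),
      QNice.qExpansion_mul hEq (hX4.pow i), hX4.qExpansion_pow, hX6.neg.qExpansion_pow,
      hX6.qExpansion_neg]
  have hcardO : Fintype.card (Option (ZMod p)) = p + 1 := by
    rw [Fintype.card_option, ZMod.card]
  have hexp : PowerSeries.expand p (NeZero.ne p) (qExpansion 1 F) =
      ∏ o : Option (ZMod p), (tkSerR p (tkZeta p) A B o * PowerSeries.expand p (NeZero.ne p) X -
        PowerSeries.expand p (NeZero.ne p) Y) := by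
    rw [u8_prod_expand, hcardO, hqF, map_sum]
    refine Finset.sum_congr rfl fun i _ => ?_
    rw [map_mul, map_mul, map_pow, map_pow, map_neg, hE2 i]
    rfl
  -- divisibility by `8` of the factors
  have hXO : u8InO O X := u8X4_inO O
  have hXY : u8D8 O (X - Y) := by
    refine u8D8_of_coeff fun n => ?_
    obtain ⟨k, hk⟩ := u8x4c_sub_u8x6c n
    refine ⟨(k : ℂ), intCast_mem O k, ?_⟩
    rw [map_sub, hX, hY, u8X4_coeff, u8X6_coeff]
    have : ((u8x4c n - u8x6c n : ℤ) : ℂ) = ((8 * k : ℤ) : ℂ) := by rw [hk]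
    push_cast at this
    exact this
  have hA1 : u8D8 O (A - 1) := by
    refine u8D8_of_coeff fun n => ?_
    rw [map_sub, hA, ha, PowerSeries.coeff_one]
    by_cases hn0 : n = 0
    · subst hn0
      obtain ⟨k, hk⟩ := h0
      refine ⟨(k : ℂ), intCast_mem O k, ?_⟩
      rw [if_pos rfl]
      have : ((a 0 - 1 : ℤ) : ℂ) = ((8 * k : ℤ) : ℂ) := by rw [hk]
      push_cast at this
      exact this
    · obtain ⟨k, hk⟩ := hn n (Nat.one_le_iff_ne_zero.mpr hn0)
      refine ⟨(k : ℂ), intCast_mem O k, ?_⟩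
      rw [if_neg hn0, hk]
      push_cast
      ring
  have hpB : ∀ n, (p : ℂ) * PowerSeries.coeff n B = -(a (p * n) : ℂ) := by
    intro n
    rw [hB, u8_sharp_coeff p hp hg n, ha]
  have hB1 : ∀ ζ : ℂ, ζ ∈ O → u8D8 O (PowerSeries.rescale ζ B - 1) := by
    intro ζ hζO
    refine u8D8_of_coeff fun n => ?_
    rw [map_sub, PowerSeries.coeff_rescale, PowerSeries.coeff_one]
    by_cases hn0 : n = 0
    · subst hn0
      obtain ⟨k, hk⟩ : (8 : ℤ) ∣ a 0 + p := by
        have h1 : (8 : ℤ) ∣ (p : ℤ) + 1 := by omega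
        have := dvd_add h0 h1
        have e : a 0 - 1 + ((p : ℤ) + 1) = a 0 + p := by ring
        rwa [e] at this
      refine ⟨-(k : ℂ) * (p : ℂ)⁻¹, O.mul_mem (O.neg_mem (intCast_mem O k)) hpinv, ?_⟩
      rw [if_pos rfl, pow_zero, one_mul]
      have hb := hpB 0
      rw [mul_zero] at hb
      have hk' : ((a 0 : ℤ) : ℂ) + (p : ℂ) = 8 * (k : ℂ) := by
        have : ((a 0 + p : ℤ) : ℂ) = ((8 * k : ℤ) : ℂ) := by rw [hk]
        push_cast at this
        exact this
      field_simp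
      linear_combination hb - hk'
    · obtain ⟨k, hk⟩ := hn (p * n) (Nat.one_le_iff_ne_zero.mpr (Nat.mul_ne_zero hp.ne_zero hn0))
      refine ⟨ζ ^ n * (-(k : ℂ) * (p : ℂ)⁻¹),
        O.mul_mem (O.pow_mem hζO n) (O.mul_mem (O.neg_mem (intCast_mem O k)) hpinv), ?_⟩
      rw [if_neg hn0, sub_zero]
      have hb := hpB n
      rw [hk] at hb
      push_cast at hb
      field_simp
      linear_combination (ζ ^ n) * hb
  have hD : ∀ o : Option (ZMod p),
      u8D8 O (tkSerR p (tkZeta p) A B o * PowerSeries.expand p (NeZero.ne p) X -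
        PowerSeries.expand p (NeZero.ne p) Y) := by
    intro o
    rcases o with _ | j
    · have h := ((hA1.mul_inO hXO).add hXY).expand p (NeZero.ne p)
      have e : tkSerR p (tkZeta p) A B none * PowerSeries.expand p (NeZero.ne p) X -
          PowerSeries.expand p (NeZero.ne p) Y =
          PowerSeries.expand p (NeZero.ne p) ((A - 1) * X + (X - Y)) := by
        show PowerSeries.expand p (NeZero.ne p) A * _ - _ = _
        simp only [map_add, map_mul, map_sub, map_one]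
        ring
      rw [e]
      exact h
    · have h := ((hB1 (tkZeta p ^ j.val) (O.pow_mem hζ _)).mul_inO
        (hXO.expand p (NeZero.ne p))).add (hXY.expand p (NeZero.ne p))
      have e : tkSerR p (tkZeta p) A B (some j) * PowerSeries.expand p (NeZero.ne p) X -
          PowerSeries.expand p (NeZero.ne p) Y =
          (PowerSeries.rescale (tkZeta p ^ j.val) B - 1) * PowerSeries.expand p (NeZero.ne p) X +
            PowerSeries.expand p (NeZero.ne p) (X - Y) := by
        show PowerSeries.rescale (tkZeta p ^ j.val) B * _ - _ = _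
        simp only [map_sub]
        ring
      rw [e]
      exact h
  have hInO : u8InO O (((8 : ℂ) ^ (p + 1))⁻¹ • qExpansion 1 F) := by
    have h := u8D8_prod (Finset.univ : Finset (Option (ZMod p))) _ (fun o _ => hD o)
    rw [Finset.card_univ, hcardO, ← hexp] at h
    intro n
    have hn' := h (p * n)
    rw [PowerSeries.coeff_smul, PowerSeries.coeff_expand_mul] at hn'
    rw [PowerSeries.coeff_smul]
    exact hn'
  -- the structure theorem at the elliptic point
  have hF'mem : ((8 : ℂ) ^ (p + 1))⁻¹ • F ∈ MF (G0 3) (12 * m) := Submodule.smul_mem _ _ hFmem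
  have hF'q : qExpansion 1 (((8 : ℂ) ^ (p + 1))⁻¹ • F) = ((8 : ℂ) ^ (p + 1))⁻¹ • qExpansion 1 F :=
    QNice.qExpansion_smul _ (u8_qnice hFmem)
  obtain ⟨c, hc, hcz⟩ := u8_structure O h3 m _ hF'mem (by rw [hF'q]; exact hInO)
  -- the value at `z₁`
  have hFz : F u8z1 = u8X6 u8z1 ^ (p + 1) := by
    rw [hFprod, Finset.prod_apply]
    have : ∀ q : QQ p, (cj p 2 g q * u8X4 - u8X6) u8z1 = -u8X6 u8z1 := by
      intro q
      simp [u8X4_z1]
    rw [Finset.prod_congr rfl fun q _ => this q, Finset.prod_const, Finset.card_univ, hcardQ,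
      hm, pow_mul, pow_mul, neg_sq]
  have hval : (((8 : ℂ) ^ (p + 1))⁻¹ • F) u8z1 = (9 / 4 : ℂ) ^ m * u8M u8z1 ^ m := by
    rw [Pi.smul_apply, smul_eq_mul, hFz, hm, pow_mul, pow_mul, u8X6_z1_sq, ← inv_pow, ← mul_pow,
      ← mul_pow]
    congr 1
    ring
  have hc' : c = (9 / 4 : ℂ) ^ m :=
    mul_right_cancel₀ (pow_ne_zero m u8M_z1_ne) (hcz.symm.trans hval)
  exact u8_not_mem p m hm1 (hc' ▸ hc)


/-- **U8**, in the form used by the assembly of the upper bound. -/
theorem u8_not_ubCong (p : ℕ) [Fact p.Prime] (hp8 : p % 8 = 7) : ¬ UbCong p 8 := by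
  rintro ⟨G, b, hb, h0, hn⟩
  exact u8_core p Fact.out hp8 G b hb (by simpa using h0) (fun n h => by simpa using hn n h)

end Fermat.Agent.S16
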