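import Mathlib
import Fermat.Prelude.Def_ModularCurve_X0

/-!
# S16: integral `q`-series of the level one forms (shared definitions)

`e2Z`, `e4Z`, `e6Z`, `deltaZ` are the integral power series of `E₂`, `E₄`, `E₆`, `Δ`;
`qsTheta` is the formal operator `q d/dq`.
-/

set_option autoImplicit false

namespace Fermat.Agent.S16

open PowerSeries

/-- The formal operator `θ = q d/dq` on power series. -/
noncomputable def qsTheta {R : Type*} [Semiring R] (f : PowerSeries R) : PowerSeries R :=
  PowerSeries.mk fun n => (n : R) * PowerSeries.coeff n f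

@[simp]
theorem coeff_qsTheta {R : Type*} [Semiring R] (f : PowerSeries R) (n : ℕ) :
    PowerSeries.coeff n (qsTheta f) = (n : R) * PowerSeries.coeff n f := by
  simp [qsTheta]

theorem qsTheta_add {R : Type*} [Semiring R] (f g : PowerSeries R) :
    qsTheta (f + g) = qsTheta f + qsTheta g := by
  ext n; simp [mul_add]

theorem qsTheta_zero {R : Type*} [Semiring R] : qsTheta (0 : PowerSeries R) = 0 := by
  ext n; simp

theorem qsTheta_sub {R : Type*} [Ring R] (f g : PowerSeries R) :
    qsTheta (f - g) = qsTheta f - qsTheta g := by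
  ext n; simp [mul_sub]

theorem qsTheta_neg {R : Type*} [Ring R] (f : PowerSeries R) :
    qsTheta (-f) = -qsTheta f := by
  ext n; simp

theorem qsTheta_C {R : Type*} [Semiring R] (a : R) : qsTheta (PowerSeries.C a) = 0 := by
  ext n
  rw [coeff_qsTheta, PowerSeries.coeff_C]
  split_ifs with h
  · simp [h]
  · simp

theorem qsTheta_one {R : Type*} [Semiring R] : qsTheta (1 : PowerSeries R) = 0 := by
  have := qsTheta_C (1 : R)
  simpa using this

theorem qsTheta_C_mul {R : Type*} [CommSemiring R] (a : R) (f : PowerSeries R) :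
    qsTheta (PowerSeries.C a * f) = PowerSeries.C a * qsTheta f := by
  ext n
  simp only [coeff_qsTheta, PowerSeries.coeff_C_mul]
  ring

/-- Leibniz rule for `θ`. -/
theorem qsTheta_mul {R : Type*} [CommSemiring R] (f g : PowerSeries R) :
    qsTheta (f * g) = qsTheta f * g + f * qsTheta g := by
  ext n
  simp only [coeff_qsTheta, PowerSeries.coeff_mul, map_add, Finset.mul_sum]
  rw [← Finset.sum_add_distrib]
  refine Finset.sum_congr rfl fun x hx => ?_
  have hx' : x.1 + x.2 = n := Finset.HasAntidiagonal.mem_antidiagonal.mp hx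
  rw [← hx']
  push_cast
  ring

theorem qsTheta_pow {R : Type*} [CommSemiring R] (f : PowerSeries R) (n : ℕ) :
    qsTheta (f ^ (n + 1)) = (n + 1 : ℕ) • (f ^ n * qsTheta f) := by
  induction n with
  | zero => simp
  | succ n ih =>
    rw [pow_succ, qsTheta_mul, ih, succ_nsmul (f ^ (n + 1) * qsTheta f) (n + 1)]
    simp only [nsmul_eq_mul]
    ring

theorem qsTheta_map {R S : Type*} [Semiring R] [Semiring S] (φ : R →+* S) (f : PowerSeries R) :
    qsTheta (f.map φ) = (qsTheta f).map φ := by
  ext n; simp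

/-- The integral `q`-series of `E₂`. -/
noncomputable def e2Z : PowerSeries ℤ :=
  PowerSeries.mk fun n => if n = 0 then 1 else -24 * ∑ d ∈ n.divisors, (d : ℤ)

/-- The integral `q`-series of `E₄` (the Prelude's `eisenstein4`). -/
noncomputable def e4Z : PowerSeries ℤ := ModularCurve.eisenstein4

/-- The integral `q`-series of `E₆`. -/
noncomputable def e6Z : PowerSeries ℤ :=
  PowerSeries.mk fun n => if n = 0 then 1 else -504 * ∑ d ∈ n.divisors, (d : ℤ) ^ 5

/-- The integral `q`-series of `Δ`. -/
noncomputable def deltaZ : PowerSeries ℤ := PowerSeries.X * ModularCurve.dedekindEtaUnit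

theorem coeff_e2Z (n : ℕ) :
    PowerSeries.coeff n e2Z = if n = 0 then 1 else -24 * ∑ d ∈ n.divisors, (d : ℤ) := by
  simp [e2Z]

theorem coeff_e4Z (n : ℕ) :
    PowerSeries.coeff n e4Z = if n = 0 then 1 else 240 * ∑ d ∈ n.divisors, (d : ℤ) ^ 3 := by
  simp [e4Z, ModularCurve.eisenstein4]

theorem coeff_e6Z (n : ℕ) :
    PowerSeries.coeff n e6Z = if n = 0 then 1 else -504 * ∑ d ∈ n.divisors, (d : ℤ) ^ 5 := by
  simp [e6Z]

@[simp] theorem constantCoeff_e2Z : PowerSeries.constantCoeff e2Z = 1 := by
  rw [← PowerSeries.coeff_zero_eq_constantCoeff_apply, coeff_e2Z]; simp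

@[simp] theorem constantCoeff_e4Z : PowerSeries.constantCoeff e4Z = 1 := by
  rw [← PowerSeries.coeff_zero_eq_constantCoeff_apply, coeff_e4Z]; simp

@[simp] theorem constantCoeff_e6Z : PowerSeries.constantCoeff e6Z = 1 := by
  rw [← PowerSeries.coeff_zero_eq_constantCoeff_apply, coeff_e6Z]; simp

@[simp] theorem constantCoeff_deltaZ : PowerSeries.constantCoeff deltaZ = 0 := by
  simp [deltaZ]

theorem coeff_one_deltaZ : PowerSeries.coeff 1 deltaZ = 1 := by
  rw [deltaZ, show (1 : ℕ) = 0 + 1 from rfl, PowerSeries.coeff_succ_X_mul,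
    PowerSeries.coeff_zero_eq_constantCoeff_apply, ModularCurve.constantCoeff_dedekindEtaUnit]

end Fermat.Agent.S16
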