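import Fermat.Agent.S16.U1Core
import Fermat.Agent.S16.QSeries
import Fermat.Agent.S16.SharpEsymm
import Fermat.Agent.S20.LevelOne
import Fermat.Agent.S28.JDelta
import Fermat.Prelude.Thm_CongruenceSubgroup_one_mem_strictPeriods_Gamma0

/-!
# S16, piece U1

If a weight two modular form `G` on `Γ₀(p)` with integral `q`-expansion is congruent to `1`
modulo `M` and `M` is prime to `p`, then `M ∣ p + 1`.

Proof: the traces to level one of `G · VΔ` (weight `14`, so the trace vanishes) and of `VΔ`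
(weight `12`, so the trace is a multiple of `Δ`) give two exact integral identities between
`q`-series; `u1_core` extracts `M ∣ p + 1` from them.
-/

set_option autoImplicit false

namespace Fermat.Agent.S16

open UpperHalfPlane ModularForm CongruenceSubgroup SlashInvariantForm Module
open scoped MatrixGroups Manifold
open Fermat.Agent.S20

/-- A level one form of weight `14` with vanishing constant term is zero. -/
theorem u1_levelOne_fourteen (f : ModularForm 𝒮ℒ 14) (h : (qExpansion 1 f).coeff 0 = 0) :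
    (f : ℍ → ℂ) = 0 := by
  have h2 : CuspForm.discriminantEquiv (ModularForm.toCuspForm f h) = 0 := by
    have hr : Module.rank ℂ (ModularForm 𝒮ℒ ((14 : ℤ) - 12)) = 0 := by
      have : ((14 : ℤ) - 12) = 2 := by norm_num
      rw [this]; exact levelOne_weight_two_rank_zero
    exact rank_zero_iff_forall_zero.mp hr _
  have h3 := ModularForm.discriminant_mul_discriminantEquiv (ModularForm.toCuspForm f h)
  rw [h2] at h3
  funext z
  have h4 := congrFun h3 z
  simp only [Pi.mul_apply, FunLike.coe_zero, Pi.zero_apply, mul_zero] at h4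
  rw [ModularForm.toCuspForm_apply] at h4
  simpa using h4.symm

/-- A level one form of weight `12` with vanishing constant term is a multiple of `Δ`. -/
theorem u1_levelOne_twelve (f : ModularForm 𝒮ℒ 12) (h : (qExpansion 1 f).coeff 0 = 0) :
    ∃ c : ℂ, (f : ℍ → ℂ) = c • (ModularForm.discriminant : ℍ → ℂ) := by
  obtain ⟨c, hc⟩ := CuspForm.exists_smul_discriminant_of_weight_eq_twelve (ModularForm.toCuspForm f h)
  refine ⟨c, ?_⟩
  funext z
  have := congrArg (fun g : CuspForm 𝒮ℒ 12 => g z) hc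
  simp only [ModularForm.toCuspForm_apply] at this
  rw [← this]
  simp

/-- A level one form of weight `2` is zero. -/
theorem u1_levelOne_two {f : ℍ → ℂ} (hf : f ∈ MF 𝒮ℒ 2) : f = 0 := by
  obtain ⟨F, rfl⟩ := hf
  have : F = 0 := rank_zero_iff_forall_zero.mp levelOne_weight_two_rank_zero F
  rw [this]; rfl

/-- The `q`-expansion of `Δ` is the integral series `deltaZ`. -/
theorem u1_qExpansion_discriminant :
    qExpansion 1 (ModularForm.discriminant : ℍ → ℂ) = deltaZ.map (Int.castRingHom ℂ) := by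
  ext m
  have h1 := Fermat.Agent.S28.hasQExp_discriminant
  rw [Fermat.Agent.S28.deltaSeries, Fermat.Agent.S28.hasQExp_ofPowerSeries_iff] at h1
  have hsum : ∀ τ : ℍ, HasSum (fun k : ℕ =>
      PowerSeries.coeff k (deltaZ.map (Int.castRingHom ℂ)) • Function.Periodic.qParam 1 τ ^ k)
      (CuspForm.discriminant τ) := by
    intro τ
    have := h1 τ
    rw [Fermat.Agent.S28.tParam_one_eq] at this
    simpa [deltaZ, smul_eq_mul] using this
  have := ModularFormClass.qExpansion_coeff_unique (f := CuspForm.discriminant) one_pos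
    one_mem_strictPeriods_SL hsum m
  rw [this, CuspForm.coe_discriminant]

theorem u1_discriminant_mem : (ModularForm.discriminant : ℍ → ℂ) ∈ MF 𝒮ℒ 12 :=
  CF_le_MF discriminant_mem_CF

/-- analyticity of the cusp function of a member of `MF (G0 N) k`. -/
theorem u1_analyticAt {N : ℕ} {k : ℤ} {f : ℍ → ℂ} (hf : f ∈ MF (G0 N) k) :
    AnalyticAt ℂ (cuspFunction 1 f) 0 := by
  obtain ⟨F, rfl⟩ := hf
  exact ModularFormClass.analyticAt_cuspFunction_zero F one_pos
    (CongruenceSubgroup.one_mem_strictPeriods_Gamma0 N)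

theorem u1_qExpansion_mul {N : ℕ} {k l : ℤ} {f g : ℍ → ℂ} (hf : f ∈ MF (G0 N) k)
    (hg : g ∈ MF (G0 N) l) : qExpansion 1 (f * g) = qExpansion 1 f * qExpansion 1 g :=
  qExpansion_mul (u1_analyticAt hf) (u1_analyticAt hg)

/-- **U1 from the toolkit**, with the toolkit facts (Fricke companion `sharp`, the operator
`V : φ ↦ φ(p z)`, the trace formula) as explicit hypotheses. -/
theorem u1_of_tk (p : ℕ) [NeZero p] (hp : p.Prime) (M : ℕ) (hMp : Nat.Coprime M p)
    (sharp : ℤ → (ℍ → ℂ) → ℍ → ℂ)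
    (hsm : ∀ (k : ℤ) (f : ℍ → ℂ), f ∈ MF (G0 p) k → sharp k f ∈ MF (G0 p) k)
    (hmul : ∀ (k l : ℤ) (f g : ℍ → ℂ), sharp (k + l) (f * g) = sharp k f * sharp l g)
    (hss : ∀ f : ℍ → ℂ, f ∈ MF (G0 p) 2 → sharp 2 (sharp 2 f) = ((p : ℂ)⁻¹ ^ 2) • f)
    (VD : ℍ → ℂ) (hVm : VD ∈ MF (G0 p) 12)
    (hVc : ∀ n, (qExpansion 1 VD).coeff n =
      if p ∣ n then (qExpansion 1 (ModularForm.discriminant : ℍ → ℂ)).coeff (n / p) else 0)
    (hsV : sharp 12 VD = ((p : ℂ)⁻¹ ^ 12) • (ModularForm.discriminant : ℍ → ℂ))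
    (htr : ∀ (k : ℤ) (f : ℍ → ℂ), f ∈ MF (G0 p) k → ∀ n,
      (qExpansion 1 (trP p k f)).coeff n =
        (qExpansion 1 f).coeff n + (p : ℂ) * (qExpansion 1 (sharp k f)).coeff (p * n))
    (G : ModularForm (Gamma0 p) 2) (a : ℕ → ℤ)
    (ha : ∀ n, (qExpansion 1 G).coeff n = (a n : ℂ))
    (h0 : (M : ℤ) ∣ a 0 - 1) (hn : ∀ n, 1 ≤ n → (M : ℤ) ∣ a n) : M ∣ p + 1 := by
  have hp0 : (p : ℂ) ≠ 0 := Nat.cast_ne_zero.mpr hp.ne_zero
  have hppos : 0 < p := hp.pos
  set c : ℤ →+* ℂ := Int.castRingHom ℂ with hc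
  set g : PowerSeries ℤ := PowerSeries.mk a with hg
  set g₁ : PowerSeries ℤ := PowerSeries.mk (fun n => a (p * n)) with hg₁
  set vd : PowerSeries ℤ :=
    PowerSeries.mk (fun n => if p ∣ n then PowerSeries.coeff (n / p) deltaZ else 0) with hvd
  have hG : (G : ℍ → ℂ) ∈ MF (G0 p) 2 := ⟨G, rfl⟩
  have hΔ : (ModularForm.discriminant : ℍ → ℂ) ∈ MF (G0 p) 12 :=
    MF_levelOne_le p u1_discriminant_mem
  have hΔq := u1_qExpansion_discriminant
  have hGq : qExpansion 1 (G : ℍ → ℂ) = g.map c := by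
    ext n; rw [ha n, PowerSeries.coeff_map, hg, PowerSeries.coeff_mk]; rfl
  have hVq : qExpansion 1 VD = vd.map c := by
    ext n
    rw [hVc n, hΔq, hvd]
    simp only [PowerSeries.coeff_map, PowerSeries.coeff_mk]
    split_ifs <;> simp [hc]
  -- the Fricke companion of `G`
  have hG' := hsm 2 G hG
  have hbq : qExpansion 1 (sharp 2 G) = (-(p : ℂ)⁻¹) • g₁.map c := by
    ext n
    have t := htr 2 (sharp 2 G) hG' n
    rw [u1_levelOne_two (trP_mem p hG'), qExpansion_zero, hss G hG,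
      qExpansion_smul (u1_analyticAt hG), hGq] at t
    simp only [map_zero, PowerSeries.coeff_smul, PowerSeries.coeff_map, smul_eq_mul] at t
    rw [PowerSeries.coeff_smul, PowerSeries.coeff_map, hg₁, PowerSeries.coeff_mk, smul_eq_mul]
    rw [hg, PowerSeries.coeff_mk] at t
    have t2 : (qExpansion 1 (sharp 2 G)).coeff n = -((p : ℂ) * ((p : ℂ)⁻¹ ^ 2 * c (a (p * n)))) := by
      linear_combination -t
    rw [t2]
    field_simp
  -- weight 14
  have hF : (G : ℍ → ℂ) * VD ∈ MF (G0 p) 14 := MF_congr (by norm_num) (MF_mul hG hVm)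
  have hFq : qExpansion 1 ((G : ℍ → ℂ) * VD) = (g * vd).map c := by
    rw [u1_qExpansion_mul hG hVm, hGq, hVq, map_mul]
  have hF' : sharp 14 ((G : ℍ → ℂ) * VD)
      = ((p : ℂ)⁻¹ ^ 12) • (sharp 2 G * (ModularForm.discriminant : ℍ → ℂ)) := by
    have e : (14 : ℤ) = 2 + 12 := by norm_num
    rw [e, hmul, hsV]
    funext z
    simp only [Pi.mul_apply, Pi.smul_apply, smul_eq_mul]
    ring
  have hF'q : qExpansion 1 (sharp 14 ((G : ℍ → ℂ) * VD))
      = ((p : ℂ)⁻¹ ^ 12) • ((-(p : ℂ)⁻¹) • (g₁ * deltaZ).map c) := by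
    rw [hF', qExpansion_smul (u1_analyticAt (MF_mul hG' hΔ)), u1_qExpansion_mul hG' hΔ, hbq, hΔq,
      map_mul, smul_mul_assoc]
  have hd0 : PowerSeries.coeff 0 deltaZ = 0 := by
    rw [PowerSeries.coeff_zero_eq_constantCoeff_apply, constantCoeff_deltaZ]
  have hvd0 : PowerSeries.coeff 0 vd = 0 := by
    rw [hvd, PowerSeries.coeff_mk, if_pos (dvd_zero p), Nat.zero_div, hd0]
  have e0 : PowerSeries.coeff 0 (g * vd) = 0 := by
    rw [PowerSeries.coeff_zero_eq_constantCoeff_apply, map_mul,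
      ← PowerSeries.coeff_zero_eq_constantCoeff_apply vd, hvd0, mul_zero]
  have e0' : PowerSeries.coeff 0 (g₁ * deltaZ) = 0 := by
    rw [PowerSeries.coeff_zero_eq_constantCoeff_apply, map_mul, constantCoeff_deltaZ, mul_zero]
  have h14 : ∀ n, (p : ℤ) ^ 12 * PowerSeries.coeff n (g * vd)
      = PowerSeries.coeff (n * p) (g₁ * deltaZ) := by
    obtain ⟨T, hT⟩ := trP_mem p hF
    have hT : (T : ℍ → ℂ) = trP p 14 ((G : ℍ → ℂ) * VD) := hT
    have hcoef := htr 14 _ hF
    have hT0 : (qExpansion 1 T).coeff 0 = 0 := by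
      rw [hT, hcoef 0, hFq, hF'q, mul_zero]
      simp only [PowerSeries.coeff_map, PowerSeries.coeff_smul, smul_eq_mul, e0, e0', map_zero,
        mul_zero, add_zero]
    have hTz : trP p 14 ((G : ℍ → ℂ) * VD) = 0 := by
      rw [← hT]; exact u1_levelOne_fourteen T hT0
    intro n
    have t := hcoef n
    rw [hTz, qExpansion_zero, hFq, hF'q] at t
    simp only [map_zero, PowerSeries.coeff_map, PowerSeries.coeff_smul, smul_eq_mul] at t
    have t2 : ((p : ℂ)) ^ 12 * c (PowerSeries.coeff n (g * vd))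
        = c (PowerSeries.coeff (p * n) (g₁ * deltaZ)) := by
      have h1 : (p : ℂ) ^ 12 * ((p : ℂ)⁻¹ ^ 12) = 1 := by
        rw [← mul_pow, mul_inv_cancel₀ hp0, one_pow]
      have h2 : (p : ℂ) * (p : ℂ)⁻¹ = 1 := mul_inv_cancel₀ hp0
      linear_combination (-(p : ℂ) ^ 12) * t
        + c (PowerSeries.coeff (p * n) (g₁ * deltaZ)) * ((p : ℂ) * (p : ℂ)⁻¹) * h1
        + c (PowerSeries.coeff (p * n) (g₁ * deltaZ)) * h2
    rw [mul_comm n p]
    have t3 : (((p : ℤ) ^ 12 * PowerSeries.coeff n (g * vd) : ℤ) : ℂ)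
        = ((PowerSeries.coeff (p * n) (g₁ * deltaZ) : ℤ) : ℂ) := by
      push_cast
      exact t2
    exact_mod_cast t3
  -- weight 12
  have h12 : ∃ c₀ : ℤ, ∀ n, (p : ℤ) ^ 11 * PowerSeries.coeff n vd + PowerSeries.coeff (n * p) deltaZ
      = c₀ * PowerSeries.coeff n deltaZ := by
    refine ⟨PowerSeries.coeff p deltaZ, fun n => ?_⟩
    obtain ⟨T, hT⟩ := trP_mem p hVm
    have hT : (T : ℍ → ℂ) = trP p 12 VD := hT
    have hcoef := htr 12 _ hVm
    have hsVq : qExpansion 1 (sharp 12 VD) = ((p : ℂ)⁻¹ ^ 12) • deltaZ.map c := by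
      rw [hsV, qExpansion_smul (u1_analyticAt hΔ), hΔq]
    have hT0 : (qExpansion 1 T).coeff 0 = 0 := by
      rw [hT, hcoef 0, hVq, hsVq, mul_zero]
      simp only [PowerSeries.coeff_map, PowerSeries.coeff_smul, smul_eq_mul, hvd0, hd0, map_zero,
        mul_zero, add_zero]
    obtain ⟨c₀, hc₀⟩ := u1_levelOne_twelve T hT0
    have hq : qExpansion 1 (trP p 12 VD) = c₀ • deltaZ.map c := by
      rw [← hT, hc₀, qExpansion_smul (u1_analyticAt hΔ), hΔq]
    have key : ∀ m, c₀ * c (PowerSeries.coeff m deltaZ)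
        = c (PowerSeries.coeff m vd) + (p : ℂ) * ((p : ℂ)⁻¹ ^ 12 * c (PowerSeries.coeff (p * m) deltaZ)) := by
      intro m
      have t := hcoef m
      rw [hq, hVq, hsVq] at t
      simpa only [PowerSeries.coeff_map, PowerSeries.coeff_smul, smul_eq_mul] using t
    have hvd1 : PowerSeries.coeff 1 vd = 0 := by
      rw [hvd, PowerSeries.coeff_mk, if_neg]
      intro h
      have := Nat.le_of_dvd one_pos h
      have := hp.two_le
      omega
    have k1 := key 1
    rw [coeff_one_deltaZ, hvd1, mul_one] at k1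
    simp only [map_one, mul_one, map_zero, zero_add] at k1
    have kn := key n
    rw [k1] at kn
    have h1 : (p : ℂ) ^ 11 * ((p : ℂ) * (p : ℂ)⁻¹ ^ 12) = 1 := by
      have : (p : ℂ) ^ 11 * ((p : ℂ) * (p : ℂ)⁻¹ ^ 12) = ((p : ℂ) * (p : ℂ)⁻¹) ^ 12 := by ring
      rw [this, mul_inv_cancel₀ hp0, one_pow]
    have t2 : (p : ℂ) ^ 11 * c (PowerSeries.coeff n vd) + c (PowerSeries.coeff (p * n) deltaZ)
        = c (PowerSeries.coeff p deltaZ) * c (PowerSeries.coeff n deltaZ) := by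
      linear_combination (-(p : ℂ) ^ 11) * kn
        + (c (PowerSeries.coeff p deltaZ) * c (PowerSeries.coeff n deltaZ)
          - c (PowerSeries.coeff (p * n) deltaZ)) * h1
    rw [mul_comm n p]
    have t3 : (((p : ℤ) ^ 11 * PowerSeries.coeff n vd + PowerSeries.coeff (p * n) deltaZ : ℤ) : ℂ)
        = ((PowerSeries.coeff p deltaZ * PowerSeries.coeff n deltaZ : ℤ) : ℂ) := by
      push_cast
      exact t2
    exact_mod_cast t3
  have hfin := u1_core p M hp hMp g g₁ deltaZ vd coeff_one_deltaZ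
    (fun n => by rw [hvd, PowerSeries.coeff_mk])
    (by rw [hg, PowerSeries.coeff_mk]; exact h0)
    (fun k hk => by rw [hg, PowerSeries.coeff_mk]; exact hn k hk)
    (by rw [hg₁, PowerSeries.coeff_mk, mul_zero]; exact h0)
    (fun k hk => by
      rw [hg₁, PowerSeries.coeff_mk]
      exact hn _ (Nat.mul_pos hppos hk))
    h14 h12
  exact_mod_cast hfin

/-- **U1**: a weight two form on `Γ₀(p)` with integral `q`-expansion which is `≡ 1 mod M`, with
`M` prime to `p`, forces `M ∣ p + 1`. -/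
theorem u1 (p : ℕ) [Fact p.Prime] (M : ℕ) (hMp : Nat.Coprime M p)
    (G : ModularForm (CongruenceSubgroup.Gamma0 p) 2) (a : ℕ → ℤ)
    (ha : ∀ n, (qExpansion 1 G).coeff n = (a n : ℂ))
    (h0 : (M : ℤ) ∣ a 0 - 1) (hn : ∀ n, 1 ≤ n → (M : ℤ) ∣ a n) : M ∣ p + 1 := by
  have hp : p.Prime := Fact.out
  have : NeZero p := ⟨hp.ne_zero⟩
  refine u1_of_tk p hp M hMp (tkSharp p) (fun k f hf => tk_sharp_mem p hf)
    (fun k l f g => tk_sharp_mul p k l f g) (fun f hf => ?_)
    (tkV p (ModularForm.discriminant : ℍ → ℂ)) (tk_V_mem p u1_discriminant_mem) (fun n => ?_) ?_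
    (fun k f hf n => tk_trace_coeff p hp hf n) G a ha h0 hn
  · rw [tk_sharp_sharp_of_mem p hf]
    congr 1
    rw [zpow_neg, ← inv_zpow]
    norm_cast
  · rw [tk_qExpansion_V p u1_discriminant_mem, PowerSeries.coeff_expand]
  · rw [tk_sharp_V p u1_discriminant_mem]
    congr 1
    rw [zpow_neg, ← inv_zpow]
    norm_cast

end Fermat.Agent.S16
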