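import Fermat.Agent.S16.QSeries
import Fermat.Agent.S28.JDelta

/-!
# S16, piece L1: integral structure of level one modular forms

A level one modular form whose `q`-expansion has coefficients in a subring `O ⊆ ℂ` is an isobaric
polynomial with coefficients in `O` in `E₄`, `E₆`, `Δ` (as an identity of power series over `O`).
-/

set_option autoImplicit false

namespace Fermat.Agent.S16

open UpperHalfPlane ModularForm EisensteinSeries CongruenceSubgroup MvPolynomial
open scoped MatrixGroups Manifold

theorem l1_qExpansion_E4 : qExpansion 1 E₄ = e4Z.map (Int.castRingHom ℂ) :=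
  Fermat.Agent.S28.hasQExp_E4_aux

theorem l1_qExpansion_E6 : qExpansion 1 E₆ = e6Z.map (Int.castRingHom ℂ) := by
  ext m
  rw [EisensteinSeries.E_qExpansion_coeff _ ⟨3, rfl⟩ m, PowerSeries.coeff_map, coeff_e6Z]
  split_ifs with h
  · simp
  · rw [ArithmeticFunction.sigma_apply]
    norm_num [show bernoulli 6 = 1 / 42 by decide +kernel]

theorem l1_qExpansion_discriminant :
    qExpansion 1 ModularForm.discriminant = deltaZ.map (Int.castRingHom ℂ) := by
  ext m
  refine (ModularFormClass.qExpansion_coeff_unique (f := CuspForm.discriminant)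
    (c := fun m => PowerSeries.coeff m (deltaZ.map (Int.castRingHom ℂ)))
    one_pos one_mem_strictPeriods_SL ?_ m).symm
  intro τ
  have hq : ‖Function.Periodic.qParam 1 τ‖ < 1 := by
    simpa using UpperHalfPlane.norm_qParam_lt_one 1 τ
  have h1 := Fermat.Agent.S28.discPS_delta _ hq
  have h2 : CuspForm.discriminant τ =
      (fun q : ℂ => q * ∏' n : ℕ, (1 - q ^ (n + 1)) ^ 24) (Function.Periodic.qParam 1 τ) := by
    change ModularForm.discriminant τ = _
    rw [ModularForm.discriminant_eq_q_prod]
  rw [h2]
  simpa [deltaZ, smul_eq_mul] using h1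

theorem l1_deltaZ_eq : (1728 : PowerSeries ℤ) * deltaZ = e4Z ^ 3 - e6Z ^ 2 := by
  have hinj : Function.Injective (PowerSeries.map (Int.castRingHom ℂ)) :=
    PowerSeries.map_injective _ Int.cast_injective
  apply hinj
  rw [map_mul, map_sub, map_pow, map_pow, ← l1_qExpansion_E4, ← l1_qExpansion_E6,
    ← l1_qExpansion_discriminant]
  have hfun : ((1728 : ℂ) • (⇑CuspForm.discriminant : ℍ → ℂ)) = ⇑(E₄.pow 3) - ⇑(E₆.pow 2) := by
    funext z
    have h := ModularForm.discriminant_eq_E₄_cube_sub_E₆_sq z
    simp only [Pi.smul_apply, Pi.sub_apply, ModularForm.coe_pow, Pi.pow_apply, smul_eq_mul,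
      CuspForm.coe_discriminant]
    rw [h]
    ring
  have h1 := ModularForm.qExpansion_smul one_pos one_mem_strictPeriods_SL (1728 : ℂ)
    CuspForm.discriminant
  rw [hfun, ModularForm.qExpansion_sub one_pos one_mem_strictPeriods_SL,
    ModularForm.qExpansion_pow one_pos one_mem_strictPeriods_SL,
    ModularForm.qExpansion_pow one_pos one_mem_strictPeriods_SL] at h1
  rw [h1, CuspForm.coe_discriminant, map_ofNat]
  ext n
  rw [← map_ofNat (PowerSeries.C (R := ℂ)) 1728, PowerSeries.coeff_C_mul, PowerSeries.coeff_smul,
    smul_eq_mul]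

theorem l1_map_map (O : Subring ℂ) (p : PowerSeries ℤ) :
    (p.map (Int.castRingHom O)).map O.subtype = p.map (Int.castRingHom ℂ) := by
  ext n
  simp

theorem l1_map_injective (O : Subring ℂ) : Function.Injective (PowerSeries.map O.subtype) :=
  PowerSeries.map_injective _ Subtype.val_injective

theorem l1_delta_ne_zero : deltaZ.map (Int.castRingHom ℂ) ≠ 0 := by
  intro h
  have := congrArg (PowerSeries.coeff 1) h
  simp [coeff_one_deltaZ] at this

/-- Auxiliary form of `levelOne_int_repr`, by strong induction on the weight. -/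
theorem l1_aux (O : Subring ℂ) (n : ℕ) : ∀ (k : ℤ), k.toNat = n →
    ∀ (F : ModularForm 𝒮ℒ k) (c : PowerSeries O), qExpansion 1 F = c.map O.subtype →
    ∃ P : MvPolynomial (Fin 3) O, P.IsWeightedHomogeneous ![4, 6, 12] k.toNat ∧
      c = aeval ![e4Z.map (Int.castRingHom O), e6Z.map (Int.castRingHom O),
        deltaZ.map (Int.castRingHom O)] P := by
  induction n using Nat.strong_induction_on with
  | _ n ih =>
  intro k hk F c hc
  have hinj := l1_map_injective O
  have hzero : F = 0 → ∃ P : MvPolynomial (Fin 3) O,
      P.IsWeightedHomogeneous ![4, 6, 12] k.toNat ∧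
      c = aeval ![e4Z.map (Int.castRingHom O), e6Z.map (Int.castRingHom O),
        deltaZ.map (Int.castRingHom O)] P := by
    intro hF
    refine ⟨0, isWeightedHomogeneous_zero _ _ _, ?_⟩
    rw [map_zero]
    apply hinj
    rw [← hc, hF, map_zero, FunLike.coe_zero]
    exact qExpansion_zero 1
  rcases lt_trichotomy k 0 with hneg | rfl | hpos
  · exact hzero (DFunLike.coe_injective (by
      rw [ModularFormClass.levelOne_neg_weight_eq_zero hneg F, FunLike.coe_zero]))
  · -- weight zero: constants
    obtain ⟨a, ha⟩ := ModularFormClass.levelOne_weight_zero_const F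
    have hF : F = a • (1 : ModularForm 𝒮ℒ 0) := by
      ext z
      rw [ha]
      simp
    have h1 : qExpansion 1 F = PowerSeries.C a := by
      rw [hF, FunLike.coe_smul,
        ModularForm.qExpansion_smul one_pos one_mem_strictPeriods_SL, ModularForm.qExpansion_one]
      ext m
      simp [PowerSeries.coeff_C, PowerSeries.coeff_one]
    have h0 : ((PowerSeries.constantCoeff c : O) : ℂ) = a := by
      have := congrArg (PowerSeries.coeff 0) hc
      rw [h1] at this
      simpa using this.symm
    refine ⟨C (PowerSeries.constantCoeff c), ?_, ?_⟩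
    · simpa using isWeightedHomogeneous_C (![4, 6, 12] : Fin 3 → ℕ) (PowerSeries.constantCoeff c)
    · rw [aeval_C]
      apply hinj
      rw [← hc, h1]
      ext m
      simp [PowerSeries.coeff_C, ← h0]
  · by_cases hodd : Odd k
    · exact hzero (ModularForm.levelOne_odd_weight_eq_zero hodd F)
    rw [Int.not_odd_iff_even] at hodd
    by_cases h2 : k = 2
    · subst h2
      exact hzero (rank_zero_iff_forall_zero.mp levelOne_weight_two_rank_zero F)
    have h4 : 4 ≤ k := by
      obtain ⟨r, hr⟩ := hodd
      omega
    obtain ⟨i, j, hij⟩ : ∃ i j : ℕ, (4 * i + 6 * j : ℤ) = k := by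
      obtain ⟨r, hr⟩ := hodd
      rcases Int.emod_two_eq_zero_or_one r with h | h
      · exact ⟨(r / 2).toNat, 0, by omega⟩
      · exact ⟨((r - 3) / 2).toNat, 1, by omega⟩
    let M : ModularForm 𝒮ℒ k :=
      ModularForm.mcast (by rw [← hij]; ring) ((E₄.pow i).mul (E₆.pow j))
    have hM : qExpansion 1 M =
        ((e4Z ^ i * e6Z ^ j).map (Int.castRingHom O)).map O.subtype := by
      simp only [M, ModularForm.qExpansion_mcast]
      rw [ModularForm.qExpansion_mul one_pos one_mem_strictPeriods_SL,
        ModularForm.qExpansion_pow one_pos one_mem_strictPeriods_SL,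
        ModularForm.qExpansion_pow one_pos one_mem_strictPeriods_SL,
        l1_qExpansion_E4, l1_qExpansion_E6, l1_map_map, map_mul, map_pow, map_pow]
    set a0 : O := PowerSeries.constantCoeff c with ha0
    let G : ModularForm 𝒮ℒ k := F - (a0 : ℂ) • M
    let cG : PowerSeries O :=
      c - PowerSeries.C a0 * (e4Z ^ i * e6Z ^ j).map (Int.castRingHom O)
    have hG : qExpansion 1 G = cG.map O.subtype := by
      simp only [G, cG]
      rw [FunLike.coe_sub, ModularForm.qExpansion_sub one_pos one_mem_strictPeriods_SL,
        FunLike.coe_smul, ModularForm.qExpansion_smul one_pos one_mem_strictPeriods_SL,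
        hc, hM]
      ext m
      simp [PowerSeries.coeff_C_mul]
    have hcG0 : PowerSeries.constantCoeff cG = 0 := by
      simp only [cG, map_sub, map_mul, map_pow, PowerSeries.constantCoeff_C]
      have e4 : PowerSeries.constantCoeff (e4Z.map (Int.castRingHom O)) = 1 := by
        rw [← PowerSeries.coeff_zero_eq_constantCoeff_apply, PowerSeries.coeff_map,
          PowerSeries.coeff_zero_eq_constantCoeff_apply, constantCoeff_e4Z, map_one]
      have e6 : PowerSeries.constantCoeff (e6Z.map (Int.castRingHom O)) = 1 := by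
        rw [← PowerSeries.coeff_zero_eq_constantCoeff_apply, PowerSeries.coeff_map,
          PowerSeries.coeff_zero_eq_constantCoeff_apply, constantCoeff_e6Z, map_one]
      rw [e4, e6, one_pow, one_pow, mul_one, mul_one, ← ha0, sub_self]
    have hG0 : (qExpansion 1 G).coeff 0 = 0 := by
      rw [hG, PowerSeries.coeff_map, PowerSeries.coeff_zero_eq_constantCoeff_apply, hcG0, map_zero]
    have key := ModularForm.qExpansion_eq_qExpansion_discriminant_mul G hG0
    set H : ModularForm 𝒮ℒ (k - 12) := CuspForm.discriminantEquiv (toCuspForm G hG0) with hHdef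
    obtain ⟨d, hd⟩ := PowerSeries.X_dvd_iff.mpr hcG0
    let cH : PowerSeries O := d * ModularCurve.dedekindEtaUnitInv.map (Int.castRingHom O)
    have hcH : deltaZ.map (Int.castRingHom O) * cH = cG := by
      have hu : ModularCurve.dedekindEtaUnit.map (Int.castRingHom O) *
          ModularCurve.dedekindEtaUnitInv.map (Int.castRingHom O) = 1 := by
        rw [← map_mul, ModularCurve.dedekindEtaUnit_mul_inv, map_one]
      simp only [cH, deltaZ]
      rw [map_mul, PowerSeries.map_X, hd]
      linear_combination (PowerSeries.X * d) * hu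
    have hH : qExpansion 1 H = cH.map O.subtype := by
      apply mul_left_cancel₀ l1_delta_ne_zero
      rw [← l1_qExpansion_discriminant, ← key, hG, ← hcH, map_mul, l1_map_map,
        l1_qExpansion_discriminant]
    -- the quotient is an isobaric polynomial
    have hquot : ∃ P₂ : MvPolynomial (Fin 3) O,
        (X 2 * P₂).IsWeightedHomogeneous ![4, 6, 12] k.toNat ∧
        cH = aeval ![e4Z.map (Int.castRingHom O), e6Z.map (Int.castRingHom O),
          deltaZ.map (Int.castRingHom O)] P₂ := by
      rcases lt_or_ge k 12 with h12 | h12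
      · have hH0 : H = 0 := DFunLike.coe_injective (by
          rw [ModularFormClass.levelOne_neg_weight_eq_zero (by omega) H, FunLike.coe_zero])
        refine ⟨0, by rw [mul_zero]; exact isWeightedHomogeneous_zero _ _ _, ?_⟩
        rw [map_zero]
        apply hinj
        rw [← hH, hH0, map_zero, FunLike.coe_zero]
        exact qExpansion_zero 1
      · obtain ⟨P₂, hP₂, hP₂e⟩ := ih (k - 12).toNat (by omega) (k - 12) rfl H cH hH
        refine ⟨P₂, ?_, hP₂e⟩
        have := (isWeightedHomogeneous_X O (![4, 6, 12] : Fin 3 → ℕ) 2).mul hP₂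
        convert this using 1
        simp
        omega
    obtain ⟨P₂, hP₂, hP₂e⟩ := hquot
    refine ⟨C a0 * X 0 ^ i * X 1 ^ j + X 2 * P₂, ?_, ?_⟩
    · refine IsWeightedHomogeneous.add ?_ hP₂
      have := ((isWeightedHomogeneous_C (![4, 6, 12] : Fin 3 → ℕ) a0).mul
        ((isWeightedHomogeneous_X O (![4, 6, 12] : Fin 3 → ℕ) 0).pow i)).mul
        ((isWeightedHomogeneous_X O (![4, 6, 12] : Fin 3 → ℕ) 1).pow j)
      convert this using 1
      simp
      omega
    · simp only [map_add, map_mul, map_pow, aeval_X, aeval_C]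
      simp only [Matrix.cons_val_zero, Matrix.cons_val_one, Matrix.cons_val]
      rw [← hP₂e, hcH]
      simp only [cG, map_mul, map_pow]
      have : (algebraMap O (PowerSeries O)) a0 = PowerSeries.C a0 := rfl
      rw [this]
      ring

/-- **L1.** A level one modular form whose `q`-expansion has coefficients in a subring `O` of `ℂ`
is an isobaric polynomial over `O` in `E₄`, `E₆`, `Δ`. -/
theorem levelOne_int_repr (O : Subring ℂ) (k : ℤ) (F : ModularForm 𝒮ℒ k) (c : PowerSeries O)
    (hc : qExpansion 1 F = c.map O.subtype) :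
    ∃ P : MvPolynomial (Fin 3) O, P.IsWeightedHomogeneous ![4, 6, 12] k.toNat ∧
      c = aeval ![e4Z.map (Int.castRingHom O), e6Z.map (Int.castRingHom O),
        deltaZ.map (Int.castRingHom O)] P :=
  l1_aux O k.toNat k rfl F c hc

end Fermat.Agent.S16
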