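import Fermat.Agent.S16.U9Mid
import Fermat.Agent.S16.SharpEsymm
import Fermat.Agent.S16.LevelOneInt

/-!
# S16, piece U9: no weight two form on `Γ₀(p)` is `≡ 1 mod 9` when `9 ∣ p + 1`

`u9_of_cong`: the modular-forms wrapper, taking the elementary congruences of the two integral
`q`-series `A = p³ (g³ - e₆) / 9` and `B = (-(U g)³ - p³ V e₆) / 9` as a hypothesis.
-/

set_option autoImplicit false

namespace Fermat.Agent.S16

open UpperHalfPlane ModularForm EisensteinSeries CongruenceSubgroup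
open scoped MatrixGroups Manifold
open Fermat.Agent.S20 (MF CF G0 QQ cj trP jet)

/-- Weight two: `p · b_n(G♯) = -a_{pn}(G)`. -/
theorem u9_sharp_two (p : ℕ) [NeZero p] (hp : p.Prime) {G : ℍ → ℂ} (hG : G ∈ MF (G0 p) 2)
    (n : ℕ) :
    (p : ℂ) * (qExpansion 1 (tkSharp p 2 G)).coeff n = -(qExpansion 1 G).coeff (p * n) := by
  have h := tk_weight_two p hp (tk_sharp_mem p hG) n
  rw [tk_sharp_sharp_of_mem p hG, (tk_qnice p hG).qExpansion_smul] at h
  have hp0 : (p : ℂ) ≠ 0 := tk_p_ne p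
  have h2 : (PowerSeries.coeff (p * n)) (((p : ℂ) ^ (-2 : ℤ)) • qExpansion 1 G) =
      ((p : ℂ) ^ (-2 : ℤ)) * (PowerSeries.coeff (p * n)) (qExpansion 1 G) := by
    rw [PowerSeries.coeff_smul, smul_eq_mul]
  rw [h2] at h
  have h3 : (p : ℂ) * ((p : ℂ) * ((p : ℂ) ^ (-2 : ℤ) * (PowerSeries.coeff (p * n)) (qExpansion 1 G)))
      = (PowerSeries.coeff (p * n)) (qExpansion 1 G) := by
    rw [zpow_neg, zpow_ofNat]; field_simp
  linear_combination (p : ℂ) * h - h3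

theorem u9_zeta_mem (p : ℕ) [NeZero p] : tkZeta p ∈ u9O := by
  rw [u9_mem_O_iff]
  refine IsIntegral.of_pow (Nat.pos_of_ne_zero (NeZero.ne p)) ?_
  rw [tkZeta_pow_p]
  exact isIntegral_one

theorem u9_div9 (B Y : PowerSeries ℤ) (h : PowerSeries.C (9 : ℤ) * B = Y) :
    B.map (Int.castRingHom ℂ) = PowerSeries.C (1 / 9 : ℂ) * Y.map (Int.castRingHom ℂ) := by
  ext m
  have h1 := congrArg (PowerSeries.coeff m) h
  rw [PowerSeries.coeff_C_mul] at h1
  rw [PowerSeries.coeff_map, PowerSeries.coeff_C_mul, PowerSeries.coeff_map, ← h1]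
  simp

/-- (U9) from the elementary congruences. -/
theorem u9_of_cong (p : ℕ) [Fact p.Prime]
    (G : ModularForm (CongruenceSubgroup.Gamma0 p) 2) (a : ℕ → ℤ)
    (ha : ∀ n, (qExpansion 1 G).coeff n = (a n : ℂ))
    (A B : PowerSeries ℤ)
    (hA9 : PowerSeries.C (9 : ℤ) * A =
      PowerSeries.C ((p : ℤ) ^ 3) * ((PowerSeries.mk a) ^ 3 - e6Z))
    (hB9 : PowerSeries.C (9 : ℤ) * B =
      -(PowerSeries.mk fun n => a (p * n)) ^ 3 -
        PowerSeries.C ((p : ℤ) ^ 3) *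
          PowerSeries.expand p (Fact.out : p.Prime).ne_zero e6Z)
    (hA : ∀ n, (3 : ℤ) ∣ PowerSeries.coeff n A - PowerSeries.coeff n sZ)
    (hB : ∀ n, (3 : ℤ) ∣ PowerSeries.coeff n B -
      PowerSeries.coeff n (PowerSeries.expand p (Fact.out : p.Prime).ne_zero sZ)) : False := by
  have hp : p.Prime := Fact.out
  have : NeZero p := ⟨hp.ne_zero⟩
  have hp0 : (p : ℂ) ≠ 0 := tk_p_ne p
  -- the forms
  have hG : (⇑G : ℍ → ℂ) ∈ MF (G0 p) 2 := ⟨G, rfl⟩
  have hGs : tkSharp p 2 ⇑G ∈ MF (G0 p) 2 := tk_sharp_mem p hG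
  have hE6 : (⇑E₆ : ℍ → ℂ) ∈ MF 𝒮ℒ 6 := ⟨E₆, rfl⟩
  have hE6p : (⇑E₆ : ℍ → ℂ) ∈ MF (G0 p) 6 := Fermat.Agent.S20.MF_levelOne_le p hE6
  have hVE6 : tkV p ⇑E₆ ∈ MF (G0 p) 6 := tk_V_mem p hE6
  have hGGG : (⇑G * ⇑G * ⇑G : ℍ → ℂ) ∈ MF (G0 p) 6 :=
    Fermat.Agent.S20.MF_congr (by norm_num)
      (Fermat.Agent.S20.MF_mul (Fermat.Agent.S20.MF_mul hG hG) hG)
  set c : ℂ := (p : ℂ) ^ 3 / 9 with hc
  set f : ℍ → ℂ := c • (⇑G * ⇑G * ⇑G - ⇑E₆) with hf
  have hfmem : f ∈ MF (G0 p) 6 := (MF (G0 p) 6).smul_mem c ((MF (G0 p) 6).sub_mem hGGG hE6p)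
  -- `q`-expansions
  have qG := tk_qnice p hG
  have qGs := tk_qnice p hGs
  have qE6 := tk_qnice p hE6p
  have qVE6 := tk_qnice p hVE6
  set gC : PowerSeries ℂ := (PowerSeries.mk a).map (Int.castRingHom ℂ) with hgC
  have hqG : qExpansion 1 (⇑G : ℍ → ℂ) = gC := by
    ext n
    rw [ha n, hgC, PowerSeries.coeff_map, PowerSeries.coeff_mk]; rfl
  set ugC : PowerSeries ℂ := (PowerSeries.mk fun n => a (p * n)).map (Int.castRingHom ℂ) with hugC
  have hqGs : qExpansion 1 (tkSharp p 2 ⇑G) = PowerSeries.C (-(1 / (p : ℂ))) * ugC := by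
    ext n
    have h := u9_sharp_two p hp hG n
    rw [ha (p * n)] at h
    rw [PowerSeries.coeff_C_mul, hugC, PowerSeries.coeff_map, PowerSeries.coeff_mk]
    have : ((Int.castRingHom ℂ) (a (p * n)) : ℂ) = ((a (p * n) : ℤ) : ℂ) := rfl
    rw [this]
    field_simp
    linear_combination h
  have hqf : qExpansion 1 f = PowerSeries.C c * (gC * gC * gC - e6Z.map (Int.castRingHom ℂ)) := by
    rw [hf, (((qG.mul qG).mul qG).sub qE6).qExpansion_smul, ((qG.mul qG).mul qG).qExpansion_sub qE6,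
      (qG.mul qG).qExpansion_mul qG, qG.qExpansion_mul qG, hqG, l1_qExpansion_E6,
      PowerSeries.smul_eq_C_mul]
  have hsharp : tkSharp p 6 f =
      c • (tkSharp p 2 ⇑G * tkSharp p 2 ⇑G * tkSharp p 2 ⇑G - tkV p ⇑E₆) := by
    have h1 : tkSharp p 6 (⇑G * ⇑G * ⇑G) =
        tkSharp p 2 ⇑G * tkSharp p 2 ⇑G * tkSharp p 2 ⇑G := by
      have := tk_sharp_mul p (2 + 2) 2 (⇑G * ⇑G) ⇑G
      rw [tk_sharp_mul p 2 2 ⇑G ⇑G] at this
      exact this
    have h2 : (⇑G * ⇑G * ⇑G - ⇑E₆ : ℍ → ℂ) = ⇑G * ⇑G * ⇑G + (-1 : ℂ) • ⇑E₆ := by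
      rw [neg_one_smul, sub_eq_add_neg]
    rw [hf, tk_sharp_smul, h2, tk_sharp_add, tk_sharp_smul, h1, tk_sharp_levelOne p hE6,
      neg_one_smul, sub_eq_add_neg]
  have hqfs : qExpansion 1 (tkSharp p 6 f) =
      PowerSeries.C c * ((PowerSeries.C (-(1 / (p : ℂ))) * ugC) ^ 3 -
        PowerSeries.expand p hp.ne_zero (e6Z.map (Int.castRingHom ℂ))) := by
    rw [hsharp, (((qGs.mul qGs).mul qGs).sub qVE6).qExpansion_smul,
      ((qGs.mul qGs).mul qGs).qExpansion_sub qVE6, (qGs.mul qGs).qExpansion_mul qGs,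
      qGs.qExpansion_mul qGs, hqGs, tk_qExpansion_V p hE6, l1_qExpansion_E6,
      PowerSeries.smul_eq_C_mul]
    ring
  -- identify with `A`, `B`
  have hc9 : PowerSeries.C c = PowerSeries.C (1 / 9 : ℂ) * PowerSeries.C ((p : ℂ) ^ 3) := by
    rw [← map_mul, hc]; congr 1; ring
  have hCp : PowerSeries.map (Int.castRingHom ℂ) (PowerSeries.C ((p : ℤ) ^ 3)) =
      PowerSeries.C ((p : ℂ) ^ 3) := by
    rw [PowerSeries.map_C]; simp
  have hqfA : qExpansion 1 f = A.map (Int.castRingHom ℂ) := by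
    rw [u9_div9 A _ hA9, map_mul, hCp, map_sub, map_pow (PowerSeries.map (Int.castRingHom ℂ)),
      hqf, hc9]
    ring
  have hqfB : qExpansion 1 (tkSharp p 6 f) = B.map (Int.castRingHom ℂ) := by
    have hpp : (PowerSeries.C ((p : ℂ) ^ 3) : PowerSeries ℂ) *
        (PowerSeries.C (-(1 / (p : ℂ)))) ^ 3 = -1 := by
      rw [← map_pow, ← map_mul]
      have : (p : ℂ) ^ 3 * (-(1 / (p : ℂ))) ^ 3 = -1 := by field_simp
      rw [this]; simp
    rw [u9_div9 B _ hB9, map_sub, map_neg, map_pow (PowerSeries.map (Int.castRingHom ℂ)),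
      map_mul, hCp, PowerSeries.map_expand, hqfs, hc9, mul_pow]
    linear_combination (PowerSeries.C (1 / 9 : ℂ) * ugC ^ 3) * hpp
  -- symmetric functions over the algebraic integers
  have hζ : tkZeta p ∈ u9O := u9_zeta_mem p
  set aO : PowerSeries u9O := A.map (Int.castRingHom u9O) with haO
  set bO : PowerSeries u9O := B.map (Int.castRingHom u9O) with hbO
  have haf : qExpansion 1 f = aO.map u9O.subtype := by rw [hqfA, haO, l1_map_map]
  have hbf : qExpansion 1 (tkSharp p 6 f) = bO.map u9O.subtype := by rw [hqfB, hbO, l1_map_map]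
  obtain ⟨k, m', hm, hk⟩ := Nat.exists_eq_pow_mul_and_not_dvd (Nat.succ_ne_zero p) 3 (by norm_num)
  obtain ⟨E, cE, -, hE2, hE3⟩ := tk_esymm_sub p hp hfmem u9O hζ aO bO haf hbf (3 ^ k)
  obtain ⟨PE, -, hPE⟩ := levelOne_int_repr u9O _ E cE hE2
  obtain ⟨κ, _, _, _, ⟨φ⟩⟩ := u9_exists_residue
  set ζO : u9O := ⟨tkZeta p, hζ⟩ with hζO
  have hζp : ζO ^ p = 1 := Subtype.ext (by rw [hζO]; exact tkZeta_pow_p p)
  refine u9_mid p hp.ne_zero φ k m' hk hm
    ((Finset.univ : Finset (Option (ZMod p))).val.map (tkSerR p ζO aO bO)) ?_ ?_ cE PE hPE ?_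
  · rw [Multiset.card_map]
    show (Finset.univ : Finset (Option (ZMod p))).card = p + 1
    rw [Finset.card_univ, Fintype.card_option, ZMod.card]
  · intro x hx
    obtain ⟨o, -, rfl⟩ := Multiset.mem_map.mp hx
    rcases o with _ | j
    · exact u9_map_A p hp.ne_zero φ A hA
    · exact u9_map_B p hp.ne_zero φ ζO hζp j.val B hB
  · rw [Finset.esymm_map_val]
    exact hE3

end Fermat.Agent.S16
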