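import Mathlib
import Fermat.Agent.S16.QSeries

/-!
# S16, piece U9 (algebraic core)

Over a perfect field `κ` of characteristic `3`, the reduction of `s = ∑ σ(n) qⁿ` is not a
polynomial in the reduction of `Δ`, and neither is any power `s ^ (3 ^ k)`.

* `u9_core`: the abstract statement (`D = X * u ^ 3`, `θ s = s - s ^ 3`, `s` non constant).
* `sZ`: the integral series `∑ σ(n) qⁿ`; `u9_theta_sZ`: `θ s = s - s ^ 3` in characteristic `3`.
* `u9_sZ_not_poly_delta`: the concrete statement for `sZ` and `deltaZ`.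
-/

set_option autoImplicit false

namespace Fermat.Agent.S16

open PowerSeries

section u9core

variable {κ : Type*} [Field κ] [CharP κ 3]

omit [CharP κ 3] in
theorem u9_qsTheta_X : qsTheta (PowerSeries.X : PowerSeries κ) = PowerSeries.X := by
  ext n
  rw [coeff_qsTheta, PowerSeries.coeff_X]
  split_ifs with h
  · subst h; simp
  · simp

theorem u9_three_eq_zero : (3 : PowerSeries κ) = 0 := by
  have h : ((3 : ℕ) : κ) = 0 := CharP.cast_eq_zero κ 3
  have h2 : ((3 : ℕ) : PowerSeries κ) = PowerSeries.C ((3 : ℕ) : κ) :=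
    (map_natCast (PowerSeries.C (R := κ)) 3).symm
  have h4 : (3 : PowerSeries κ) = ((3 : ℕ) : PowerSeries κ) := by norm_num
  rw [h4, h2, h, map_zero]

theorem u9_qsTheta_cube (f : PowerSeries κ) : qsTheta (f ^ 3) = 0 := by
  have h := qsTheta_pow f 2
  rw [show (2 : ℕ) + 1 = 3 from rfl] at h
  rw [h, nsmul_eq_mul]
  have h3' : ((3 : ℕ) : PowerSeries κ) = 0 := by
    have := u9_three_eq_zero (κ := κ)
    exact_mod_cast this
  rw [h3', zero_mul]

theorem u9_cube_injective {x y : PowerSeries κ} (h : x ^ 3 = y ^ 3) : x = y := by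
  have h3 := u9_three_eq_zero (κ := κ)
  have h1 : (x - y) ^ 3 = 0 := by
    have : (x - y) ^ 3 = x ^ 3 - y ^ 3 - 3 * (x * y * (x - y)) := by ring
    rw [this, h3, h]; ring
  exact sub_eq_zero.mp (pow_eq_zero_iff (by norm_num) |>.mp h1)

omit [CharP κ 3] in
/-- `θ (P(D)) = (X P')(D)` when `θ D = D`. -/
theorem u9_qsTheta_aeval (D : PowerSeries κ) (hD : qsTheta D = D) (P : Polynomial κ) :
    qsTheta (Polynomial.aeval D P) =
      Polynomial.aeval D (Polynomial.X * Polynomial.derivative P) := by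
  induction P using Polynomial.induction_on' with
  | add p q hp hq =>
    rw [map_add, qsTheta_add, hp, hq, Polynomial.derivative_add, mul_add, map_add]
  | monomial n a =>
    rw [Polynomial.aeval_monomial, Polynomial.derivative_monomial]
    have hC : (algebraMap κ (PowerSeries κ)) a = PowerSeries.C a := rfl
    rw [hC, qsTheta_C_mul]
    rcases n with _ | m
    · simp [qsTheta_one]
    · rw [qsTheta_pow, hD, ← pow_succ, Polynomial.X_mul_monomial, Polynomial.aeval_monomial]
      simp only [Nat.add_sub_cancel, nsmul_eq_mul]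
      have hC' : (algebraMap κ (PowerSeries κ)) (a * ((m + 1 : ℕ) : κ)) =
          PowerSeries.C a * ((m + 1 : ℕ) : PowerSeries κ) := by
        change PowerSeries.C (a * ((m + 1 : ℕ) : κ)) = _
        rw [map_mul, map_natCast]
      rw [hC']
      ring

omit [CharP κ 3] in
theorem u9_constantCoeff_aeval (D : PowerSeries κ) (hD0 : PowerSeries.constantCoeff D = 0)
    (P : Polynomial κ) :
    PowerSeries.constantCoeff (Polynomial.aeval D P) = P.coeff 0 := by
  induction P using Polynomial.induction_on' with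
  | add p q hp hq => rw [map_add, map_add, hp, hq, Polynomial.coeff_add]
  | monomial n a =>
    rw [Polynomial.aeval_monomial, map_mul, map_pow, hD0, Polynomial.coeff_monomial]
    have hC : (algebraMap κ (PowerSeries κ)) a = PowerSeries.C a := rfl
    rw [hC, PowerSeries.constantCoeff_C]
    rcases n with _ | m
    · simp
    · simp

omit [CharP κ 3] in
/-- A power series with zero constant term, not zero, is transcendental. -/
theorem u9_aeval_injective (D : PowerSeries κ) (hD0 : PowerSeries.constantCoeff D = 0)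
    (hD : D ≠ 0) : ∀ P : Polynomial κ, Polynomial.aeval D P = 0 → P = 0 := by
  intro P
  induction h : P.natDegree using Nat.strong_induction_on generalizing P with
  | _ d ih =>
    intro hP
    by_contra hne
    have h0 : P.coeff 0 = 0 := by
      rw [← u9_constantCoeff_aeval D hD0 P, hP, map_zero]
    obtain ⟨P1, rfl⟩ := Polynomial.X_dvd_iff.mpr h0
    have hP1 : P1 ≠ 0 := by
      rintro rfl; exact hne (by simp)
    rw [map_mul, Polynomial.aeval_X] at hP
    have h1 : Polynomial.aeval D P1 = 0 := by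
      rcases mul_eq_zero.mp hP with h | h
      · exact absurd h hD
      · exact h
    have hdeg : P1.natDegree < d := by
      rw [← h, Polynomial.natDegree_X_mul hP1]; exact Nat.lt_succ_self _
    exact hP1 (ih _ hdeg P1 rfl h1)

/-- Core of (U9): in characteristic `3`, if `θ s = s - s ^ 3` and `s` is not constant, then no
`s ^ (3 ^ k)` is a polynomial in `D = q u ^ 3`. -/
theorem u9_core [PerfectField κ] (s D u : PowerSeries κ) (hD : D = PowerSeries.X * u ^ 3)
    (hu : PowerSeries.constantCoeff u ≠ 0) (hs : qsTheta s = s - s ^ 3)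
    (hs1 : PowerSeries.coeff 1 s ≠ 0) :
    ∀ (k : ℕ) (P : Polynomial κ), Polynomial.aeval D P ≠ s ^ (3 ^ k) := by
  have hθD : qsTheta D = D := by
    rw [hD, qsTheta_mul, u9_qsTheta_cube, mul_zero, add_zero, u9_qsTheta_X]
  have hD0 : PowerSeries.constantCoeff D = 0 := by
    rw [hD, map_mul, PowerSeries.constantCoeff_X, zero_mul]
  have hDne : D ≠ 0 := by
    intro h0
    have : PowerSeries.coeff 1 D = 0 := by rw [h0]; simp
    rw [hD, show (1 : ℕ) = 0 + 1 from rfl, PowerSeries.coeff_succ_X_mul,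
      PowerSeries.coeff_zero_eq_constantCoeff_apply, map_pow] at this
    exact hu (pow_eq_zero_iff (by norm_num) |>.mp this)
  have hinj := u9_aeval_injective D hD0 hDne
  intro k
  induction k with
  | zero =>
    intro P hP
    rw [pow_zero, pow_one] at hP
    -- `X P' = P - P ^ 3`
    have h1 : Polynomial.aeval D (Polynomial.X * Polynomial.derivative P - (P - P ^ 3)) = 0 := by
      rw [map_sub, ← u9_qsTheta_aeval D hθD P, hP, hs, map_sub, map_pow, hP]; ring
    have h2 : Polynomial.X * Polynomial.derivative P = P - P ^ 3 := sub_eq_zero.mp (hinj _ h1)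
    have h3 : P ^ 3 = P - Polynomial.X * Polynomial.derivative P := by rw [h2]; ring
    have hdeg : (P ^ 3).natDegree ≤ P.natDegree := by
      rw [h3]
      refine (Polynomial.natDegree_sub_le _ _).trans (max_le le_rfl ?_)
      by_cases hP0 : P.natDegree = 0
      · rw [Polynomial.eq_C_of_natDegree_eq_zero hP0]; simp
      · refine (Polynomial.natDegree_mul_le).trans ?_
        rw [Polynomial.natDegree_X]
        have := Polynomial.natDegree_derivative_lt hP0
        omega
    rw [Polynomial.natDegree_pow] at hdeg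
    have hP0 : P.natDegree = 0 := by omega
    rw [Polynomial.eq_C_of_natDegree_eq_zero hP0, Polynomial.aeval_C] at hP
    apply hs1
    rw [← hP]
    have hC : (algebraMap κ (PowerSeries κ)) (P.coeff 0) = PowerSeries.C (P.coeff 0) := rfl
    rw [hC, PowerSeries.coeff_C]; simp
  | succ k ih =>
    intro P hP
    have hpow : s ^ (3 ^ (k + 1)) = (s ^ (3 ^ k)) ^ 3 := by rw [← pow_mul, pow_succ]
    rw [hpow] at hP
    have h1 : Polynomial.aeval D (Polynomial.X * Polynomial.derivative P) = 0 := by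
      rw [← u9_qsTheta_aeval D hθD P, hP, u9_qsTheta_cube]
    have h2 : Polynomial.derivative P = 0 := by
      have := hinj _ h1
      rcases mul_eq_zero.mp this with h | h
      · exact absurd h Polynomial.X_ne_zero
      · exact h
    have h3 : Polynomial.expand κ 3 (Polynomial.contract 3 P) = P :=
      Polynomial.expand_contract 3 h2 (by norm_num)
    have : Fact (Nat.Prime 3) := ⟨Nat.prime_three⟩
    set P2 : Polynomial κ := (Polynomial.contract 3 P).map ((frobeniusEquiv κ 3).symm : κ →+* κ)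
      with hP2
    have h4 : P2 ^ 3 = P := by
      rw [← Polynomial.map_frobenius_expand 3 P2, Polynomial.map_expand, hP2, Polynomial.map_map]
      have : (frobenius κ 3).comp ((frobeniusEquiv κ 3).symm : κ →+* κ) = RingHom.id κ := by
        ext x
        simp
      rw [this, Polynomial.map_id, h3]
    have h5 : (Polynomial.aeval D P2) ^ 3 = (s ^ (3 ^ k)) ^ 3 := by
      rw [← map_pow, h4, hP]
    exact ih P2 (u9_cube_injective h5)

end u9core

/-! ### The series `s = ∑ σ(n) qⁿ` -/

/-- The integral series `∑ σ₁(n) qⁿ`. -/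
noncomputable def sZ : PowerSeries ℤ :=
  PowerSeries.mk fun n => ∑ d ∈ n.divisors, (d : ℤ)

@[simp] theorem coeff_sZ (n : ℕ) : PowerSeries.coeff n sZ = ∑ d ∈ n.divisors, (d : ℤ) := by
  simp [sZ]

theorem e2Z_eq_sZ : e2Z = 1 - PowerSeries.C (24 : ℤ) * sZ := by
  ext n
  rw [coeff_e2Z, map_sub, PowerSeries.coeff_C_mul, coeff_sZ, PowerSeries.coeff_one]
  split_ifs with h
  · subst h; simp
  · ring

theorem u9_sigma_three (n : ℕ) :
    (3 : ℤ) ∣ (∑ d ∈ (3 * n).divisors, (d : ℤ)) - ∑ d ∈ n.divisors, (d : ℤ) := by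
  rcases Nat.eq_zero_or_pos n with rfl | hn
  · simp
  have hsub : n.divisors ⊆ (3 * n).divisors := by
    intro d hd
    rw [Nat.mem_divisors] at hd ⊢
    exact ⟨Dvd.dvd.mul_left hd.1 3, by omega⟩
  rw [← Finset.sum_sdiff hsub, add_sub_cancel_right]
  refine Finset.dvd_sum fun d hd => ?_
  rw [Finset.mem_sdiff, Nat.mem_divisors, Nat.mem_divisors] at hd
  have h3 : 3 ∣ d := by
    by_contra h
    have hc : Nat.Coprime d 3 := (Nat.Prime.coprime_iff_not_dvd Nat.prime_three).mpr h |>.symm
    exact hd.2 ⟨hc.dvd_of_dvd_mul_left hd.1.1, by omega⟩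
  exact_mod_cast h3

theorem u9_sigma_two (n : ℕ) (h : n % 3 = 2) : (3 : ℤ) ∣ ∑ d ∈ n.divisors, (d : ℤ) := by
  have hn : n ≠ 0 := by rintro rfl; simp at h
  have key : ((∑ d ∈ n.divisors, (d : ℤ) : ℤ) : ZMod 3) = 0 := by
    have h1 : ∑ d ∈ n.divisors, ((n / d : ℕ) : ZMod 3) = ∑ d ∈ n.divisors, ((d : ℕ) : ZMod 3) :=
      Nat.sum_div_divisors n fun d => ((d : ℕ) : ZMod 3)
    have h2 : ∀ d ∈ n.divisors, ((d : ℕ) : ZMod 3) + ((n / d : ℕ) : ZMod 3) = 0 := by
      intro d hd
      have hdvd : d ∣ n := (Nat.mem_divisors.mp hd).1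
      have hmul : ((d : ℕ) : ZMod 3) * ((n / d : ℕ) : ZMod 3) = 2 := by
        rw [← Nat.cast_mul, Nat.mul_div_cancel' hdvd]
        have : ((n : ℕ) : ZMod 3) = ((n % 3 : ℕ) : ZMod 3) := by
          rw [ZMod.natCast_mod]
        rw [this, h]; rfl
      have hdec : ∀ a b : ZMod 3, a * b = 2 → a + b = 0 := by decide
      exact hdec _ _ hmul
    have h3 : (∑ d ∈ n.divisors, ((d : ℕ) : ZMod 3)) + ∑ d ∈ n.divisors, ((d : ℕ) : ZMod 3) = 0 := by
      nth_rewrite 2 [← h1]
      rw [← Finset.sum_add_distrib]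
      exact Finset.sum_eq_zero h2
    have hdec2 : ∀ a : ZMod 3, a + a = 0 → a = 0 := by decide
    push_cast
    exact hdec2 _ h3
  exact (ZMod.intCast_zmod_eq_zero_iff_dvd _ 3).mp key

section u9sigma

variable {κ : Type*} [Field κ] [CharP κ 3]

theorem u9_cast_eq_zero_of_dvd {a : ℤ} (h : (3 : ℤ) ∣ a) : ((a : ℤ) : κ) = 0 := by
  obtain ⟨b, rfl⟩ := h
  have h3 : ((3 : ℕ) : κ) = 0 := CharP.cast_eq_zero κ 3
  push_cast
  have : (3 : κ) = 0 := by exact_mod_cast h3
  rw [this, zero_mul]

theorem u9_coeff_cube (f : PowerSeries κ) (n : ℕ) :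
    PowerSeries.coeff n (f ^ 3) = if 3 ∣ n then (PowerSeries.coeff (n / 3) f) ^ 3 else 0 := by
  have : Fact (Nat.Prime 3) := ⟨Nat.prime_three⟩
  have h := MvPowerSeries.map_frobenius_expand (σ := Unit) (R := κ) 3 (by norm_num) (f := f)
  have h' : (PowerSeries.expand 3 (by norm_num) f).map (frobenius κ 3) = f ^ 3 := h
  rw [← h', PowerSeries.coeff_map, PowerSeries.coeff_expand]
  split_ifs with h3
  · rfl
  · simp

/-- `θ s = s - s ^ 3` for `s = ∑ σ(n) qⁿ` in characteristic `3`. -/
theorem u9_theta_sZ :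
    qsTheta (sZ.map (Int.castRingHom κ)) =
      sZ.map (Int.castRingHom κ) - (sZ.map (Int.castRingHom κ)) ^ 3 := by
  have : Fact (Nat.Prime 3) := ⟨Nat.prime_three⟩
  ext n
  rw [coeff_qsTheta, map_sub, u9_coeff_cube, PowerSeries.coeff_map, coeff_sZ]
  have h3 : ((3 : ℕ) : κ) = 0 := CharP.cast_eq_zero κ 3
  have h3' : (3 : κ) = 0 := by exact_mod_cast h3
  have hfrob : ∀ a : ℤ, ((a : ℤ) : κ) ^ 3 = (a : κ) := by
    intro a
    have := map_intCast (frobenius κ 3) a
    rwa [frobenius_def] at this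
  have hn : n % 3 = 0 ∨ n % 3 = 1 ∨ n % 3 = 2 := by omega
  rcases hn with hn | hn | hn
  · have hdvd : 3 ∣ n := Nat.dvd_of_mod_eq_zero hn
    obtain ⟨m, rfl⟩ := hdvd
    rw [if_pos (Dvd.intro m rfl), Nat.mul_div_cancel_left m (by norm_num : 0 < 3),
      PowerSeries.coeff_map, coeff_sZ, eq_intCast, eq_intCast, hfrob]
    have := u9_cast_eq_zero_of_dvd (κ := κ) (u9_sigma_three m)
    rw [Int.cast_sub] at this
    rw [this]
    push_cast
    rw [h3', zero_mul, zero_mul]
  · have hnd : ¬ 3 ∣ n := by omega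
    rw [if_neg hnd, sub_zero]
    have hcast : ((n : ℕ) : κ) = 1 := by
      have : n = 3 * (n / 3) + 1 := by omega
      rw [this]; push_cast; rw [h3', zero_mul, zero_add]
    rw [hcast, one_mul]
  · have hnd : ¬ 3 ∣ n := by omega
    rw [if_neg hnd, sub_zero, eq_intCast, u9_cast_eq_zero_of_dvd (u9_sigma_two n hn), mul_zero]

omit [CharP κ 3] in
theorem u9_coeff_one_sZ : PowerSeries.coeff 1 (sZ.map (Int.castRingHom κ)) = 1 := by
  rw [PowerSeries.coeff_map, coeff_sZ]; simp

omit [CharP κ 3] in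
theorem u9_deltaZ_eq :
    deltaZ.map (Int.castRingHom κ) =
      PowerSeries.X * ((ModularCurve.etaProd ^ 8).map (Int.castRingHom κ)) ^ 3 := by
  rw [deltaZ, map_mul, PowerSeries.map_X, ModularCurve.dedekindEtaUnit, ← map_pow, ← pow_mul]

/-- (U9), algebraic core: over a perfect field of characteristic `3`, no power `s ^ (3 ^ k)` of
`s = ∑ σ(n) qⁿ` is a polynomial in `Δ`. -/
theorem u9_sZ_not_poly_delta [PerfectField κ] (k : ℕ) (P : Polynomial κ) :
    Polynomial.aeval (deltaZ.map (Int.castRingHom κ)) P ≠ (sZ.map (Int.castRingHom κ)) ^ (3 ^ k) := by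
  refine u9_core _ _ _ u9_deltaZ_eq ?_ u9_theta_sZ ?_ k P
  · rw [← PowerSeries.coeff_zero_eq_constantCoeff_apply, PowerSeries.coeff_map,
      PowerSeries.coeff_zero_eq_constantCoeff_apply, map_pow, ModularCurve.constantCoeff_etaProd]
    simp
  · rw [u9_coeff_one_sZ]; exact one_ne_zero

end u9sigma

end Fermat.Agent.S16
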