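import Mathlib
import Fermat.Agent.S16.QSeries
import Fermat.Agent.S16.U9Core

/-!
# S16, piece U9: the congruences for `Q = (G³ - E₆) / 9` (integral normalisation `p³ • Q`)

For an integral series `g ≡ 1 mod 9` and a prime `p` with `9 ∣ p + 1`:
`A := p³ (g³ - e₆) / 9` and `B := (-(U_p g)³ - p³ e₆(q^p)) / 9` are integral, `A ≡ s` and
`B ≡ s(q^p)` modulo `3`, where `s = ∑ σ(n) qⁿ`.
-/

set_option autoImplicit false

namespace Fermat.Agent.S16

open PowerSeries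

/-- The operator `U_p` on integral power series. -/
noncomputable def u9U (p : ℕ) (f : PowerSeries ℤ) : PowerSeries ℤ :=
  PowerSeries.mk fun n => PowerSeries.coeff (p * n) f

/-- The integral `q`-series `∑ σ₅(n) qⁿ`. -/
noncomputable def u9cS5 : PowerSeries ℤ := PowerSeries.mk fun n => ∑ d ∈ n.divisors, (d : ℤ) ^ 5

theorem u9c_coeff_S5 (n : ℕ) : PowerSeries.coeff n u9cS5 = ∑ d ∈ n.divisors, (d : ℤ) ^ 5 := by
  simp [u9cS5]

theorem u9c_e6Z_eq : e6Z = 1 - 504 * u9cS5 := by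
  ext n
  have h504 : (504 : PowerSeries ℤ) = PowerSeries.C (504 : ℤ) := (map_ofNat _ 504).symm
  rw [coeff_e6Z, map_sub, h504, PowerSeries.coeff_C_mul, u9c_coeff_S5, PowerSeries.coeff_one]
  split_ifs with h
  · subst h; simp
  · ring

theorem u9c_pow_five (a : ℤ) : (3 : ℤ) ∣ a ^ 5 - a := by
  have h : a ^ 5 - a = (a - 1) * a * (a + 1) * (a ^ 2 + 1) := by ring
  rw [h]
  have h3 : a % 3 = 0 ∨ a % 3 = 1 ∨ a % 3 = 2 := by omega
  rcases h3 with h3 | h3 | h3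
  · exact Dvd.dvd.mul_right (Dvd.dvd.mul_right (Dvd.dvd.mul_left (Int.dvd_of_emod_eq_zero h3) _) _) _
  · exact Dvd.dvd.mul_right (Dvd.dvd.mul_right (Dvd.dvd.mul_right
      (Int.dvd_of_emod_eq_zero (by omega)) _) _) _
  · exact Dvd.dvd.mul_right (Dvd.dvd.mul_left (Int.dvd_of_emod_eq_zero (by omega)) _) _

theorem u9c_S5_sub_sZ (n : ℕ) :
    (3 : ℤ) ∣ PowerSeries.coeff n u9cS5 - PowerSeries.coeff n sZ := by
  rw [u9c_coeff_S5, coeff_sZ, ← Finset.sum_sub_distrib]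
  exact Finset.dvd_sum fun d _ => u9c_pow_five d

/-- An integral series `≡ 1 mod 9` is `1 + 9 h`. -/
theorem u9c_exists_eq_one_add (f : PowerSeries ℤ) (h0 : (9 : ℤ) ∣ PowerSeries.coeff 0 f - 1)
    (hn : ∀ n, 1 ≤ n → (9 : ℤ) ∣ PowerSeries.coeff n f) :
    ∃ h : PowerSeries ℤ, f = 1 + 9 * h := by
  refine ⟨PowerSeries.mk fun n => (PowerSeries.coeff n f - if n = 0 then 1 else 0) / 9, ?_⟩
  ext n
  have h9 : (9 : PowerSeries ℤ) = PowerSeries.C (9 : ℤ) := (map_ofNat _ 9).symm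
  rw [map_add, h9, PowerSeries.coeff_C_mul, PowerSeries.coeff_mk, PowerSeries.coeff_one]
  have hd : (9 : ℤ) ∣ PowerSeries.coeff n f - if n = 0 then 1 else 0 := by
    by_cases h : n = 0
    · subst h; simpa using h0
    · simpa [h] using hn n (Nat.one_le_iff_ne_zero.mpr h)
  rw [Int.mul_ediv_cancel' hd]
  ring

theorem u9c_dvd_coeff_three_mul (T R : PowerSeries ℤ) (hR : ∀ n, (3 : ℤ) ∣ PowerSeries.coeff n R)
    (n : ℕ) : (3 : ℤ) ∣ PowerSeries.coeff n (3 * T + R) := by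
  have h3 : (3 : PowerSeries ℤ) = PowerSeries.C (3 : ℤ) := (map_ofNat _ 3).symm
  rw [map_add, h3, PowerSeries.coeff_C_mul]
  exact dvd_add (dvd_mul_right 3 _) (hR n)

/-- The congruences for the two conjugate series of `p³ • (G³ - E₆) / 9`. -/
theorem u9_cong (p : ℕ) (hp : p.Prime) (h9 : 9 ∣ p + 1) (g : PowerSeries ℤ)
    (hg0 : (9 : ℤ) ∣ PowerSeries.coeff 0 g - 1)
    (hg : ∀ n, 1 ≤ n → (9 : ℤ) ∣ PowerSeries.coeff n g) :
    ∃ A B : PowerSeries ℤ,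
      PowerSeries.C (9 : ℤ) * A = PowerSeries.C ((p : ℤ) ^ 3) * (g ^ 3 - e6Z) ∧
      PowerSeries.C (9 : ℤ) * B = -(u9U p g) ^ 3 -
        PowerSeries.C ((p : ℤ) ^ 3) * PowerSeries.expand p hp.ne_zero e6Z ∧
      (∀ n, (3 : ℤ) ∣ PowerSeries.coeff n A - PowerSeries.coeff n sZ) ∧
      (∀ n, (3 : ℤ) ∣ PowerSeries.coeff n B -
        PowerSeries.coeff n (PowerSeries.expand p hp.ne_zero sZ)) := by
  obtain ⟨h, hh⟩ := u9c_exists_eq_one_add g hg0 hg
  obtain ⟨h1, hh1⟩ := u9c_exists_eq_one_add (u9U p g)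
    (by simpa [u9U] using hg0)
    (fun n hn => by
      simp only [u9U, PowerSeries.coeff_mk]
      exact hg (p * n) (Nat.mul_pos hp.pos hn))
  obtain ⟨d, hd⟩ := h9
  -- `C p = 9 D - 1`
  set D : PowerSeries ℤ := PowerSeries.C (d : ℤ) with hD
  have hP : PowerSeries.C (p : ℤ) = 9 * D - 1 := by
    have h1 : (p : ℤ) = 9 * (d : ℤ) - 1 := by
      have : ((p + 1 : ℕ) : ℤ) = ((9 * d : ℕ) : ℤ) := by rw [hd]
      push_cast at this
      linarith
    rw [h1, map_sub, map_mul, map_one, map_ofNat]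
  have hC9 : PowerSeries.C (9 : ℤ) = 9 := map_ofNat _ 9
  have hCp3 : PowerSeries.C ((p : ℤ) ^ 3) = (9 * D - 1) ^ 3 := by rw [map_pow, hP]
  set S5 : PowerSeries ℤ := u9cS5 with hS5
  set V5 : PowerSeries ℤ := PowerSeries.expand p hp.ne_zero u9cS5 with hV5
  have hexp6 : PowerSeries.expand p hp.ne_zero e6Z = 1 - 504 * V5 := by
    rw [u9c_e6Z_eq, map_sub, map_one, map_mul, map_ofNat]
  set x : PowerSeries ℤ := h + 9 * h ^ 2 + 27 * h ^ 3 with hx
  set y : PowerSeries ℤ := h1 + 9 * h1 ^ 2 + 27 * h1 ^ 3 with hy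
  set w : PowerSeries ℤ := 9 * (27 * D ^ 3 - 9 * D ^ 2 + D) with hw
  refine ⟨(9 * D - 1) ^ 3 * (3 * x + 56 * S5),
    -(3 * (27 * D ^ 3 - 9 * D ^ 2 + D)) - 3 * y + 56 * (9 * D - 1) ^ 3 * V5, ?_, ?_, ?_, ?_⟩
  · rw [hC9, hCp3, hh, u9c_e6Z_eq]
    ring
  · rw [hC9, hCp3, hh1, hexp6]
    ring
  · intro n
    have e : (9 * D - 1) ^ 3 * (3 * x + 56 * S5) - sZ =
        3 * ((9 * D - 1) ^ 3 * x + 56 * w * S5 - 19 * S5) + (S5 - sZ) := by
      rw [hw]; ring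
    rw [← map_sub, e]
    exact u9c_dvd_coeff_three_mul _ _ (fun m => by rw [map_sub]; exact u9c_S5_sub_sZ m) n
  · intro n
    have e : -(3 * (27 * D ^ 3 - 9 * D ^ 2 + D)) - 3 * y + 56 * (9 * D - 1) ^ 3 * V5 -
        PowerSeries.expand p hp.ne_zero sZ =
        3 * (-(27 * D ^ 3 - 9 * D ^ 2 + D) - y + 56 * w * V5 - 19 * V5) +
          (V5 - PowerSeries.expand p hp.ne_zero sZ) := by
      rw [hw]; ring
    rw [← map_sub, e]
    refine u9c_dvd_coeff_three_mul _ _ (fun m => ?_) n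
    rw [hV5, ← map_sub, PowerSeries.coeff_expand]
    split_ifs with hpm
    · rw [map_sub]; exact u9c_S5_sub_sZ _
    · exact dvd_zero 3

end Fermat.Agent.S16
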