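import Fermat.Agent.S16.SwdCore

/-!
# S16, piece W: glue between the integral structure (L1) and the weight lemma core

If `O` is a commutative ring, `φ : O →+* κ` a ring homomorphism to a field in which `1728 ≠ 0`,
`E4 E6 Δ : O⟦X⟧` with `1728 * Δ = E4 ^ 3 - E6 ^ 2`, and `PA`, `PF` are isobaric polynomials in three
variables of weights `4, 6, 12` whose values at `(E4, E6, Δ)` reduce under `φ` to nonzero constants,
then `4 ≤ gcd (weight PA) (weight PF)` as soon as `weight PA > 0` (`swd_gcd_of_repr`).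
-/

set_option autoImplicit false

open MvPolynomial

namespace Fermat.Agent.S16

section glue

variable {O κ : Type*} [CommRing O] [Field κ]

theorem swd_weight3_apply (d : Fin 3 →₀ ℕ) :
    Finsupp.weight (![4, 6, 12] : Fin 3 → ℕ) d = d 0 * 4 + d 1 * 6 + d 2 * 12 := by
  rw [Finsupp.weight_apply, Finsupp.sum_fintype _ _ (fun i => by simp), Fin.sum_univ_three]
  simp

/-- The substitution `X₂ ↦ (X₀³ - X₁²) / 1728`. -/
noncomputable def swdSubst (κ : Type*) [Field κ] :
    MvPolynomial (Fin 3) κ →ₐ[κ] MvPolynomial (Fin 2) κ :=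
  aeval ![X 0, X 1, C (1728⁻¹ : κ) * (X 0 ^ 3 - X 1 ^ 2)]

theorem swdSubst_isWH {f : MvPolynomial (Fin 3) κ} {w : ℕ}
    (hf : f.IsWeightedHomogeneous ![4, 6, 12] w) :
    (swdSubst κ f).IsWeightedHomogeneous ![4, 6] w := by
  induction hf using IsWeightedHomogeneous.induction_on with
  | zero =>
    rw [map_zero]
    exact isWeightedHomogeneous_zero κ _ _
  | add p q hp hq ihp ihq =>
    rw [map_add]
    exact ihp.add ihq
  | monomial d r hr =>
    rw [swd_weight3_apply] at hr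
    have h12 : (C (1728⁻¹ : κ) * (X 0 ^ 3 - X 1 ^ 2) :
        MvPolynomial (Fin 2) κ).IsWeightedHomogeneous ![4, 6] 12 := by
      have h1 := (swd_isWH_X0 (k := κ)).pow 3
      have h2 := (swd_isWH_X1 (k := κ)).pow 2
      have h3 := (h1.sub h2).C_mul (1728⁻¹ : κ)
      simpa using h3
    have h := (((swd_isWH_X0 (k := κ)).pow (d 0)).mul ((swd_isWH_X1 (k := κ)).pow (d 1))).mul
      (h12.pow (d 2))
    have h' := h.C_mul r
    have e : swdSubst κ (monomial d r) = C r * (X 0 ^ d 0 * X 1 ^ d 1 *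
        (C (1728⁻¹ : κ) * (X 0 ^ 3 - X 1 ^ 2)) ^ d 2) := by
      rw [swdSubst, aeval_monomial, Finsupp.prod_fintype _ _ (fun i => by simp),
        Fin.prod_univ_three]
      rfl
    rw [e]
    have ew : d 0 • 4 + d 1 • 6 + d 2 • 12 = w := by
      simp only [smul_eq_mul]
      omega
    rw [ew] at h'
    exact h'

theorem swd_map_isWH (φ : O →+* κ) {f : MvPolynomial (Fin 3) O} {w : ℕ}
    (hf : f.IsWeightedHomogeneous ![4, 6, 12] w) :
    (map φ f).IsWeightedHomogeneous ![4, 6, 12] w := by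
  intro d hd
  rw [coeff_map] at hd
  exact hf (fun h => hd (by rw [h, map_zero]))

theorem swd_subst_aeval (φ : O →+* κ) (h1728 : (1728 : κ) ≠ 0) (E4 E6 Δ : PowerSeries O)
    (hΔ : 1728 * Δ = E4 ^ 3 - E6 ^ 2) (f : MvPolynomial (Fin 3) O) :
    aeval ![E4.map φ, E6.map φ] (swdSubst κ (map φ f)) =
      (aeval ![E4, E6, Δ] f).map φ := by
  have hΔ' : (1728 : PowerSeries κ) * Δ.map φ = E4.map φ ^ 3 - E6.map φ ^ 2 := by
    have h := congrArg (PowerSeries.map φ) hΔ
    rwa [map_mul, map_sub, map_pow, map_pow, map_ofNat] at h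
  have hΔ'' : Δ.map φ = PowerSeries.C (1728⁻¹ : κ) * (E4.map φ ^ 3 - E6.map φ ^ 2) := by
    rw [← hΔ', ← mul_assoc]
    have : PowerSeries.C (1728⁻¹ : κ) * (1728 : PowerSeries κ) = 1 := by
      have h2 : (1728 : PowerSeries κ) = PowerSeries.C (1728 : κ) :=
        (map_ofNat (PowerSeries.C (R := κ)) 1728).symm
      rw [h2, ← map_mul, inv_mul_cancel₀ h1728, map_one]
    rw [this, one_mul]
  induction f using MvPolynomial.induction_on with
  | C a =>
    rw [map_C, swdSubst, aeval_C, aeval_C]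
    change aeval _ (C (φ a)) = PowerSeries.map φ (PowerSeries.C a)
    rw [aeval_C, PowerSeries.map_C]
    rfl
  | add p q hp hq =>
    simp only [map_add] at hp hq ⊢
    rw [hp, hq]
  | mul_X p i hp =>
    simp only [map_mul, map_X, aeval_X] at hp ⊢
    rw [hp]
    congr 1
    fin_cases i
    · simp [swdSubst]
    · simp [swdSubst]
    · simp only [swdSubst, Fin.reduceFinMk, aeval_X]
      rw [show (![E4, E6, Δ] : Fin 3 → PowerSeries O) 2 = Δ from rfl, hΔ'']
      simp

/-- **Elementary weight lemma, glue form.** -/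
theorem swd_gcd_of_repr (φ : O →+* κ) (h1728 : (1728 : κ) ≠ 0)
    (E4 E6 Δ : PowerSeries O) (h4 : PowerSeries.constantCoeff E4 = 1)
    (h6 : PowerSeries.constantCoeff E6 = 1)
    (hΔ : 1728 * Δ = E4 ^ 3 - E6 ^ 2) (hΔ1 : PowerSeries.coeff 1 Δ = 1)
    (PA : MvPolynomial (Fin 3) O) (u : ℕ) (hu : 0 < u)
    (hPA : PA.IsWeightedHomogeneous ![4, 6, 12] u)
    (hA0 : φ (PowerSeries.constantCoeff (aeval ![E4, E6, Δ] PA)) ≠ 0)
    (hAn : ∀ n, 1 ≤ n → φ (PowerSeries.coeff n (aeval ![E4, E6, Δ] PA)) = 0)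
    (PF : MvPolynomial (Fin 3) O) (w : ℕ) (hPF : PF.IsWeightedHomogeneous ![4, 6, 12] w)
    (hF0 : φ (PowerSeries.constantCoeff (aeval ![E4, E6, Δ] PF)) ≠ 0)
    (hFn : ∀ n, 1 ≤ n → φ (PowerSeries.coeff n (aeval ![E4, E6, Δ] PF)) = 0) :
    4 ≤ Nat.gcd u w := by
  have hQ0 : PowerSeries.constantCoeff (E4.map φ) = 1 := by
    rw [← PowerSeries.coeff_zero_eq_constantCoeff_apply, PowerSeries.coeff_map,
      PowerSeries.coeff_zero_eq_constantCoeff_apply, h4, map_one]
  have hR0 : PowerSeries.constantCoeff (E6.map φ) = 1 := by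
    rw [← PowerSeries.coeff_zero_eq_constantCoeff_apply, PowerSeries.coeff_map,
      PowerSeries.coeff_zero_eq_constantCoeff_apply, h6, map_one]
  have hD : E4.map φ ^ 3 ≠ E6.map φ ^ 2 := by
    intro h
    have hΔ' : (1728 : PowerSeries κ) * Δ.map φ = E4.map φ ^ 3 - E6.map φ ^ 2 := by
      have h := congrArg (PowerSeries.map φ) hΔ
      rwa [map_mul, map_sub, map_pow, map_pow, map_ofNat] at h
    rw [h, sub_self] at hΔ'
    have h2 : (1728 : PowerSeries κ) = PowerSeries.C (1728 : κ) :=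
      (map_ofNat (PowerSeries.C (R := κ)) 1728).symm
    have h3 := congrArg (PowerSeries.coeff 1) hΔ'
    rw [h2, PowerSeries.coeff_C_mul, PowerSeries.coeff_map, hΔ1, map_one, mul_one, map_zero] at h3
    exact h1728 h3
  have key : ∀ (P : MvPolynomial (Fin 3) O),
      (∀ n, 1 ≤ n → φ (PowerSeries.coeff n (aeval ![E4, E6, Δ] P)) = 0) →
      aeval ![E4.map φ, E6.map φ] (swdSubst κ (map φ P)) =
        PowerSeries.C (φ (PowerSeries.constantCoeff (aeval ![E4, E6, Δ] P))) := by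
    intro P hP
    rw [swd_subst_aeval φ h1728 E4 E6 Δ hΔ]
    ext n
    rw [PowerSeries.coeff_map, PowerSeries.coeff_C]
    split_ifs with hn
    · rw [hn, PowerSeries.coeff_zero_eq_constantCoeff_apply]
    · exact hP n (by omega)
  have hAq : aeval ![E4.map φ, E6.map φ]
      (C (φ (PowerSeries.constantCoeff (aeval ![E4, E6, Δ] PA)))⁻¹ * swdSubst κ (map φ PA)) = 1 := by
    rw [map_mul, key PA hAn, aeval_C]
    change PowerSeries.C _ * PowerSeries.C _ = 1
    rw [← map_mul, inv_mul_cancel₀ hA0, map_one]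
  exact swd_gcd_core (E4.map φ) (E6.map φ) hQ0 hR0 hD _ u hu
    ((swdSubst_isWH (swd_map_isWH φ hPA)).C_mul _) hAq _ w (swdSubst_isWH (swd_map_isWH φ hPF))
    _ hF0 (key PF hFn)

end glue

end Fermat.Agent.S16
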