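import Mathlib

/-!
# S16, sub-piece VS: a level one form of weight `ℓ - 1` congruent to a nonzero constant mod `ℓ`

For a prime `ℓ ≥ 5`, a suitable integer multiple `m • E_{ℓ-1}` of the Eisenstein series of weight
`ℓ - 1` has integer `q`-coefficients, constant term `m` prime to `ℓ` and all higher coefficients
divisible by `ℓ` (von Staudt–Clausen).
-/

set_option autoImplicit false

open UpperHalfPlane ModularForm SlashInvariantForm SlashInvariantFormClass ModularFormClass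
  MatrixGroups EisensteinSeries Finset

noncomputable section

namespace Fermat.Agent.S16

/-- von Staudt–Clausen at `ℓ - 1`: there is a natural number `D` divisible by `ℓ` such that
`D * B_{ℓ-1}` is an integer prime to `ℓ`. -/
theorem vs_bernoulli (ℓ : ℕ) [hℓp : Fact ℓ.Prime] (hℓ : 5 ≤ ℓ) :
    ∃ (D : ℕ) (m : ℤ), ℓ ∣ D ∧ ¬ (ℓ : ℤ) ∣ m ∧ (m : ℚ) = D * bernoulli (ℓ - 1) := by
  have hp := hℓp.out
  have hodd : Odd ℓ := hp.odd_of_ne_two (by omega)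
  obtain ⟨t, ht⟩ := hodd
  have hk : ℓ - 1 = 2 * t := by omega
  obtain ⟨N, hN⟩ := Bernoulli.vonStaudt_clausen t
  set S : Finset ℕ := (range (2 * t + 2)).filter fun p => p.Prime ∧ (p - 1) ∣ 2 * t with hS
  have hmem : ℓ ∈ S := by
    rw [hS, Finset.mem_filter, Finset.mem_range]
    refine ⟨by omega, hp, ?_⟩
    rw [← hk]
  have hprime : ∀ q ∈ S, q.Prime := fun q hq => (Finset.mem_filter.mp hq).2.1
  refine ⟨∏ p ∈ S, p, (∏ p ∈ S, (p : ℤ)) * N - ∑ p ∈ S, ∏ q ∈ S.erase p, (q : ℤ),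
    Finset.dvd_prod_of_mem _ hmem, ?_, ?_⟩
  · intro hdvd
    have h1 : (ℓ : ℤ) ∣ ∏ p ∈ S, (p : ℤ) := Finset.dvd_prod_of_mem (fun p : ℕ => (p : ℤ)) hmem
    have h2 : (ℓ : ℤ) ∣ ∑ p ∈ S, ∏ q ∈ S.erase p, (q : ℤ) := by
      have := dvd_sub (Dvd.dvd.mul_right h1 N) hdvd
      simpa using this
    rw [← Finset.add_sum_erase S _ hmem] at h2
    have h3 : (ℓ : ℤ) ∣ ∑ p ∈ S.erase ℓ, ∏ q ∈ S.erase p, (q : ℤ) := by
      refine Finset.dvd_sum fun p hp' => ?_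
      have hne : p ≠ ℓ := Finset.ne_of_mem_erase hp'
      exact Finset.dvd_prod_of_mem (fun q : ℕ => (q : ℤ))
        (Finset.mem_erase.mpr ⟨fun h => hne h.symm, hmem⟩)
    have h4 : (ℓ : ℤ) ∣ ∏ q ∈ S.erase ℓ, (q : ℤ) := (Int.dvd_add_left h3).mp h2
    have h5 : ℓ ∣ ∏ q ∈ S.erase ℓ, q := by
      have : ((ℓ : ℕ) : ℤ) ∣ ((∏ q ∈ S.erase ℓ, q : ℕ) : ℤ) := by
        rw [Nat.cast_prod]; exact h4
      exact Int.natCast_dvd_natCast.mp this
    obtain ⟨q, hq, hq'⟩ := (Prime.dvd_finsetProd_iff hp.prime _).mp h5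
    have hqp : q.Prime := hprime q (Finset.mem_of_mem_erase hq)
    have : ℓ = q := (Nat.prime_dvd_prime_iff_eq hp hqp).mp hq'
    exact Finset.ne_of_mem_erase hq this.symm
  · have hB : bernoulli (ℓ - 1) = (N : ℚ) - ∑ p ∈ S, (1 : ℚ) / p := by
      rw [hk, hN]; ring
    have herase : ∀ p ∈ S, ((∏ q ∈ S.erase p, (q : ℤ) : ℤ) : ℚ) = (∏ q ∈ S, (q : ℚ)) * (1 / p) := by
      intro p hp'
      have hp0 : (p : ℚ) ≠ 0 := by exact_mod_cast (hprime p hp').ne_zero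
      rw [← Finset.mul_prod_erase S (fun q : ℕ => (q : ℚ)) hp']
      push_cast
      field_simp
    rw [hB, mul_sub, Finset.mul_sum]
    have e1 : (((∏ p ∈ S, (p : ℤ)) * N - ∑ p ∈ S, ∏ q ∈ S.erase p, (q : ℤ) : ℤ) : ℚ) =
        (∏ p ∈ S, (p : ℚ)) * N - ∑ p ∈ S, ((∏ q ∈ S.erase p, (q : ℤ) : ℤ) : ℚ) := by
      push_cast; rfl
    have e2 : ((∏ p ∈ S, p : ℕ) : ℚ) = ∏ p ∈ S, (p : ℚ) := by push_cast; rfl
    rw [e1, e2]
    congr 1
    exact Finset.sum_congr rfl herase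

/-- For a prime `ℓ ≥ 5` there is a level one modular form of weight `ℓ - 1` with integer
`q`-coefficients whose constant term is prime to `ℓ` and whose higher coefficients are all
divisible by `ℓ`. -/
theorem vs_exists_A (ℓ : ℕ) [Fact ℓ.Prime] (hℓ : 5 ≤ ℓ) :
    ∃ (m : ℤ) (f : ModularForm 𝒮ℒ ((ℓ - 1 : ℕ) : ℤ)) (a : ℕ → ℤ), ¬ (ℓ : ℤ) ∣ m ∧
      (∀ n, (qExpansion 1 f).coeff n = (a n : ℂ)) ∧ a 0 = m ∧ ∀ n, 1 ≤ n → (ℓ : ℤ) ∣ a n := by
  have hp : ℓ.Prime := Fact.out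
  have hodd : Odd ℓ := hp.odd_of_ne_two (by omega)
  have hk3 : 3 ≤ ℓ - 1 := by omega
  have hkeven : Even (ℓ - 1) := by
    obtain ⟨t, ht⟩ := hodd
    exact ⟨t, by omega⟩
  obtain ⟨D, m, hD, hm, hmB⟩ := vs_bernoulli ℓ hℓ
  have hm0 : m ≠ 0 := fun h => hm (h ▸ dvd_zero _)
  have hD0 : (D : ℚ) ≠ 0 := by
    intro h
    rw [h, zero_mul] at hmB
    exact hm0 (by exact_mod_cast hmB)
  have hB0 : bernoulli (ℓ - 1) ≠ 0 := by
    intro h
    rw [h, mul_zero] at hmB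
    exact hm0 (by exact_mod_cast hmB)
  have hmBC : (m : ℂ) = (D : ℂ) * ((bernoulli (ℓ - 1) : ℚ) : ℂ) := by
    have := congrArg (fun x : ℚ => (x : ℂ)) hmB
    simpa using this
  have hB0C : ((bernoulli (ℓ - 1) : ℚ) : ℂ) ≠ 0 := by exact_mod_cast hB0
  refine ⟨m, (m : ℂ) • E hk3,
    fun n => if n = 0 then m else
      -(2 * ((ℓ - 1 : ℕ) : ℤ) * (D : ℤ) * ((ArithmeticFunction.sigma (ℓ - 1 - 1) n : ℕ) : ℤ)),
    hm, ?_, by simp, ?_⟩
  · intro n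
    have hcoe : (⇑((m : ℂ) • E hk3) : ℍ → ℂ) = (m : ℂ) • ⇑(E hk3) := rfl
    rw [hcoe, ModularForm.qExpansion_smul one_pos one_mem_strictPeriods_SL]
    rw [PowerSeries.coeff_smul, E_qExpansion_coeff hk3 hkeven n]
    by_cases hn : n = 0
    · simp [hn]
    · simp only [hn, if_false, smul_eq_mul]
      rw [hmBC]
      push_cast
      field_simp
  · intro n hn
    have hn0 : n ≠ 0 := by omega
    simp only [hn0, if_false]
    have hDz : (ℓ : ℤ) ∣ (D : ℤ) := Int.natCast_dvd_natCast.mpr hD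
    exact (dvd_neg.mpr (Dvd.dvd.mul_right (Dvd.dvd.mul_left hDz _) _))

end Fermat.Agent.S16
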