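import Fermat.Agent.S16.LevelOneInt
import Fermat.Agent.S16.SwdGlue
import Fermat.Agent.S16.VonStaudt

/-!
# S16: the weight lemma (`wl`)

If a level one modular form `F` of weight `w` has `q`-expansion coefficients in a subring `O ⊆ ℂ`
and reduces to a nonzero constant under a ring hom `φ : O → κ` to a field of characteristic
`l ≥ 5`, then `4 ≤ gcd (l - 1) w`.
-/

set_option autoImplicit false

namespace Fermat.Agent.S16

open UpperHalfPlane ModularForm CongruenceSubgroup MvPolynomial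
open scoped MatrixGroups

theorem wl_1728_ne_zero (l : ℕ) [Fact l.Prime] (hl : 5 ≤ l) {κ : Type*} [Field κ] [CharP κ l] :
    (1728 : κ) ≠ 0 := by
  have h : ((1728 : ℕ) : κ) ≠ 0 := by
    rw [Ne, CharP.cast_eq_zero_iff κ l]
    intro hdvd
    have hp := (Fact.out : l.Prime)
    have h2 : l ∣ 2 ^ 6 * 3 ^ 3 := by
      norm_num
      exact hdvd
    rcases (Nat.Prime.dvd_mul hp).mp h2 with h | h
    · have := (Nat.prime_dvd_prime_iff_eq hp Nat.prime_two).mp (hp.dvd_of_dvd_pow h)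
      omega
    · have := (Nat.prime_dvd_prime_iff_eq hp Nat.prime_three).mp (hp.dvd_of_dvd_pow h)
      omega
  exact_mod_cast h

/-- **Weight lemma.** -/
theorem wl (l : ℕ) [Fact l.Prime] (hl : 5 ≤ l) (O : Subring ℂ) {κ : Type*} [Field κ] [CharP κ l]
    (φ : O →+* κ) (w : ℕ) (F : ModularForm 𝒮ℒ w) (c : ℕ → O)
    (hc : ∀ n, (qExpansion 1 F).coeff n = c n) (h0 : φ (c 0) ≠ 0)
    (hn : ∀ n, 1 ≤ n → φ (c n) = 0) : 4 ≤ Nat.gcd (l - 1) w := by
  obtain ⟨m, A, a, hm, hA, ha0, han⟩ := vs_exists_A l hl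
  obtain ⟨PF, hPF, hPFe⟩ := levelOne_int_repr O w F (PowerSeries.mk c) (by
    ext n
    simp [hc n])
  obtain ⟨PA, hPA, hPAe⟩ := levelOne_int_repr O ((l - 1 : ℕ) : ℤ) A
    (PowerSeries.mk fun n => ((a n : ℤ) : O)) (by
    ext n
    simp [hA n])
  rw [Int.toNat_natCast] at hPF hPA
  have hl1 : 0 < l - 1 := by omega
  refine swd_gcd_of_repr φ (wl_1728_ne_zero l hl) (e4Z.map (Int.castRingHom O))
    (e6Z.map (Int.castRingHom O)) (deltaZ.map (Int.castRingHom O)) ?_ ?_ ?_ ?_ PA (l - 1) hl1 hPA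
    ?_ ?_ PF w hPF ?_ ?_
  · rw [← PowerSeries.coeff_zero_eq_constantCoeff_apply, PowerSeries.coeff_map,
      PowerSeries.coeff_zero_eq_constantCoeff_apply, constantCoeff_e4Z, map_one]
  · rw [← PowerSeries.coeff_zero_eq_constantCoeff_apply, PowerSeries.coeff_map,
      PowerSeries.coeff_zero_eq_constantCoeff_apply, constantCoeff_e6Z, map_one]
  · have h := congrArg (PowerSeries.map (Int.castRingHom O)) l1_deltaZ_eq
    rw [map_mul, map_sub, map_pow, map_pow, map_ofNat] at h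
    exact h
  · rw [PowerSeries.coeff_map, coeff_one_deltaZ, map_one]
  · rw [← hPAe, ← PowerSeries.coeff_zero_eq_constantCoeff_apply, PowerSeries.coeff_mk, ha0,
      map_intCast, Ne, CharP.intCast_eq_zero_iff κ l]
    exact hm
  · intro n hn'
    rw [← hPAe, PowerSeries.coeff_mk, map_intCast, CharP.intCast_eq_zero_iff κ l]
    exact han n hn'
  · rw [← hPFe, ← PowerSeries.coeff_zero_eq_constantCoeff_apply, PowerSeries.coeff_mk]
    exact h0
  · intro n hn'
    rw [← hPFe, PowerSeries.coeff_mk]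
    exact hn n hn'

end Fermat.Agent.S16
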