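import Fermat.Agent.S16.UlMain
import Fermat.Agent.S16.SharpEsymm
import Fermat.Agent.S16.U1
import Fermat.Agent.S16.WeightLemma
import Fermat.Agent.S16.UpperBound

/-!
# S16 piece Ul: no congruence `G ≡ 1 mod l` for primes `l ≥ 5`

`ul`: for primes `p` and `l ≥ 5` there is no modular form `G` of weight two and level `Γ₀(p)`
with integral `q`-expansion, `a₀ ≡ 1` and `aₙ ≡ 0` (`n ≥ 1`) modulo `l`.
`ul_not_ubCong` is the same statement in the shape used by `ub_main_of`.

Proof: `ul_of` (file `UlMain.lean`) applied to the toolkit (`tk_card_QQ`, `tk_jet_some`,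
`tk_weight_two`), piece U1 (`u1`) and the weight lemma (`wl`).
-/

set_option autoImplicit false

namespace Fermat.Agent.S16

open UpperHalfPlane ModularForm CongruenceSubgroup Fermat.Agent.S20
open scoped MatrixGroups Manifold

/-- The weight lemma in the shape used by `ul_of`. -/
theorem ul_wl (l : ℕ) [Fact l.Prime] (hl : 5 ≤ l) : UlWL l :=
  fun O _ _ _ φ w F c hc h0 hn => wl l hl O φ w F c hc h0 hn

/-- The `q^(1/p)`-expansions of the nontrivial conjugates of a weight two form with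
`q`-expansion `∑ aₙ qⁿ`: they are `∑ -(a (p n))/p ζ^(j n) xⁿ`. -/
theorem ul_jets (p : ℕ) [Fact p.Prime] (G : ModularForm (G0 p) 2) (a : ℕ → ℤ)
    (ha : ∀ n, (qExpansion 1 G).coeff n = (a n : ℂ)) (q : QQ p)
    (hq : q ≠ QuotientGroup.mk 1) :
    ∃ j : ℕ, ∀ n, jet p 2 G q n = -(a (p * n) : ℂ) / p * tkZeta p ^ (j * n) := by
  have hp : p.Prime := Fact.out
  have : NeZero p := ⟨hp.ne_zero⟩
  have hp0 : (p : ℂ) ≠ 0 := Nat.cast_ne_zero.mpr hp.ne_zero
  have hG : (⇑G : ℍ → ℂ) ∈ MF (G0 p) 2 := ⟨G, rfl⟩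
  obtain ⟨o, rfl⟩ := (tkCos_bijective p hp).2 q
  cases o with
  | none =>
    exfalso
    apply hq
    simp [tkCos, tkRep]
  | some j =>
    refine ⟨j.val, fun n => ?_⟩
    rw [tk_jet_some p hG j n, pow_mul]
    have h1 := tk_weight_two p hp (tk_sharp_mem p hG) n
    rw [tk_sharp_sharp_of_mem p hG] at h1
    have han : AnalyticAt ℂ (cuspFunction 1 (⇑G : ℍ → ℂ)) 0 :=
      ModularFormClass.analyticAt_cuspFunction_zero G one_pos
        (CongruenceSubgroup.one_mem_strictPeriods_Gamma0 p)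
    rw [UpperHalfPlane.qExpansion_smul han, PowerSeries.coeff_smul, ha, smul_eq_mul] at h1
    have h3 : (qExpansion 1 (tkSharp p 2 (⇑G : ℍ → ℂ))).coeff n = -(a (p * n) : ℂ) / p := by
      have h4 : ((p : ℂ) ^ (-(2 : ℤ))) = ((p : ℂ) ^ 2)⁻¹ := by
        rw [zpow_neg]
        norm_cast
      rw [h4] at h1
      rw [eq_neg_of_add_eq_zero_left h1]
      field_simp
    rw [h3]
    ring

/-- **Ul**: for a prime `l ≥ 5` there is no form `G` of weight two and level `Γ₀(p)` with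
integral `q`-expansion congruent to `1` modulo `l`. -/
theorem ul (p : ℕ) [Fact p.Prime] (l : ℕ) [Fact l.Prime] (hl : 5 ≤ l)
    (G : ModularForm (CongruenceSubgroup.Gamma0 p) 2) (a : ℕ → ℤ)
    (ha : ∀ n, (qExpansion 1 G).coeff n = (a n : ℂ))
    (h0 : (l : ℤ) ∣ a 0 - 1) (hn : ∀ n, 1 ≤ n → (l : ℤ) ∣ a n) : False := by
  have hp : p.Prime := Fact.out
  have hlp : l.Prime := Fact.out
  have : NeZero p := ⟨hp.ne_zero⟩
  refine ul_of p l G a ha h0 hn (tk_card_QQ p hp) (tkZeta p) (tkZeta_pow_p p)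
    (ul_jets p G a ha) (fun hne => ?_) (ul_wl l hl)
  exact u1 p l ((Nat.coprime_primes hlp hp).mpr hne) G a ha h0 hn

/-- **Ul** in the shape used by the assembly of the upper bound. -/
theorem ul_not_ubCong (p : ℕ) [Fact p.Prime] (l : ℕ) (hl : l.Prime) (h5 : 5 ≤ l) :
    ¬ UbCong p l := by
  rintro ⟨G, b, hb, h0, hn⟩
  have : Fact l.Prime := ⟨hl⟩
  exact ul p l h5 G b hb h0 hn

end Fermat.Agent.S16
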