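import Fermat.Agent.S16.UpperBound
import Fermat.Agent.S16.U1
import Fermat.Agent.S16.Ul
import Fermat.Agent.S16.U9
import Fermat.Agent.S16.U9Cong

/-!
# S16: the upper bound, final assembly

`ub_main_of_u8`: the upper bound `m ∣ eisensteinNumerator p` with only the `U8` statement left as a
hypothesis (`U1`, `U9`, `Ul` are plugged in).
-/

set_option autoImplicit false

open UpperHalfPlane ModularForm Complex
open scoped Real MatrixGroups CongruenceSubgroup Manifold

noncomputable section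

namespace Fermat.Agent.S16

/-- `U1` in the `UbCong` shape. -/
theorem ubf_u1 (p : ℕ) [Fact p.Prime] (M : ℕ) (hM : Nat.Coprime M p) (h : UbCong p M) :
    M ∣ p + 1 := by
  obtain ⟨G, b, hb, h0, hn⟩ := h
  exact u1 p M hM G b hb h0 hn

/-- `U9` in the `UbCong` shape. -/
theorem ubf_u9 (p : ℕ) [Fact p.Prime] (h9 : 9 ∣ p + 1) : ¬ UbCong p 9 := by
  rintro ⟨G, b, hb, h0, hn⟩
  have hp : p.Prime := Fact.out
  obtain ⟨A, B, hA9, hB9, hA, hB⟩ := u9_cong p hp h9 (PowerSeries.mk b)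
    (by simpa using h0) (fun n hn' => by simpa using hn n hn')
  refine u9_of_cong p G b hb A B hA9 ?_ hA hB
  rw [hB9]
  congr 2
  ext n
  simp [u9U]

/-- The upper bound, with only `U8` left as a hypothesis. -/
theorem ub_main_of_u8 (p : ℕ) [Fact p.Prime] (hp : 5 ≤ p)
    (hU8 : p % 8 = 7 → ¬ UbCong p 8)
    (m : ℕ) (f : CuspForm (CongruenceSubgroup.Gamma0 p) 2) (a : ℕ → ℤ)
    (ha : ∀ k, (qExpansion 1 f).coeff k = (a k : ℂ))
    (hcong : ∀ k, 1 ≤ k → (m : ℤ) ∣ a k - ∑ d ∈ k.divisors with ¬ p ∣ d, (d : ℤ)) :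
    m ∣ ModularCurve.eisensteinNumerator p :=
  ub_main_of p hp (ubf_u1 p) hU8 (ubf_u9 p) (fun l hl h5 => ul_not_ubCong p l hl h5) m f a ha hcong

end Fermat.Agent.S16
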