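import Mathlib

/-!
# S16, piece A (algebra): abstract lemmas

* `alg_pairing_surj`: a pairing of finite free `ℤ`-modules which is injective on both sides is
  surjective up to a nonzero integer multiple.
* `alg_card_quotient`: a ring `T` with an ideal `J` such that `ℤ → T ⧸ J` is surjective has
  `Nat.card (T ⧸ J) = m` where `m ℤ` is the preimage of `J` in `ℤ`.
-/

set_option autoImplicit false

namespace Fermat.Agent.S16

open Module

/-- A pairing of finite free `ℤ`-modules that is injective on both sides is "perfect up to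
finite index": every functional on `T` is, up to a nonzero integer multiple, given by pairing with
an element of `L`. -/
theorem alg_pairing_surj {T L : Type*} [AddCommGroup T] [AddCommGroup L]
    [Module.Free ℤ T] [Module.Finite ℤ T] [Module.Free ℤ L] [Module.Finite ℤ L]
    (β : T →ₗ[ℤ] L →ₗ[ℤ] ℤ) (h1 : Function.Injective β) (h2 : Function.Injective β.flip)
    (lam : T →ₗ[ℤ] ℤ) : ∃ N : ℤ, N ≠ 0 ∧ ∃ g : L, ∀ t, N * lam t = β t g := by
  have hd1 : finrank ℤ T ≤ finrank ℤ L := by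
    calc finrank ℤ T ≤ finrank ℤ (L →ₗ[ℤ] ℤ) := LinearMap.finrank_le_finrank_of_injective h1
      _ = finrank ℤ L := Module.finrank_linearMap_self ℤ ℤ L
  have hd2 : finrank ℤ L ≤ finrank ℤ T := by
    calc finrank ℤ L ≤ finrank ℤ (T →ₗ[ℤ] ℤ) := LinearMap.finrank_le_finrank_of_injective h2
      _ = finrank ℤ T := Module.finrank_linearMap_self ℤ ℤ T
  set W : Submodule ℤ (T →ₗ[ℤ] ℤ) := LinearMap.range β.flip with hW
  have hWr : finrank ℤ W = finrank ℤ (T →ₗ[ℤ] ℤ) := by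
    rw [hW, LinearMap.finrank_range_of_inj h2, Module.finrank_linearMap_self ℤ ℤ T]
    exact le_antisymm hd2 hd1
  have hq : finrank ℤ ((T →ₗ[ℤ] ℤ) ⧸ W) = 0 := by
    have := W.finrank_quotient_add_finrank
    omega
  have htor : Module.IsTorsion ℤ ((T →ₗ[ℤ] ℤ) ⧸ W) := Module.finrank_eq_zero_iff_isTorsion.1 hq
  obtain ⟨a, ha⟩ := @htor (Submodule.Quotient.mk lam)
  have ha' : (a : ℤ) • lam ∈ W := by
    rw [← Submodule.Quotient.mk_eq_zero, Submodule.Quotient.mk_smul]
    exact ha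
  obtain ⟨g, hg⟩ := ha'
  refine ⟨a, nonZeroDivisors.ne_zero a.2, g, fun t => ?_⟩
  have := congrArg (fun f : T →ₗ[ℤ] ℤ => f t) hg
  simp only [LinearMap.flip_apply, LinearMap.smul_apply, smul_eq_mul] at this
  exact this.symm

/-- If `ℤ → T ⧸ J` is surjective, then `T ⧸ J ≅ ℤ / m` and `Nat.card (T ⧸ J) = m`, where `m ≥ 0`
generates the preimage of `J` in `ℤ`. -/
theorem alg_card_quotient {T : Type*} [CommRing T] (J : Ideal T)
    (hsurj : ∀ t : T, ∃ a : ℤ, t - (a : T) ∈ J) :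
    ∃ m : ℕ, Nat.card (T ⧸ J) = m ∧ ∀ a : ℤ, (a : T) ∈ J ↔ (m : ℤ) ∣ a := by
  set ψ : ℤ →+* T ⧸ J := (Ideal.Quotient.mk J).comp (Int.castRingHom T) with hψ
  have hψs : Function.Surjective ψ := by
    intro x
    obtain ⟨t, rfl⟩ := Ideal.Quotient.mk_surjective x
    obtain ⟨a, ha⟩ := hsurj t
    refine ⟨a, ?_⟩
    rw [hψ, RingHom.comp_apply]
    exact (Ideal.Quotient.eq.2 ha).symm
  obtain ⟨g, hg⟩ : ∃ g : ℤ, RingHom.ker ψ = Ideal.span {g} :=
    ⟨_, (Ideal.span_singleton_generator (RingHom.ker ψ)).symm⟩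
  have hker : RingHom.ker ψ = Ideal.span {(g.natAbs : ℤ)} := by rw [hg, Int.span_natAbs]
  refine ⟨g.natAbs, ?_, fun a => ?_⟩
  · have e1 : (ℤ ⧸ RingHom.ker ψ) ≃+* T ⧸ J := RingHom.quotientKerEquivOfSurjective hψs
    have e2 : (ℤ ⧸ RingHom.ker ψ) ≃+* ZMod g.natAbs :=
      (Ideal.quotEquivOfEq hker).trans (Int.quotientSpanNatEquivZMod g.natAbs)
    rw [← Nat.card_congr e1.toEquiv, Nat.card_congr e2.toEquiv, Nat.card_zmod]
  · have : (a : T) ∈ J ↔ a ∈ RingHom.ker ψ := by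
      rw [RingHom.mem_ker, hψ, RingHom.comp_apply, Ideal.Quotient.eq_zero_iff_mem]
      rfl
    rw [this, hker, Ideal.mem_span_singleton]

/-- A `ℤ`-linear lift `T → ℤ` of `T → T ⧸ J`, when `ℤ → T ⧸ J` is surjective and `T` is free. -/
theorem alg_exists_lift {T : Type*} [CommRing T] [Module.Free ℤ T] (J : Ideal T)
    (hsurj : ∀ t : T, ∃ a : ℤ, t - (a : T) ∈ J) :
    ∃ lam : T →ₗ[ℤ] ℤ, ∀ t : T, t - ((lam t : ℤ) : T) ∈ J := by
  classical
  let b := Module.Free.chooseBasis ℤ T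
  choose a ha using fun i => hsurj (b i)
  refine ⟨b.constr ℤ a, fun t => ?_⟩
  have ht : t ∈ Submodule.span ℤ (Set.range b) := b.mem_span t
  induction ht using Submodule.span_induction with
  | mem x hx =>
    obtain ⟨i, rfl⟩ := hx
    rw [Module.Basis.constr_basis]
    exact ha i
  | zero => simp
  | add x y _ _ hx hy =>
    rw [map_add, Int.cast_add, add_sub_add_comm]
    exact J.add_mem hx hy
  | smul c x _ hx =>
    rw [map_smul, smul_eq_mul, Int.cast_mul, ← zsmul_eq_mul, ← smul_sub]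
    exact J.smul_of_tower_mem c hx

/-- The lift is congruent modulo `m` to any integer representing the class. -/
theorem alg_lift_congr {T : Type*} [CommRing T] (J : Ideal T) (m : ℕ)
    (hm : ∀ a : ℤ, (a : T) ∈ J ↔ (m : ℤ) ∣ a) (lam : T → ℤ)
    (hlam : ∀ t, t - ((lam t : ℤ) : T) ∈ J) (t : T) (e : ℤ) (he : t - (e : T) ∈ J) :
    (m : ℤ) ∣ lam t - e := by
  rw [← hm]
  have := J.sub_mem he (hlam t)
  rwa [sub_sub_sub_cancel_left, ← Int.cast_sub] at this

end Fermat.Agent.S16
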