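import Mathlib

/-!
# S16, piece A (algebra): the Eisenstein coefficients `σ'(k)`

`sigmaP p k = σ(k) - p σ(k/p)` (the second term only if `p ∣ k`) is the sum of the divisors of `k`
prime to `p`; these are the `q`-coefficients of `(E₂(z) - p E₂(pz)) / (-24)`.
We prove the Hecke recursions and that they characterise the sequence modulo any integer.
-/

set_option autoImplicit false

namespace Fermat.Agent.S16

open ArithmeticFunction

/-- `σ'(k) = σ(k) - p σ(k/p)`: the sum of the divisors of `k` that are prime to `p`. -/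
def sigmaP (p k : ℕ) : ℤ :=
  (sigma 1 k : ℤ) - if p ∣ k then (p : ℤ) * (sigma 1 (k / p) : ℤ) else 0

theorem sigmaP_of_dvd {p k : ℕ} (h : p ∣ k) :
    sigmaP p k = (sigma 1 k : ℤ) - (p : ℤ) * (sigma 1 (k / p) : ℤ) := by
  rw [sigmaP, if_pos h]

theorem sigmaP_of_not_dvd {p k : ℕ} (h : ¬ p ∣ k) : sigmaP p k = (sigma 1 k : ℤ) := by
  rw [sigmaP, if_neg h, sub_zero]

/-- Geometric sums: `s_{r+2} + ℓ s_r = (1 + ℓ) s_{r+1}`. -/
theorem alg_geom_rec (ℓ r : ℕ) :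
    (∑ j ∈ Finset.range (r + 3), ℓ ^ j) + ℓ * ∑ j ∈ Finset.range (r + 1), ℓ ^ j =
      (1 + ℓ) * ∑ j ∈ Finset.range (r + 2), ℓ ^ j := by
  rw [Finset.sum_range_succ (n := r + 2), Finset.sum_range_succ (n := r + 1)]
  ring

/-- The Hecke relation for `σ` at a prime `ℓ`. -/
theorem alg_sigma_hecke {ℓ : ℕ} (hℓ : ℓ.Prime) (k : ℕ) :
    sigma 1 (k * ℓ) + (if ℓ ∣ k then ℓ * sigma 1 (k / ℓ) else 0) = (1 + ℓ) * sigma 1 k := by
  rcases Nat.eq_zero_or_pos k with rfl | hk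
  · simp
  obtain ⟨r, k', hk', rfl⟩ := Nat.exists_eq_pow_mul_and_not_dvd hk.ne' ℓ hℓ.ne_one
  have hcop : ∀ i, Nat.Coprime (ℓ ^ i) k' := fun i =>
    Nat.Coprime.pow_left i ((Nat.Prime.coprime_iff_not_dvd hℓ).2 hk')
  have hmul : ∀ i, sigma 1 (ℓ ^ i * k') = sigma 1 (ℓ ^ i) * sigma 1 k' := fun i =>
    isMultiplicative_sigma.map_mul_of_coprime (hcop i)
  have hpow : ∀ i, sigma 1 (ℓ ^ i) = ∑ j ∈ Finset.range (i + 1), ℓ ^ j := fun i => by
    rw [sigma_apply_prime_pow hℓ]; simp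
  have e1 : ℓ ^ r * k' * ℓ = ℓ ^ (r + 1) * k' := by ring
  rw [e1, hmul, hmul, hpow, hpow]
  rcases Nat.eq_zero_or_pos r with rfl | hr
  · have : ¬ ℓ ∣ ℓ ^ 0 * k' := by simpa using hk'
    rw [if_neg this]
    simp [Finset.sum_range_succ]
  · obtain ⟨r, rfl⟩ : ∃ r', r = r' + 1 := ⟨r - 1, by omega⟩
    have hd : ℓ ∣ ℓ ^ (r + 1) * k' := Dvd.dvd.mul_right (dvd_pow_self ℓ (by omega)) k'
    have e2 : ℓ ^ (r + 1) * k' / ℓ = ℓ ^ r * k' := by
      rw [pow_succ, mul_assoc, mul_comm ℓ k', ← mul_assoc]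
      exact Nat.mul_div_cancel _ hℓ.pos
    rw [if_pos hd, e2, hmul, hpow]
    have := alg_geom_rec ℓ r
    calc (∑ j ∈ Finset.range (r + 1 + 1 + 1), ℓ ^ j) * sigma 1 k' +
          ℓ * ((∑ j ∈ Finset.range (r + 1), ℓ ^ j) * sigma 1 k')
        = ((∑ j ∈ Finset.range (r + 3), ℓ ^ j) + ℓ * ∑ j ∈ Finset.range (r + 1), ℓ ^ j) *
            sigma 1 k' := by ring
      _ = (1 + ℓ) * ((∑ j ∈ Finset.range (r + 1 + 1), ℓ ^ j) * sigma 1 k') := by
          rw [this]; ring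

/-- Integer form of the Hecke relation for `σ`. -/
theorem alg_sigma_hecke_int {ℓ : ℕ} (hℓ : ℓ.Prime) (k : ℕ) :
    (sigma 1 (k * ℓ) : ℤ) + (if ℓ ∣ k then (ℓ : ℤ) * (sigma 1 (k / ℓ) : ℤ) else 0) =
      (1 + (ℓ : ℤ)) * (sigma 1 k : ℤ) := by
  have := congrArg (Nat.cast : ℕ → ℤ) (alg_sigma_hecke hℓ k)
  push_cast at this
  exact this

theorem sigmaP_one {p : ℕ} (hp : p.Prime) : sigmaP p 1 = 1 := by
  rw [sigmaP_of_not_dvd (by simpa using hp.ne_one)]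
  simp

/-- `σ'(k p) = σ'(k)`. -/
theorem sigmaP_mul_self {p : ℕ} (hp : p.Prime) (k : ℕ) : sigmaP p (k * p) = sigmaP p k := by
  have h := alg_sigma_hecke_int hp k
  rw [sigmaP_of_dvd (Dvd.intro_left k rfl), Nat.mul_div_cancel _ hp.pos, sigmaP]
  linarith

/-- `σ'(k ℓ) + ℓ σ'(k/ℓ) = (1 + ℓ) σ'(k)` for a prime `ℓ ≠ p`. -/
theorem sigmaP_mul_prime {p ℓ : ℕ} (hp : p.Prime) (hℓ : ℓ.Prime) (hne : ℓ ≠ p) (k : ℕ) :
    sigmaP p (k * ℓ) + (if ℓ ∣ k then (ℓ : ℤ) * sigmaP p (k / ℓ) else 0) =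
      (1 + (ℓ : ℤ)) * sigmaP p k := by
  have hpl : ¬ p ∣ ℓ := fun h => hne ((Nat.prime_dvd_prime_iff_eq hp hℓ).1 h).symm
  have hlp : ¬ ℓ ∣ p := fun h => hne ((Nat.prime_dvd_prime_iff_eq hℓ hp).1 h)
  by_cases hpk : p ∣ k
  · obtain ⟨k', rfl⟩ := hpk
    have h1 := alg_sigma_hecke_int hℓ (p * k')
    have h2 := alg_sigma_hecke_int hℓ k'
    have hd1 : p ∣ p * k' * ℓ := ⟨k' * ℓ, by ring⟩
    have e1 : p * k' * ℓ / p = k' * ℓ := by
      rw [mul_assoc]; exact Nat.mul_div_cancel_left _ hp.pos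
    have e0 : p * k' / p = k' := Nat.mul_div_cancel_left _ hp.pos
    have hiff : ℓ ∣ p * k' ↔ ℓ ∣ k' :=
      ⟨fun h => (hℓ.dvd_mul.1 h).resolve_left hlp, fun h => Dvd.dvd.mul_left h p⟩
    rw [sigmaP_of_dvd hd1, e1, sigmaP_of_dvd (Dvd.intro k' rfl), e0]
    by_cases hlk : ℓ ∣ k'
    · obtain ⟨k'', rfl⟩ := hlk
      have e2 : p * (ℓ * k'') / ℓ = p * k'' := by
        rw [mul_left_comm]; exact Nat.mul_div_cancel_left _ hℓ.pos
      have e3 : ℓ * k'' / ℓ = k'' := Nat.mul_div_cancel_left _ hℓ.pos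
      have e4 : p * k'' / p = k'' := Nat.mul_div_cancel_left _ hp.pos
      rw [if_pos (hiff.2 (Dvd.intro k'' rfl)), e2] at h1 ⊢
      rw [if_pos (Dvd.intro k'' rfl), e3] at h2
      rw [sigmaP_of_dvd (Dvd.intro k'' rfl), e4]
      linear_combination h1 - (p : ℤ) * h2
    · rw [if_neg (fun h => hlk (hiff.1 h))] at h1 ⊢
      rw [if_neg hlk] at h2
      linear_combination h1 - (p : ℤ) * h2
  · have h1 := alg_sigma_hecke_int hℓ k
    have hd1 : ¬ p ∣ k * ℓ := fun h => (hp.dvd_mul.1 h).elim hpk hpl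
    rw [sigmaP_of_not_dvd hd1, sigmaP_of_not_dvd hpk]
    by_cases hlk : ℓ ∣ k
    · obtain ⟨k'', rfl⟩ := hlk
      have e3 : ℓ * k'' / ℓ = k'' := Nat.mul_div_cancel_left _ hℓ.pos
      have hpk'' : ¬ p ∣ k'' := fun h => hpk (Dvd.dvd.mul_left h ℓ)
      rw [if_pos (Dvd.intro k'' rfl), e3] at h1 ⊢
      rw [sigmaP_of_not_dvd hpk'']
      exact h1
    · rw [if_neg hlk] at h1 ⊢
      exact h1

/-- A sequence satisfying the Eisenstein Hecke recursions modulo `m` is `σ'` modulo `m`. -/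
theorem alg_seq_eq_sigmaP {p : ℕ} (hp : p.Prime) (m : ℤ) (c : ℕ → ℤ)
    (h1 : m ∣ c 1 - 1)
    (hpp : ∀ k, 1 ≤ k → m ∣ c (k * p) - c k)
    (hl : ∀ ℓ : ℕ, ℓ.Prime → ℓ ≠ p → ∀ k, 1 ≤ k →
      m ∣ c (k * ℓ) + (if ℓ ∣ k then (ℓ : ℤ) * c (k / ℓ) else 0) - (1 + (ℓ : ℤ)) * c k) :
    ∀ k, 1 ≤ k → m ∣ c k - sigmaP p k := by
  intro k
  induction k using Nat.strong_induction_on with
  | _ k ih =>
    intro hk
    rcases Nat.lt_or_ge 1 k with hk1 | hk1
    · obtain ⟨ℓ, hℓ, k', rfl⟩ : ∃ ℓ : ℕ, ℓ.Prime ∧ ∃ k', k = k' * ℓ := by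
        refine ⟨k.minFac, Nat.minFac_prime hk1.ne', k / k.minFac, ?_⟩
        exact (Nat.div_mul_cancel (Nat.minFac_dvd k)).symm
      have hk'pos : 1 ≤ k' := by
        rcases Nat.eq_zero_or_pos k' with rfl | h
        · simp at hk
        · exact h
      have hk'lt : k' < k' * ℓ := by
        have := hℓ.one_lt
        nlinarith
      have ih1 := ih k' hk'lt hk'pos
      by_cases hlp : ℓ = p
      · subst hlp
        rw [sigmaP_mul_self hp]
        have := dvd_add (hpp k' hk'pos) ih1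
        rwa [sub_add_sub_cancel] at this
      · have hrec := hl ℓ hℓ hlp k' hk'pos
        have hs := sigmaP_mul_prime hp hℓ hlp k'
        by_cases hlk : ℓ ∣ k'
        · rw [if_pos hlk] at hrec hs
          have hk''pos : 1 ≤ k' / ℓ := Nat.div_pos (Nat.le_of_dvd hk'pos hlk) hℓ.pos
          have hk''lt : k' / ℓ < k' * ℓ :=
            lt_of_le_of_lt (Nat.div_le_self _ _) hk'lt
          have ih2 := ih (k' / ℓ) hk''lt hk''pos
          have : c (k' * ℓ) - sigmaP p (k' * ℓ) =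
              (c (k' * ℓ) + (ℓ : ℤ) * c (k' / ℓ) - (1 + (ℓ : ℤ)) * c k') +
                (1 + (ℓ : ℤ)) * (c k' - sigmaP p k') -
                (ℓ : ℤ) * (c (k' / ℓ) - sigmaP p (k' / ℓ)) := by
            linear_combination (-1 : ℤ) * hs
          rw [this]
          exact dvd_sub (dvd_add hrec (Dvd.dvd.mul_left ih1 _)) (Dvd.dvd.mul_left ih2 _)
        · rw [if_neg hlk, add_zero] at hrec hs
          have : c (k' * ℓ) - sigmaP p (k' * ℓ) =
              (c (k' * ℓ) - (1 + (ℓ : ℤ)) * c k') + (1 + (ℓ : ℤ)) * (c k' - sigmaP p k') := by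
            linear_combination (-1 : ℤ) * hs
          rw [this]
          exact dvd_add hrec (Dvd.dvd.mul_left ih1 _)
    · have : k = 1 := le_antisymm hk1 hk
      subst this
      rw [sigmaP_one hp]
      exact h1

/-- A sequence congruent to `σ'` modulo `n` (with `c 0 = 0`) satisfies the Eisenstein Hecke
recursions modulo `n`. -/
theorem alg_rec_of_congr_sigmaP {p : ℕ} (hp : p.Prime) (n : ℤ) (c : ℕ → ℤ) (h0 : c 0 = 0)
    (hc : ∀ k, 1 ≤ k → n ∣ c k - sigmaP p k) :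
    (∀ k, n ∣ c (k * p) - c k) ∧
    (∀ ℓ : ℕ, ℓ.Prime → ℓ ≠ p → ∀ k,
      n ∣ c (k * ℓ) + (if ℓ ∣ k then (ℓ : ℤ) * c (k / ℓ) else 0) - (1 + (ℓ : ℤ)) * c k) := by
  constructor
  · intro k
    rcases Nat.eq_zero_or_pos k with rfl | hk
    · simp
    · have h1 := hc (k * p) (Nat.mul_pos hk hp.pos)
      have h2 := hc k hk
      rw [sigmaP_mul_self hp] at h1
      have := dvd_sub h1 h2
      rwa [sub_sub_sub_cancel_right] at this
  · intro ℓ hℓ hne k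
    rcases Nat.eq_zero_or_pos k with rfl | hk
    · simp [h0]
    · have h1 := hc (k * ℓ) (Nat.mul_pos hk hℓ.pos)
      have h2 := hc k hk
      have hs := sigmaP_mul_prime hp hℓ hne k
      by_cases hlk : ℓ ∣ k
      · have h3 := hc (k / ℓ) (Nat.div_pos (Nat.le_of_dvd hk hlk) hℓ.pos)
        rw [if_pos hlk] at hs ⊢
        have : c (k * ℓ) + (ℓ : ℤ) * c (k / ℓ) - (1 + (ℓ : ℤ)) * c k =
            (c (k * ℓ) - sigmaP p (k * ℓ)) + (ℓ : ℤ) * (c (k / ℓ) - sigmaP p (k / ℓ)) -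
              (1 + (ℓ : ℤ)) * (c k - sigmaP p k) := by
          linear_combination hs
        rw [this]
        exact dvd_sub (dvd_add h1 (Dvd.dvd.mul_left h3 _)) (Dvd.dvd.mul_left h2 _)
      · rw [if_neg hlk, add_zero] at hs ⊢
        have : c (k * ℓ) - (1 + (ℓ : ℤ)) * c k =
            (c (k * ℓ) - sigmaP p (k * ℓ)) - (1 + (ℓ : ℤ)) * (c k - sigmaP p k) := by
          linear_combination hs
        rw [this]
        exact dvd_sub h1 (Dvd.dvd.mul_left h2 _)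

end Fermat.Agent.S16
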