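import Fermat.Statements.S16
import Fermat.Agent.S49.Lattice
import Fermat.Agent.S16.AlgLin
import Fermat.Agent.S16.AlgSigma

set_option autoImplicit false

namespace Fermat.Agent.S16

open CuspForm ModularFormClass ModularCurve CongruenceSubgroup

variable (p : ℕ) [Fact p.Prime]

/-- The action of the abstract Hecke algebra on weight-2 cusp forms of level `p`. -/
noncomputable def algOp (P : HeckeAlg) : Module.End ℂ (CuspForm (Gamma0 p) 2) :=
  ((heckeEvalForms p 2 P : heckeAlgebra p 2 ∅) : Module.End ℂ (CuspForm (Gamma0 p) 2))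

theorem algOp_mul (P Q : HeckeAlg) : algOp p (P * Q) = algOp p P * algOp p Q := by
  simp [algOp, map_mul]

theorem algOp_one : algOp p 1 = 1 := by
  simp [algOp]

theorem algOp_add (P Q : HeckeAlg) : algOp p (P + Q) = algOp p P + algOp p Q := by
  simp [algOp, map_add]

theorem algOp_sub (P Q : HeckeAlg) : algOp p (P - Q) = algOp p P - algOp p Q := by
  simp [algOp, map_sub]

theorem algOp_C (a : ℤ) :
    algOp p (MvPolynomial.C a) = (a : ℂ) • (1 : Module.End ℂ (CuspForm (Gamma0 p) 2)) := by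
  rw [algOp, heckeEvalForms_C, Subalgebra.coe_algebraMap]
  ext g
  simp

theorem algOp_C_apply (a : ℤ) (g : CuspForm (Gamma0 p) 2) :
    algOp p (MvPolynomial.C a) g = (a : ℂ) • g := by
  rw [algOp_C]; simp

theorem algOp_X_of_not_dvd (ℓ : Nat.Primes) (h : ¬ (ℓ : ℕ) ∣ p) :
    algOp p (MvPolynomial.X ℓ) = heckeTLin 2 ℓ.2 h := by
  have := heckeEvalForms_heckeGen_of_not_dvd (N := p) (k := 2) h
  rw [algOp]
  exact congrArg Subtype.val this

theorem algOp_X_of_dvd (q : Nat.Primes) (h : (q : ℕ) ∣ p) :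
    algOp p (MvPolynomial.X q) = heckeULin 2 h := by
  have := heckeEvalForms_heckeGen_of_dvd (N := p) (k := 2) h
  rw [algOp]
  exact congrArg Subtype.val this

/-- `q`-coefficients of `T_ℓ g`, `ℓ ≠ p`. -/
theorem alg_qCoeff_T (ℓ : Nat.Primes) (h : ¬ (ℓ : ℕ) ∣ p) (g : CuspForm (Gamma0 p) 2) (n : ℕ) :
    qCoeff (algOp p (MvPolynomial.X ℓ) g) n =
      qCoeff g (n * ℓ) + if (ℓ : ℕ) ∣ n then (ℓ : ℂ) * qCoeff g (n / ℓ) else 0 := by
  rw [algOp_X_of_not_dvd p ℓ h, CuspForm.coe_heckeTLin_apply,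
    ModularFormClass.qCoeff_heckeT g (S49.one_mem_strictPeriods p) ℓ.2.ne_zero n,
    ModularForm.coeffHeckeT_apply]
  norm_num

/-- `q`-coefficients of `U_p g`. -/
theorem alg_qCoeff_U (q : Nat.Primes) (h : (q : ℕ) ∣ p) (g : CuspForm (Gamma0 p) 2) (n : ℕ) :
    qCoeff (algOp p (MvPolynomial.X q) g) n = qCoeff g (n * q) := by
  rw [algOp_X_of_dvd p q h, CuspForm.coe_heckeULin_apply,
    ModularFormClass.qCoeff_heckeU g (S49.one_mem_strictPeriods p) q.2.ne_zero n,
    ModularForm.coeffHeckeU_apply]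

omit [Fact p.Prime] in
theorem alg_qCoeff_add (g h : CuspForm (Gamma0 p) 2) (n : ℕ) :
    qCoeff (g + h : CuspForm (Gamma0 p) 2) n = qCoeff g n + qCoeff h n := by
  rw [← S49.qLin_apply, map_add, S49.qLin_apply, S49.qLin_apply]

omit [Fact p.Prime] in
theorem alg_qCoeff_sub (g h : CuspForm (Gamma0 p) 2) (n : ℕ) :
    qCoeff (g - h : CuspForm (Gamma0 p) 2) n = qCoeff g n - qCoeff h n := by
  rw [← S49.qLin_apply, map_sub, S49.qLin_apply, S49.qLin_apply]

omit [Fact p.Prime] in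
theorem alg_qCoeff_smul (a : ℂ) (g : CuspForm (Gamma0 p) 2) (n : ℕ) :
    qCoeff (a • g : CuspForm (Gamma0 p) 2) n = a * qCoeff g n := by
  rw [← S49.qLin_apply, map_smul, S49.qLin_apply, smul_eq_mul]

/-- Composite Hecke operators: for every `k ≥ 1` there is `t_k` with `a₁(t_k g) = a_k(g)`. -/
theorem alg_exists_Tk (k : ℕ) (hk : 1 ≤ k) :
    ∃ t : HeckeAlg, ∀ g : CuspForm (Gamma0 p) 2, qCoeff (algOp p t g) 1 = qCoeff g k := by
  induction k using Nat.strong_induction_on with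
  | _ k ih =>
    rcases Nat.lt_or_ge 1 k with hk1 | hk1
    · obtain ⟨ℓ, hℓ, k', rfl⟩ : ∃ ℓ : ℕ, ℓ.Prime ∧ ∃ k', k = k' * ℓ := by
        refine ⟨k.minFac, Nat.minFac_prime hk1.ne', k / k.minFac, ?_⟩
        exact (Nat.div_mul_cancel (Nat.minFac_dvd k)).symm
      have hk'pos : 1 ≤ k' := by
        rcases Nat.eq_zero_or_pos k' with rfl | h
        · simp at hk
        · exact h
      have hk'lt : k' < k' * ℓ := by
        have := hℓ.one_lt
        nlinarith
      obtain ⟨t', ht'⟩ := ih k' hk'lt hk'pos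
      obtain ⟨q, rfl⟩ : ∃ q : Nat.Primes, (q : ℕ) = ℓ := ⟨⟨ℓ, hℓ⟩, rfl⟩
      by_cases hlp : (q : ℕ) ∣ p
      · refine ⟨t' * MvPolynomial.X q, fun g => ?_⟩
        rw [algOp_mul, Module.End.mul_apply, ht', alg_qCoeff_U p q hlp]
      · by_cases hlk : (q : ℕ) ∣ k'
        · have hk''pos : 1 ≤ k' / q := Nat.div_pos (Nat.le_of_dvd hk'pos hlk) hℓ.pos
          have hk''lt : k' / q < k' * q := lt_of_le_of_lt (Nat.div_le_self _ _) hk'lt
          obtain ⟨t'', ht''⟩ := ih (k' / q) hk''lt hk''pos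
          refine ⟨t' * MvPolynomial.X q - MvPolynomial.C ((q : ℕ) : ℤ) * t'', fun g => ?_⟩
          rw [algOp_sub, algOp_mul, algOp_mul, LinearMap.sub_apply, Module.End.mul_apply,
            Module.End.mul_apply, alg_qCoeff_sub, ht', algOp_C_apply, alg_qCoeff_smul, ht'',
            alg_qCoeff_T p q hlp, if_pos hlk]
          push_cast
          ring
        · refine ⟨t' * MvPolynomial.X q, fun g => ?_⟩
          rw [algOp_mul, Module.End.mul_apply, ht', alg_qCoeff_T p q hlp, if_neg hlk,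
            add_zero]
    · have : k = 1 := le_antisymm hk1 hk
      subst this
      exact ⟨1, fun g => by rw [algOp_one]; rfl⟩


/-! ### The lattice -/

omit [Fact p.Prime] in
theorem alg_exists_int (g : ↥(intLattice p 2)) (n : ℕ) :
    ∃ c : ℤ, qCoeff (g : CuspForm (Gamma0 p) 2) n = (c : ℂ) :=
  (S49.mem_intLattice_iff g.1).1 g.2 n

/-- The integer `n`-th `q`-coefficient on the lattice, as a `ℤ`-linear functional. -/
noncomputable def algCoeff (n : ℕ) : ↥(intLattice p 2) →ₗ[ℤ] ℤ where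
  toFun g := Classical.choose (alg_exists_int p g n)
  map_add' g h := by
    apply Int.cast_injective (α := ℂ)
    rw [Int.cast_add, ← Classical.choose_spec (alg_exists_int p g n),
      ← Classical.choose_spec (alg_exists_int p h n),
      ← Classical.choose_spec (alg_exists_int p (g + h) n)]
    exact alg_qCoeff_add p g.1 h.1 n
  map_smul' a g := by
    apply Int.cast_injective (α := ℂ)
    rw [RingHom.id_apply, smul_eq_mul, Int.cast_mul,
      ← Classical.choose_spec (alg_exists_int p g n),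
      ← Classical.choose_spec (alg_exists_int p (a • g) n)]
    have : ((a • g : ↥(intLattice p 2)) : CuspForm (Gamma0 p) 2) =
        (a : ℂ) • (g : CuspForm (Gamma0 p) 2) := by
      rw [Submodule.coe_smul, Int.cast_smul_eq_zsmul]
    rw [this]
    exact alg_qCoeff_smul p a g.1 n

omit [Fact p.Prime] in
theorem algCoeff_spec (n : ℕ) (g : ↥(intLattice p 2)) :
    ((algCoeff p n g : ℤ) : ℂ) = qCoeff (g : CuspForm (Gamma0 p) 2) n :=
  (Classical.choose_spec (alg_exists_int p g n)).symm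

/-- The surjection from the abstract Hecke algebra onto the Hecke algebra of the lattice. -/
noncomputable def algPhi : HeckeAlg →+* ↥(heckeLatticeAlgebra p ∅) :=
  (latticeRestrictHom p ∅).toRingHom.comp (heckeEvalForms p 2)

theorem algPhi_apply (P : HeckeAlg) (g : ↥(intLattice p 2)) :
    ((((algPhi p P : ↥(heckeLatticeAlgebra p ∅)) : Module.End ℤ ↥(intLattice p 2)) g :
      ↥(intLattice p 2)) : CuspForm (Gamma0 p) 2) = algOp p P (g : CuspForm (Gamma0 p) 2) :=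
  rfl

theorem algPhi_C (a : ℤ) :
    algPhi p (MvPolynomial.C a) = (a : ↥(heckeLatticeAlgebra p ∅)) := by
  rw [eq_intCast (MvPolynomial.C (σ := Nat.Primes)) a, map_intCast]

theorem alg_heckeEvalForms_surjective :
    Function.Surjective (heckeEvalForms p 2) := by
  rintro ⟨x, hx⟩
  suffices h : ∃ P : HeckeAlg,
      ((heckeEvalForms p 2 P : heckeAlgebra p 2 ∅) : Module.End ℂ (CuspForm (Gamma0 p) 2)) = x by
    obtain ⟨P, hP⟩ := h
    exact ⟨P, Subtype.ext hP⟩
  induction hx using Algebra.adjoin_induction with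
  | mem x hx =>
    rcases hx with ⟨ℓ, hℓ, hℓN, -, rfl⟩ | ⟨q, hqN, hq, -, rfl⟩
    · refine ⟨heckeGen ⟨ℓ, hℓ⟩, ?_⟩
      rw [heckeEvalForms_heckeGen_of_not_dvd (N := p) (k := 2) (ℓ := ⟨ℓ, hℓ⟩) hℓN]
      rfl
    · refine ⟨heckeGen ⟨q, hq⟩, ?_⟩
      rw [heckeEvalForms_heckeGen_of_dvd (N := p) (k := 2) (q := ⟨q, hq⟩) hqN]
      rfl
  | algebraMap r =>
    refine ⟨MvPolynomial.C r, ?_⟩
    rw [heckeEvalForms_C]
    rfl
  | add x y hx hy hx' hy' =>
    obtain ⟨P, rfl⟩ := hx'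
    obtain ⟨Q, rfl⟩ := hy'
    exact ⟨P + Q, by rw [map_add]; rfl⟩
  | mul x y hx hy hx' hy' =>
    obtain ⟨P, rfl⟩ := hx'
    obtain ⟨Q, rfl⟩ := hy'
    exact ⟨P * Q, by rw [map_mul]; rfl⟩

theorem algPhi_surjective : Function.Surjective (algPhi p) := by
  intro t
  obtain ⟨s, rfl⟩ := latticeRestrictHom_surjective p ∅ t
  obtain ⟨P, rfl⟩ := alg_heckeEvalForms_surjective p s
  exact ⟨P, rfl⟩


/-! ### The Eisenstein ideal of the lattice Hecke algebra -/

theorem alg_sub_ev_mem (P : HeckeAlg) :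
    algPhi p P - ((MvPolynomial.aeval (eisensteinSystem p) P : ℤ) : ↥(heckeLatticeAlgebra p ∅)) ∈
      Ideal.map (algPhi p) (eisensteinIdeal p) := by
  rw [← algPhi_C, ← map_sub]
  apply Ideal.mem_map_of_mem
  rw [eisensteinIdeal, mem_eigenIdeal_iff, map_sub, MvPolynomial.aeval_C]
  simp

theorem alg_surj (t : ↥(heckeLatticeAlgebra p ∅)) :
    ∃ a : ℤ, t - (a : ↥(heckeLatticeAlgebra p ∅)) ∈
      Ideal.map (algPhi p) (eisensteinIdeal p) := by
  obtain ⟨P, rfl⟩ := algPhi_surjective p t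
  exact ⟨_, alg_sub_ev_mem p P⟩

/-! ### The `a₁`-pairing -/

/-- The pairing `(t, g) ↦ a₁(t g)` between the Hecke algebra and the lattice. -/
noncomputable def algPair :
    ↥(heckeLatticeAlgebra p ∅) →ₗ[ℤ] ↥(intLattice p 2) →ₗ[ℤ] ℤ :=
  LinearMap.mk₂ ℤ
    (fun t g => algCoeff p 1 ((t : Module.End ℤ ↥(intLattice p 2)) g))
    (fun t₁ t₂ g => by simp [map_add])
    (fun c t g => by simp)
    (fun t g₁ g₂ => by simp [map_add])
    (fun c t g => by simp)

theorem algPair_apply (t : ↥(heckeLatticeAlgebra p ∅)) (g : ↥(intLattice p 2)) :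
    algPair p t g = algCoeff p 1 ((t : Module.End ℤ ↥(intLattice p 2)) g) := rfl

theorem algPair_phi (P : HeckeAlg) (g : ↥(intLattice p 2)) :
    ((algPair p (algPhi p P) g : ℤ) : ℂ) =
      qCoeff (algOp p P (g : CuspForm (Gamma0 p) 2)) 1 := by
  rw [algPair_apply, algCoeff_spec, algPhi_apply]

theorem algPair_injective : Function.Injective (algPair p) := by
  rw [injective_iff_map_eq_zero]
  intro t ht
  obtain ⟨P, rfl⟩ := algPhi_surjective p t
  apply Subtype.ext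
  apply LinearMap.ext
  intro g
  apply Subtype.ext
  rw [algPhi_apply]
  change algOp p P (g : CuspForm (Gamma0 p) 2) = 0
  apply S49.eq_zero_of_qCoeff_eq_zero
  intro n
  rcases Nat.eq_zero_or_pos n with rfl | hn
  · exact S49.qCoeff_zero_eq_zero _
  · obtain ⟨tk, htk⟩ := alg_exists_Tk p n hn
    rw [← htk, ← Module.End.mul_apply, ← algOp_mul, mul_comm, algOp_mul, Module.End.mul_apply]
    have h1 := algPair_phi p P (((algPhi p tk : ↥(heckeLatticeAlgebra p ∅)) :
      Module.End ℤ ↥(intLattice p 2)) g)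
    rw [algPhi_apply] at h1
    rw [← h1, ht]
    simp

theorem algPair_flip_injective : Function.Injective (algPair p).flip := by
  rw [injective_iff_map_eq_zero]
  intro g hg
  apply Subtype.ext
  change (g : CuspForm (Gamma0 p) 2) = 0
  apply S49.eq_zero_of_qCoeff_eq_zero
  intro n
  rcases Nat.eq_zero_or_pos n with rfl | hn
  · exact S49.qCoeff_zero_eq_zero _
  · obtain ⟨tk, htk⟩ := alg_exists_Tk p n hn
    rw [← htk, ← algPair_phi]
    have := congrArg (fun f : ↥(heckeLatticeAlgebra p ∅) →ₗ[ℤ] ℤ => f (algPhi p tk)) hg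
    simp only [LinearMap.flip_apply, LinearMap.zero_apply] at this
    rw [this]
    simp


/-! ### The lower bound -/

/-- If `f₀` has integer coefficients satisfying the Eisenstein Hecke recursions modulo `n`, then
`P(T) f₀ ≡ P(eis) f₀` modulo `n`, for every Hecke polynomial `P`. -/
theorem alg_congr_of_rec (n : ℤ) (f0 : CuspForm (Gamma0 p) 2) (c0 : ℕ → ℤ)
    (hc0 : ∀ k, qCoeff f0 k = c0 k)
    (hE1 : ∀ k, n ∣ c0 (k * p) - c0 k)
    (hE2 : ∀ ℓ : ℕ, ℓ.Prime → ℓ ≠ p → ∀ k,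
      n ∣ c0 (k * ℓ) + (if ℓ ∣ k then (ℓ : ℤ) * c0 (k / ℓ) else 0) - (1 + (ℓ : ℤ)) * c0 k)
    (P : HeckeAlg) :
    ∀ k, ∃ d : ℤ, qCoeff (algOp p P f0) k = d ∧
      n ∣ d - MvPolynomial.aeval (eisensteinSystem p) P * c0 k := by
  induction P using MvPolynomial.induction_on with
  | C a =>
    intro k
    refine ⟨a * c0 k, ?_, ?_⟩
    · rw [algOp_C_apply, alg_qCoeff_smul, hc0]
      push_cast
      ring
    · rw [MvPolynomial.aeval_C]
      simp
  | add P Q hP hQ =>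
    intro k
    obtain ⟨d1, h1, h1'⟩ := hP k
    obtain ⟨d2, h2, h2'⟩ := hQ k
    refine ⟨d1 + d2, ?_, ?_⟩
    · rw [algOp_add, LinearMap.add_apply, alg_qCoeff_add, h1, h2]
      push_cast
      ring
    · rw [map_add]
      have : d1 + d2 - (MvPolynomial.aeval (eisensteinSystem p) P +
            MvPolynomial.aeval (eisensteinSystem p) Q) * c0 k =
          (d1 - MvPolynomial.aeval (eisensteinSystem p) P * c0 k) +
            (d2 - MvPolynomial.aeval (eisensteinSystem p) Q * c0 k) := by ring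
      rw [this]
      exact dvd_add h1' h2'
  | mul_X P ℓ hP =>
    choose d hd hd' using hP
    intro k
    rw [mul_comm, algOp_mul, Module.End.mul_apply, map_mul, MvPolynomial.aeval_X]
    by_cases hlp : (ℓ : ℕ) ∣ p
    · have hlp' : (ℓ : ℕ) = p := (Nat.prime_dvd_prime_iff_eq ℓ.2 Fact.out).1 hlp
      refine ⟨d (k * p), ?_, ?_⟩
      · rw [alg_qCoeff_U p ℓ hlp, hd, hlp']
      · rw [eisensteinSystem_of_dvd hlp, one_mul]
        have : d (k * p) - MvPolynomial.aeval (eisensteinSystem p) P * c0 k =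
            (d (k * p) - MvPolynomial.aeval (eisensteinSystem p) P * c0 (k * p)) +
              MvPolynomial.aeval (eisensteinSystem p) P * (c0 (k * p) - c0 k) := by ring
        rw [this]
        exact dvd_add (hd' _) (Dvd.dvd.mul_left (hE1 k) _)
    · have hne : (ℓ : ℕ) ≠ p := fun h => hlp (h ▸ dvd_refl _)
      have hE := hE2 ℓ ℓ.2 hne k
      rw [eisensteinSystem_of_not_dvd hlp]
      by_cases hlk : (ℓ : ℕ) ∣ k
      · refine ⟨d (k * ℓ) + (ℓ : ℤ) * d (k / ℓ), ?_, ?_⟩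
        · rw [alg_qCoeff_T p ℓ hlp, if_pos hlk, hd, hd]
          push_cast
          ring
        · rw [if_pos hlk] at hE
          have : d (k * ℓ) + (ℓ : ℤ) * d (k / ℓ) -
                ((1 + ((ℓ : ℕ) : ℤ)) * MvPolynomial.aeval (eisensteinSystem p) P) * c0 k =
              (d (k * ℓ) - MvPolynomial.aeval (eisensteinSystem p) P * c0 (k * ℓ)) +
              (ℓ : ℤ) * (d (k / ℓ) - MvPolynomial.aeval (eisensteinSystem p) P * c0 (k / ℓ)) +
              MvPolynomial.aeval (eisensteinSystem p) P *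
                (c0 (k * ℓ) + (ℓ : ℤ) * c0 (k / ℓ) - (1 + (ℓ : ℤ)) * c0 k) := by ring
          rw [this]
          exact dvd_add (dvd_add (hd' _) (Dvd.dvd.mul_left (hd' _) _)) (Dvd.dvd.mul_left hE _)
      · refine ⟨d (k * ℓ), ?_, ?_⟩
        · rw [alg_qCoeff_T p ℓ hlp, if_neg hlk, hd, add_zero]
        · rw [if_neg hlk, add_zero] at hE
          have : d (k * ℓ) -
                ((1 + ((ℓ : ℕ) : ℤ)) * MvPolynomial.aeval (eisensteinSystem p) P) * c0 k =
              (d (k * ℓ) - MvPolynomial.aeval (eisensteinSystem p) P * c0 (k * ℓ)) +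
              MvPolynomial.aeval (eisensteinSystem p) P *
                (c0 (k * ℓ) - (1 + (ℓ : ℤ)) * c0 k) := by ring
          rw [this]
          exact dvd_add (hd' _) (Dvd.dvd.mul_left hE _)


/-- **Lower bound.** If some cusp form is congruent to the Eisenstein series modulo `n`, then `n`
divides every integer `m` with `m • 1 ∈ J`. -/
theorem alg_LB (n : ℕ) (f0 : CuspForm (Gamma0 p) 2)
    (hf0 : ∀ k : ℕ, 1 ≤ k → ∃ c : ℤ, qCoeff f0 k = c ∧ (n : ℤ) ∣ c - sigmaP p k)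
    (m : ℕ) (hm : ((m : ℤ) : ↥(heckeLatticeAlgebra p ∅)) ∈
      Ideal.map (algPhi p) (eisensteinIdeal p)) : n ∣ m := by
  have hp : p.Prime := Fact.out
  choose! c hc hc' using hf0
  set c0 : ℕ → ℤ := fun k => if k = 0 then 0 else c k with hc0def
  have hc0 : ∀ k, qCoeff f0 k = c0 k := by
    intro k
    rcases Nat.eq_zero_or_pos k with rfl | hk
    · rw [S49.qCoeff_zero_eq_zero]; simp [hc0def]
    · rw [hc k hk, hc0def]; simp [hk.ne']
  have hc0' : ∀ k, 1 ≤ k → (n : ℤ) ∣ c0 k - sigmaP p k := by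
    intro k hk
    have : c0 k = c k := by simp [hc0def, Nat.pos_iff_ne_zero.1 hk]
    rw [this]
    exact hc' k hk
  obtain ⟨hE1, hE2⟩ := alg_rec_of_congr_sigmaP hp (n : ℤ) c0 (by simp [hc0def]) hc0'
  obtain ⟨P, hP, hPm⟩ := (Ideal.mem_map_iff_of_surjective (algPhi p) (algPhi_surjective p)).1 hm
  have hmem : f0 ∈ intLattice p 2 := (S49.mem_intLattice_iff f0).2 fun k => ⟨c0 k, hc0 k⟩
  have h1 := algPhi_apply p P ⟨f0, hmem⟩
  rw [hPm] at h1
  have h2 : algOp p P f0 = (m : ℂ) • f0 := by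
    rw [← h1]
    simp only [Int.cast_natCast, SubringClass.coe_natCast, Module.End.natCast_apply,
      Submodule.coe_smul_of_tower]
    exact (Nat.cast_smul_eq_nsmul ℂ m f0).symm
  obtain ⟨d, hd, hd'⟩ := alg_congr_of_rec p (n : ℤ) f0 c0 hc0 hE1 hE2 P 1
  rw [eisensteinIdeal, mem_eigenIdeal_iff] at hP
  rw [hP, zero_mul, sub_zero] at hd'
  rw [h2, alg_qCoeff_smul, hc0] at hd
  have hd2 : d = (m : ℤ) * c0 1 := by
    apply Int.cast_injective (α := ℂ)
    rw [← hd]
    push_cast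
    ring
  have h3 := hc0' 1 le_rfl
  rw [sigmaP_one hp] at h3
  rw [hd2] at hd'
  have h4 : (n : ℤ) ∣ (m : ℤ) := by
    have := dvd_sub hd' (Dvd.dvd.mul_left h3 (m : ℤ))
    have e : (m : ℤ) * c0 1 - (m : ℤ) * (c0 1 - 1) = m := by ring
    rwa [e] at this
  exact Int.natCast_dvd_natCast.1 h4



/-! ### The upper bound -/

/-- The `ℤ`-linear lift `λ` of `T → T ⧸ J ≅ ℤ / m`, viewed on the abstract Hecke algebra, is
represented by a cusp form `f` (`a₁(P f) = λ(P)`), and `λ(P) ≡ P(eis)` modulo `m`. -/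
theorem alg_exists_mu (m : ℕ)
    (hm : ∀ a : ℤ, (a : ↥(heckeLatticeAlgebra p ∅)) ∈
      Ideal.map (algPhi p) (eisensteinIdeal p) ↔ (m : ℤ) ∣ a) :
    ∃ (μ : HeckeAlg → ℤ) (f : CuspForm (Gamma0 p) 2),
      (∀ P : HeckeAlg, qCoeff (algOp p P f) 1 = (μ P : ℂ)) ∧
      (∀ P : HeckeAlg, (m : ℤ) ∣ μ P - MvPolynomial.aeval (eisensteinSystem p) P) := by
  have := intLattice.moduleFinite p
  have := intLattice.moduleFree p
  obtain ⟨lam, hlam⟩ := alg_exists_lift (Ideal.map (algPhi p) (eisensteinIdeal p)) (alg_surj p)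
  obtain ⟨N, hN, g0, hg0⟩ :=
    alg_pairing_surj (algPair p) (algPair_injective p) (algPair_flip_injective p) lam
  have hNc : (N : ℂ) ≠ 0 := Int.cast_ne_zero.2 hN
  refine ⟨fun P => lam (algPhi p P), (N : ℂ)⁻¹ • (g0 : CuspForm (Gamma0 p) 2), fun P => ?_,
    fun P => alg_lift_congr _ m hm lam hlam _ _ (alg_sub_ev_mem p P)⟩
  have h1 : ((algPair p (algPhi p P) g0 : ℤ) : ℂ) = (N : ℂ) * (lam (algPhi p P) : ℂ) := by
    rw [← hg0, Int.cast_mul]
  rw [map_smul, alg_qCoeff_smul, ← algPair_phi, h1, inv_mul_cancel_left₀ hNc]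

/-- **Upper bound.** If `m ℤ` is the preimage of `J` in `ℤ`, there is a cusp form congruent to the
Eisenstein series modulo `m`. -/
theorem alg_UB (m : ℕ)
    (hm : ∀ a : ℤ, (a : ↥(heckeLatticeAlgebra p ∅)) ∈
      Ideal.map (algPhi p) (eisensteinIdeal p) ↔ (m : ℤ) ∣ a) :
    ∃ f : CuspForm (Gamma0 p) 2,
      ∀ k : ℕ, 1 ≤ k → ∃ c : ℤ, qCoeff f k = c ∧ (m : ℤ) ∣ c - sigmaP p k := by
  have hp : p.Prime := Fact.out
  obtain ⟨μ, f, hfP, hev⟩ := alg_exists_mu p m hm
  have hT : ∀ k : ℕ, ∃ t : HeckeAlg, 1 ≤ k →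
      ∀ g : CuspForm (Gamma0 p) 2, qCoeff (algOp p t g) 1 = qCoeff g k := by
    intro k
    by_cases hk : 1 ≤ k
    · obtain ⟨t, ht⟩ := alg_exists_Tk p k hk
      exact ⟨t, fun _ => ht⟩
    · exact ⟨0, fun h => absurd h hk⟩
  choose t ht using hT
  set c : ℕ → ℤ := fun k => μ (t k) with hc
  have hck : ∀ k, 1 ≤ k → qCoeff f k = (c k : ℂ) := by
    intro k hk
    rw [← ht k hk, hfP]
  have hc1 : (m : ℤ) ∣ c 1 - 1 := by
    have h1 : c 1 = μ 1 := by
      apply Int.cast_injective (α := ℂ)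
      rw [← hck 1 le_rfl, ← hfP, algOp_one]
      rfl
    rw [h1]
    have := hev 1
    rwa [map_one] at this
  have hcp : ∀ k, 1 ≤ k → (m : ℤ) ∣ c (k * p) - c k := by
    intro k hk
    obtain ⟨q, hq⟩ : ∃ q : Nat.Primes, (q : ℕ) = p := ⟨⟨p, hp⟩, rfl⟩
    have hqd : (q : ℕ) ∣ p := hq ▸ dvd_refl _
    have h1 : c (k * p) = μ (t k * MvPolynomial.X q) := by
      apply Int.cast_injective (α := ℂ)
      rw [← hck (k * p) (Nat.mul_pos hk hp.pos), ← hfP, algOp_mul, Module.End.mul_apply,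
        ht k hk, alg_qCoeff_U p q hqd, hq]
    have h2 := hev (t k * MvPolynomial.X q)
    rw [map_mul, MvPolynomial.aeval_X, eisensteinSystem_of_dvd hqd, mul_one, ← h1] at h2
    have h3 := hev (t k)
    have := dvd_sub h2 h3
    rwa [sub_sub_sub_cancel_right] at this
  have hcl : ∀ ℓ : ℕ, ℓ.Prime → ℓ ≠ p → ∀ k, 1 ≤ k →
      (m : ℤ) ∣ c (k * ℓ) + (if ℓ ∣ k then (ℓ : ℤ) * c (k / ℓ) else 0) - (1 + (ℓ : ℤ)) * c k := by
    intro ℓ hℓ hne k hk
    obtain ⟨q, rfl⟩ : ∃ q : Nat.Primes, (q : ℕ) = ℓ := ⟨⟨ℓ, hℓ⟩, rfl⟩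
    have hnd : ¬ (q : ℕ) ∣ p := fun h => hne ((Nat.prime_dvd_prime_iff_eq hℓ hp).1 h)
    have h1 : c (k * q) + (if (q : ℕ) ∣ k then ((q : ℕ) : ℤ) * c (k / q) else 0) =
        μ (t k * MvPolynomial.X q) := by
      apply Int.cast_injective (α := ℂ)
      rw [← hfP, algOp_mul, Module.End.mul_apply, ht k hk, alg_qCoeff_T p q hnd,
        hck (k * q) (Nat.mul_pos hk hℓ.pos)]
      by_cases hlk : (q : ℕ) ∣ k
      · rw [if_pos hlk, if_pos hlk, hck (k / q) (Nat.div_pos (Nat.le_of_dvd hk hlk) hℓ.pos)]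
        push_cast
        ring
      · rw [if_neg hlk, if_neg hlk, add_zero, add_zero]
    have h2 := hev (t k * MvPolynomial.X q)
    rw [map_mul, MvPolynomial.aeval_X, eisensteinSystem_of_not_dvd hnd, ← h1] at h2
    have h3 := hev (t k)
    have e : c (k * q) + (if (q : ℕ) ∣ k then ((q : ℕ) : ℤ) * c (k / q) else 0) -
          (1 + ((q : ℕ) : ℤ)) * c k =
        (c (k * q) + (if (q : ℕ) ∣ k then ((q : ℕ) : ℤ) * c (k / q) else 0) -
          MvPolynomial.aeval (eisensteinSystem p) (t k) * (1 + ((q : ℕ) : ℤ))) -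
          (1 + ((q : ℕ) : ℤ)) * (c k - MvPolynomial.aeval (eisensteinSystem p) (t k)) := by ring
    rw [e]
    exact dvd_sub h2 (Dvd.dvd.mul_left h3 _)
  have hfin := alg_seq_eq_sigmaP hp (m : ℤ) c hc1 hcp hcl
  exact ⟨f, fun k hk => ⟨c k, hck k hk, hfin k hk⟩⟩

/-- **Piece A: reduction of S16 to the lower and upper bounds.** -/
theorem alg_main
    (hLB : ∃ f : CuspForm (Gamma0 p) 2, ∀ k : ℕ, 1 ≤ k →
      ∃ c : ℤ, qCoeff f k = c ∧ (eisensteinNumerator p : ℤ) ∣ c - sigmaP p k)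
    (hUB : ∀ (m : ℕ) (f : CuspForm (Gamma0 p) 2),
      (∀ k : ℕ, 1 ≤ k → ∃ c : ℤ, qCoeff f k = c ∧ (m : ℤ) ∣ c - sigmaP p k) →
        m ∣ eisensteinNumerator p) :
    Nat.card (↥(heckeLatticeAlgebra p ∅) ⧸
        Ideal.map ((latticeRestrictHom p ∅).toRingHom.comp (heckeEvalForms p 2))
          (eisensteinIdeal p)) =
      eisensteinNumerator p := by
  change Nat.card (↥(heckeLatticeAlgebra p ∅) ⧸ Ideal.map (algPhi p) (eisensteinIdeal p)) = _
  obtain ⟨m, hcard, hm⟩ := alg_card_quotient (Ideal.map (algPhi p) (eisensteinIdeal p))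
    (alg_surj p)
  rw [hcard]
  obtain ⟨f0, hf0⟩ := hLB
  have h1 : eisensteinNumerator p ∣ m :=
    alg_LB p (eisensteinNumerator p) f0 hf0 m ((hm m).2 dvd_rfl)
  obtain ⟨f, hf⟩ := alg_UB p m hm
  exact Nat.dvd_antisymm (hUB m f hf) h1

end Fermat.Agent.S16
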