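import Mathlib

/-!
# S16: the elementary arithmetic of the upper bound

`Good M` abstracts "there is a weight-2 form on `Γ₀(p)` with integer `q`-coefficients,
`a₀ ≡ 1` and `aₖ ≡ 0 (mod M)` for `k ≥ 1`".  From the `U`-lemmas (as hypotheses) we derive
`M ∣ 24 / gcd (p - 1) 12` and then `m ∣ (p - 1) / gcd (p - 1) 12`.
-/

set_option autoImplicit false

namespace Fermat.Agent.S16

/-- A positive integer with no prime factor `≥ 5`, not divisible by `8` or `9`, divides `12`. -/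
theorem ar_dvd_twelve (M : ℕ) (hM : 0 < M) (h8 : ¬ 8 ∣ M) (h9 : ¬ 9 ∣ M)
    (hl : ∀ l, l.Prime → 5 ≤ l → ¬ l ∣ M) : M ∣ 12 := by
  rw [← Nat.factorization_prime_le_iff_dvd hM.ne' (by norm_num)]
  intro q hq
  by_cases hq5 : 5 ≤ q
  · have h0 : M.factorization q = 0 := Nat.factorization_eq_zero_of_not_dvd (hl q hq hq5)
    rw [h0]
    exact Nat.zero_le _
  · have hq2 := hq.two_le
    have hq4 : q ≠ 4 := by
      rintro rfl
      norm_num at hq
    have hcases : q = 2 ∨ q = 3 := by omega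
    rcases hcases with rfl | rfl
    · have h12 : (12 : ℕ).factorization 2 = 2 := by
        have h : (12 : ℕ) = 2 ^ 2 * 3 := by norm_num
        rw [h, Nat.factorization_mul (by norm_num) (by norm_num), Finsupp.add_apply,
          Nat.Prime.factorization_pow Nat.prime_two,
          Nat.Prime.factorization Nat.prime_three]
        simp
      rw [h12]
      by_contra hcon
      rw [not_le] at hcon
      have h3 : 2 ^ 3 ∣ M := by
        rw [Nat.prime_two.pow_dvd_iff_le_factorization hM.ne']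
        omega
      exact h8 (by simpa using h3)
    · have h12 : (12 : ℕ).factorization 3 = 1 := by
        have h : (12 : ℕ) = 2 ^ 2 * 3 := by norm_num
        rw [h, Nat.factorization_mul (by norm_num) (by norm_num), Finsupp.add_apply,
          Nat.Prime.factorization_pow Nat.prime_two,
          Nat.Prime.factorization Nat.prime_three]
        simp
      rw [h12]
      by_contra hcon
      rw [not_le] at hcon
      have h3 : 3 ^ 2 ∣ M := by
        rw [Nat.prime_three.pow_dvd_iff_le_factorization hM.ne']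
        omega
      exact h9 (by simpa using h3)

/-- For a prime `p ≥ 5`: `gcd (12, p + 1) = 24 / gcd (p - 1, 12)`. -/
theorem ar_gcd_eq (p : ℕ) (hp : p.Prime) (h5 : 5 ≤ p) :
    Nat.gcd 12 (p + 1) = 24 / Nat.gcd (p - 1) 12 := by
  have h2 : ¬ 2 ∣ p := fun h => by
    have := (Nat.prime_dvd_prime_iff_eq Nat.prime_two hp).mp h
    omega
  have h3 : ¬ 3 ∣ p := fun h => by
    have := (Nat.prime_dvd_prime_iff_eq Nat.prime_three hp).mp h
    omega
  have hr : p % 12 = 1 ∨ p % 12 = 5 ∨ p % 12 = 7 ∨ p % 12 = 11 := by omega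
  have e1 : Nat.gcd 12 (p + 1) = Nat.gcd ((p + 1) % 12) 12 := Nat.gcd_rec 12 (p + 1)
  have e2 : Nat.gcd (p - 1) 12 = Nat.gcd ((p - 1) % 12) 12 :=
    (Nat.gcd_comm _ _).trans (Nat.gcd_rec 12 (p - 1))
  rw [e1, e2]
  rcases hr with h | h | h | h
  · have a : (p + 1) % 12 = 2 := by omega
    have b : (p - 1) % 12 = 0 := by omega
    rw [a, b]
    decide
  · have a : (p + 1) % 12 = 6 := by omega
    have b : (p - 1) % 12 = 4 := by omega
    rw [a, b]
    decide
  · have a : (p + 1) % 12 = 8 := by omega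
    have b : (p - 1) % 12 = 6 := by omega
    rw [a, b]
    decide
  · have a : (p + 1) % 12 = 0 := by omega
    have b : (p - 1) % 12 = 10 := by omega
    rw [a, b]
    decide

/-- (AR1) -/
theorem ub_arith_M (p M : ℕ) (hp : p.Prime) (h5 : 5 ≤ p) (hM : 0 < M) (h1 : M ∣ p + 1)
    (h8 : ¬ 8 ∣ M) (h9 : ¬ 9 ∣ M) (hl : ∀ l, l.Prime → 5 ≤ l → ¬ l ∣ M) :
    M ∣ 24 / Nat.gcd (p - 1) 12 := by
  rw [← ar_gcd_eq p hp h5]
  exact Nat.dvd_gcd (ar_dvd_twelve M hM h8 h9 hl) h1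

/-- (AR2) -/
theorem ub_arith_m (p m : ℕ) (hp : 2 ≤ p)
    (h : 24 * m / Nat.gcd (p - 1) (24 * m) ∣ 24 / Nat.gcd (p - 1) 12) :
    m ∣ (p - 1) / Nat.gcd (p - 1) 12 := by
  set g := Nat.gcd (p - 1) (24 * m) with hg
  set ν := Nat.gcd (p - 1) 12 with hν
  have hp1 : 0 < p - 1 := by omega
  have hgpos : 0 < g := Nat.gcd_pos_of_pos_left _ hp1
  have hνpos : 0 < ν := Nat.gcd_pos_of_pos_left _ hp1
  have hg1 : g ∣ p - 1 := Nat.gcd_dvd_left _ _
  have hg2 : g ∣ 24 * m := Nat.gcd_dvd_right _ _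
  have hν1 : ν ∣ p - 1 := Nat.gcd_dvd_left _ _
  have hν2 : ν ∣ 24 := (Nat.gcd_dvd_right _ _).trans (by norm_num)
  -- (24 m / g) * ν ∣ 24
  have h' : 24 * m / g * ν ∣ 24 := by
    have := Nat.mul_dvd_mul_right h ν
    rwa [Nat.div_mul_cancel hν2] at this
  -- 24 * m * ν ∣ 24 * g
  have h'' : 24 * (m * ν) ∣ 24 * g := by
    have := Nat.mul_dvd_mul_right h' g
    have e : 24 * m / g * ν * g = 24 * (m * ν) := by
      calc 24 * m / g * ν * g = (24 * m / g * g) * ν := by ring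
        _ = 24 * m * ν := by rw [Nat.div_mul_cancel hg2]
        _ = 24 * (m * ν) := by ring
    rwa [e] at this
  have h3 : m * ν ∣ g := Nat.dvd_of_mul_dvd_mul_left (by norm_num) h''
  have h4 : m * ν ∣ p - 1 := h3.trans hg1
  exact (Nat.dvd_div_iff_mul_dvd hν1).mpr (by rwa [mul_comm] at h4)

/-- (AR3) the scaling constant. -/
theorem ub_arith_scale (p m : ℕ) (hp : 2 ≤ p) :
    ∃ c : ℤ, ((24 * m / Nat.gcd (p - 1) (24 * m) : ℕ) : ℤ) ∣
      c * (((p - 1) / Nat.gcd (p - 1) (24 * m) : ℕ) : ℤ) - 1 := by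
  have hp1 : 0 < p - 1 := by omega
  have hgpos : 0 < Nat.gcd (p - 1) (24 * m) := Nat.gcd_pos_of_pos_left _ hp1
  have hcop : Nat.Coprime ((p - 1) / Nat.gcd (p - 1) (24 * m))
      (24 * m / Nat.gcd (p - 1) (24 * m)) := Nat.coprime_div_gcd_div_gcd hgpos
  have hcop' : IsCoprime (((p - 1) / Nat.gcd (p - 1) (24 * m) : ℕ) : ℤ)
      ((24 * m / Nat.gcd (p - 1) (24 * m) : ℕ) : ℤ) := Nat.isCoprime_iff_coprime.mpr hcop
  obtain ⟨a, b, hab⟩ := hcop'
  refine ⟨a, ⟨-b, ?_⟩⟩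
  linear_combination hab

/-- The whole upper-bound bookkeeping: from the `U`-lemmas (hypotheses on `Good`) to `m ∣ n`. -/
theorem ub_arith_final (p : ℕ) (hp : p.Prime) (h5 : 5 ≤ p) (Good : ℕ → Prop)
    (hmono : ∀ M M', Good M → M' ∣ M → Good M')
    (h1 : ∀ M, 0 < M → Nat.Coprime M p → Good M → M ∣ p + 1)
    (h8 : 8 ∣ p + 1 → ¬ Good 8) (h9 : 9 ∣ p + 1 → ¬ Good 9)
    (hl : ∀ l, l.Prime → 5 ≤ l → l ≠ p → l ∣ p + 1 → ¬ Good l) (hpp : ¬ Good p)
    (m : ℕ) (hG : Good (24 * m / Nat.gcd (p - 1) (24 * m))) :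
    m ∣ (p - 1) / Nat.gcd (p - 1) 12 := by
  have hcop : ∀ M, 0 < M → Good M → Nat.Coprime M p := by
    intro M _ hGM
    rw [Nat.coprime_comm, hp.coprime_iff_not_dvd]
    intro hpM
    exact hpp (hmono M p hGM hpM)
  have hno8 : ¬ Good 8 := fun h => h8 (h1 8 (by norm_num) (hcop 8 (by norm_num) h) h) h
  have hno9 : ¬ Good 9 := fun h => h9 (h1 9 (by norm_num) (hcop 9 (by norm_num) h) h) h
  have hnol : ∀ l, l.Prime → 5 ≤ l → ¬ Good l := by
    intro l hlp hl5 h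
    by_cases hlp' : l = p
    · exact hpp (hlp' ▸ h)
    · exact hl l hlp hl5 hlp' (h1 l hlp.pos (hcop l hlp.pos h) h) h
  set M := 24 * m / Nat.gcd (p - 1) (24 * m) with hMdef
  by_cases hM0 : M = 0
  · exact absurd (hmono M 8 hG (hM0 ▸ dvd_zero 8)) hno8
  have hMpos : 0 < M := Nat.pos_of_ne_zero hM0
  have hM : M ∣ 24 / Nat.gcd (p - 1) 12 :=
    ub_arith_M p M hp h5 hMpos (h1 M hMpos (hcop M hMpos hG) hG)
      (fun h => hno8 (hmono M 8 hG h)) (fun h => hno9 (hmono M 9 hG h))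
      (fun l hlp hl5 h => hnol l hlp hl5 (hmono M l hG h))
  exact ub_arith_m p m hp.two_le hM

end Fermat.Agent.S16
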