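import Fermat.Agent.S16.QSeries
import Fermat.Agent.S28.JDelta
import Fermat.Agent.S23.LevelOne

/-!
# S16: the integral `q`-series `e4Z`, `e6Z`, `deltaZ` are the `q`-expansions of `E₄`, `E₆`, `Δ`,
and the integral identity `1728 * deltaZ = e4Z ^ 3 - e6Z ^ 2`.
-/

set_option autoImplicit false

open UpperHalfPlane ModularForm Complex ModularCurve
open scoped Real MatrixGroups CongruenceSubgroup Manifold

namespace Fermat.Agent.S16

theorem did_qExpansion_E4 : qExpansion 1 E₄ = e4Z.map (Int.castRingHom ℂ) :=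
  Fermat.Agent.S28.hasQExp_E4_aux

theorem did_qExpansion_E6 : qExpansion 1 E₆ = e6Z.map (Int.castRingHom ℂ) := by
  ext m
  rw [EisensteinSeries.E_qExpansion_coeff _ ⟨3, rfl⟩ m, PowerSeries.coeff_map, coeff_e6Z]
  split_ifs with h
  · simp
  · rw [ArithmeticFunction.sigma_apply]
    norm_num [show bernoulli 6 = 1 / 42 by decide +kernel]

theorem did_qExpansion_discriminant :
    qExpansion 1 ModularForm.discriminant = deltaZ.map (Int.castRingHom ℂ) := by
  ext m
  have key := ModularFormClass.qExpansion_coeff_unique (h := 1) (Γ := 𝒮ℒ) (k := 12)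
    (f := CuspForm.discriminant)
    (c := fun m => (((PowerSeries.coeff m deltaZ : ℤ) : ℂ))) one_pos one_mem_strictPeriods_SL
    (fun τ => by
      have hq : ‖Function.Periodic.qParam 1 (τ : ℂ)‖ < 1 := by
        simpa using UpperHalfPlane.norm_qParam_lt_one 1 τ
      have h := Fermat.Agent.S28.discPS_delta (Function.Periodic.qParam 1 (τ : ℂ)) hq
      have e : (CuspForm.discriminant : ℍ → ℂ) τ = Function.Periodic.qParam 1 (τ : ℂ) *
          ∏' n : ℕ, (1 - Function.Periodic.qParam 1 (τ : ℂ) ^ (n + 1)) ^ 24 := by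
        rw [CuspForm.coe_discriminant, ModularForm.discriminant_eq_q_prod]
      rw [e]
      have h' : ∀ m, PowerSeries.coeff m ((PowerSeries.X * dedekindEtaUnit).map
          (Int.castRingHom ℂ)) = (((PowerSeries.coeff m deltaZ : ℤ) : ℂ)) := fun m => by
        rw [PowerSeries.coeff_map]
        rfl
      simp only [h'] at h
      simpa [smul_eq_mul] using h) m
  rw [← CuspForm.coe_discriminant, ← key, PowerSeries.coeff_map]
  rfl

/-- The integral identity `1728 Δ = E₄³ - E₆²`. -/
theorem did_deltaZ_identity : (1728 : PowerSeries ℤ) * deltaZ = e4Z ^ 3 - e6Z ^ 2 := by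
  have hinj : Function.Injective (PowerSeries.map (Int.castRingHom ℂ)) := by
    intro a b hab
    ext n
    have := congrArg (PowerSeries.coeff n) hab
    simpa using this
  apply hinj
  rw [map_mul, map_sub, map_pow, map_pow, map_ofNat, ← did_qExpansion_E4, ← did_qExpansion_E6,
    ← did_qExpansion_discriminant, ← Fermat.Agent.S23.loD12_qExpansion]
  have h1 : (Fermat.Agent.S23.loD12 : ℍ → ℂ) = (1728 : ℂ) • (CuspForm.discriminant : ℍ → ℂ) := by
    funext z
    rw [Fermat.Agent.S23.loD12_apply]
    rfl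
  rw [h1, ModularForm.qExpansion_smul one_pos one_mem_strictPeriods_SL (1728 : ℂ)
    CuspForm.discriminant,
    show (1728 : PowerSeries ℂ) = PowerSeries.C (1728 : ℂ) from
      (map_ofNat (PowerSeries.C (R := ℂ)) 1728).symm]
  ext n
  rw [PowerSeries.coeff_smul, PowerSeries.coeff_C_mul, smul_eq_mul]
  rfl

end Fermat.Agent.S16
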