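import Fermat.Agent.S20.Basic
import Fermat.Prelude.Thm_CongruenceSubgroup_one_mem_strictPeriods_Gamma0
import Fermat.Prelude.Def_ModularCurve_ModularUnit

/-!
# S16, lower bound assembly (core)

From a weight-two form `FE` on `Γ₀(p)` with `q`-expansion `(1 - p) - 24 ∑ s(k) q^k` and a weight-two
form `FΘ` with `q`-expansion `1 + 2 t`, `t ∈ q ℤ[[q]]`, we produce a cusp form with integral
`q`-expansion congruent to `∑ s(k) q^k` modulo `n = (p - 1) / gcd (p - 1, 12)`, provided that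
weight-two forms on `Γ₀(p)` with vanishing constant term are cusp forms.
-/

set_option autoImplicit false

namespace Fermat.Agent.S16

open UpperHalfPlane Complex ModularForm CongruenceSubgroup ModularCurve
open scoped MatrixGroups

/-- Arithmetic of the Eisenstein numerator: `ν = gcd (p - 1, 12)`, `n = (p - 1) / ν`,
`12 = ν * c`, and `u * c ≡ 1 mod n`. -/
theorem lb_arith (p : ℕ) :
    ∃ (ν c : ℕ) (u w : ℤ), 0 < ν ∧ ν * c = 12 ∧ ν * eisensteinNumerator p = p - 1 ∧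
      u * c = 1 + w * eisensteinNumerator p := by
  set ν := Nat.gcd (p - 1) 12 with hν
  have hνpos : 0 < ν := Nat.gcd_pos_of_pos_right _ (by norm_num)
  have h12 : ν ∣ 12 := Nat.gcd_dvd_right _ _
  have hp1 : ν ∣ p - 1 := Nat.gcd_dvd_left _ _
  obtain ⟨c, hc⟩ := h12
  have hn : ν * eisensteinNumerator p = p - 1 := by
    unfold eisensteinNumerator
    exact Nat.mul_div_cancel' hp1
  have hcop : Nat.Coprime c (eisensteinNumerator p) := by
    have h1 : Nat.gcd (p - 1) 12 = ν * Nat.gcd (eisensteinNumerator p) c := by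
      conv_lhs => rw [← hn, hc]
      exact Nat.gcd_mul_left _ _ _
    have h2 : ν * Nat.gcd (eisensteinNumerator p) c = ν * 1 := by rw [← h1, mul_one]
    have h3 := Nat.eq_of_mul_eq_mul_left hνpos h2
    exact (Nat.gcd_comm _ _).trans h3
  have hb := Nat.gcd_eq_gcd_ab c (eisensteinNumerator p)
  rw [hcop.gcd_eq_one] at hb
  refine ⟨ν, c, Nat.gcdA c (eisensteinNumerator p), -Nat.gcdB c (eisensteinNumerator p),
    hνpos, hc.symm, hn, ?_⟩
  push_cast at hb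
  linarith

theorem lb_core (p : ℕ) [Fact p.Prime] (s : ℕ → ℤ)
    (FE : ModularForm (Gamma0 p) 2) (hE0 : (qExpansion 1 FE).coeff 0 = 1 - (p : ℂ))
    (hE : ∀ k, 1 ≤ k → (qExpansion 1 FE).coeff k = -24 * (s k : ℂ))
    (FΘ : ModularForm (Gamma0 p) 2) (hΘ0 : (qExpansion 1 FΘ).coeff 0 = 1)
    (hΘ : ∀ k, 1 ≤ k → ∃ m : ℤ, (qExpansion 1 FΘ).coeff k = 2 * (m : ℂ))
    (hcusp : ∀ f : ℍ → ℂ, f ∈ Fermat.Agent.S20.MF (Fermat.Agent.S20.G0 p) 2 →
      (qExpansion 1 f).coeff 0 = 0 → f ∈ Fermat.Agent.S20.CF (Fermat.Agent.S20.G0 p) 2) :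
    ∃ f0 : CuspForm (Gamma0 p) 2, ∀ k, 1 ≤ k → ∃ a : ℤ, (qExpansion 1 f0).coeff k = (a : ℂ) ∧
      (eisensteinNumerator p : ℤ) ∣ a - s k := by
  have hp : 1 ≤ p := (Fact.out : p.Prime).one_lt.le
  obtain ⟨ν, c, u, w, hνpos, hνc, hνn, huc⟩ := lb_arith p
  set n := eisensteinNumerator p with hn
  have hνC : (ν : ℂ) ≠ 0 := by exact_mod_cast hνpos.ne'
  -- the scalars
  set c₁ : ℂ := -(u : ℂ) / (2 * ν) with hc₁
  set c₂ : ℂ := -(u : ℂ) * ((p : ℂ) - 1) / (2 * ν) with hc₂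
  set G : ModularForm (Gamma0 p) 2 := c₁ • FE + c₂ • FΘ with hG
  have hper := CongruenceSubgroup.one_mem_strictPeriods_Gamma0 p
  have hcoeff : ∀ k, (qExpansion 1 G).coeff k =
      c₁ * (qExpansion 1 FE).coeff k + c₂ * (qExpansion 1 FΘ).coeff k := by
    intro k
    have h1 : (⇑G : ℍ → ℂ) = c₁ • ⇑FE + c₂ • ⇑FΘ := rfl
    have aE := ModularFormClass.analyticAt_cuspFunction_zero FE one_pos hper
    have aΘ := ModularFormClass.analyticAt_cuspFunction_zero FΘ one_pos hper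
    have aE' : AnalyticAt ℂ (cuspFunction 1 (c₁ • ⇑FE)) 0 :=
      ModularFormClass.analyticAt_cuspFunction_zero (c₁ • FE) one_pos hper
    have aΘ' : AnalyticAt ℂ (cuspFunction 1 (c₂ • ⇑FΘ)) 0 :=
      ModularFormClass.analyticAt_cuspFunction_zero (c₂ • FΘ) one_pos hper
    rw [h1, qExpansion_add aE' aΘ', qExpansion_smul aE, qExpansion_smul aΘ]
    simp
  have hp1 : ((p : ℂ) - 1) = (ν : ℂ) * (n : ℂ) := by
    have : ((p - 1 : ℕ) : ℂ) = (p : ℂ) - 1 := by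
      rw [Nat.cast_sub hp]; simp
    rw [← this, ← hνn]
    push_cast
    ring
  have h0 : (qExpansion 1 G).coeff 0 = 0 := by
    rw [hcoeff, hE0, hΘ0, hc₁, hc₂]
    ring
  have hmem : (⇑G : ℍ → ℂ) ∈ Fermat.Agent.S20.CF (Fermat.Agent.S20.G0 p) 2 :=
    hcusp _ ⟨G, rfl⟩ h0
  obtain ⟨f0, hf0⟩ := hmem
  have hf0' : (⇑f0 : ℍ → ℂ) = ⇑G := hf0
  refine ⟨f0, fun k hk => ?_⟩
  obtain ⟨m, hm⟩ := hΘ k hk
  refine ⟨u * c * s k - u * n * m, ?_, ?_⟩
  · rw [hf0', hcoeff, hE k hk, hm, hc₁, hc₂, hp1]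
    have h12 : (12 : ℂ) = (ν : ℂ) * (c : ℂ) := by
      rw [← Nat.cast_mul, hνc]; norm_num
    push_cast
    field_simp
    rw [show (24 : ℂ) = 2 * 12 by norm_num, h12]
    ring
  · refine ⟨w * s k - u * m, ?_⟩
    rw [huc]
    ring

end Fermat.Agent.S16
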