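import Mathlib
import Fermat.Agent.S16.QSeries
import Fermat.Agent.S28.Disc

/-!
# S16 sub-piece RAM: Ramanujan's identities as identities of integral power series

`12 θ E₂ = E₂² - E₄`, `3 θ E₄ = E₂ E₄ - E₆`, `2 θ E₆ = E₂ E₆ - E₄²` for the integral `q`-series
`e2Z`, `e4Z`, `e6Z` (`θ = q d/dq`).
-/

set_option autoImplicit false

open UpperHalfPlane ModularForm EisensteinSeries Complex Filter Metric
open scoped Topology Manifold Real MatrixGroups
open Fermat.Agent.S28 (DiscPS)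

noncomputable section

namespace Fermat.Agent.S16

/-- `F` has the `q`-expansion `p` on the upper half-plane (`q = exp (2πiz)`). -/
def RamQ (F : ℍ → ℂ) (p : PowerSeries ℂ) : Prop :=
  ∀ z : ℍ, HasSum (fun n : ℕ => p.coeff n * (Function.Periodic.qParam 1 (z : ℂ)) ^ n) (F z)

theorem ram_norm_qParam_lt_one (z : ℍ) : ‖Function.Periodic.qParam 1 (z : ℂ)‖ < 1 :=
  Function.Periodic.norm_qParam_lt_one one_pos z.im_pos

theorem ram_exists_qParam_eq {q : ℂ} (hq : ‖q‖ < 1) (hq0 : q ≠ 0) :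
    ∃ z : ℍ, Function.Periodic.qParam 1 (z : ℂ) = q := by
  have h1 := Function.Periodic.im_invQParam_pos_of_norm_lt_one one_pos hq hq0
  refine ⟨⟨Function.Periodic.invQParam 1 q, h1⟩, ?_⟩
  exact Function.Periodic.qParam_right_inv one_ne_zero hq0

/-- A `q`-expansion on the upper half-plane gives a power series on the unit disc. -/
theorem RamQ.disc {F : ℍ → ℂ} {p : PowerSeries ℂ} (h : RamQ F p) :
    ∃ G : ℂ → ℂ, DiscPS G p ∧ ∀ z : ℍ, F z = G (Function.Periodic.qParam 1 (z : ℂ)) := by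
  refine ⟨fun q => ∑' m : ℕ, p.coeff m * q ^ m, ?_, fun z => (h z).tsum_eq.symm⟩
  intro q hq
  by_cases hq0 : q = 0
  · subst hq0
    refine Summable.hasSum (summable_of_ne_finset_zero (s := {0}) ?_)
    intro m hm
    have : m ≠ 0 := by simpa using hm
    simp [this]
  · obtain ⟨z, rfl⟩ := ram_exists_qParam_eq hq hq0
    exact (h z).summable.hasSum

theorem RamQ.of_disc {F : ℍ → ℂ} {p : PowerSeries ℂ} {G : ℂ → ℂ} (hG : DiscPS G p)
    (hF : ∀ z : ℍ, F z = G (Function.Periodic.qParam 1 (z : ℂ))) : RamQ F p := by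
  intro z
  rw [hF z]
  exact hG _ (ram_norm_qParam_lt_one z)

/-- Uniqueness of `q`-expansions. -/
theorem RamQ.unique {F : ℍ → ℂ} {p r : PowerSeries ℂ} (h : RamQ F p) (h' : RamQ F r) :
    p = r := by
  obtain ⟨G, hG, hFG⟩ := h.disc
  obtain ⟨H, hH, hFH⟩ := h'.disc
  have hK : DiscPS (G - H) (p - r) := hG.sub hH
  have hK0 : ∀ q : ℂ, ‖q‖ < 1 → q ≠ 0 → (G - H) q = 0 := by
    intro q hq hq0
    obtain ⟨z, rfl⟩ := ram_exists_qParam_eq hq hq0
    rw [Pi.sub_apply, ← hFG z, ← hFH z, sub_self]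
  have hcont : ContinuousAt (G - H) 0 :=
    hK.differentiableOn.continuousOn.continuousAt (ball_mem_nhds 0 one_pos)
  have hev : (G - H) =ᶠ[𝓝[≠] (0 : ℂ)] fun _ => (0 : ℂ) := by
    have hb : ball (0 : ℂ) 1 ∈ 𝓝[≠] (0 : ℂ) := mem_nhdsWithin_of_mem_nhds (ball_mem_nhds 0 one_pos)
    filter_upwards [hb, self_mem_nhdsWithin] with q hq hq0
    exact hK0 q (by simpa using hq) hq0
  have h0 : (G - H) 0 = 0 := by
    have t1 : Tendsto (G - H) (𝓝[≠] (0 : ℂ)) (𝓝 ((G - H) 0)) :=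
      hcont.tendsto.mono_left nhdsWithin_le_nhds
    have t2 : Tendsto (G - H) (𝓝[≠] (0 : ℂ)) (𝓝 0) :=
      (tendsto_const_nhds).congr' hev.symm
    exact tendsto_nhds_unique t1 t2
  have hz : DiscPS (fun _ => (0 : ℂ)) (p - r) := by
    refine hK.congr fun q hq => ?_
    by_cases hq0 : q = 0
    · rw [hq0, h0]
    · exact hK0 q hq hq0
  have hz' : DiscPS (fun _ => (0 : ℂ)) (0 : PowerSeries ℂ) := DiscPS.zero
  exact sub_eq_zero.mp (hz.unique hz')

/-- The value at `i∞` is the constant coefficient. -/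
theorem RamQ.tendsto {F : ℍ → ℂ} {p : PowerSeries ℂ} (h : RamQ F p) :
    Tendsto F atImInfty (𝓝 (p.coeff 0)) := by
  obtain ⟨G, hG, hFG⟩ := h.disc
  have hcont : ContinuousAt G 0 :=
    hG.differentiableOn.continuousOn.continuousAt (ball_mem_nhds 0 one_pos)
  have hq : Tendsto (fun z : ℍ => Function.Periodic.qParam 1 (z : ℂ)) atImInfty (𝓝 0) :=
    qParam_tendsto_atImInfty one_pos
  have := hcont.tendsto.comp hq
  rw [hG.apply_zero] at this
  exact this.congr fun z => (hFG z).symm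

theorem RamQ.add {F F' : ℍ → ℂ} {p p' : PowerSeries ℂ} (h : RamQ F p) (h' : RamQ F' p') :
    RamQ (F + F') (p + p') := by
  intro z
  have := (h z).add (h' z)
  simpa [add_mul] using this

theorem RamQ.sub {F F' : ℍ → ℂ} {p p' : PowerSeries ℂ} (h : RamQ F p) (h' : RamQ F' p') :
    RamQ (F - F') (p - p') := by
  intro z
  have := (h z).sub (h' z)
  simpa [sub_mul] using this

theorem RamQ.mul {F F' : ℍ → ℂ} {p p' : PowerSeries ℂ} (h : RamQ F p) (h' : RamQ F' p') :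
    RamQ (F * F') (p * p') := fun z =>
  Fermat.Agent.S28.hasSum_coeff_mul (h z) (h' z)

theorem RamQ.const_mul {F : ℍ → ℂ} {p : PowerSeries ℂ} (c : ℂ) (h : RamQ F p) :
    RamQ (fun z => c * F z) (PowerSeries.C c * p) := by
  intro z
  have := (h z).mul_left c
  simpa [mul_assoc] using this

theorem RamQ.congr {F F' : ℍ → ℂ} {p : PowerSeries ℂ} (h : RamQ F p) (hF : ∀ z, F z = F' z) :
    RamQ F' p := fun z => hF z ▸ h z

theorem ramQ_zero : RamQ (fun _ => 0) 0 := by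
  intro z
  simp

/-- Termwise differentiation of a power series on the unit disc: `q G'(q) = ∑ n aₙ qⁿ`. -/
theorem ram_discPS_theta {G : ℂ → ℂ} {p : PowerSeries ℂ} (hG : DiscPS G p) :
    DiscPS (fun q => q * deriv G q) (qsTheta p) := by
  intro q hq
  have hfp := hG.hasFPowerSeriesOnBall.fderiv
  have hq' : q ∈ Metric.eball (0 : ℂ) 1 := by
    rw [← ENNReal.coe_one, Metric.eball_coe, NNReal.coe_one, mem_ball_zero_iff]
    exact hq
  have hs := hfp.hasSum hq'
  have hs2 := (ContinuousLinearMap.apply ℂ ℂ q).hasSum hs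
  rw [zero_add] at hs2
  have e1 : (ContinuousLinearMap.apply ℂ ℂ q) (fderiv ℂ G q) = q * deriv G q := by
    show (fderiv ℂ G q) q = q * deriv G q
    rw [fderiv_eq_smul_deriv, smul_eq_mul]
  rw [e1] at hs2
  have e2 : (fun n : ℕ => (ContinuousLinearMap.apply ℂ ℂ q)
      ((FormalMultilinearSeries.ofScalars ℂ fun m => p.coeff m).derivSeries n fun _ => q)) =
      fun n : ℕ => ((n + 1 : ℕ) : ℂ) * p.coeff (n + 1) * q ^ (n + 1) := by
    funext n
    show ((FormalMultilinearSeries.ofScalars ℂ fun m => p.coeff m).derivSeries n fun _ => q) q = _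
    rw [FormalMultilinearSeries.derivSeries_apply_diag,
      FormalMultilinearSeries.ofScalars_apply_eq]
    simp only [nsmul_eq_mul, smul_eq_mul]
    push_cast
    ring
  rw [e2] at hs2
  refine (hasSum_nat_add_iff' 1).mp ?_
  simpa [coeff_qsTheta, mul_assoc] using hs2

theorem ram_hasDerivAt_qParam (w : ℂ) :
    HasDerivAt (Function.Periodic.qParam 1)
      (2 * π * Complex.I * Function.Periodic.qParam 1 w) w := by
  have h1 : HasDerivAt (fun z : ℂ => 2 * π * Complex.I * z / ((1 : ℝ) : ℂ)) (2 * π * Complex.I) w := by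
    have := ((hasDerivAt_id w).const_mul (2 * π * Complex.I)).div_const ((1 : ℝ) : ℂ)
    simpa using this
  have h2 := h1.cexp
  have h3 : HasDerivAt (fun x : ℂ => Complex.exp (2 * ↑π * Complex.I * x / ((1 : ℝ) : ℂ)))
      (2 * ↑π * Complex.I * Complex.exp (2 * ↑π * Complex.I * w / ((1 : ℝ) : ℂ))) w := by
    rw [show (2 * (π : ℂ) * Complex.I * Complex.exp (2 * ↑π * Complex.I * w / ((1 : ℝ) : ℂ)))
      = Complex.exp (2 * ↑π * Complex.I * w / ((1 : ℝ) : ℂ)) * (2 * ↑π * Complex.I)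
      from mul_comm _ _]
    exact h2
  exact h3

open Derivative in
/-- Termwise differentiation of `q`-expansions. -/
theorem RamQ.derivD {F : ℍ → ℂ} {p : PowerSeries ℂ} (h : RamQ F p) :
    RamQ (D F) (qsTheta p) := by
  obtain ⟨G, hG, hFG⟩ := h.disc
  refine RamQ.of_disc (ram_discPS_theta hG) fun z => ?_
  have hqn := ram_norm_qParam_lt_one z
  have hmem : Function.Periodic.qParam 1 (z : ℂ) ∈ ball (0 : ℂ) 1 := by simpa using hqn
  have hg : DifferentiableAt ℂ G (Function.Periodic.qParam 1 (z : ℂ)) :=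
    (hG.differentiableOn _ hmem).differentiableAt (isOpen_ball.mem_nhds hmem)
  have hcomp : HasDerivAt (G ∘ Function.Periodic.qParam 1)
      (deriv G (Function.Periodic.qParam 1 (z : ℂ)) *
        (2 * π * Complex.I * Function.Periodic.qParam 1 (z : ℂ))) (z : ℂ) :=
    hg.hasDerivAt.comp (z : ℂ) (ram_hasDerivAt_qParam (z : ℂ))
  have hev : (F ∘ ofComplex) =ᶠ[𝓝 (z : ℂ)] (G ∘ Function.Periodic.qParam 1) := by
    filter_upwards [isOpen_upperHalfPlaneSet.mem_nhds z.im_pos] with w hw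
    simp only [Function.comp_apply, ofComplex_apply_of_im_pos hw]
    exact hFG ⟨w, hw⟩
  have hd := (hcomp.congr_of_eventuallyEq hev).deriv
  simp only [normalizedDerivOfComplex]
  rw [hd]
  have hpi : (2 * (π : ℂ) * Complex.I) ≠ 0 := by
    simp [Real.pi_ne_zero]
  field_simp

/-! ### The `q`-expansions of `E₂`, `E₄`, `E₆` -/

theorem ram_qParam_eq (z : ℍ) :
    Function.Periodic.qParam 1 (z : ℂ) = Complex.exp (2 * π * Complex.I * z) := by
  simp [Function.Periodic.qParam]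

theorem ramQ_E2 : RamQ E2 (e2Z.map (Int.castRingHom ℂ)) := by
  intro z
  have h := hasSum_qExpansion_E2 (z := z)
  rw [ram_qParam_eq]
  convert h using 2 with m
  rw [PowerSeries.coeff_map, coeff_e2Z, smul_eq_mul]
  congr 1
  split_ifs with hm
  · simp
  · rw [ArithmeticFunction.sigma_apply]
    push_cast
    simp

theorem ramQ_modularForm {k : ℤ} (f : ModularForm 𝒮ℒ k) : RamQ f (qExpansion 1 f) := fun z =>
  ModularForm.hasSum_qExpansion (f := f) one_pos one_mem_strictPeriods_SL z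

theorem ram_qExpansion_E4 : qExpansion 1 E₄ = e4Z.map (Int.castRingHom ℂ) := by
  ext m
  rw [EisensteinSeries.E_qExpansion_coeff _ ⟨2, rfl⟩ m, PowerSeries.coeff_map, coeff_e4Z]
  split_ifs with h
  · simp
  · rw [ArithmeticFunction.sigma_apply]
    norm_num [show bernoulli 4 = -1 / 30 by decide +kernel]

theorem ram_qExpansion_E6 : qExpansion 1 E₆ = e6Z.map (Int.castRingHom ℂ) := by
  ext m
  rw [EisensteinSeries.E_qExpansion_coeff _ ⟨3, rfl⟩ m, PowerSeries.coeff_map, coeff_e6Z]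
  split_ifs with h
  · simp
  · rw [ArithmeticFunction.sigma_apply]
    norm_num [show bernoulli 6 = 1 / 42 by decide +kernel]

theorem ramQ_E4 : RamQ E₄ (e4Z.map (Int.castRingHom ℂ)) := by
  rw [← ram_qExpansion_E4]
  exact ramQ_modularForm E₄

theorem ramQ_E6 : RamQ E₆ (e6Z.map (Int.castRingHom ℂ)) := by
  rw [← ram_qExpansion_E6]
  exact ramQ_modularForm E₆

/-! ### Vanishing of level one cusp forms of small weight -/

/-- A holomorphic function on `ℍ` with the weight `k < 12` transformation law under `SL(2, ℤ)`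
and a `q`-expansion without constant term vanishes identically (as a `q`-series). -/
theorem ram_eq_zero_of_cusp {k : ℤ} (hk : k < 12) {F : ℍ → ℂ} (hF : MDiff F)
    (hinv : ∀ γ : SL(2, ℤ), F ∣[k] γ = F) {p : PowerSeries ℂ} (hp : RamQ F p)
    (h0 : p.coeff 0 = 0) : p = 0 := by
  have hzero : IsZeroAtImInfty F := by
    have := hp.tendsto
    rw [h0] at this
    exact this
  let f : CuspForm 𝒮ℒ k :=
    { toFun := F
      slash_action_eq' := by
        rintro _ ⟨γ, rfl⟩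
        exact hinv γ
      holo' := hF
      zero_at_cusps' := by
        intro c hc
        rw [Subgroup.IsArithmetic.isCusp_iff_isCusp_SL2Z] at hc
        rw [OnePoint.isZeroAt_iff_forall_SL2Z hc]
        intro γ _
        rw [hinv γ]
        exact hzero }
  have hf0 : f = 0 :=
    rank_zero_iff_forall_zero.mp (CuspForm.rank_eq_zero_of_weight_lt_twelve hk) f
  have hF0 : ∀ z, F z = (fun _ : ℍ => (0 : ℂ)) z := fun z => by
    have h1 : f z = 0 := by rw [hf0]; rfl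
    exact h1
  exact (hp.congr hF0).unique ramQ_zero

/-! ### The transformation law of `D E₂` -/

open Derivative

theorem ram_D2_hasDerivAt (γ : SL(2, ℤ)) (z : ℍ) :
    HasDerivAt (D2 γ ∘ ofComplex)
      (2 * π * Complex.I * (γ 1 0 : ℂ) * (-1 * (γ 1 0 : ℂ) * denom γ z ^ (-2 : ℤ))) (z : ℂ) := by
  have h1 := hasDerivAt_denom_zpow (γ : GL (Fin 2) ℝ) (-1) z
  have h2 := h1.const_mul (2 * π * Complex.I * (γ 1 0 : ℂ))
  have hev : (D2 γ ∘ ofComplex) =ᶠ[𝓝 (z : ℂ)]
      fun w => 2 * π * Complex.I * (γ 1 0 : ℂ) * denom (γ : GL (Fin 2) ℝ) w ^ (-1 : ℤ) := by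
    filter_upwards [isOpen_upperHalfPlaneSet.mem_nhds z.im_pos] with w hw
    simp only [Function.comp_apply, D2, ofComplex_apply_of_im_pos hw]
    rw [zpow_neg_one, div_eq_mul_inv]
  have h3 := h2.congr_of_eventuallyEq hev
  refine h3.congr_deriv ?_
  simp

theorem ram_D2_mdiff (γ : SL(2, ℤ)) : MDiff (D2 γ) := by
  rw [UpperHalfPlane.mdifferentiable_iff]
  intro w hw
  exact (ram_D2_hasDerivAt γ ⟨w, hw⟩).differentiableAt.differentiableWithinAt

theorem ram_D_D2 (γ : SL(2, ℤ)) (z : ℍ) :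
    D (D2 γ) z = -((γ 1 0 : ℂ) / denom γ z) ^ 2 := by
  simp only [normalizedDerivOfComplex]
  rw [(ram_D2_hasDerivAt γ z).deriv]
  have hpi : (2 * (π : ℂ) * Complex.I) ≠ 0 := by simp [Real.pi_ne_zero]
  have hden := denom_ne_zero γ z
  rw [zpow_neg, div_pow]
  have : denom γ z ^ (2 : ℤ) = denom γ z ^ 2 := by norm_cast
  rw [this]
  field_simp

/-- The transformation law of `D E₂`. -/
theorem ram_DE2_slash (γ : SL(2, ℤ)) (z : ℍ) :
    (D E2 ∣[(4 : ℤ)] γ) z =
      D E2 z + 2 * (2 * π * Complex.I)⁻¹ * ((γ 1 0 : ℂ) / denom γ z) * E2 z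
        - (1 / (2 * riemannZeta 2)) * ((γ 1 0 : ℂ) / denom γ z) ^ 2 := by
  have hb := congrFun
    (normalizedDerivOfComplex_SL_slash (k := 2) E2_mdifferentiable (γ := γ)) z
  rw [E2_slash_action] at hb
  rw [normalizedDerivOfComplex_sub _ _ E2_mdifferentiable ((ram_D2_mdiff γ).const_smul _),
    normalizedDerivOfComplex_smul _ _ (ram_D2_mdiff γ)] at hb
  simp only [Pi.sub_apply, Pi.smul_apply, smul_eq_mul, ram_D_D2, D2] at hb
  have e : ((2 : ℤ) + 2) = 4 := by norm_num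
  rw [e, mul_div_assoc] at hb
  push_cast at hb
  have hpi : (2 * (π : ℂ) * Complex.I) ≠ 0 := by simp [Real.pi_ne_zero]
  have hP : (2 * (π : ℂ) * Complex.I)⁻¹ * (2 * (π : ℂ) * Complex.I) = 1 := inv_mul_cancel₀ hpi
  linear_combination (-1) * hb - 2 * (1 / (2 * riemannZeta 2)) *
    ((γ 1 0 : ℂ) / denom γ z) ^ 2 * hP

theorem ram_kappa : (1 / (2 * riemannZeta 2)) * (2 * (π : ℂ) * Complex.I) ^ 2 = -12 := by
  rw [riemannZeta_two]
  have hπ : (π : ℂ) ≠ 0 := by simp [Real.pi_ne_zero]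
  field_simp
  linear_combination (12 : ℂ) * Complex.I_sq

theorem ram_E2_slash_apply (γ : SL(2, ℤ)) (z : ℍ) :
    E2 (γ • z) * denom γ z ^ (-(2 : ℤ)) =
      E2 z - (1 / (2 * riemannZeta 2)) * (2 * π * Complex.I * ((γ 1 0 : ℂ) / denom γ z)) := by
  have h := congrFun (E2_slash_action γ) z
  rw [SL_slash_apply] at h
  simp only [Pi.sub_apply, Pi.smul_apply, smul_eq_mul, D2] at h
  rw [h, mul_div_assoc]

theorem ram_slash_eq {k : ℤ} (f : ModularForm 𝒮ℒ k) (γ : SL(2, ℤ)) :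
    (f : ℍ → ℂ) ∣[k] γ = f := by
  rw [SL_slash]
  exact SlashInvariantForm.slash_action_eqn f _ (MonoidHom.mem_range.mpr ⟨γ, rfl⟩)

/-- The function `12 D E₂ - E₂² + E₄`. -/
def ramF2 (z : ℍ) : ℂ := 12 * D E2 z - E2 z ^ 2 + E₄ z

theorem ramF2_slash (γ : SL(2, ℤ)) : ramF2 ∣[(4 : ℤ)] γ = ramF2 := by
  funext z
  rw [SL_slash_apply]
  have h1 := ram_E2_slash_apply γ z
  have h2 := ram_DE2_slash γ z
  rw [SL_slash_apply] at h2
  have h3 := congrFun (ram_slash_eq E₄ γ) z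
  rw [SL_slash_apply] at h3
  have hden := denom_ne_zero γ z
  have hz4 : denom γ z ^ (-(4 : ℤ)) = denom γ z ^ (-(2 : ℤ)) * denom γ z ^ (-(2 : ℤ)) := by
    rw [← zpow_add₀ hden]
    norm_num
  have hpi : (2 * (π : ℂ) * Complex.I) ≠ 0 := by simp [Real.pi_ne_zero]
  have hP : (2 * (π : ℂ) * Complex.I)⁻¹ * (2 * (π : ℂ) * Complex.I) = 1 := inv_mul_cancel₀ hpi
  have hκ := ram_kappa
  simp only [ramF2]
  have e : (12 * D E2 (γ • z) - E2 (γ • z) ^ 2 + E₄ (γ • z)) * denom γ z ^ (-(4 : ℤ)) =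
      12 * (D E2 (γ • z) * denom γ z ^ (-(4 : ℤ))) - (E2 (γ • z) * denom γ z ^ (-(2 : ℤ))) ^ 2
        + E₄ (γ • z) * denom γ z ^ (-(4 : ℤ)) := by
    rw [hz4]
    ring
  rw [e, h2, h1, h3]
  linear_combination (2 * ((γ 1 0 : ℂ) / denom γ z) * E2 z * (2 * (π : ℂ) * Complex.I)⁻¹
      - (1 / (2 * riemannZeta 2)) * ((γ 1 0 : ℂ) / denom γ z) ^ 2) * hκ
    - (2 * ((γ 1 0 : ℂ) / denom γ z) * E2 z * (1 / (2 * riemannZeta 2)) *
      (2 * (π : ℂ) * Complex.I)) * hP

theorem ramF2_mdiff : MDiff ramF2 := by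
  have h1 : MDiff (D E2) := normalizedDerivOfComplex_mdifferentiable E2_mdifferentiable
  have e : ramF2 = (fun z => (12 : ℂ) * D E2 z) - E2 * E2 + E₄ := by
    funext z
    simp [ramF2, sq]
  rw [e]
  exact ((MDifferentiable.mul mdifferentiable_const h1).sub
    (E2_mdifferentiable.mul E2_mdifferentiable)).add E₄.holo'

theorem ram_coeff_zero_qsTheta (p : PowerSeries ℂ) : PowerSeries.coeff 0 (qsTheta p) = 0 := by
  simp

theorem ram_map_e2Z_coeff_zero : PowerSeries.coeff 0 (e2Z.map (Int.castRingHom ℂ)) = 1 := by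
  simp [coeff_e2Z]

theorem ram_map_e4Z_coeff_zero : PowerSeries.coeff 0 (e4Z.map (Int.castRingHom ℂ)) = 1 := by
  simp [coeff_e4Z]

theorem ram_map_e6Z_coeff_zero : PowerSeries.coeff 0 (e6Z.map (Int.castRingHom ℂ)) = 1 := by
  simp [coeff_e6Z]

theorem ram_coeff_zero_mul (p r : PowerSeries ℂ) :
    PowerSeries.coeff 0 (p * r) = PowerSeries.coeff 0 p * PowerSeries.coeff 0 r := by
  simp [PowerSeries.coeff_zero_eq_constantCoeff]

theorem ramQ_F2 : RamQ ramF2
    (PowerSeries.C 12 * qsTheta (e2Z.map (Int.castRingHom ℂ)) -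
      e2Z.map (Int.castRingHom ℂ) * e2Z.map (Int.castRingHom ℂ) +
        e4Z.map (Int.castRingHom ℂ)) := by
  have h := ((ramQ_E2.derivD.const_mul 12).sub (ramQ_E2.mul ramQ_E2)).add ramQ_E4
  exact h.congr fun z => by simp [ramF2, sq]

/-- **Ramanujan's identity** `12 θ E₂ = E₂² - E₄` for integral `q`-series. -/
theorem ramanujan_e2 : (12 : PowerSeries ℤ) * qsTheta e2Z = e2Z ^ 2 - e4Z := by
  have h0 := ram_eq_zero_of_cusp (k := 4) (by norm_num) ramF2_mdiff ramF2_slash ramQ_F2 (by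
    simp only [map_add, map_sub, PowerSeries.coeff_C_mul, ram_coeff_zero_qsTheta,
      ram_coeff_zero_mul, ram_map_e2Z_coeff_zero, ram_map_e4Z_coeff_zero]
    norm_num)
  have hmap : (PowerSeries.C 12 * qsTheta (e2Z.map (Int.castRingHom ℂ)) -
      e2Z.map (Int.castRingHom ℂ) * e2Z.map (Int.castRingHom ℂ) +
        e4Z.map (Int.castRingHom ℂ)) =
      PowerSeries.map (Int.castRingHom ℂ) (PowerSeries.C 12 * qsTheta e2Z - e2Z * e2Z + e4Z) := by
    rw [map_add, map_sub, map_mul, map_mul, qsTheta_map, PowerSeries.map_C]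
    simp
  rw [hmap] at h0
  have h1 : PowerSeries.C 12 * qsTheta e2Z - e2Z * e2Z + e4Z = 0 :=
    PowerSeries.map_injective (Int.castRingHom ℂ) Int.cast_injective
      (by rw [h0, map_zero])
  have h12 : (PowerSeries.C (12 : ℤ) : PowerSeries ℤ) = 12 := map_ofNat _ 12
  rw [h12] at h1
  linear_combination h1

/-! ### `E₄` and `E₆` -/

/-- The function `3 D E₄ - E₂ E₄ + E₆`. -/
def ramF4 (z : ℍ) : ℂ := 3 * D (E₄ : ℍ → ℂ) z - E2 z * E₄ z + E₆ z

theorem ramF4_eq : ramF4 = (3 : ℂ) • serreDerivative 4 (E₄ : ℍ → ℂ) + E₆ := by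
  funext z
  simp only [ramF4, Pi.add_apply, Pi.smul_apply, serreDerivative_apply, smul_eq_mul]
  ring

theorem ramF4_slash (γ : SL(2, ℤ)) : ramF4 ∣[(6 : ℤ)] γ = ramF4 := by
  have h4 : serreDerivative 4 (E₄ : ℍ → ℂ) ∣[(6 : ℤ)] γ = serreDerivative 4 (E₄ : ℍ → ℂ) := by
    have := serreDerivative_slash_invariant (k := 4) (F := (E₄ : ℍ → ℂ)) E₄.holo' (γ := γ)
      (ram_slash_eq E₄ γ)
    simpa using this
  rw [ramF4_eq, SlashAction.add_slash, SL_smul_slash, h4, ram_slash_eq E₆ γ]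

theorem ramF4_mdiff : MDiff ramF4 := by
  rw [ramF4_eq]
  exact ((serreDerivative_mdifferentiable 4 E₄.holo').const_smul (3 : ℂ)).add E₆.holo'

theorem ramQ_F4 : RamQ ramF4
    (PowerSeries.C 3 * qsTheta (e4Z.map (Int.castRingHom ℂ)) -
      e2Z.map (Int.castRingHom ℂ) * e4Z.map (Int.castRingHom ℂ) +
        e6Z.map (Int.castRingHom ℂ)) := by
  have h := ((ramQ_E4.derivD.const_mul 3).sub (ramQ_E2.mul ramQ_E4)).add ramQ_E6
  exact h.congr fun z => by simp [ramF4]

/-- **Ramanujan's identity** `3 θ E₄ = E₂ E₄ - E₆` for integral `q`-series. -/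
theorem ramanujan_e4 : (3 : PowerSeries ℤ) * qsTheta e4Z = e2Z * e4Z - e6Z := by
  have h0 := ram_eq_zero_of_cusp (k := 6) (by norm_num) ramF4_mdiff ramF4_slash ramQ_F4 (by
    simp only [map_add, map_sub, PowerSeries.coeff_C_mul, ram_coeff_zero_qsTheta,
      ram_coeff_zero_mul, ram_map_e2Z_coeff_zero, ram_map_e4Z_coeff_zero,
      ram_map_e6Z_coeff_zero]
    norm_num)
  have hmap : (PowerSeries.C 3 * qsTheta (e4Z.map (Int.castRingHom ℂ)) -
      e2Z.map (Int.castRingHom ℂ) * e4Z.map (Int.castRingHom ℂ) +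
        e6Z.map (Int.castRingHom ℂ)) =
      PowerSeries.map (Int.castRingHom ℂ) (PowerSeries.C 3 * qsTheta e4Z - e2Z * e4Z + e6Z) := by
    rw [map_add, map_sub, map_mul, map_mul, qsTheta_map, PowerSeries.map_C]
    simp
  rw [hmap] at h0
  have h1 : PowerSeries.C 3 * qsTheta e4Z - e2Z * e4Z + e6Z = 0 :=
    PowerSeries.map_injective (Int.castRingHom ℂ) Int.cast_injective
      (by rw [h0, map_zero])
  have h3 : (PowerSeries.C (3 : ℤ) : PowerSeries ℤ) = 3 := map_ofNat _ 3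
  rw [h3] at h1
  linear_combination h1

/-- The function `2 D E₆ - E₂ E₆ + E₄²`. -/
def ramF6 (z : ℍ) : ℂ := 2 * D (E₆ : ℍ → ℂ) z - E2 z * E₆ z + E₄ z * E₄ z

theorem ramF6_eq : ramF6 = (2 : ℂ) • serreDerivative 6 (E₆ : ℍ → ℂ) + (E₄ : ℍ → ℂ) * E₄ := by
  funext z
  simp only [ramF6, Pi.add_apply, Pi.smul_apply, Pi.mul_apply, serreDerivative_apply,
    smul_eq_mul]
  ring

theorem ramF6_slash (γ : SL(2, ℤ)) : ramF6 ∣[(8 : ℤ)] γ = ramF6 := by
  have h6 : serreDerivative 6 (E₆ : ℍ → ℂ) ∣[(8 : ℤ)] γ = serreDerivative 6 (E₆ : ℍ → ℂ) := by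
    have := serreDerivative_slash_invariant (k := 6) (F := (E₆ : ℍ → ℂ)) E₆.holo' (γ := γ)
      (ram_slash_eq E₆ γ)
    simpa using this
  have h44 : ((E₄ : ℍ → ℂ) * E₄) ∣[(8 : ℤ)] γ = (E₄ : ℍ → ℂ) * E₄ := by
    have := mul_slash_SL2 4 4 γ (E₄ : ℍ → ℂ) (E₄ : ℍ → ℂ)
    rw [ram_slash_eq E₄ γ] at this
    simpa using this
  rw [ramF6_eq, SlashAction.add_slash, SL_smul_slash, h6, h44]

theorem ramF6_mdiff : MDiff ramF6 := by
  rw [ramF6_eq]
  exact ((serreDerivative_mdifferentiable 6 E₆.holo').const_smul (2 : ℂ)).add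
    (E₄.holo'.mul E₄.holo')

theorem ramQ_F6 : RamQ ramF6
    (PowerSeries.C 2 * qsTheta (e6Z.map (Int.castRingHom ℂ)) -
      e2Z.map (Int.castRingHom ℂ) * e6Z.map (Int.castRingHom ℂ) +
        e4Z.map (Int.castRingHom ℂ) * e4Z.map (Int.castRingHom ℂ)) := by
  have h := ((ramQ_E6.derivD.const_mul 2).sub (ramQ_E2.mul ramQ_E6)).add (ramQ_E4.mul ramQ_E4)
  exact h.congr fun z => by simp [ramF6]

/-- **Ramanujan's identity** `2 θ E₆ = E₂ E₆ - E₄²` for integral `q`-series. -/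
theorem ramanujan_e6 : (2 : PowerSeries ℤ) * qsTheta e6Z = e2Z * e6Z - e4Z ^ 2 := by
  have h0 := ram_eq_zero_of_cusp (k := 8) (by norm_num) ramF6_mdiff ramF6_slash ramQ_F6 (by
    simp only [map_add, map_sub, PowerSeries.coeff_C_mul, ram_coeff_zero_qsTheta,
      ram_coeff_zero_mul, ram_map_e2Z_coeff_zero, ram_map_e4Z_coeff_zero,
      ram_map_e6Z_coeff_zero]
    norm_num)
  have hmap : (PowerSeries.C 2 * qsTheta (e6Z.map (Int.castRingHom ℂ)) -
      e2Z.map (Int.castRingHom ℂ) * e6Z.map (Int.castRingHom ℂ) +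
        e4Z.map (Int.castRingHom ℂ) * e4Z.map (Int.castRingHom ℂ)) =
      PowerSeries.map (Int.castRingHom ℂ)
        (PowerSeries.C 2 * qsTheta e6Z - e2Z * e6Z + e4Z * e4Z) := by
    rw [map_add, map_sub, map_mul, map_mul, map_mul, qsTheta_map, PowerSeries.map_C]
    simp
  rw [hmap] at h0
  have h1 : PowerSeries.C 2 * qsTheta e6Z - e2Z * e6Z + e4Z * e4Z = 0 :=
    PowerSeries.map_injective (Int.castRingHom ℂ) Int.cast_injective
      (by rw [h0, map_zero])
  have h2 : (PowerSeries.C (2 : ℤ) : PowerSeries ℤ) = 2 := map_ofNat _ 2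
  rw [h2] at h1
  linear_combination h1

end Fermat.Agent.S16
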