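import Fermat.Agent.S20.Jets

/-!
# S16 toolkit (TK), part 1: the Fricke companion `f♯`

For a function `f : ℍ → ℂ`, a weight `k` and a level `p`, the *Fricke companion* is
`f♯ z = (p z)^(-k) f(-1/(p z))` (`tkSharp p k f`).  It is `p^(-k/2)` times the usual Fricke
involution and equals `(f ∣[k] S)(p z)`; with this normalisation no irrational scalars occur:

* `tk_sharp_mem` : `f ∈ MF (G0 p) k → tkSharp p k f ∈ MF (G0 p) k`;
* `tk_sharp_apply` : the explicit formula;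
* `tk_sharp_mul`, `tk_sharp_add`, `tk_sharp_smul`, `tk_sharp_sharp` : algebra;
* `tk_sharp_levelOne`, `tk_sharp_V` : for level one `φ`: `φ♯ = V φ` and `(V φ)♯ = p^(-k) φ`,
  where `tkV p φ z = φ (p z)`;
* `tk_slash_ST` : `(f ∣[k] (S * T^j)) z = f♯((z + j)/p)`.
-/

set_option autoImplicit false

namespace Fermat.Agent.S16

open UpperHalfPlane ModularForm CongruenceSubgroup SlashInvariantForm
open scoped MatrixGroups Manifold
open Fermat.Agent.S20 (MF CF G0 QQ cj trP jet)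

/-- The Fricke matrix `[[0, -1], [p, 0]]`. -/
noncomputable def tkW (p : ℕ) [NeZero p] : GL (Fin 2) ℝ :=
  Matrix.GeneralLinearGroup.mkOfDetNeZero !![0, -1; (p : ℝ), 0]
    (by simp [Matrix.det_fin_two, NeZero.ne p])

theorem tkW_val (p : ℕ) [NeZero p] :
    ((tkW p : GL (Fin 2) ℝ) : Matrix (Fin 2) (Fin 2) ℝ) = !![0, -1; (p : ℝ), 0] := rfl

theorem tkW_det (p : ℕ) [NeZero p] : (tkW p).det.val = (p : ℝ) := by
  show ((tkW p : GL (Fin 2) ℝ) : Matrix (Fin 2) (Fin 2) ℝ).det = _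
  rw [tkW_val, Matrix.det_fin_two]
  simp

/-- An element of `SL(2, ℤ)` with prescribed entries. -/
theorem tk_exists_SL (a b c d : ℤ) (h : a * d - b * c = 1) :
    ∃ γ : SL(2, ℤ), γ 0 0 = a ∧ γ 0 1 = b ∧ γ 1 0 = c ∧ γ 1 1 = d :=
  ⟨⟨!![a, b; c, d], by rw [Matrix.det_fin_two]; simpa using h⟩, rfl, rfl, rfl, rfl⟩

/-- The Fricke conjugate of an element of `Γ₀(p)`. -/
theorem tk_exists_conj (p : ℕ) [NeZero p] (γ : SL(2, ℤ)) (hγ : γ ∈ Gamma0 p) :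
    ∃ γ' : SL(2, ℤ), γ' ∈ Gamma0 p ∧
      tkW p * (Matrix.SpecialLinearGroup.mapGL ℝ γ : GL (Fin 2) ℝ) =
        (Matrix.SpecialLinearGroup.mapGL ℝ γ' : GL (Fin 2) ℝ) * tkW p := by
  rw [Fermat.Agent.S24.p1_mem_Gamma0_iff] at hγ
  obtain ⟨c', hc'⟩ := hγ
  have hdet := γ.det_coe
  rw [Matrix.det_fin_two] at hdet
  obtain ⟨γ', h00, h01, h10, h11⟩ := tk_exists_SL (γ 1 1) (-c') (-(p : ℤ) * γ 0 1) (γ 0 0) (by
    rw [hc'] at hdet
    linear_combination hdet)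
  refine ⟨γ', ?_, ?_⟩
  · rw [Fermat.Agent.S24.p1_mem_Gamma0_iff, h10]
    exact ⟨-γ 0 1, by ring⟩
  · apply Units.ext
    ext i j
    have hc'' : (γ 1 0 : ℝ) = (p : ℝ) * (c' : ℝ) := by exact_mod_cast hc'
    fin_cases i <;> fin_cases j <;>
      simp [Matrix.mul_apply, Fin.sum_univ_two, tkW_val, hc'', h00, h01, h10, h11] <;> ring

open ConjAct Pointwise in
theorem tk_G0_le_conj (p : ℕ) [NeZero p] : G0 p ≤ toConjAct (tkW p)⁻¹ • G0 p := by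
  rintro _ ⟨γ, hγ, rfl⟩
  rw [map_inv, Subgroup.mem_inv_pointwise_smul_iff, toConjAct_smul]
  obtain ⟨γ', hγ', h⟩ := tk_exists_conj p γ hγ
  have : tkW p * (Matrix.SpecialLinearGroup.mapGL ℝ γ : GL (Fin 2) ℝ) * (tkW p)⁻¹ =
      Matrix.SpecialLinearGroup.mapGL ℝ γ' := by
    rw [h, mul_assoc, mul_inv_cancel, mul_one]
  rw [this]
  exact ⟨γ', hγ', rfl⟩

/-- The Fricke companion of a function: `f♯ z = (p z)^(-k) f(-1/(p z))`. -/
noncomputable def tkSharp (p : ℕ) [NeZero p] (k : ℤ) (f : ℍ → ℂ) : ℍ → ℂ :=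
  ((p : ℂ) ^ (1 - k)) • (f ∣[k] tkW p)

theorem tk_sharp_mem (p : ℕ) [NeZero p] {k : ℤ} {f : ℍ → ℂ} (hf : f ∈ MF (G0 p) k) :
    tkSharp p k f ∈ MF (G0 p) k := by
  obtain ⟨F, rfl⟩ := hf
  refine ⟨((p : ℂ) ^ (1 - k)) • Fermat.Agent.S23.tN_restrict (tk_G0_le_conj p)
    (ModularForm.translate F (tkW p)), ?_⟩
  rfl

theorem tk_p_pos (p : ℕ) [NeZero p] : (0 : ℝ) < (p : ℝ) := Nat.cast_pos.mpr (NeZero.pos p)

theorem tk_p_ne (p : ℕ) [NeZero p] : (p : ℂ) ≠ 0 := Nat.cast_ne_zero.mpr (NeZero.ne p)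

theorem tkW_smul_coe (p : ℕ) [NeZero p] (z : ℍ) :
    ((tkW p • z : ℍ) : ℂ) = -1 / ((p : ℂ) * z) := by
  rw [UpperHalfPlane.coe_smul_of_det_pos (by rw [tkW_det]; exact tk_p_pos p)]
  simp [UpperHalfPlane.num, UpperHalfPlane.denom, tkW_val]

theorem tkW_denom (p : ℕ) [NeZero p] (z : ℍ) :
    UpperHalfPlane.denom (tkW p) z = (p : ℂ) * z := by
  simp [UpperHalfPlane.denom, tkW_val]

/-- Explicit formula for the Fricke companion. -/
theorem tk_sharp_apply (p : ℕ) [NeZero p] (k : ℤ) (f : ℍ → ℂ) (z w : ℍ)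
    (hw : (w : ℂ) = -1 / ((p : ℂ) * z)) :
    tkSharp p k f z = ((p : ℂ) * z) ^ (-k) * f w := by
  have hw' : tkW p • z = w := UpperHalfPlane.ext (by rw [tkW_smul_coe, hw])
  have hσ : UpperHalfPlane.σ (tkW p) = ContinuousAlgEquiv.refl ℝ ℂ := by
    unfold UpperHalfPlane.σ
    rw [if_pos (by rw [tkW_det]; exact tk_p_pos p)]
  unfold tkSharp
  rw [Pi.smul_apply, ModularForm.slash_def, hσ]
  show (p : ℂ) ^ (1 - k) • ((ContinuousAlgEquiv.refl ℝ ℂ) (f (tkW p • z)) *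
    ((|(tkW p).det.val| : ℝ) : ℂ) ^ (k - 1) * UpperHalfPlane.denom (tkW p) z ^ (-k)) = _
  rw [hw', tkW_denom, tkW_det, smul_eq_mul]
  simp only [ContinuousAlgEquiv.coe_refl, id_eq, abs_of_pos (tk_p_pos p), Complex.ofReal_natCast]
  have hp := tk_p_ne p
  have h1 : (p : ℂ) ^ (1 - k) * (p : ℂ) ^ (k - 1) = 1 := by
    rw [← zpow_add₀ hp]; simp
  calc (p : ℂ) ^ (1 - k) * (f w * (p : ℂ) ^ (k - 1) * ((p : ℂ) * z) ^ (-k))
      = ((p : ℂ) ^ (1 - k) * (p : ℂ) ^ (k - 1)) * (((p : ℂ) * z) ^ (-k) * f w) := by ring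
    _ = _ := by rw [h1, one_mul]

/-- `z ↦ p z` on the upper half plane. -/
noncomputable def tkMul (p : ℕ) [NeZero p] (z : ℍ) : ℍ :=
  ⟨(p : ℂ) * z, by
    have : ((p : ℂ) * (z : ℂ)).im = (p : ℝ) * z.im := by simp
    rw [this]
    exact mul_pos (tk_p_pos p) z.im_pos⟩

@[simp] theorem tkMul_coe (p : ℕ) [NeZero p] (z : ℍ) : ((tkMul p z : ℍ) : ℂ) = (p : ℂ) * z := rfl

/-- `z ↦ (z + j) / p` on the upper half plane. -/
noncomputable def tkDiv (p : ℕ) [NeZero p] (j : ℤ) (z : ℍ) : ℍ :=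
  ⟨((z : ℂ) + j) / p, by
    have : (((z : ℂ) + j) / p).im = z.im / (p : ℝ) := by
      rw [← Complex.ofReal_natCast, Complex.div_ofReal_im]
      simp
    rw [this]
    exact div_pos z.im_pos (tk_p_pos p)⟩

@[simp] theorem tkDiv_coe (p : ℕ) [NeZero p] (j : ℤ) (z : ℍ) :
    ((tkDiv p j z : ℍ) : ℂ) = ((z : ℂ) + j) / p := rfl

/-- `V_p`: `f(z) ↦ f(p z)`. -/
noncomputable def tkV (p : ℕ) [NeZero p] (f : ℍ → ℂ) : ℍ → ℂ := fun z => f (tkMul p z)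

/-- `z ↦ -1/z` on the upper half plane, as the action of `S`. -/
theorem tk_S_smul_coe (z : ℍ) : ((ModularGroup.S • z : ℍ) : ℂ) = -1 / (z : ℂ) := by
  rw [UpperHalfPlane.modular_S_smul]
  show (-(z : ℂ))⁻¹ = -1 / (z : ℂ)
  rw [inv_neg, neg_div, one_div]

theorem tk_S_slash_apply (k : ℤ) (f : ℍ → ℂ) (z : ℍ) :
    (f ∣[k] ModularGroup.S) z = f (ModularGroup.S • z) * (z : ℂ) ^ (-k) := by
  rw [ModularForm.SL_slash_apply]
  have h2 : denom (ModularGroup.S : SL(2, ℤ)) z = z := ModularGroup.denom_S z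
  rw [h2]

theorem tk_T_zpow_slash_apply (k : ℤ) (f : ℍ → ℂ) (j : ℤ) (z : ℍ) :
    (f ∣[k] (ModularGroup.T ^ j)) z = f ((j : ℝ) +ᵥ z) := by
  rw [ModularForm.SL_slash_apply, UpperHalfPlane.modular_T_zpow_smul]
  have h2 : denom (ModularGroup.T ^ j : SL(2, ℤ)) z = 1 := by
    rw [ModularGroup.denom_apply, ModularGroup.coe_T_zpow]
    simp
  rw [h2]
  simp

section Algebra

variable (p : ℕ) [NeZero p]

theorem tk_sharp_add (k : ℤ) (f g : ℍ → ℂ) :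
    tkSharp p k (f + g) = tkSharp p k f + tkSharp p k g := by
  unfold tkSharp
  rw [SlashAction.add_slash, smul_add]

theorem tk_sharp_smul (k : ℤ) (c : ℂ) (f : ℍ → ℂ) :
    tkSharp p k (c • f) = c • tkSharp p k f := by
  funext z
  rw [tk_sharp_apply p k (c • f) z (tkW p • z) (tkW_smul_coe p z), Pi.smul_apply, Pi.smul_apply,
    tk_sharp_apply p k f z (tkW p • z) (tkW_smul_coe p z)]
  simp only [smul_eq_mul]
  ring

theorem tk_sharp_mul (a b : ℤ) (f g : ℍ → ℂ) :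
    tkSharp p (a + b) (f * g) = tkSharp p a f * tkSharp p b g := by
  funext z
  have hz : (p : ℂ) * (z : ℂ) ≠ 0 := mul_ne_zero (tk_p_ne p) z.ne_zero
  rw [Pi.mul_apply, tk_sharp_apply p (a + b) (f * g) z (tkW p • z) (tkW_smul_coe p z),
    tk_sharp_apply p a f z (tkW p • z) (tkW_smul_coe p z),
    tk_sharp_apply p b g z (tkW p • z) (tkW_smul_coe p z), Pi.mul_apply, neg_add,
    zpow_add₀ hz]
  ring

/-- `(f♯)♯ = (-1)^k p^(-k) f`. -/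
theorem tk_sharp_sharp (k : ℤ) (f : ℍ → ℂ) :
    tkSharp p k (tkSharp p k f) = ((-1 : ℂ) ^ k * (p : ℂ) ^ (-k)) • f := by
  funext z
  have hp := tk_p_ne p
  have hz : (z : ℂ) ≠ 0 := z.ne_zero
  have hw : ((tkW p • z : ℍ) : ℂ) = -1 / ((p : ℂ) * z) := tkW_smul_coe p z
  have hz' : (z : ℂ) = -1 / ((p : ℂ) * ((tkW p • z : ℍ) : ℂ)) := by
    rw [hw]; field_simp
  rw [tk_sharp_apply p k (tkSharp p k f) z (tkW p • z) hw,
    tk_sharp_apply p k f (tkW p • z) z hz', Pi.smul_apply, smul_eq_mul, hw, ← mul_assoc,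
    ← mul_zpow]
  congr 1
  have : (p : ℂ) * (z : ℂ) * ((p : ℂ) * (-1 / ((p : ℂ) * (z : ℂ)))) = -1 * (p : ℂ) := by
    field_simp
  rw [this, zpow_neg, mul_zpow, mul_inv, ← zpow_neg (p : ℂ)]
  congr 1
  rw [← inv_zpow]
  norm_num

/-- For a level one form, `φ♯ = V φ`. -/
theorem tk_sharp_levelOne {k : ℤ} {φ : ℍ → ℂ} (hφ : φ ∈ MF 𝒮ℒ k) :
    tkSharp p k φ = tkV p φ := by
  obtain ⟨F, rfl⟩ := hφ
  funext z
  have hS : (⇑F ∣[k] ModularGroup.S) = ⇑F :=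
    SlashInvariantFormClass.slash_action_eq F (Matrix.SpecialLinearGroup.mapGL ℝ ModularGroup.S)
      ⟨ModularGroup.S, rfl⟩
  have h1 := congrFun hS (tkMul p z)
  rw [tk_S_slash_apply] at h1
  have hw : ((ModularGroup.S • tkMul p z : ℍ) : ℂ) = -1 / ((p : ℂ) * z) := by
    rw [tk_S_smul_coe, tkMul_coe]
  show tkSharp p k (⇑F) z = F (tkMul p z)
  rw [tk_sharp_apply p k (⇑F) z (ModularGroup.S • tkMul p z) hw, ← h1, tkMul_coe]
  ring

omit [NeZero p] in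
/-- `(-1)^k f = f` for a modular form of weight `k` on `Γ₀(p)`. -/
theorem tk_neg_one_zpow_smul {k : ℤ} {f : ℍ → ℂ} (hf : f ∈ MF (G0 p) k) :
    ((-1 : ℂ) ^ k) • f = f := by
  obtain ⟨F, rfl⟩ := hf
  funext z
  have h1 := SlashInvariantForm.slash_action_eqn_SL'' F (Fermat.Agent.S20.neg_one_mem_Gamma0 p) z
  have h2 : ((-1 : SL(2, ℤ)) • z) = z := by simp
  have h3 : denom (-1 : SL(2, ℤ)) z = -1 := by simp [denom]
  rw [h2, h3] at h1
  show (-1 : ℂ) ^ k • F z = F z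
  rw [smul_eq_mul]
  exact h1.symm

/-- `(f♯)♯ = p^(-k) f` for a modular form on `Γ₀(p)`. -/
theorem tk_sharp_sharp_of_mem {k : ℤ} {f : ℍ → ℂ} (hf : f ∈ MF (G0 p) k) :
    tkSharp p k (tkSharp p k f) = ((p : ℂ) ^ (-k)) • f := by
  rw [tk_sharp_sharp, mul_comm, mul_smul, tk_neg_one_zpow_smul p hf]

/-- For a level one form, `(V φ)♯ = p^(-k) φ`. -/
theorem tk_sharp_V {k : ℤ} {φ : ℍ → ℂ} (hφ : φ ∈ MF 𝒮ℒ k) :
    tkSharp p k (tkV p φ) = ((p : ℂ) ^ (-k)) • φ := by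
  rw [← tk_sharp_levelOne p hφ, tk_sharp_sharp_of_mem p (Fermat.Agent.S20.MF_levelOne_le p hφ)]

theorem tk_V_mem {k : ℤ} {φ : ℍ → ℂ} (hφ : φ ∈ MF 𝒮ℒ k) : tkV p φ ∈ MF (G0 p) k := by
  rw [← tk_sharp_levelOne p hφ]
  exact tk_sharp_mem p (Fermat.Agent.S20.MF_levelOne_le p hφ)

/-- The conjugates of `f`: `(f ∣[k] (S * T^j)) z = f♯((z + j)/p)`. -/
theorem tk_slash_ST (k : ℤ) (f : ℍ → ℂ) (j : ℤ) (z : ℍ) :
    (f ∣[k] (ModularGroup.S * ModularGroup.T ^ j)) z = tkSharp p k f (tkDiv p j z) := by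
  have hp := tk_p_ne p
  rw [SlashAction.slash_mul, tk_T_zpow_slash_apply, tk_S_slash_apply]
  have hw : ((ModularGroup.S • ((j : ℝ) +ᵥ z) : ℍ) : ℂ) =
      -1 / ((p : ℂ) * ((tkDiv p j z : ℍ) : ℂ)) := by
    rw [tk_S_smul_coe, tkDiv_coe, UpperHalfPlane.coe_vadd]
    have : (p : ℂ) * (((z : ℂ) + (j : ℂ)) / (p : ℂ)) = (z : ℂ) + j := by field_simp
    rw [this]
    push_cast
    ring
  rw [tk_sharp_apply p k f (tkDiv p j z) (ModularGroup.S • ((j : ℝ) +ᵥ z)) hw, tkDiv_coe,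
    UpperHalfPlane.coe_vadd]
  have : (p : ℂ) * (((z : ℂ) + (j : ℂ)) / (p : ℂ)) = ((j : ℝ) : ℂ) + (z : ℂ) := by
    push_cast
    field_simp
    ring
  rw [this]
  ring

end Algebra

end Fermat.Agent.S16
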