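import Fermat.Agent.S16.Sharp

/-!
# S16 toolkit (TK), part 2: the conjugates of a form of prime level

For a prime `p` the cosets `SL(2, ℤ) / Γ₀(p)` are enumerated by `Option (ZMod p)`
(`tkEquiv`), the conjugate along `none` is `f` itself and the conjugate along `some j` is
`z ↦ f♯((z + j)/p)` (`tk_cj_none`, `tk_cj_some`).
-/

set_option autoImplicit false

namespace Fermat.Agent.S16

open UpperHalfPlane ModularForm CongruenceSubgroup SlashInvariantForm
open scoped MatrixGroups Manifold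
open Fermat.Agent.S20 (MF CF G0 QQ cj trP jet bridgeHom bridgeEquiv)

variable (p : ℕ) [NeZero p]

/-- Representatives of the cosets `SL(2, ℤ) / Γ₀(p)`: `1` and the inverses of `S T^j`. -/
noncomputable def tkRep : Option (ZMod p) → SL(2, ℤ)
  | none => 1
  | some j => (ModularGroup.S * ModularGroup.T ^ (j.val : ℤ))⁻¹

/-- The coset attached to an element of `Option (ZMod p)`. -/
noncomputable def tkCos (o : Option (ZMod p)) : QQ p := QuotientGroup.mk (bridgeHom (tkRep p o))

theorem tk_ST_apply_10 (j : ℤ) : (ModularGroup.S * ModularGroup.T ^ j) 1 0 = 1 := by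
  simp [ModularGroup.coe_T_zpow, ModularGroup.coe_S, Matrix.mul_apply, Fin.sum_univ_two]

theorem tk_ST_apply_11 (j : ℤ) : (ModularGroup.S * ModularGroup.T ^ j) 1 1 = j := by
  simp [ModularGroup.coe_T_zpow, ModularGroup.coe_S, Matrix.mul_apply, Fin.sum_univ_two]

theorem tk_inv_apply_00 (γ : SL(2, ℤ)) : (γ⁻¹) 0 0 = γ 1 1 := by
  rw [Matrix.SpecialLinearGroup.coe_inv, Matrix.adjugate_fin_two]
  simp

theorem tk_inv_apply_10 (γ : SL(2, ℤ)) : (γ⁻¹) 1 0 = -γ 1 0 := by
  rw [Matrix.SpecialLinearGroup.coe_inv, Matrix.adjugate_fin_two]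
  simp

omit [NeZero p] in
theorem tkCos_eq (o : Option (ZMod p)) :
    tkCos p o = bridgeEquiv p (QuotientGroup.mk (tkRep p o)) := rfl

theorem tkCos_injective (hp : p.Prime) : Function.Injective (tkCos p) := by
  intro o o' h
  rw [tkCos_eq, tkCos_eq] at h
  have h' := (bridgeEquiv p).injective h
  rw [Fermat.Agent.S24.p1_mk_eq_iff] at h'
  rcases o with _ | j <;> rcases o' with _ | j'
  · rfl
  · exfalso
    simp only [tkRep] at h'
    rw [tk_inv_apply_00, tk_inv_apply_10, tk_ST_apply_10] at h'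
    simp only [Matrix.SpecialLinearGroup.coe_one, Matrix.one_apply_eq, one_mul, ne_eq,
      one_ne_zero, not_false_eq_true, Matrix.one_apply_ne, mul_zero, sub_zero] at h'
    have h1 : (p : ℤ) ∣ 1 := (dvd_neg).mp h'
    have h2 := Int.natAbs_dvd_natAbs.mpr h1
    simp at h2
    exact hp.one_lt.ne' h2
  · exfalso
    simp only [tkRep] at h'
    rw [tk_inv_apply_00, tk_inv_apply_10, tk_ST_apply_10] at h'
    simp only [Matrix.SpecialLinearGroup.coe_one, Matrix.one_apply_eq, ne_eq,
      one_ne_zero, not_false_eq_true, Matrix.one_apply_ne, mul_zero, zero_sub, one_mul] at h'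
    have h1 : (p : ℤ) ∣ 1 := by simpa using h'
    have h2 := Int.natAbs_dvd_natAbs.mpr h1
    simp at h2
    exact hp.one_lt.ne' h2
  · simp only [tkRep] at h'
    rw [tk_inv_apply_00, tk_inv_apply_10, tk_inv_apply_00, tk_inv_apply_10, tk_ST_apply_10,
      tk_ST_apply_10, tk_ST_apply_11, tk_ST_apply_11] at h'
    have h1 : (p : ℤ) ∣ (j'.val : ℤ) - (j.val : ℤ) := by
      have : (j.val : ℤ) * -1 - (j'.val : ℤ) * -1 = (j'.val : ℤ) - (j.val : ℤ) := by ring
      rwa [this] at h'
    have h2 := (ZMod.intCast_zmod_eq_zero_iff_dvd ((j'.val : ℤ) - (j.val : ℤ)) p).mpr h1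
    push_cast at h2
    rw [ZMod.natCast_zmod_val, ZMod.natCast_zmod_val] at h2
    rw [sub_eq_zero.mp h2]

theorem tk_card_QQ (hp : p.Prime) : Nat.card (QQ p) = p + 1 := by
  rw [Fermat.Agent.S20.card_QQ]
  have := Fermat.Agent.S24.idx_dedekindPsi_mul_of_not_dvd (M := 1) (p := p) one_ne_zero hp
    (by simpa using hp.one_lt.ne')
  simpa using this

theorem tkCos_bijective (hp : p.Prime) : Function.Bijective (tkCos p) := by
  have hcard : Nat.card (Option (ZMod p)) = Nat.card (QQ p) := by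
    rw [tk_card_QQ p hp, Nat.card_eq_fintype_card, Fintype.card_option, ZMod.card]
  exact (Nat.bijective_iff_injective_and_card (tkCos p)).mpr ⟨tkCos_injective p hp, hcard⟩

/-- The enumeration of the cosets `SL(2, ℤ) / Γ₀(p)` for prime `p`. -/
noncomputable def tkEquiv (hp : p.Prime) : Option (ZMod p) ≃ QQ p :=
  Equiv.ofBijective (tkCos p) (tkCos_bijective p hp)

theorem tkEquiv_apply (hp : p.Prime) (o : Option (ZMod p)) : tkEquiv p hp o = tkCos p o := rfl

theorem tk_cj_none {k : ℤ} {f : ℍ → ℂ} (hf : f ∈ MF (G0 p) k) : cj p k f (tkCos p none) = f := by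
  have : tkCos p none = QuotientGroup.mk 1 := by
    unfold tkCos tkRep
    rw [map_one]
  rw [this]
  exact Fermat.Agent.S20.cj_one p hf

theorem tk_cj_some {k : ℤ} {f : ℍ → ℂ} (hf : f ∈ MF (G0 p) k) (j : ZMod p) (z : ℍ) :
    cj p k f (tkCos p (some j)) z = tkSharp p k f (tkDiv p (j.val : ℤ) z) := by
  unfold tkCos
  rw [Fermat.Agent.S20.cj_mk p hf, ← tk_slash_ST]
  have hx : ((bridgeHom (tkRep p (some j)) : 𝒮ℒ) : GL (Fin 2) ℝ)⁻¹ =
      Matrix.SpecialLinearGroup.mapGL ℝ (ModularGroup.S * ModularGroup.T ^ (j.val : ℤ)) := by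
    show (Matrix.SpecialLinearGroup.mapGL ℝ (tkRep p (some j)))⁻¹ = _
    rw [← map_inv]
    simp [tkRep]
  rw [hx]
  rfl

end Fermat.Agent.S16
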