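import Fermat.Agent.S16.SharpEsymm

/-!
# S16 toolkit (TK), corollary (U0): in weight two, `p • f♯ = -U_p f`

For `f ∈ M_2(Γ₀(p))` with `q`-expansion `∑ a_n q^n`, the Fricke companion `f♯ = tkSharp p 2 f`
has `q`-expansion `∑ b_n q^n` with `p * b_n = -a_{p n}` for **every** `n`
(apply `tk_weight_two` to `f♯` and use `(f♯)♯ = p^(-2) f`).  In particular, if `f` has integer
`q`-coefficients then so has `p • f♯`, and if `f ≡ 1 mod M` then `p • f♯ ≡ -1 mod M`.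
-/

set_option autoImplicit false

namespace Fermat.Agent.S16

open UpperHalfPlane ModularForm CongruenceSubgroup
open scoped MatrixGroups Manifold Real
open Fermat.Agent.S20 (MF CF G0)

variable (p : ℕ) [NeZero p]

/-- **(U0)**: `p * b_n = -a_{p n}` where `a`, `b` are the `q`-coefficients of `f`, `f♯`
(weight two, level `p`). -/
theorem tk_U0 (hp : p.Prime) {f : ℍ → ℂ} (hf : f ∈ MF (G0 p) 2) (n : ℕ) :
    (p : ℂ) * (qExpansion 1 (tkSharp p 2 f)).coeff n = -(qExpansion 1 f).coeff (p * n) := by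
  have hp0 : (p : ℂ) ≠ 0 := Nat.cast_ne_zero.mpr (NeZero.ne p)
  have hs := tk_sharp_mem p hf
  have h := tk_weight_two p hp hs n
  rw [tk_sharp_sharp_of_mem p hf,
    UpperHalfPlane.qExpansion_smul (tk_qnice p hf).analyticAt] at h
  simp only [PowerSeries.coeff_smul, smul_eq_mul] at h
  have h2 : (p : ℂ) * ((p : ℂ) ^ (-2 : ℤ) * (qExpansion 1 f).coeff (p * n)) =
      (qExpansion 1 f).coeff (p * n) / p := by
    rw [zpow_neg, zpow_ofNat]
    field_simp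
  rw [h2] at h
  have h3 : (qExpansion 1 (tkSharp p 2 f)).coeff n = -((qExpansion 1 f).coeff (p * n) / p) :=
    eq_neg_of_add_eq_zero_left h
  rw [h3]
  field_simp

/-- (U0), scaled form: the `q`-coefficients of `p • f♯` are `-a_{p n}`. -/
theorem tk_U0_smul (hp : p.Prime) {f : ℍ → ℂ} (hf : f ∈ MF (G0 p) 2) (n : ℕ) :
    (qExpansion 1 ((p : ℂ) • tkSharp p 2 f)).coeff n = -(qExpansion 1 f).coeff (p * n) := by
  rw [UpperHalfPlane.qExpansion_smul (tk_qnice p (tk_sharp_mem p hf)).analyticAt,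
    PowerSeries.coeff_smul, smul_eq_mul, tk_U0 p hp hf n]

/-- (U0), integral form: if `f` has integer `q`-coefficients `a n`, then `p • f♯` has the
integer `q`-coefficients `-a (p n)`. -/
theorem tk_U0_int (hp : p.Prime) {f : ℍ → ℂ} (hf : f ∈ MF (G0 p) 2) (a : ℕ → ℤ)
    (ha : ∀ n, (qExpansion 1 f).coeff n = (a n : ℂ)) (n : ℕ) :
    (qExpansion 1 ((p : ℂ) • tkSharp p 2 f)).coeff n = ((-a (p * n) : ℤ) : ℂ) := by
  rw [tk_U0_smul p hp hf n, ha]
  push_cast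
  ring

/-- (U0), congruence form: if `f ≡ 1 mod M` (integer `q`-coefficients `a`, `M ∣ a 0 - 1`,
`M ∣ a n` for `n ≥ 1`) then `p • f♯ ≡ -1 mod M`: its integer coefficients `b n = -a (p n)`
satisfy `M ∣ b 0 + 1` and `M ∣ b n` for `n ≥ 1`. -/
theorem tk_U0_cong (hp : p.Prime) {f : ℍ → ℂ} (hf : f ∈ MF (G0 p) 2) (a : ℕ → ℤ)
    (ha : ∀ n, (qExpansion 1 f).coeff n = (a n : ℂ)) (M : ℤ) (h0 : M ∣ a 0 - 1)
    (hn : ∀ n, 1 ≤ n → M ∣ a n) :
    ∃ b : ℕ → ℤ, (∀ n, (qExpansion 1 ((p : ℂ) • tkSharp p 2 f)).coeff n = (b n : ℂ)) ∧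
      (∀ n, b n = -a (p * n)) ∧ M ∣ b 0 + 1 ∧ ∀ n, 1 ≤ n → M ∣ b n := by
  refine ⟨fun n => -a (p * n), fun n => tk_U0_int p hp hf a ha n, fun n => rfl, ?_, ?_⟩
  · show M ∣ -a (p * 0) + 1
    rw [mul_zero]
    have : -a 0 + 1 = -(a 0 - 1) := by ring
    rw [this]
    exact (dvd_neg).mpr h0
  · intro n hn1
    show M ∣ -a (p * n)
    exact (dvd_neg).mpr (hn (p * n) (le_trans hn1 (Nat.le_mul_of_pos_left n hp.pos)))

/-- (U0) for a Mathlib modular form: the Fricke companion of `G : ModularForm (Γ₀(p)) 2`. -/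
theorem tk_U0_form (hp : p.Prime) (G : ModularForm (Gamma0 p) 2) (n : ℕ) :
    (p : ℂ) * (qExpansion 1 (tkSharp p 2 ⇑G)).coeff n = -(qExpansion 1 ⇑G).coeff (p * n) :=
  tk_U0 p hp ⟨G, rfl⟩ n

end Fermat.Agent.S16
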