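import Mathlib

/-!
# S16 / WL: factors of weighted homogeneous polynomials are weighted homogeneous
-/

set_option autoImplicit false

namespace Fermat.Agent.S16

open MvPolynomial

noncomputable section

variable {σ : Type*} {R : Type*} [CommRing R]

/-- The grading substitution `X i ↦ t ^ (w i) * X i`. -/
def swPhi (w : σ → ℕ) : MvPolynomial σ R →ₐ[R] Polynomial (MvPolynomial σ R) :=
  aeval (fun i => Polynomial.C (X i) * Polynomial.X ^ (w i))

theorem swPhi_X (w : σ → ℕ) (i : σ) :
    swPhi (R := R) w (X i) = Polynomial.C (X i) * Polynomial.X ^ (w i) := by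
  simp [swPhi]

theorem swPhi_C (w : σ → ℕ) (c : R) :
    swPhi (R := R) w (C c) = Polynomial.C (C c) := by
  simp [swPhi]

theorem swPhi_monomial (w : σ → ℕ) (d : σ →₀ ℕ) (c : R) :
    swPhi w (monomial d c) =
      Polynomial.C (monomial d c) * Polynomial.X ^ (Finsupp.weight w d) := by
  classical
  induction d using Finsupp.induction with
  | zero =>
    simp only [map_zero, pow_zero, mul_one]
    exact swPhi_C w c
  | single_add i n d hi hn ih =>
    have h1 : monomial (Finsupp.single i n + d) c = X i ^ n * monomial d c := by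
      rw [X_pow_eq_monomial, monomial_mul, one_mul]
    rw [h1, map_mul, map_pow, swPhi_X, ih, map_add, Finsupp.weight_single, map_mul, map_pow,
      mul_pow, ← pow_mul, smul_eq_mul, pow_add, mul_comm (w i) n]
    ring

theorem swPhi_of_isWeightedHomogeneous {w : σ → ℕ} {f : MvPolynomial σ R} {m : ℕ}
    (hf : IsWeightedHomogeneous w f m) :
    swPhi w f = Polynomial.C f * Polynomial.X ^ m := by
  induction hf using IsWeightedHomogeneous.induction_on with
  | zero => simp
  | add p q hp hq ihp ihq => rw [map_add, ihp, ihq, map_add, add_mul]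
  | monomial d r hr => rw [swPhi_monomial, hr]

theorem coeff_coeff_swPhi (w : σ → ℕ) (f : MvPolynomial σ R) (j : ℕ) (d : σ →₀ ℕ) :
    MvPolynomial.coeff d ((swPhi w f).coeff j) = if Finsupp.weight w d = j then coeff d f else 0 := by
  classical
  induction f using MvPolynomial.induction_on' with
  | monomial e c =>
    rw [swPhi_monomial, Polynomial.coeff_C_mul, Polynomial.coeff_X_pow, coeff_monomial]
    by_cases hj : j = Finsupp.weight w e
    · subst hj
      simp only [if_true, mul_one, coeff_monomial]
      by_cases hed : e = d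
      · subst hed; simp
      · simp [hed]
    · simp only [hj, if_false, mul_zero, coeff_zero]
      by_cases hed : e = d
      · subst hed
        simp [Ne.symm hj]
      · simp [hed]
  | add p q hp hq =>
    rw [map_add, Polynomial.coeff_add, coeff_add, hp, hq, coeff_add]
    split_ifs <;> simp

theorem isWeightedHomogeneous_of_swPhi {w : σ → ℕ} {f a : MvPolynomial σ R} {m : ℕ}
    (h : swPhi w f = Polynomial.C a * Polynomial.X ^ m) : IsWeightedHomogeneous w f m := by
  classical
  intro d hd
  by_contra hne
  have h1 := coeff_coeff_swPhi w f (Finsupp.weight w d) d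
  rw [if_pos rfl, h, Polynomial.coeff_C_mul, Polynomial.coeff_X_pow, if_neg hne, mul_zero,
    coeff_zero] at h1
  exact hd h1.symm

theorem swPhi_eval_one (w : σ → ℕ) (f : MvPolynomial σ R) :
    Polynomial.eval 1 (swPhi w f) = f := by
  induction f using MvPolynomial.induction_on with
  | C a => rw [swPhi_C, Polynomial.eval_C]
  | add p q hp hq => rw [map_add, Polynomial.eval_add, hp, hq]
  | mul_X p i hp => rw [map_mul, swPhi_X, Polynomial.eval_mul, hp]; simp

/-- In `D[X]` over a domain, a factor of a nonzero monomial is a monomial. -/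
theorem sw_monomial_of_mul_eq {D : Type*} [CommRing D] [IsDomain D] {p q : Polynomial D} {c : D}
    {m : ℕ} (hc : c ≠ 0) (h : p * q = Polynomial.C c * Polynomial.X ^ m) :
    ∃ (a : D) (i : ℕ), p = Polynomial.C a * Polynomial.X ^ i := by
  have hne : Polynomial.C c * Polynomial.X ^ m ≠ (0 : Polynomial D) := by
    intro h0
    have := congrArg (fun r => Polynomial.coeff r m) h0
    simp at this
    exact hc this
  have hp : p ≠ 0 := by rintro rfl; rw [zero_mul] at h; exact hne h.symm
  have hq : q ≠ 0 := by rintro rfl; rw [mul_zero] at h; exact hne h.symm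
  have hd : (p * q).natDegree = m := by
    rw [h, Polynomial.natDegree_C_mul_X_pow m c hc]
  have ht : (p * q).natTrailingDegree = m := by
    rw [h, Polynomial.natTrailingDegree_mul (Polynomial.C_ne_zero.mpr hc) (pow_ne_zero _ Polynomial.X_ne_zero),
      Polynomial.natTrailingDegree_C, zero_add, Polynomial.natTrailingDegree_X_pow]
  rw [Polynomial.natDegree_mul hp hq] at hd
  rw [Polynomial.natTrailingDegree_mul hp hq] at ht
  have h1 := Polynomial.natTrailingDegree_le_natDegree (p := p)
  have h2 := Polynomial.natTrailingDegree_le_natDegree (p := q)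
  have h3 : p.natTrailingDegree = p.natDegree := by omega
  refine ⟨p.coeff p.natDegree, p.natDegree, ?_⟩
  ext n
  rw [Polynomial.coeff_C_mul, Polynomial.coeff_X_pow]
  by_cases hn : n = p.natDegree
  · subst hn; simp
  · rw [if_neg hn, mul_zero]
    rcases lt_or_gt_of_ne hn with hlt | hgt
    · exact Polynomial.coeff_eq_zero_of_lt_natTrailingDegree (h3 ▸ hlt)
    · exact Polynomial.coeff_eq_zero_of_natDegree_lt hgt

/-- **Factor lemma**: a factor of a nonzero weighted homogeneous polynomial over a domain is
weighted homogeneous. -/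
theorem sw_isWeightedHomogeneous_of_mul [IsDomain R] {w : σ → ℕ} {f g : MvPolynomial σ R} {m : ℕ}
    (h : IsWeightedHomogeneous w (f * g) m) (hne : f * g ≠ 0) :
    ∃ i : ℕ, IsWeightedHomogeneous w f i := by
  have h1 := swPhi_of_isWeightedHomogeneous h
  rw [map_mul] at h1
  obtain ⟨a, i, hai⟩ := sw_monomial_of_mul_eq hne h1
  exact ⟨i, isWeightedHomogeneous_of_swPhi hai⟩

theorem sw_isWeightedHomogeneous_of_mul' [IsDomain R] {w : σ → ℕ} {f g : MvPolynomial σ R} {m : ℕ}
    (h : IsWeightedHomogeneous w (f * g) m) (hne : f * g ≠ 0) :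
    ∃ i j : ℕ, IsWeightedHomogeneous w f i ∧ IsWeightedHomogeneous w g j ∧ i + j = m := by
  obtain ⟨i, hi⟩ := sw_isWeightedHomogeneous_of_mul h hne
  obtain ⟨j, hj⟩ := sw_isWeightedHomogeneous_of_mul (f := g) (g := f) (by rwa [mul_comm]) (by rwa [mul_comm])
  exact ⟨i, j, hi, hj, IsWeightedHomogeneous.inj_right hne (hi.mul hj) h⟩

end

end Fermat.Agent.S16
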