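import Fermat.Agent.S16.SwDGraded
import Fermat.Agent.S16.QSeries

/-!
# S16 / WL: the Swinnerton-Dyer weight lemma, algebraic core

Over a field `κ` of characteristic `ℓ`, let `e4, e6, p2 ∈ κ⟦q⟧` satisfy the Ramanujan
identities.  If `A ∈ κ[Q,R]` is isobaric of weight `ℓ - 1` with `A(e4,e6) = 1` and `F` is isobaric
of weight `k` with `F(e4,e6)` a nonzero constant, then `ℓ - 1 ∣ k`.
-/

set_option autoImplicit false

namespace Fermat.Agent.S16

open MvPolynomial

noncomputable section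

/-- The weights of `Q = X 0` and `R = X 1`. -/
def swW : Fin 2 → ℕ := ![4, 6]

/-- The `q`-series data for the weight lemma. -/
structure SwDData (κ : Type*) [Field κ] where
  e4 : PowerSeries κ
  e6 : PowerSeries κ
  p2 : PowerSeries κ
  e4_const : PowerSeries.constantCoeff e4 = 1
  e6_const : PowerSeries.constantCoeff e6 = 1
  p2_const : PowerSeries.constantCoeff p2 = 1
  disc_ne : e4 ^ 3 - e6 ^ 2 ≠ 0
  ram2 : (12 : PowerSeries κ) * qsTheta p2 = p2 ^ 2 - e4
  ram4 : (3 : PowerSeries κ) * qsTheta e4 = p2 * e4 - e6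
  ram6 : (2 : PowerSeries κ) * qsTheta e6 = p2 * e6 - e4 ^ 2

variable {κ : Type*} [Field κ]

namespace SwDData

variable (D : SwDData κ)

/-- Evaluation of a polynomial in `Q, R` at `(e4, e6)`. -/
def ev : MvPolynomial (Fin 2) κ →ₐ[κ] PowerSeries κ := aeval ![D.e4, D.e6]

@[simp] theorem ev_X0 : D.ev (X 0) = D.e4 := by simp [ev]
@[simp] theorem ev_X1 : D.ev (X 1) = D.e6 := by simp [ev]
@[simp] theorem ev_C (c : κ) : D.ev (C c) = PowerSeries.C c := by
  simp [ev]

/-- The operator `x ↦ 12 θ x - w p2 x` on `q`-series. -/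
def th (w : ℕ) (x : PowerSeries κ) : PowerSeries κ :=
  12 * qsTheta x - (w : PowerSeries κ) * D.p2 * x

theorem th_add (w : ℕ) (x y : PowerSeries κ) : D.th w (x + y) = D.th w x + D.th w y := by
  simp only [th, qsTheta_add]; ring

theorem th_zero (w : ℕ) : D.th w 0 = 0 := by
  simp [th, qsTheta_zero]

theorem th_mul (u v : ℕ) (x y : PowerSeries κ) :
    D.th (u + v) (x * y) = D.th u x * y + x * D.th v y := by
  simp only [th, qsTheta_mul, Nat.cast_add]; ring

theorem th_C (c : κ) : D.th 0 (PowerSeries.C c) = 0 := by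
  simp [th, qsTheta_C]

theorem th_e4 : D.th 4 D.e4 = PowerSeries.C (-4) * D.e6 := by
  simp only [th, Nat.cast_ofNat, map_neg, map_ofNat]
  linear_combination 4 * D.ram4

theorem th_e6 : D.th 6 D.e6 = PowerSeries.C (-6) * D.e4 ^ 2 := by
  simp only [th, Nat.cast_ofNat, map_neg, map_ofNat]
  linear_combination 6 * D.ram6

theorem constantCoeff_ev (f : MvPolynomial (Fin 2) κ) :
    PowerSeries.constantCoeff (D.ev f) = eval ![1, 1] f := by
  induction f using MvPolynomial.induction_on with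
  | C a => simp
  | add p q hp hq => simp [hp, hq]
  | mul_X p i hp =>
    rw [map_mul, map_mul, hp, map_mul]
    fin_cases i <;> simp [D.e4_const, D.e6_const]

end SwDData

/-- The derivation `∂` with `∂Q = -4R`, `∂R = -6Q²`. -/
def swDer : Derivation κ (MvPolynomial (Fin 2) κ) (MvPolynomial (Fin 2) κ) :=
  mkDerivation κ ![C (-4) * X 1, C (-6) * X 0 ^ 2]

@[simp] theorem swDer_X0 : swDer (κ := κ) (X 0) = C (-4) * X 1 := by
  simp [swDer, mkDerivation_X]

@[simp] theorem swDer_X1 : swDer (κ := κ) (X 1) = C (-6) * X 0 ^ 2 := by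
  simp [swDer, mkDerivation_X]

@[simp] theorem swDer_C (c : κ) : swDer (κ := κ) (C c) = 0 := by
  simp [swDer]

theorem sw_isWH_X0 : IsWeightedHomogeneous swW (X 0 : MvPolynomial (Fin 2) κ) 4 :=
  isWeightedHomogeneous_X κ swW 0

theorem sw_isWH_X1 : IsWeightedHomogeneous swW (X 1 : MvPolynomial (Fin 2) κ) 6 :=
  isWeightedHomogeneous_X κ swW 1

theorem sw_isWH_congr {f : MvPolynomial (Fin 2) κ} {m n : ℕ}
    (h : IsWeightedHomogeneous swW f m) (hmn : m = n) : IsWeightedHomogeneous swW f n := hmn ▸ h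

/-- The combined property: `f` is isobaric of weight `w`, `∂f` is isobaric of weight `w + 2`
and `ev (∂ f) = th w (ev f)`. -/
def swGood (D : SwDData κ) (f : MvPolynomial (Fin 2) κ) (w : ℕ) : Prop :=
  IsWeightedHomogeneous swW f w ∧ IsWeightedHomogeneous swW (swDer f) (w + 2) ∧
    D.ev (swDer f) = D.th w (D.ev f)

theorem swGood_C (D : SwDData κ) (c : κ) : swGood D (C c) 0 := by
  refine ⟨isWeightedHomogeneous_C swW c, ?_, ?_⟩
  · rw [swDer_C]; exact isWeightedHomogeneous_zero κ swW _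
  · rw [swDer_C, map_zero, D.ev_C, D.th_C]

theorem swGood_X0 (D : SwDData κ) : swGood D (X 0) 4 := by
  refine ⟨sw_isWH_X0, ?_, ?_⟩
  · rw [swDer_X0]
    exact (sw_isWH_X1 (κ := κ)).C_mul (-4)
  · rw [swDer_X0, D.ev_X0, D.th_e4, map_mul, D.ev_C, D.ev_X1]

theorem swGood_X1 (D : SwDData κ) : swGood D (X 1) 6 := by
  refine ⟨sw_isWH_X1, ?_, ?_⟩
  · rw [swDer_X1]
    exact ((sw_isWH_X0 (κ := κ)).pow 2).C_mul (-6)
  · rw [swDer_X1, D.ev_X1, D.th_e6, map_mul, D.ev_C, map_pow, D.ev_X0]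

theorem swGood_mul (D : SwDData κ) {f g : MvPolynomial (Fin 2) κ} {u v : ℕ}
    (hf : swGood D f u) (hg : swGood D g v) : swGood D (f * g) (u + v) := by
  obtain ⟨hf1, hf2, hf3⟩ := hf
  obtain ⟨hg1, hg2, hg3⟩ := hg
  refine ⟨hf1.mul hg1, ?_, ?_⟩
  · rw [Derivation.leibniz, smul_eq_mul, smul_eq_mul]
    exact (sw_isWH_congr (hf1.mul hg2) (by ring)).add (sw_isWH_congr (hg1.mul hf2) (by ring))
  · rw [Derivation.leibniz, smul_eq_mul, smul_eq_mul, map_add, map_mul, map_mul, map_mul, hf3, hg3,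
      D.th_mul]
    ring

theorem swGood_pow (D : SwDData κ) {f : MvPolynomial (Fin 2) κ} {u : ℕ}
    (hf : swGood D f u) (n : ℕ) : swGood D (f ^ n) (n * u) := by
  induction n with
  | zero =>
    have := swGood_C D (1 : κ)
    simpa using this
  | succ n ih =>
    have := swGood_mul D ih hf
    rw [pow_succ]
    have e : (n + 1) * u = n * u + u := by ring
    rw [e]
    exact this

theorem sw_weight_eq (d : Fin 2 →₀ ℕ) : Finsupp.weight swW d = d 0 * 4 + d 1 * 6 := by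
  rw [Finsupp.weight_apply, Finsupp.sum_fintype _ _ (by simp), Fin.sum_univ_two]
  simp [swW]

theorem sw_monomial_eq (d : Fin 2 →₀ ℕ) (c : κ) :
    (monomial d c : MvPolynomial (Fin 2) κ) = C c * (X 0 ^ d 0 * X 1 ^ d 1) := by
  rw [monomial_eq, Finsupp.prod_fintype _ _ (by simp), Fin.prod_univ_two]

theorem swGood_monomial (D : SwDData κ) (d : Fin 2 →₀ ℕ) (c : κ) :
    swGood D (monomial d c) (Finsupp.weight swW d) := by
  rw [sw_monomial_eq, sw_weight_eq]
  have h := swGood_mul D (swGood_C D c)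
    (swGood_mul D (swGood_pow D (swGood_X0 D) (d 0)) (swGood_pow D (swGood_X1 D) (d 1)))
  simpa using h

/-- `∂` raises the weight by two and is compatible with `th` on isobaric polynomials. -/
theorem swGood_of_isWH (D : SwDData κ) {f : MvPolynomial (Fin 2) κ} {w : ℕ}
    (hf : IsWeightedHomogeneous swW f w) : swGood D f w := by
  induction hf using IsWeightedHomogeneous.induction_on with
  | zero =>
    refine ⟨isWeightedHomogeneous_zero κ swW _, ?_, ?_⟩
    · rw [map_zero]; exact isWeightedHomogeneous_zero κ swW _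
    · simp [D.th_zero]
  | add p q hp hq ihp ihq =>
    refine ⟨hp.add hq, ?_, ?_⟩
    · rw [map_add]; exact ihp.2.1.add ihq.2.1
    · rw [map_add, map_add, map_add, ihp.2.2, ihq.2.2, D.th_add]
  | monomial d r hr =>
    have := swGood_monomial D d r
    rwa [hr] at this

/-! ### Injectivity of the `q`-expansion on isobaric polynomials -/

theorem sw_dvd_monomial_sub (b : ℕ) : ∀ a : ℕ,
    (X 0 ^ 3 - X 1 ^ 2 : MvPolynomial (Fin 2) κ) ∣
      X 0 ^ a * X 1 ^ b - X 0 ^ (a + 3 * (b / 2)) * X 1 ^ (b % 2) := by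
  induction b using Nat.strong_induction_on with
  | _ b ih =>
    intro a
    rcases Nat.lt_or_ge b 2 with hb | hb
    · have h1 : b / 2 = 0 := Nat.div_eq_of_lt hb
      have h2 : b % 2 = b := Nat.mod_eq_of_lt hb
      rw [h1, h2]
      simp
    · obtain ⟨c, rfl⟩ : ∃ c, b = c + 2 := ⟨b - 2, by omega⟩
      have h := ih c (by omega) (a + 3)
      have e1 : (c + 2) / 2 = c / 2 + 1 := by omega
      have e2 : (c + 2) % 2 = c % 2 := by omega
      rw [e1, e2]
      have e3 : a + 3 * (c / 2 + 1) = a + 3 + 3 * (c / 2) := by ring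
      rw [e3]
      have e4 : (X 0 ^ a * X 1 ^ (c + 2) - X 0 ^ (a + 3 + 3 * (c / 2)) * X 1 ^ (c % 2) :
          MvPolynomial (Fin 2) κ)
          = (X 0 ^ (a + 3) * X 1 ^ c - X 0 ^ (a + 3 + 3 * (c / 2)) * X 1 ^ (c % 2))
            - (X 0 ^ 3 - X 1 ^ 2) * (X 0 ^ a * X 1 ^ c) := by ring
      rw [e4]
      exact dvd_sub h (dvd_mul_right _ _)

/-- The reference monomial of weight `w`. -/
def swRef (κ : Type*) [Field κ] (w : ℕ) : MvPolynomial (Fin 2) κ :=
  X 0 ^ ((w - 6 * ((w / 2) % 2)) / 4) * X 1 ^ ((w / 2) % 2)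

theorem sw_dvd_sub_ref {f : MvPolynomial (Fin 2) κ} {w : ℕ}
    (hf : IsWeightedHomogeneous swW f w) :
    (X 0 ^ 3 - X 1 ^ 2 : MvPolynomial (Fin 2) κ) ∣ f - C (eval ![1, 1] f) * swRef κ w := by
  induction hf using IsWeightedHomogeneous.induction_on with
  | zero => simp
  | add p q hp hq ihp ihq =>
    have e : p + q - C (eval ![1, 1] (p + q)) * swRef κ w =
        (p - C (eval ![1, 1] p) * swRef κ w) + (q - C (eval ![1, 1] q) * swRef κ w) := by
      rw [map_add, map_add]; ring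
    rw [e]
    exact dvd_add ihp ihq
  | monomial d r hr =>
    rw [sw_weight_eq] at hr
    have h1 : eval ![1, 1] (monomial d r : MvPolynomial (Fin 2) κ) = r := by
      rw [eval_monomial, Finsupp.prod_fintype _ _ (by simp), Fin.prod_univ_two]
      simp
    have h2 : swRef κ w = X 0 ^ (d 0 + 3 * (d 1 / 2)) * X 1 ^ (d 1 % 2) := by
      have a1 : (w - 6 * ((w / 2) % 2)) / 4 = d 0 + 3 * (d 1 / 2) := by omega
      have a2 : (w / 2) % 2 = d 1 % 2 := by omega
      rw [swRef, a1, a2]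
    rw [h1, h2, sw_monomial_eq, ← mul_sub]
    exact Dvd.dvd.mul_left (sw_dvd_monomial_sub (d 1) (d 0)) _

theorem sw_isWH_disc :
    IsWeightedHomogeneous swW (X 0 ^ 3 - X 1 ^ 2 : MvPolynomial (Fin 2) κ) 12 :=
  ((sw_isWH_X0 (κ := κ)).pow 3).sub ((sw_isWH_X1 (κ := κ)).pow 2)

/-- The `q`-expansion map is injective on isobaric polynomials. -/
theorem sw_ev_injective (D : SwDData κ) : ∀ (w : ℕ) (f : MvPolynomial (Fin 2) κ),
    IsWeightedHomogeneous swW f w → D.ev f = 0 → f = 0 := by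
  intro w
  induction w using Nat.strong_induction_on with
  | _ w ih =>
    intro f hf hev
    by_contra hf0
    have h1 : eval ![1, 1] f = 0 := by
      rw [← D.constantCoeff_ev, hev, map_zero]
    have h2 := sw_dvd_sub_ref hf
    rw [h1, map_zero, zero_mul, sub_zero] at h2
    obtain ⟨g, rfl⟩ := h2
    obtain ⟨i, j, hi, hj, hij⟩ := sw_isWeightedHomogeneous_of_mul' hf hf0
    have hd0 : (X 0 ^ 3 - X 1 ^ 2 : MvPolynomial (Fin 2) κ) ≠ 0 := left_ne_zero_of_mul hf0
    have hi12 : i = 12 := IsWeightedHomogeneous.inj_right hd0 hi sw_isWH_disc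
    have hev' : (D.e4 ^ 3 - D.e6 ^ 2) * D.ev g = 0 := by
      rw [← hev, map_mul, map_sub, map_pow, map_pow, D.ev_X0, D.ev_X1]
    have hg : D.ev g = 0 := (mul_eq_zero.mp hev').resolve_left D.disc_ne
    have := ih j (by omega) g hj hg
    exact hf0 (by rw [this, mul_zero])

theorem sw_ev_eq (D : SwDData κ) {w : ℕ} {f g : MvPolynomial (Fin 2) κ}
    (hf : IsWeightedHomogeneous swW f w) (hg : IsWeightedHomogeneous swW g w)
    (h : D.ev f = D.ev g) : f = g :=
  sub_eq_zero.mp (sw_ev_injective D w (f - g) (hf.sub hg) (by rw [map_sub, h, sub_self]))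

theorem sw_eq_C_of_isWH_zero {f : MvPolynomial (Fin 2) κ}
    (hf : IsWeightedHomogeneous swW f 0) : f = C (coeff 0 f) := by
  classical
  ext d
  rw [coeff_C]
  by_cases hd : 0 = d
  · rw [if_pos hd, hd]
  · rw [if_neg hd]
    by_contra hne
    have := hf hne
    rw [sw_weight_eq] at this
    apply hd
    ext i
    fin_cases i
    · simp; omega
    · simp; omega

theorem sw_eq_zero_of_isWH_two {f : MvPolynomial (Fin 2) κ}
    (hf : IsWeightedHomogeneous swW f 2) : f = 0 := by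
  ext d
  rw [coeff_zero]
  by_contra hne
  have := hf hne
  rw [sw_weight_eq] at this
  omega

/-! ### The main chain -/

section Main

variable (D : SwDData κ) (ℓ : ℕ) [CharP κ ℓ]

theorem sw_natCast_ps (n : ℕ) : ((n : ℕ) : PowerSeries κ) = PowerSeries.C (n : κ) := by
  rw [map_natCast]

include D in
theorem sw_A_ne_zero {A : MvPolynomial (Fin 2) κ} (hA1 : D.ev A = 1) : A ≠ 0 := by
  rintro rfl
  rw [map_zero] at hA1
  exact zero_ne_one hA1

/-- `ev (∂A) = p2`. -/
theorem sw_ev_der_A (hℓ : 2 ≤ ℓ) {A : MvPolynomial (Fin 2) κ}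
    (hA : IsWeightedHomogeneous swW A (ℓ - 1)) (hA1 : D.ev A = 1) :
    D.ev (swDer A) = D.p2 := by
  rw [(swGood_of_isWH D hA).2.2, hA1, SwDData.th, qsTheta_one, mul_zero, zero_sub, mul_one,
    sw_natCast_ps]
  have h : ((ℓ - 1 : ℕ) : κ) = -1 := by
    rw [Nat.cast_sub (by omega), CharP.cast_eq_zero κ ℓ]; simp
  rw [h]; simp

/-- `∂∂A = -Q A`. -/
theorem sw_der_der_A (hℓ : 2 ≤ ℓ) {A : MvPolynomial (Fin 2) κ}
    (hA : IsWeightedHomogeneous swW A (ℓ - 1)) (hA1 : D.ev A = 1) :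
    swDer (swDer A) = C (-1) * (X 0 * A) := by
  have hB := (swGood_of_isWH D hA).2.1
  have hBB := swGood_of_isWH D hB
  have hw : IsWeightedHomogeneous swW (C (-1) * (X 0 * A) : MvPolynomial (Fin 2) κ)
      (ℓ - 1 + 2 + 2) :=
    sw_isWH_congr ((sw_isWH_X0.mul hA).C_mul (-1)) (by omega)
  refine sw_ev_eq D hBB.2.1 hw ?_
  rw [hBB.2.2, sw_ev_der_A D ℓ hℓ hA hA1, map_mul, map_mul, D.ev_C, D.ev_X0, hA1, SwDData.th,
    sw_natCast_ps]
  have h : ((ℓ - 1 + 2 : ℕ) : κ) = 1 := by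
    have e : ℓ - 1 + 2 = ℓ + 1 := by omega
    rw [e, Nat.cast_add, CharP.cast_eq_zero κ ℓ]; simp
  rw [h, D.ram2]
  simp
  ring

include D in
/-- An irreducible factor `π` of `A` does not divide `∂π`. -/
theorem sw_not_dvd_der (hℓ : 2 ≤ ℓ) {A : MvPolynomial (Fin 2) κ}
    (hA : IsWeightedHomogeneous swW A (ℓ - 1)) (hA1 : D.ev A = 1)
    {π : MvPolynomial (Fin 2) κ} (hπ : Irreducible π) (hπA : π ∣ A) : ¬ π ∣ swDer π := by
  have hA0 := sw_A_ne_zero D hA1
  obtain ⟨C', rfl⟩ := hπA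
  obtain ⟨i, j, hi, hj, hij⟩ := sw_isWeightedHomogeneous_of_mul' hA hA0
  have hπ0 : π ≠ 0 := hπ.ne_zero
  have hi0 : i ≠ 0 := by
    rintro rfl
    have h := sw_eq_C_of_isWH_zero hi
    have hc : coeff 0 π ≠ 0 := by
      intro h0
      rw [h0, map_zero] at h
      exact hπ0 h
    apply hπ.not_isUnit
    rw [h]
    exact (IsUnit.mk0 _ hc).map C
  rintro ⟨L, hL⟩
  have hder := swGood_of_isWH D hi
  have hd0 : swDer π = 0 := by
    by_contra hne
    have hwh : IsWeightedHomogeneous swW (π * L) (i + 2) := hL ▸ hder.2.1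
    obtain ⟨i', j', hi', hj', hij'⟩ := sw_isWeightedHomogeneous_of_mul' hwh (hL ▸ hne)
    have e : i' = i := IsWeightedHomogeneous.inj_right hπ0 hi' hi
    have hj2 : j' = 2 := by omega
    rw [hj2] at hj'
    rw [sw_eq_zero_of_isWH_two hj', mul_zero] at hL
    exact hne hL
  have h1 := hder.2.2
  rw [hd0, map_zero, SwDData.th] at h1
  have h2 := congrArg PowerSeries.constantCoeff h1
  rw [map_zero, map_sub, map_mul, map_mul, map_mul, D.p2_const, sw_natCast_ps] at h2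
  have h3 : PowerSeries.constantCoeff (qsTheta (D.ev π)) = 0 := by
    rw [← PowerSeries.coeff_zero_eq_constantCoeff_apply, coeff_qsTheta]; simp
  rw [h3, mul_zero, zero_sub, eq_comm, neg_eq_zero, PowerSeries.constantCoeff_C, mul_one] at h2
  have h4 : PowerSeries.constantCoeff (D.ev π) ≠ 0 := by
    intro h0
    have h5 := congrArg PowerSeries.constantCoeff hA1
    rw [map_mul, map_mul, h0, zero_mul, map_one] at h5
    exact zero_ne_one h5
  have h6 : (i : κ) = 0 := (mul_eq_zero.mp h2).resolve_right h4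
  have h7 : ℓ ∣ i := (CharP.cast_eq_zero_iff κ ℓ i).mp h6
  have := Nat.le_of_dvd (Nat.pos_of_ne_zero hi0) h7
  omega

include D in
/-- `A` is squarefree. -/
theorem sw_squarefree (hℓ : 2 ≤ ℓ) {A : MvPolynomial (Fin 2) κ}
    (hA : IsWeightedHomogeneous swW A (ℓ - 1)) (hA1 : D.ev A = 1)
    {π : MvPolynomial (Fin 2) κ} (hπ : Irreducible π) : ¬ π ^ 2 ∣ A := by
  intro hsq
  have hA0 := sw_A_ne_zero D hA1
  have hπ0 : π ≠ 0 := hπ.ne_zero
  have hπp : Prime π := hπ.prime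
  have hπA : π ∣ A := dvd_trans (dvd_pow_self π two_ne_zero) hsq
  have hnd := sw_not_dvd_der D ℓ hℓ hA hA1 hπ hπA
  obtain ⟨n, C', hC', hAeq⟩ := WfDvdMonoid.max_power_factor hA0 hπ
  have hn2 : 2 ≤ n := by
    by_contra hlt
    have hn : n = 0 ∨ n = 1 := by omega
    rcases hn with rfl | rfl
    · rw [pow_zero, one_mul] at hAeq
      exact hC' (hAeq ▸ hπA)
    · rw [pow_one] at hAeq
      rw [hAeq, pow_two] at hsq
      exact hC' ((mul_dvd_mul_iff_left hπ0).mp hsq)
  obtain ⟨m, rfl⟩ : ∃ m, n = m + 2 := ⟨n - 2, by omega⟩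
  -- weights
  obtain ⟨i, hi⟩ : ∃ i, IsWeightedHomogeneous swW π i := by
    obtain ⟨C'', hC''⟩ := hπA
    exact sw_isWeightedHomogeneous_of_mul (hC'' ▸ hA) (hC'' ▸ hA0)
  have hi0 : i ≠ 0 := by
    rintro rfl
    have h := sw_eq_C_of_isWH_zero hi
    have hc : coeff 0 π ≠ 0 := by
      intro h0
      rw [h0, map_zero] at h
      exact hπ0 h
    apply hπ.not_isUnit
    rw [h]
    exact (IsUnit.mk0 _ hc).map C
  have hmℓ : m + 2 < ℓ := by
    obtain ⟨i', j', hi', hj', hij'⟩ := sw_isWeightedHomogeneous_of_mul' (hAeq ▸ hA) (hAeq ▸ hA0)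
    have e : (m + 2) • i = i' :=
      IsWeightedHomogeneous.inj_right (pow_ne_zero _ hπ0) (hi.pow (m + 2)) hi'
    rw [smul_eq_mul] at e
    have : m + 2 ≤ (m + 2) * i := Nat.le_mul_of_pos_right _ (Nat.pos_of_ne_zero hi0)
    omega
  have hc2 : ((m + 2 : ℕ) : κ) ≠ 0 := by
    intro h0
    have := Nat.le_of_dvd (by omega) ((CharP.cast_eq_zero_iff κ ℓ (m + 2)).mp h0)
    omega
  have hc1 : ((m + 1 : ℕ) : κ) ≠ 0 := by
    intro h0
    have := Nat.le_of_dvd (by omega) ((CharP.cast_eq_zero_iff κ ℓ (m + 1)).mp h0)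
    omega
  -- first derivative
  set E : MvPolynomial (Fin 2) κ := π * swDer C' + C ((m + 2 : ℕ) : κ) * (C' * swDer π) with hE
  have hB : swDer A = π ^ (m + 1) * E := by
    rw [hAeq, Derivation.leibniz, Derivation.leibniz_pow, hE]
    simp only [smul_eq_mul, nsmul_eq_mul, show m + 2 - 1 = m + 1 by omega]
    rw [← map_natCast (C : κ →+* MvPolynomial (Fin 2) κ)]
    ring
  have hE' : ¬ π ∣ E := by
    intro hdvd
    have h1 : π ∣ C ((m + 2 : ℕ) : κ) * (C' * swDer π) := by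
      have := dvd_sub hdvd (dvd_mul_right π (swDer C'))
      rwa [hE, add_sub_cancel_left] at this
    have hu : IsUnit (C ((m + 2 : ℕ) : κ) : MvPolynomial (Fin 2) κ) := (IsUnit.mk0 _ hc2).map C
    have h2 : π ∣ C' * swDer π := (hu.dvd_mul_left).mp h1
    rcases hπp.dvd_or_dvd h2 with h | h
    · exact hC' h
    · exact hnd h
  -- second derivative
  have hBB := sw_der_der_A D ℓ hℓ hA hA1
  rw [hB, Derivation.leibniz, Derivation.leibniz_pow] at hBB
  simp only [smul_eq_mul, nsmul_eq_mul, Nat.add_sub_cancel] at hBB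
  rw [← map_natCast (C : κ →+* MvPolynomial (Fin 2) κ), hAeq] at hBB
  have hcancel : π * swDer E + C ((m + 1 : ℕ) : κ) * (E * swDer π) =
      C (-1) * X 0 * π ^ 2 * C' := by
    apply mul_left_cancel₀ (pow_ne_zero m hπ0)
    rw [← sub_eq_zero]
    rw [← sub_eq_zero] at hBB
    rw [← hBB]
    ring
  have h1 : π ∣ C ((m + 1 : ℕ) : κ) * (E * swDer π) := by
    have h2 : π ∣ C (-1) * X 0 * π ^ 2 * C' :=
      Dvd.dvd.mul_right (Dvd.dvd.mul_left (dvd_pow_self π two_ne_zero) _) _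
    have := dvd_sub (hcancel ▸ h2) (dvd_mul_right π (swDer E))
    rwa [add_sub_cancel_left] at this
  have hu : IsUnit (C ((m + 1 : ℕ) : κ) : MvPolynomial (Fin 2) κ) := (IsUnit.mk0 _ hc1).map C
  have h2 : π ∣ E * swDer π := (hu.dvd_mul_left).mp h1
  rcases hπp.dvd_or_dvd h2 with h | h
  · exact hE' h
  · exact hnd h

theorem sw_pow_mul_unique {π x y : MvPolynomial (Fin 2) κ} (hπ : Prime π) {a b : ℕ}
    (hx : ¬ π ∣ x) (hy : ¬ π ∣ y) (h : π ^ a * x = π ^ b * y) : a = b := by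
  wlog hab : a ≤ b generalizing a b x y
  · exact (this hy hx h.symm (by omega)).symm
  by_contra hne
  have hlt : a < b := lt_of_le_of_ne hab hne
  obtain ⟨c, rfl⟩ : ∃ c, b = a + (c + 1) := ⟨b - a - 1, by omega⟩
  rw [pow_add, mul_assoc] at h
  have h2 := mul_left_cancel₀ (pow_ne_zero a hπ.ne_zero) h
  apply hx
  rw [h2, pow_succ, mul_assoc, mul_comm (π ^ c), mul_assoc]
  exact dvd_mul_right _ _

include D in
/-- **The weight lemma, algebraic form.** -/
theorem sw_weight_dvd (hℓ : 2 ≤ ℓ) {A : MvPolynomial (Fin 2) κ}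
    (hA : IsWeightedHomogeneous swW A (ℓ - 1)) (hA1 : D.ev A = 1)
    {F : MvPolynomial (Fin 2) κ} {k : ℕ} (hF : IsWeightedHomogeneous swW F k)
    {c : κ} (hc : c ≠ 0) (hFc : D.ev F = PowerSeries.C c) : (ℓ - 1) ∣ k := by
  have hA0 := sw_A_ne_zero D hA1
  have hF0 : F ≠ 0 := by
    rintro rfl
    rw [map_zero] at hFc
    have := congrArg PowerSeries.constantCoeff hFc
    rw [map_zero, PowerSeries.constantCoeff_C] at this
    exact hc this.symm
  -- `F ^ (ℓ - 1) = c ^ (ℓ - 1) A ^ k`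
  have hkey : F ^ (ℓ - 1) = C (c ^ (ℓ - 1)) * A ^ k := by
    refine sw_ev_eq D (hF.pow (ℓ - 1)) (sw_isWH_congr ((hA.pow k).C_mul _) ?_) ?_
    · rw [smul_eq_mul, smul_eq_mul, mul_comm]
    · simp only [map_pow, map_mul, hFc, hA1, D.ev_C, one_pow, mul_one]
  -- `A` is not a unit
  have hAu : ¬ IsUnit A := by
    intro hu
    obtain ⟨A', hA'⟩ := hu.exists_right_inv
    have h1 : IsWeightedHomogeneous swW (A * A') 0 := by
      rw [hA']; exact isWeightedHomogeneous_one κ swW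
    obtain ⟨i, j, hi, hj, hij⟩ := sw_isWeightedHomogeneous_of_mul' h1 (by rw [hA']; exact one_ne_zero)
    have := IsWeightedHomogeneous.inj_right hA0 hi hA
    omega
  obtain ⟨π, hπ, hπA⟩ := WfDvdMonoid.exists_irreducible_factor hAu hA0
  have hπp : Prime π := hπ.prime
  have hsq := sw_squarefree D ℓ hℓ hA hA1 hπ
  obtain ⟨n, C', hC', hAeq⟩ := WfDvdMonoid.max_power_factor hA0 hπ
  have hn1 : n = 1 := by
    rcases Nat.lt_or_ge n 2 with h | h
    · have : n ≠ 0 := by
        rintro rfl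
        rw [pow_zero, one_mul] at hAeq
        exact hC' (hAeq ▸ hπA)
      omega
    · exfalso
      apply hsq
      rw [hAeq]
      exact Dvd.dvd.mul_right (pow_dvd_pow π h) _
  subst hn1
  rw [pow_one] at hAeq
  obtain ⟨m, F', hF', hFeq⟩ := WfDvdMonoid.max_power_factor hF0 hπ
  rw [hFeq, hAeq, mul_pow, mul_pow, ← pow_mul] at hkey
  have hkey' : π ^ (m * (ℓ - 1)) * F' ^ (ℓ - 1) = π ^ k * (C (c ^ (ℓ - 1)) * C' ^ k) := by
    rw [hkey]; ring
  have hx : ¬ π ∣ F' ^ (ℓ - 1) := fun h => hF' (hπp.dvd_of_dvd_pow h)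
  have hy : ¬ π ∣ C (c ^ (ℓ - 1)) * C' ^ k := by
    intro h
    have hu : IsUnit (C (c ^ (ℓ - 1)) : MvPolynomial (Fin 2) κ) :=
      (IsUnit.mk0 _ (pow_ne_zero _ hc)).map C
    exact hC' (hπp.dvd_of_dvd_pow ((hu.dvd_mul_left).mp h))
  have := sw_pow_mul_unique hπp hx hy hkey'
  exact ⟨m, by rw [← this, mul_comm]⟩

end Main

end

end Fermat.Agent.S16
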