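import Mathlib

/-!
# S16, piece W-core: the elementary weight lemma (algebraic core)

`k` is a field, `Q R : k⟦X⟧` are power series with constant term `1` and `Q ^ 3 ≠ R ^ 2`
(the reductions of the `q`-series of `E₄, E₆`).  Isobaric polynomials in `k[Q, R]`
(weights `4, 6`) are determined by their `q`-expansion (`swd_eq_of_aeval_eq`).  If `A` is isobaric
of weight `u > 0` with `q`-expansion `1` and `F` is isobaric of weight `w` with `q`-expansion a
nonzero constant, then `4 ≤ gcd u w` (`swd_gcd_core`): indeed `F ^ u = c ^ u • A ^ w`, so for an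
irreducible factor `π` of `A` one gets `u * v_π(F) = w * v_π(A)` with
`1 ≤ v_π(A) ≤ totalDegree A ≤ u / 4`.
-/

set_option autoImplicit false

open MvPolynomial

namespace Fermat.Agent.S16

section basics

variable {k : Type*} [Field k]

theorem swd_weight_apply (d : Fin 2 →₀ ℕ) :
    Finsupp.weight (![4, 6] : Fin 2 → ℕ) d = d 0 * 4 + d 1 * 6 := by
  rw [Finsupp.weight_apply, Finsupp.sum_fintype _ _ (fun i => by simp), Fin.sum_univ_two]
  simp

theorem swd_monomial_eq (d : Fin 2 →₀ ℕ) (c : k) :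
    (monomial d c : MvPolynomial (Fin 2) k) = C c * X 0 ^ (d 0) * X 1 ^ (d 1) := by
  rw [monomial_eq, Finsupp.prod_fintype _ _ (fun i => by simp), Fin.prod_univ_two, mul_assoc]

theorem swd_isWH_X0 : (X 0 : MvPolynomial (Fin 2) k).IsWeightedHomogeneous ![4, 6] 4 :=
  isWeightedHomogeneous_X k ![4, 6] 0

theorem swd_isWH_X1 : (X 1 : MvPolynomial (Fin 2) k).IsWeightedHomogeneous ![4, 6] 6 :=
  isWeightedHomogeneous_X k ![4, 6] 1

theorem swd_isWH_mono (a b : ℕ) :
    (X 0 ^ a * X 1 ^ b : MvPolynomial (Fin 2) k).IsWeightedHomogeneous ![4, 6] (4 * a + 6 * b) := by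
  have h := (swd_isWH_X0 (k := k).pow a).mul (swd_isWH_X1 (k := k).pow b)
  simpa [mul_comm] using h

/-- Reduction of a monomial modulo `Q³ - R²`. -/
theorem swd_mono_red (b : ℕ) : ∀ a : ℕ, ∃ g : MvPolynomial (Fin 2) k,
    g.IsWeightedHomogeneous ![4, 6] (4 * a + 6 * b - 12) ∧ (4 * a + 6 * b < 12 → g = 0) ∧
    (X 0 ^ a * X 1 ^ b : MvPolynomial (Fin 2) k) =
      X 0 ^ (a + 3 * (b / 2)) * X 1 ^ (b % 2) + (X 0 ^ 3 - X 1 ^ 2) * g := by
  induction b using Nat.strong_induction_on with
  | _ b ih =>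
    intro a
    by_cases hb : b < 2
    · refine ⟨0, isWeightedHomogeneous_zero k _ _, fun _ => rfl, ?_⟩
      have h1 : b / 2 = 0 := by omega
      have h2 : b % 2 = b := by omega
      rw [h1, h2]
      ring
    · obtain ⟨g', hg', -, hg'e⟩ := ih (b - 2) (by omega) (a + 3)
      refine ⟨g' - X 0 ^ a * X 1 ^ (b - 2), ?_, fun h => by omega, ?_⟩
      · have e1 : 4 * (a + 3) + 6 * (b - 2) - 12 = 4 * a + 6 * b - 12 := by omega
        have e2 : 4 * a + 6 * (b - 2) = 4 * a + 6 * b - 12 := by omega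
        rw [e1] at hg'
        have h3 := swd_isWH_mono (k := k) a (b - 2)
        rw [e2] at h3
        exact hg'.sub h3
      · have h1 : a + 3 + 3 * ((b - 2) / 2) = a + 3 * (b / 2) := by omega
        have h2 : (b - 2) % 2 = b % 2 := by omega
        rw [h1, h2] at hg'e
        have h3 : (X 0 ^ a * X 1 ^ b : MvPolynomial (Fin 2) k) =
            X 0 ^ (a + 3) * X 1 ^ (b - 2) - (X 0 ^ 3 - X 1 ^ 2) * (X 0 ^ a * X 1 ^ (b - 2)) := by
          obtain ⟨b', rfl⟩ : ∃ b', b = b' + 2 := ⟨b - 2, by omega⟩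
          simp only [Nat.add_sub_cancel]
          ring
        rw [h3, hg'e]
        ring

/-- Reduction of an isobaric polynomial modulo `Q³ - R²`. -/
theorem swd_red {f : MvPolynomial (Fin 2) k} {w : ℕ} (hf : f.IsWeightedHomogeneous ![4, 6] w) :
    ∃ g : MvPolynomial (Fin 2) k, g.IsWeightedHomogeneous ![4, 6] (w - 12) ∧ (w < 12 → g = 0) ∧
      f = C (eval (fun _ => (1 : k)) f) * X 0 ^ ((w - 6 * ((w / 2) % 2)) / 4) * X 1 ^ ((w / 2) % 2)
        + (X 0 ^ 3 - X 1 ^ 2) * g := by
  induction hf using IsWeightedHomogeneous.induction_on with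
  | zero =>
    exact ⟨0, isWeightedHomogeneous_zero k _ _, fun _ => rfl, by simp⟩
  | add p q hp hq ihp ihq =>
    obtain ⟨g₁, h1, h1', h1e⟩ := ihp
    obtain ⟨g₂, h2, h2', h2e⟩ := ihq
    refine ⟨g₁ + g₂, h1.add h2, fun h => by rw [h1' h, h2' h, add_zero], ?_⟩
    conv_lhs => rw [h1e, h2e]
    rw [map_add, map_add]
    ring
  | monomial d r hr =>
    rw [swd_weight_apply] at hr
    obtain ⟨g, hg, hg', hge⟩ := swd_mono_red (k := k) (d 1) (d 0)
    have e1 : 4 * d 0 + 6 * d 1 = w := by omega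
    rw [e1] at hg hg'
    refine ⟨C r * g, ?_, fun h => by rw [hg' h, mul_zero], ?_⟩
    · have := (isWeightedHomogeneous_C (![4, 6] : Fin 2 → ℕ) r).mul hg
      simpa using this
    · have e2 : d 0 + 3 * (d 1 / 2) = (w - 6 * ((w / 2) % 2)) / 4 := by omega
      have e3 : d 1 % 2 = (w / 2) % 2 := by omega
      rw [e2, e3] at hge
      have e4 : eval (fun _ => (1 : k)) (monomial d r) = r := by
        simp [eval_monomial]
      rw [e4, swd_monomial_eq, mul_assoc, hge]
      ring

end basics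

section qexp

variable {k : Type*} [Field k] (Qq Rq : PowerSeries k)

theorem swd_constCoeff (hQ0 : PowerSeries.constantCoeff Qq = 1)
    (hR0 : PowerSeries.constantCoeff Rq = 1) (f : MvPolynomial (Fin 2) k) :
    PowerSeries.constantCoeff (aeval ![Qq, Rq] f) = eval (fun _ => (1 : k)) f := by
  induction f using MvPolynomial.induction_on with
  | C a => simp
  | add p q hp hq => rw [map_add, map_add, map_add, hp, hq]
  | mul_X p i hp =>
    rw [map_mul, map_mul, map_mul, hp, aeval_X, eval_X, mul_one]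
    fin_cases i
    · simp [hQ0]
    · simp [hR0]

/-- The `q`-expansion principle on isobaric components. -/
theorem swd_inj (hQ0 : PowerSeries.constantCoeff Qq = 1)
    (hR0 : PowerSeries.constantCoeff Rq = 1) (hD : Qq ^ 3 ≠ Rq ^ 2) :
    ∀ (w : ℕ) (f : MvPolynomial (Fin 2) k), f.IsWeightedHomogeneous ![4, 6] w →
      aeval ![Qq, Rq] f = 0 → f = 0 := by
  intro w
  induction w using Nat.strong_induction_on with
  | _ w ih =>
    intro f hf hφ
    obtain ⟨g, hg, hg0, hge⟩ := swd_red hf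
    have hc : eval (fun _ => (1 : k)) f = 0 := by
      rw [← swd_constCoeff Qq Rq hQ0 hR0, hφ, map_zero]
    rw [hc, map_zero, zero_mul, zero_mul, zero_add] at hge
    have hφg : aeval ![Qq, Rq] g = 0 := by
      have h1 := hφ
      rw [hge, map_mul] at h1
      have hne : aeval ![Qq, Rq] (X 0 ^ 3 - X 1 ^ 2 : MvPolynomial (Fin 2) k) ≠ 0 := by
        simp [sub_ne_zero, hD]
      exact (mul_eq_zero.mp h1).resolve_left hne
    by_cases hw : w < 12
    · rw [hge, hg0 hw, mul_zero]
    · rw [hge, ih (w - 12) (by omega) g hg hφg, mul_zero]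

theorem swd_eq_of_aeval_eq (hQ0 : PowerSeries.constantCoeff Qq = 1)
    (hR0 : PowerSeries.constantCoeff Rq = 1) (hD : Qq ^ 3 ≠ Rq ^ 2) {w : ℕ}
    {f g : MvPolynomial (Fin 2) k} (hf : f.IsWeightedHomogeneous ![4, 6] w)
    (hg : g.IsWeightedHomogeneous ![4, 6] w) (h : aeval ![Qq, Rq] f = aeval ![Qq, Rq] g) :
    f = g := by
  have h1 := swd_inj Qq Rq hQ0 hR0 hD w (f - g) (hf.sub hg) (by rw [map_sub, h, sub_self])
  exact sub_eq_zero.mp h1

end qexp

section gcd

variable {k : Type*} [Field k]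

/-- The total degree of an isobaric polynomial of weight `w` is at most `w / 4`. -/
theorem swd_totalDegree_le {f : MvPolynomial (Fin 2) k} {w : ℕ}
    (hf : f.IsWeightedHomogeneous ![4, 6] w) : 4 * f.totalDegree ≤ w := by
  have h1 : f.totalDegree ≤ w / 4 := by
    rw [totalDegree]
    refine Finset.sup_le fun d hd => ?_
    have h2 := hf (mem_support_iff.mp hd)
    rw [swd_weight_apply] at h2
    rw [Finsupp.sum_fintype _ _ (fun i => rfl), Fin.sum_univ_two]
    omega
  omega

theorem swd_gcd_arith {u w a b : ℕ} (h : u * a = w * b) (hb : 1 ≤ b) (hb4 : 4 * b ≤ u) :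
    4 ≤ Nat.gcd u w := by
  have hu : 0 < u := by omega
  have hg : 0 < Nat.gcd u w := Nat.gcd_pos_of_pos_left w hu
  obtain ⟨u', hu'⟩ := Nat.gcd_dvd_left u w
  obtain ⟨w', hw'⟩ := Nat.gcd_dvd_right u w
  have hcop : Nat.Coprime u' w' := by
    have h1 := Nat.coprime_div_gcd_div_gcd hg
    have e1 : u / Nat.gcd u w = u' := Nat.div_eq_of_eq_mul_right hg hu'
    have e2 : w / Nat.gcd u w = w' := Nat.div_eq_of_eq_mul_right hg hw'
    rwa [e1, e2] at h1
  have h2 : u' * a = w' * b := by
    have h3 : Nat.gcd u w * (u' * a) = Nat.gcd u w * (w' * b) := by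
      rw [← mul_assoc, ← mul_assoc, ← hu', ← hw', h]
    exact Nat.eq_of_mul_eq_mul_left hg h3
  have h4 : u' ∣ b := hcop.dvd_of_dvd_mul_left ⟨a, h2.symm⟩
  have h5 : u' ≤ b := Nat.le_of_dvd (by omega) h4
  have hu'0 : 0 < u' := by
    rcases Nat.eq_zero_or_pos u' with h0 | h0
    · rw [h0, mul_zero] at hu'
      omega
    · exact h0
  by_contra hlt
  have h6 : Nat.gcd u w * u' ≤ 3 * u' := Nat.mul_le_mul_right _ (by omega)
  omega

/-- **Elementary weight lemma, algebraic core.** -/
theorem swd_gcd_core (Q R : PowerSeries k) (hQ0 : PowerSeries.constantCoeff Q = 1)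
    (hR0 : PowerSeries.constantCoeff R = 1) (hD : Q ^ 3 ≠ R ^ 2)
    (A : MvPolynomial (Fin 2) k) (u : ℕ) (hu : 0 < u) (hA : A.IsWeightedHomogeneous ![4, 6] u)
    (hAq : MvPolynomial.aeval ![Q, R] A = 1)
    (F : MvPolynomial (Fin 2) k) (w : ℕ) (hF : F.IsWeightedHomogeneous ![4, 6] w)
    (c : k) (hc : c ≠ 0) (hFq : MvPolynomial.aeval ![Q, R] F = PowerSeries.C c) :
    4 ≤ Nat.gcd u w := by
  have hpow : F ^ u = C (c ^ u) * A ^ w := by
    refine swd_eq_of_aeval_eq Q R hQ0 hR0 hD (w := u * w) ?_ ?_ ?_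
    · have h1 := hF.pow u
      simpa using h1
    · have h1 := (isWeightedHomogeneous_C (![4, 6] : Fin 2 → ℕ) (c ^ u)).mul (hA.pow w)
      simpa [mul_comm] using h1
    · simp only [map_pow, map_mul, hFq, hAq, one_pow, mul_one, aeval_C]
      rfl
  have hA0 : A ≠ 0 := by
    rintro rfl
    rw [map_zero] at hAq
    exact zero_ne_one hAq
  have hF0 : F ≠ 0 := by
    rintro rfl
    rw [map_zero] at hFq
    have h1 : PowerSeries.constantCoeff (PowerSeries.C c : PowerSeries k) = 0 := by
      rw [← hFq, map_zero]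
    rw [PowerSeries.constantCoeff_C] at h1
    exact hc h1
  have hAu : ¬ IsUnit A := by
    intro hU
    obtain ⟨r, hr, rfl⟩ := isUnit_iff_eq_C_of_isReduced.mp hU
    have hr0 : r ≠ 0 := hr.ne_zero
    have h1 := hA (d := 0) (by simpa using hr0)
    rw [swd_weight_apply] at h1
    simp at h1
    omega
  obtain ⟨π, hπ, hπA⟩ := WfDvdMonoid.exists_irreducible_factor hAu hA0
  have hπp : Prime π := hπ.prime
  have hπu : ¬ IsUnit π := hπ.not_isUnit
  have hfinF : FiniteMultiplicity π F := FiniteMultiplicity.of_not_isUnit hπu hF0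
  have hfinA : FiniteMultiplicity π A := FiniteMultiplicity.of_not_isUnit hπu hA0
  have hcu : IsUnit (C (c ^ u) : MvPolynomial (Fin 2) k) :=
    (IsUnit.mk0 _ (pow_ne_zero u hc)).map C
  have hmul : u * multiplicity π F = w * multiplicity π A := by
    have h1 : emultiplicity π (F ^ u) = emultiplicity π (C (c ^ u) * A ^ w) := by rw [hpow]
    rw [emultiplicity_pow hπp, emultiplicity_mul hπp, emultiplicity_pow hπp,
      emultiplicity_of_isUnit_right hπu hcu, zero_add, hfinF.emultiplicity_eq_multiplicity,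
      hfinA.emultiplicity_eq_multiplicity] at h1
    exact_mod_cast h1
  have hpos : 1 ≤ multiplicity π A := multiplicity_pos_of_dvd hπA
  have hdeg : 4 * multiplicity π A ≤ u := by
    have h1 : (π ^ multiplicity π A).totalDegree ≤ A.totalDegree :=
      totalDegree_le_of_dvd_of_isDomain (pow_multiplicity_dvd π A) hA0
    have h2 : 1 ≤ π.totalDegree := by
      by_contra h0
      have h3 : π.totalDegree = 0 := by omega
      rw [totalDegree_eq_zero_iff_eq_C] at h3
      apply hπu
      rw [h3]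
      refine (IsUnit.mk0 _ ?_).map C
      intro h4
      rw [h4, map_zero] at h3
      exact hπ.ne_zero h3
    have h5 : ∀ n : ℕ, n ≤ (π ^ n).totalDegree := by
      intro n
      induction n with
      | zero => exact Nat.zero_le _
      | succ n ih =>
        rw [pow_succ, totalDegree_mul_of_isDomain (pow_ne_zero n hπ.ne_zero) hπ.ne_zero]
        omega
    have h6 := h5 (multiplicity π A)
    have h7 := swd_totalDegree_le hA
    omega
  exact swd_gcd_arith hmul hpos hdeg

end gcd

end Fermat.Agent.S16
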