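import Fermat.Agent.S16.SharpEsymm
import Fermat.Agent.S28.CycRing

/-!
# S16 toolkit (TK), part 4: convenience forms of the TK statements

Thin corollaries of `Sharp`, `SharpConj`, `SharpEsymm` in the shapes asked for by the consumers:

* `tkWpt`, `tk_sharp_eq`, `tk_V_eq`, `tkMul_eq_scaleH`, `tkDiv_eq_affH` : pointwise formulas, in
  terms of `S28.scaleH` / `S28.affH`;
* `tkZeta_eq_zetaN`, `tkZeta_mem_cycRing` : the root of unity is `S28.zetaN p`;
* `tk_sharp_mem_CF` : the Fricke companion of a cusp form is a cusp form;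
* `tk_V_qExpansion_coeff` : coefficients of `V φ`;
* `tk_sharp_two_coeff` : in weight two `p b_n = -a_{pn}` (`b = f♯`), `tk_sharp_coeff_trace` in
  general weight;
* `tk_mem_CF_iff`, `tk_mem_CF_two` : cusp criteria;
* `tkEsymm`, `tk_esymm_mem`, `tk_esymm_qExpansion`, `tk_esymm_int`, `tk_esymm_red` : the
  elementary symmetric functions of the conjugates as functions;
* `tk_prod_mul_add` : `∏_q (X * f_q + Y) = ∑_i e_i X^i Y^(p+1-i)`.
-/

set_option autoImplicit false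

namespace Fermat.Agent.S16

open UpperHalfPlane ModularForm CongruenceSubgroup SlashInvariantForm Function
open scoped MatrixGroups Manifold Real
open Fermat.Agent.S20 (MF CF G0 QQ cj trP jet)

section Compat

variable (p : ℕ) [NeZero p]

/-- The Fricke point `-1/(p z)`. -/
noncomputable def tkWpt (z : ℍ) : ℍ := ModularGroup.S • tkMul p z

theorem tkWpt_coe (z : ℍ) : (tkWpt p z : ℂ) = -1 / ((p : ℂ) * z) := by
  rw [tkWpt, tk_S_smul_coe, tkMul_coe]

/-- The pointwise formula for the Fricke companion. -/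
theorem tk_sharp_eq (k : ℤ) (f : ℍ → ℂ) :
    tkSharp p k f = fun z : ℍ => ((p : ℂ) * (z : ℂ)) ^ (-k) * f (tkWpt p z) := by
  funext z
  exact tk_sharp_apply p k f z _ (tkWpt_coe p z)

theorem tkMul_eq_scaleH (z : ℍ) : tkMul p z = Fermat.Agent.S28.scaleH p z :=
  UpperHalfPlane.ext rfl

theorem tkDiv_eq_affH (j : ℤ) (z : ℍ) : tkDiv p j z = Fermat.Agent.S28.affH 1 p j z :=
  UpperHalfPlane.ext (by simp)

theorem tk_V_eq (f : ℍ → ℂ) : tkV p f = fun z => f (Fermat.Agent.S28.scaleH p z) := by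
  funext z
  show f (tkMul p z) = _
  rw [tkMul_eq_scaleH]

omit [NeZero p] in
theorem tkZeta_eq_zetaN : tkZeta p = Fermat.Agent.S28.zetaN p := rfl

omit [NeZero p] in
theorem tkZeta_mem_cycRing (ℓ : ℕ) : tkZeta p ∈ Fermat.Agent.S28.cycRing p ℓ :=
  Fermat.Agent.S28.zetaN_mem_cycRing p ℓ

/-- Restriction of the level of a cusp form to a smaller subgroup. -/
noncomputable def tkCuspRestrict {Γ Γ' : Subgroup (GL (Fin 2) ℝ)} {k : ℤ} (h : Γ' ≤ Γ)
    (f : CuspForm Γ k) : CuspForm Γ' k where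
  toFun := f
  slash_action_eq' γ hγ := f.slash_action_eq' γ (h hγ)
  holo' := f.holo'
  zero_at_cusps' hc := f.zero_at_cusps' (hc.mono h)

/-- The Fricke companion of a cusp form is a cusp form. -/
theorem tk_sharp_mem_CF {k : ℤ} {f : ℍ → ℂ} (hf : f ∈ CF (G0 p) k) :
    tkSharp p k f ∈ CF (G0 p) k := by
  obtain ⟨F, rfl⟩ := hf
  refine ⟨((p : ℂ) ^ (1 - k)) • tkCuspRestrict (tk_G0_le_conj p)
    (CuspForm.translate F (tkW p)), ?_⟩
  rfl

/-- Coefficients of `V φ`. -/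
theorem tk_V_qExpansion_coeff {k : ℤ} {φ : ℍ → ℂ} (hφ : φ ∈ MF 𝒮ℒ k) (n : ℕ) :
    (qExpansion 1 (tkV p φ)).coeff n = if p ∣ n then (qExpansion 1 φ).coeff (n / p) else 0 := by
  rw [tk_qExpansion_V p hφ]
  split_ifs with h
  · obtain ⟨m, rfl⟩ := h
    rw [PowerSeries.coeff_expand_mul, Nat.mul_div_cancel_left _ (NeZero.pos p)]
  · exact PowerSeries.coeff_expand_of_not_dvd p (NeZero.ne p) _ h

omit [NeZero p] in
/-- `q`-expansion of a scalar multiple of a form on `Γ₀(p)`. -/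
theorem tk_qExpansion_smul {k : ℤ} {f : ℍ → ℂ} (hf : f ∈ MF (G0 p) k) (c : ℂ) :
    qExpansion 1 (c • f) = c • qExpansion 1 f :=
  UpperHalfPlane.qExpansion_smul (tk_qnice p hf).analyticAt c

/-- The trace formula read for `f♯`: `a_n(Tr f♯) = b_n + p^(1-k) a_{pn}`. -/
theorem tk_sharp_coeff_trace (hp : p.Prime) {k : ℤ} {f : ℍ → ℂ} (hf : f ∈ MF (G0 p) k) (n : ℕ) :
    (qExpansion 1 (trP p k (tkSharp p k f))).coeff n =
      (qExpansion 1 (tkSharp p k f)).coeff n +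
        (p : ℂ) ^ (1 - k) * (qExpansion 1 f).coeff (p * n) := by
  rw [tk_trace_coeff p hp (tk_sharp_mem p hf) n, tk_sharp_sharp_of_mem p hf,
    tk_qExpansion_smul p hf, map_smul, smul_eq_mul, ← mul_assoc]
  congr 2
  rw [sub_eq_add_neg, zpow_add₀ (tk_p_ne p), zpow_one]

/-- In weight two: `p b_n = -a_{pn}`, where `b = f♯` (i.e. `p f♯ = -U f`). -/
theorem tk_sharp_two_coeff (hp : p.Prime) {f : ℍ → ℂ} (hf : f ∈ MF (G0 p) 2) (n : ℕ) :
    (p : ℂ) * (qExpansion 1 (tkSharp p 2 f)).coeff n = -(qExpansion 1 f).coeff (p * n) := by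
  have h := tk_sharp_coeff_trace p hp hf n
  rw [Fermat.Agent.S20.lo_eq_zero_of_two (Fermat.Agent.S20.trP_mem p (tk_sharp_mem p hf)),
    UpperHalfPlane.qExpansion_zero] at h
  have hp0 := tk_p_ne p
  have h2 : (p : ℂ) ^ (1 - 2 : ℤ) = (p : ℂ)⁻¹ := by
    rw [show (1 - 2 : ℤ) = -1 by norm_num, zpow_neg_one]
  rw [h2] at h
  have h3 : (0 : ℂ) = (qExpansion 1 (tkSharp p 2 f)).coeff n +
      (p : ℂ)⁻¹ * (qExpansion 1 f).coeff (p * n) := by simpa using h
  have h4 : (p : ℂ) * ((qExpansion 1 (tkSharp p 2 f)).coeff n +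
      (p : ℂ)⁻¹ * (qExpansion 1 f).coeff (p * n)) = 0 := by rw [← h3, mul_zero]
  rw [mul_add, ← mul_assoc, mul_inv_cancel₀ hp0, one_mul] at h4
  exact eq_neg_of_add_eq_zero_left h4

/-- Cusp criterion on `Γ₀(p)`: `f` is a cusp form iff the constant terms of `f` and of `f♯`
vanish. -/
theorem tk_mem_CF_iff (hp : p.Prime) {k : ℤ} {f : ℍ → ℂ} (hf : f ∈ MF (G0 p) k) :
    f ∈ CF (G0 p) k ↔
      (qExpansion 1 f).coeff 0 = 0 ∧ (qExpansion 1 (tkSharp p k f)).coeff 0 = 0 := by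
  rw [Fermat.Agent.S20.mem_CF_iff_jet p hf]
  have hn := tk_jet_none p hf 0
  rw [mul_zero] at hn
  constructor
  · intro h
    refine ⟨by rw [← hn]; exact h _, ?_⟩
    have h1 := h (tkCos p (some 0))
    rw [tk_jet_some p hf 0 0] at h1
    simpa using h1
  · rintro ⟨h0, hb⟩ q
    obtain ⟨o, rfl⟩ := (tkEquiv p hp).surjective q
    rw [tkEquiv_apply]
    rcases o with _ | j
    · rw [hn, h0]
    · rw [tk_jet_some p hf j 0, hb, mul_zero]

/-- A weight two form on `Γ₀(p)` with vanishing constant term is a cusp form. -/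
theorem tk_mem_CF_two (hp : p.Prime) {f : ℍ → ℂ} (hf : f ∈ MF (G0 p) 2)
    (h0 : (qExpansion 1 f).coeff 0 = 0) : f ∈ CF (G0 p) 2 :=
  tk_mem_CF_of_coeff_zero p hp hf h0

/-- The `i`-th elementary symmetric function of the `p + 1` conjugates of `f`. -/
noncomputable def tkEsymm (k : ℤ) (f : ℍ → ℂ) (i : ℕ) : ℍ → ℂ :=
  ∑ t ∈ Finset.powersetCard i (Finset.univ : Finset (QQ p)), ∏ q ∈ t, cj p k f q

theorem tkEsymm_apply (k : ℤ) (f : ℍ → ℂ) (i : ℕ) (z : ℍ) :
    tkEsymm p k f i z =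
      ∑ t ∈ Finset.powersetCard i (Finset.univ : Finset (QQ p)), ∏ q ∈ t, cj p k f q z := by
  simp [tkEsymm, Finset.sum_apply, Finset.prod_apply]

theorem tkEsymm_zero (k : ℤ) (f : ℍ → ℂ) : tkEsymm p k f 0 = 1 := by
  simp [tkEsymm]

/-- `tkEsymm` is a level one form of weight `i * k`. -/
theorem tk_esymm_mem {k : ℤ} {f : ℍ → ℂ} (hf : f ∈ MF (G0 p) k) (i : ℕ) :
    tkEsymm p k f i ∈ MF 𝒮ℒ ((i : ℤ) * k) := by
  obtain ⟨F, hF⟩ := id hf
  have hF' : (⇑F : ℍ → ℂ) = f := hF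
  obtain ⟨E, hE⟩ := Fermat.Agent.S23.exists_modularForm_eval_symm F
    (MvPolynomial.esymm (QQ p) ℂ i) i (MvPolynomial.esymm_isSymmetric _ _ _)
    (tk_esymm_isHomogeneous _ _)
  refine ⟨E, ?_⟩
  funext z
  show E z = _
  rw [hE z, tkEsymm_apply]
  simp only [MvPolynomial.esymm, map_sum, map_prod, MvPolynomial.eval_X]
  refine Finset.sum_congr rfl fun t _ => Finset.prod_congr rfl fun q _ => ?_
  rw [← hF', Fermat.Agent.S20.cj_eq_quotientFunc]

/-- The `q`-expansion of `tkEsymm`, as a series in `t = q^(1/p)`, is the elementary symmetric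
polynomial of the conjugate series `a(t^p)`, `b(ζ^j t)`, `a = qExpansion f`,
`b = qExpansion f♯`. -/
theorem tk_esymm_qExpansion (hp : p.Prime) {k : ℤ} {f : ℍ → ℂ} (hf : f ∈ MF (G0 p) k) (i : ℕ) :
    PowerSeries.expand p (NeZero.ne p) (qExpansion 1 (tkEsymm p k f i)) =
      tkE p (tkZeta p) (qExpansion 1 f) (qExpansion 1 (tkSharp p k f)) i := by
  obtain ⟨E, hE1, hE2⟩ := tk_esymm' p hp hf i
  rw [← hE2, show tkEsymm p k f i = ⇑E from hE1.symm]

/-- Integral form: if `f` and `f♯` have `q`-expansions `a`, `b` over a subring `O ∋ ζ`, then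
`tkEsymm` has a `q`-expansion `c` over `O` with `c(t^p) = e_i(a(t^p), b(ζ^j t))`. -/
theorem tk_esymm_int (hp : p.Prime) {k : ℤ} {f : ℍ → ℂ} (hf : f ∈ MF (G0 p) k)
    (O : Subring ℂ) (hζ : tkZeta p ∈ O) (a b : PowerSeries O)
    (ha : qExpansion 1 f = a.map O.subtype)
    (hb : qExpansion 1 (tkSharp p k f) = b.map O.subtype) (i : ℕ) :
    ∃ c : PowerSeries O, qExpansion 1 (tkEsymm p k f i) = c.map O.subtype ∧
      PowerSeries.expand p (NeZero.ne p) c = tkE p (⟨tkZeta p, hζ⟩ : O) a b i := by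
  obtain ⟨E, c, hE1, hE2, hE3⟩ := tk_esymm_sub p hp hf O hζ a b ha hb i
  refine ⟨c, ?_, hE3⟩
  rw [← hE2, show tkEsymm p k f i = ⇑E from hE1.symm]

/-- Reduced form: in the situation of `tk_esymm_int`, for every ring homomorphism
`φ : O →+* κ`, `(φ c)(t^p) = e_i((φ a)(t^p), (φ b)((φ ζ)^j t))`. -/
theorem tk_esymm_red (hp : p.Prime) {k : ℤ} {f : ℍ → ℂ} (hf : f ∈ MF (G0 p) k)
    (O : Subring ℂ) (hζ : tkZeta p ∈ O) (a b : PowerSeries O)
    (ha : qExpansion 1 f = a.map O.subtype)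
    (hb : qExpansion 1 (tkSharp p k f) = b.map O.subtype) (i : ℕ) :
    ∃ c : PowerSeries O, qExpansion 1 (tkEsymm p k f i) = c.map O.subtype ∧
      ∀ {κ : Type} [CommRing κ] (φ : O →+* κ),
        PowerSeries.expand p (NeZero.ne p) (c.map φ) =
          tkE p (φ ⟨tkZeta p, hζ⟩) (a.map φ) (b.map φ) i := by
  obtain ⟨c, hc1, hc2⟩ := tk_esymm_int p hp hf O hζ a b ha hb i
  refine ⟨c, hc1, fun {κ} _ φ => ?_⟩
  rw [← PowerSeries.map_expand, hc2, tkE_map]

/-- Expansion of a product over the conjugates: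
`∏_q (X * f_q + Y) = ∑_i e_i X^i Y^(p+1-i)`. -/
theorem tk_prod_mul_add (hp : p.Prime) (k : ℤ) (f : ℍ → ℂ) (X Y : ℍ → ℂ) :
    ∏ q : QQ p, (X * cj p k f q + Y) =
      ∑ i ∈ Finset.range (p + 2), tkEsymm p k f i * X ^ i * Y ^ (p + 1 - i) := by
  classical
  have hcard : (Finset.univ : Finset (QQ p)).card = p + 1 := by
    rw [Finset.card_univ, ← Nat.card_eq_fintype_card, tk_card_QQ p hp]
  rw [Finset.prod_add, Finset.sum_powerset, hcard]
  refine Finset.sum_congr rfl fun i _ => ?_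
  rw [tkEsymm, Finset.sum_mul, Finset.sum_mul]
  refine Finset.sum_congr rfl fun t ht => ?_
  rw [Finset.mem_powersetCard] at ht
  rw [Finset.prod_mul_distrib, Finset.prod_const, Finset.prod_const, ht.2,
    Finset.card_sdiff_of_subset ht.1, hcard, ht.2]
  ring

end Compat

end Fermat.Agent.S16
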