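import Mathlib

/-!
# S16, piece TH2: the theta inversion formula for Gaussian sums in triangular form

For `d : Fin n → ℝ` (positive) and coefficients `c : Fin n → Fin n → ℝ` we consider the quadratic
form `tiEval n d c x = ∑ i, d i * (x i + ∑_{j > i} c i j * x j) ^ 2` (defined by recursion on `n`)
and its "dual" form `tiDual n d c` (so that `4 * tiEval` and `tiDual` have inverse Gram matrices).
The main result `ti_inversion` is the Poisson summation / theta inversion formula with a real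
shift `h` and a real linear phase `v`.
-/

set_option autoImplicit false

open Complex Real

namespace Fermat.Agent.S16

/-! ## One-dimensional facts -/

/-- Summability of the one-dimensional Gaussian over `ℤ`. -/
theorem ti_summable_gauss (a : ℝ) (ha : 0 < a) :
    Summable (fun n : ℤ => rexp (-a * (n : ℝ) ^ 2)) := by
  have h := (summable_jacobiTheta₂_term_iff 0 (I * (a / π : ℝ))).mpr (by
    simp only [mul_im, I_re, I_im, ofReal_re, ofReal_im, zero_mul, one_mul, zero_add]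
    positivity)
  have h2 := h.norm
  refine h2.congr (fun n => ?_)
  rw [norm_jacobiTheta₂_term]
  congr 1
  simp only [mul_im, I_re, I_im, ofReal_re, ofReal_im, one_mul, zero_add, zero_im,
    mul_zero, sub_zero]
  field_simp

/-- Uniform bound for shifted one-dimensional Gaussian sums. -/
theorem ti_gauss1_bound (a : ℝ) (ha : 0 < a) : ∃ C : ℝ, ∀ u : ℝ,
    Summable (fun n : ℤ => rexp (-a * ((n : ℝ) + u) ^ 2)) ∧
      ∑' n : ℤ, rexp (-a * ((n : ℝ) + u) ^ 2) ≤ C := by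
  have hg := ti_summable_gauss a ha
  set g : ℤ → ℝ := fun n => rexp (-a * (n : ℝ) ^ 2) with hgdef
  have hg1 : Summable (fun n : ℤ => g (n + 1)) := (Equiv.addRight (1 : ℤ)).summable_iff.mpr hg
  have hg1sum : ∑' n : ℤ, g (n + 1) = ∑' n : ℤ, g n := (Equiv.addRight (1 : ℤ)).tsum_eq g
  -- the case of a shift in `[0, 1)`
  have key : ∀ r : ℝ, 0 ≤ r → r < 1 → Summable (fun n : ℤ => rexp (-a * ((n : ℝ) + r) ^ 2)) ∧
      ∑' n : ℤ, rexp (-a * ((n : ℝ) + r) ^ 2) ≤ 2 * ∑' n : ℤ, g n := by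
    intro r hr0 hr1
    have hle : ∀ n : ℤ, rexp (-a * ((n : ℝ) + r) ^ 2) ≤ g n + g (n + 1) := by
      intro n
      rcases le_or_gt 0 n with hn | hn
      · have hn' : (0 : ℝ) ≤ n := by exact_mod_cast hn
        have h1 : rexp (-a * ((n : ℝ) + r) ^ 2) ≤ g n := by
          simp only [hgdef]
          apply Real.exp_le_exp.mpr
          have : (n : ℝ) ^ 2 ≤ ((n : ℝ) + r) ^ 2 := by nlinarith
          nlinarith
        have h2 : 0 ≤ g (n + 1) := (Real.exp_pos _).le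
        linarith
      · have hn' : (n : ℝ) + 1 ≤ 0 := by exact_mod_cast hn
        have h1 : rexp (-a * ((n : ℝ) + r) ^ 2) ≤ g (n + 1) := by
          simp only [hgdef]
          apply Real.exp_le_exp.mpr
          have : (((n + 1 : ℤ) : ℝ)) ^ 2 ≤ ((n : ℝ) + r) ^ 2 := by
            push_cast
            nlinarith
          nlinarith
        have h2 : 0 ≤ g n := (Real.exp_pos _).le
        linarith
    have hsum : Summable (fun n : ℤ => rexp (-a * ((n : ℝ) + r) ^ 2)) :=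
      Summable.of_nonneg_of_le (fun n => (Real.exp_pos _).le) hle (hg.add hg1)
    refine ⟨hsum, ?_⟩
    calc ∑' n : ℤ, rexp (-a * ((n : ℝ) + r) ^ 2) ≤ ∑' n : ℤ, (g n + g (n + 1)) :=
          hsum.tsum_le_tsum hle (hg.add hg1)
      _ = ∑' n : ℤ, g n + ∑' n : ℤ, g (n + 1) := hg.tsum_add hg1
      _ = 2 * ∑' n : ℤ, g n := by rw [hg1sum]; ring
  refine ⟨2 * ∑' n : ℤ, g n, fun u => ?_⟩
  obtain ⟨hs, hb⟩ := key (u - ⌊u⌋) (Int.fract_nonneg u) (Int.fract_lt_one u)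
  have heq : ∀ n : ℤ, rexp (-a * ((n : ℝ) + u) ^ 2) =
      (fun n : ℤ => rexp (-a * ((n : ℝ) + (u - ⌊u⌋)) ^ 2)) ((Equiv.addRight ⌊u⌋) n) := by
    intro n
    simp only [Equiv.coe_addRight]
    push_cast
    ring_nf
  constructor
  · have := (Equiv.addRight ⌊u⌋).summable_iff.mpr hs
    exact this.congr (fun n => (heq n).symm)
  · rw [tsum_congr heq, (Equiv.addRight ⌊u⌋).tsum_eq
      (fun n : ℤ => rexp (-a * ((n : ℝ) + (u - ⌊u⌋)) ^ 2))]
    exact hb

/-- The one-dimensional inversion formula with a real shift `u` and a real phase `v`. -/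
theorem ti_one_dim (d : ℝ) (hd : 0 < d) (τ : ℂ) (hτ : 0 < τ.im) (u v : ℝ) :
    ∑' n : ℤ, cexp (2 * π * I * (τ * d * ((n : ℂ) + u) ^ 2 + v * n)) =
      1 / (-I * (2 * d * τ)) ^ (1 / 2 : ℂ) *
        ∑' m : ℤ, cexp (2 * π * I * (-((m : ℂ) - v) ^ 2 / (4 * d * τ) + ((m : ℂ) - v) * u)) := by
  have hτ0 : τ ≠ 0 := by
    rintro rfl
    simp at hτ
  have hd0 : (d : ℂ) ≠ 0 := by exact_mod_cast hd.ne'
  set z₀ : ℂ := 2 * τ * d * u + v with hz₀
  set τ₀ : ℂ := 2 * d * τ with hτ₀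
  have hτ₀0 : τ₀ ≠ 0 := by
    rw [hτ₀]
    exact mul_ne_zero (mul_ne_zero two_ne_zero hd0) hτ0
  have hL : ∀ n : ℤ, cexp (2 * π * I * (τ * d * ((n : ℂ) + u) ^ 2 + v * n)) =
      cexp (2 * π * I * τ * d * u ^ 2) * jacobiTheta₂_term n z₀ τ₀ := by
    intro n
    rw [jacobiTheta₂_term, ← Complex.exp_add]
    congr 1
    rw [hz₀, hτ₀]
    ring
  have hR : ∀ m : ℤ, cexp (2 * π * I * τ * d * u ^ 2) * (cexp (-π * I * z₀ ^ 2 / τ₀) *
      jacobiTheta₂_term m (z₀ / τ₀) (-1 / τ₀)) =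
      cexp (2 * π * I * (-((m : ℂ) - v) ^ 2 / (4 * d * τ) + ((m : ℂ) - v) * u)) := by
    intro m
    rw [jacobiTheta₂_term, ← Complex.exp_add, ← Complex.exp_add]
    congr 1
    rw [hz₀, hτ₀]
    field_simp
    ring
  have hθ : ∑' x : ℤ, jacobiTheta₂_term x z₀ τ₀ = jacobiTheta₂ z₀ τ₀ := rfl
  have hθ' : jacobiTheta₂ (z₀ / τ₀) (-1 / τ₀) =
      ∑' m : ℤ, jacobiTheta₂_term m (z₀ / τ₀) (-1 / τ₀) := rfl
  rw [tsum_congr hL, tsum_mul_left, hθ, jacobiTheta₂_functional_equation, hθ']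
  rw [← tsum_congr hR, tsum_mul_left, tsum_mul_left]
  ring

/-! ## Triangular quadratic forms -/

/-- The quadratic form `∑ i, d i * (x i + ∑_{j > i} c i j * x j) ^ 2`. -/
noncomputable def tiEval : (n : ℕ) → (Fin n → ℝ) → (Fin n → Fin n → ℝ) → (Fin n → ℝ) → ℝ
  | 0, _, _, _ => 0
  | n + 1, d, c, x =>
      d 0 * (x 0 + ∑ j : Fin n, c 0 j.succ * x j.succ) ^ 2 +
        tiEval n (fun i => d i.succ) (fun i j => c i.succ j.succ) (fun i => x i.succ)

/-- The dual quadratic form of `tiEval` (up to the factor `4`). -/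
noncomputable def tiDual : (n : ℕ) → (Fin n → ℝ) → (Fin n → Fin n → ℝ) → (Fin n → ℝ) → ℝ
  | 0, _, _, _ => 0
  | n + 1, d, c, y =>
      (y 0) ^ 2 / d 0 +
        tiDual n (fun i => d i.succ) (fun i j => c i.succ j.succ)
          (fun i => y i.succ - y 0 * c 0 i.succ)

/-- Splitting off the first coordinate of an integer vector. -/
def tiCons (n : ℕ) : ℤ × (Fin n → ℤ) ≃ (Fin (n + 1) → ℤ) where
  toFun p := Fin.cons p.1 p.2
  invFun x := (x 0, fun i => x i.succ)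
  left_inv p := by simp
  right_inv x := by
    ext i
    refine Fin.cases ?_ (fun j => ?_) i <;> simp

@[simp] theorem tiCons_zero (n : ℕ) (p : ℤ × (Fin n → ℤ)) : tiCons n p 0 = p.1 := rfl

@[simp] theorem tiCons_succ (n : ℕ) (p : ℤ × (Fin n → ℤ)) (i : Fin n) :
    tiCons n p i.succ = p.2 i := by
  simp [tiCons]

/-- Summability on a product from fibrewise bounds. -/
theorem ti_summable_prod {α β : Type*} (f : α × β → ℝ) (hf : ∀ p, 0 ≤ f p) (g : α → ℝ)
    (hg : Summable g) (hfg : ∀ a, Summable (fun b => f (a, b)) ∧ ∑' b, f (a, b) ≤ g a) :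
    Summable f ∧ ∑' p, f p ≤ ∑' a, g a := by
  have h1 : Summable (fun a => ∑' b, f (a, b)) :=
    Summable.of_nonneg_of_le (fun a => tsum_nonneg (fun b => hf (a, b))) (fun a => (hfg a).2) hg
  have hs : Summable f := (summable_prod_of_nonneg hf).mpr ⟨fun a => (hfg a).1, h1⟩
  refine ⟨hs, ?_⟩
  rw [hs.tsum_prod]
  exact h1.tsum_le_tsum (fun a => (hfg a).2) hg

/-- Summability on a product from fibrewise bounds (other order). -/
theorem ti_summable_prod' {α β : Type*} (f : α × β → ℝ) (hf : ∀ p, 0 ≤ f p) (g : β → ℝ)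
    (hg : Summable g) (hfg : ∀ b, Summable (fun a => f (a, b)) ∧ ∑' a, f (a, b) ≤ g b) :
    Summable f ∧ ∑' p, f p ≤ ∑' b, g b := by
  obtain ⟨h1, h2⟩ := ti_summable_prod (fun q : β × α => f (q.2, q.1)) (fun q => hf _) g hg hfg
  have h3 : Summable f := by
    have := (Equiv.prodComm α β).summable_iff.mpr h1
    exact this
  refine ⟨h3, ?_⟩
  have h4 : ∑' p, f p = ∑' q : β × α, f (q.2, q.1) :=
    ((Equiv.prodComm β α).tsum_eq f).symm
  rw [h4]
  exact h2

/-- One induction step for the uniform summability of `tiEval`-Gaussians. -/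
theorem ti_step_summable {β : Type*} (a0 C0 : ℝ)
    (hC0 : ∀ u : ℝ, Summable (fun n : ℤ => rexp (-a0 * ((n : ℝ) + u) ^ 2)) ∧
      ∑' n : ℤ, rexp (-a0 * ((n : ℝ) + u) ^ 2) ≤ C0)
    (A : β → ℝ) (G : β → ℝ) (hG0 : ∀ b, 0 ≤ G b) (hG : Summable G) :
    Summable (fun q : ℤ × β => rexp (-a0 * ((q.1 : ℝ) + A q.2) ^ 2) * G q.2) ∧
      ∑' q : ℤ × β, rexp (-a0 * ((q.1 : ℝ) + A q.2) ^ 2) * G q.2 ≤ C0 * ∑' b, G b := by
  have hfib : ∀ b : β, Summable (fun a : ℤ => rexp (-a0 * ((a : ℝ) + A b) ^ 2) * G b) ∧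
      ∑' a : ℤ, rexp (-a0 * ((a : ℝ) + A b) ^ 2) * G b ≤ C0 * G b := by
    intro b
    obtain ⟨h1, h2⟩ := hC0 (A b)
    refine ⟨h1.mul_right _, ?_⟩
    rw [tsum_mul_right]
    exact mul_le_mul_of_nonneg_right h2 (hG0 b)
  have h := ti_summable_prod' (fun q : ℤ × β => rexp (-a0 * ((q.1 : ℝ) + A q.2) ^ 2) * G q.2)
    (fun q => mul_nonneg (Real.exp_pos _).le (hG0 _)) (fun b => C0 * G b) (hG.mul_left C0) hfib
  rw [tsum_mul_left] at h
  exact h

/-- One induction step for the uniform summability of `tiDual`-Gaussians. -/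
theorem ti_step_summable_dual {β : Type*} (a0 C0 : ℝ)
    (hC0 : ∀ u : ℝ, Summable (fun n : ℤ => rexp (-a0 * ((n : ℝ) + u) ^ 2)) ∧
      ∑' n : ℤ, rexp (-a0 * ((n : ℝ) + u) ^ 2) ≤ C0)
    (w0 : ℝ) (G : ℤ → β → ℝ) (hG0 : ∀ m b, 0 ≤ G m b) (C' : ℝ)
    (hG : ∀ m, Summable (G m) ∧ ∑' b, G m b ≤ C') (hC' : 0 ≤ C') :
    Summable (fun q : ℤ × β => rexp (-a0 * ((q.1 : ℝ) + w0) ^ 2) * G q.1 q.2) ∧
      ∑' q : ℤ × β, rexp (-a0 * ((q.1 : ℝ) + w0) ^ 2) * G q.1 q.2 ≤ C0 * C' := by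
  have hfib : ∀ m : ℤ, Summable (fun b : β => rexp (-a0 * ((m : ℝ) + w0) ^ 2) * G m b) ∧
      ∑' b : β, rexp (-a0 * ((m : ℝ) + w0) ^ 2) * G m b ≤
        rexp (-a0 * ((m : ℝ) + w0) ^ 2) * C' := by
    intro m
    refine ⟨(hG m).1.mul_left _, ?_⟩
    rw [tsum_mul_left]
    exact mul_le_mul_of_nonneg_left (hG m).2 (Real.exp_pos _).le
  obtain ⟨h1, h2⟩ := hC0 w0
  have h := ti_summable_prod (fun q : ℤ × β => rexp (-a0 * ((q.1 : ℝ) + w0) ^ 2) * G q.1 q.2)
    (fun q => mul_nonneg (Real.exp_pos _).le (hG0 _ _))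
    (fun m => rexp (-a0 * ((m : ℝ) + w0) ^ 2) * C') (h1.mul_right C') hfib
  rw [tsum_mul_right] at h
  exact ⟨h.1, h.2.trans (mul_le_mul_of_nonneg_right h2 hC')⟩

/-- Uniform summability of shifted Gaussians for `tiEval`. -/
theorem ti_summable_eval (n : ℕ) : ∀ (d : Fin n → ℝ) (_ : ∀ i, 0 < d i) (c : Fin n → Fin n → ℝ)
    (t : ℝ) (_ : 0 < t), ∃ C : ℝ, ∀ h : Fin n → ℝ,
      Summable (fun x : Fin n → ℤ => rexp (-t * tiEval n d c (fun i => (x i : ℝ) + h i))) ∧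
      ∑' x : Fin n → ℤ, rexp (-t * tiEval n d c (fun i => (x i : ℝ) + h i)) ≤ C := by
  induction n with
  | zero =>
    intro d _ c t _
    refine ⟨1, fun h => ⟨Summable.of_finite, ?_⟩⟩
    rw [(hasSum_unique _).tsum_eq]
    simp [tiEval]
  | succ n ih =>
    intro d hd c t ht
    obtain ⟨C', hC'⟩ := ih (fun i => d i.succ) (fun i => hd _) (fun i j => c i.succ j.succ) t ht
    obtain ⟨C0, hC0⟩ := ti_gauss1_bound (t * d 0) (mul_pos ht (hd 0))
    refine ⟨C0 * C', fun h => ?_⟩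
    have hC0nn : 0 ≤ C0 := le_trans (tsum_nonneg (fun n => (Real.exp_pos _).le)) (hC0 0).2
    have hGs := hC' (fun i => h i.succ)
    have hstep := ti_step_summable (t * d 0) C0 hC0
      (fun x' : Fin n → ℤ => h 0 + ∑ j : Fin n, c 0 j.succ * ((x' j : ℝ) + h j.succ))
      (fun x' : Fin n → ℤ => rexp (-t * tiEval n (fun i => d i.succ)
        (fun i j => c i.succ j.succ) (fun i => (x' i : ℝ) + h i.succ)))
      (fun _ => (Real.exp_pos _).le) hGs.1
    have hfeq : ∀ q : ℤ × (Fin n → ℤ),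
        rexp (-t * tiEval (n + 1) d c (fun i => ((tiCons n q) i : ℝ) + h i)) =
        rexp (-(t * d 0) * ((q.1 : ℝ) +
          (h 0 + ∑ j : Fin n, c 0 j.succ * ((q.2 j : ℝ) + h j.succ))) ^ 2) *
        rexp (-t * tiEval n (fun i => d i.succ)
          (fun i j => c i.succ j.succ) (fun i => (q.2 i : ℝ) + h i.succ)) := by
      intro q
      simp only [tiEval, tiCons_zero, tiCons_succ]
      rw [← Real.exp_add]
      congr 1
      ring
    constructor
    · have h1 : Summable (fun q => rexp (-t * tiEval (n + 1) d c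
          (fun i => ((tiCons n q) i : ℝ) + h i))) := hstep.1.congr (fun q => (hfeq q).symm)
      exact (tiCons n).summable_iff.mp h1
    · rw [← (tiCons n).tsum_eq, tsum_congr hfeq]
      exact hstep.2.trans (mul_le_mul_of_nonneg_left hGs.2 hC0nn)

/-- Uniform summability of shifted Gaussians for `tiDual`. -/
theorem ti_summable_dual (n : ℕ) : ∀ (d : Fin n → ℝ) (_ : ∀ i, 0 < d i) (c : Fin n → Fin n → ℝ)
    (t : ℝ) (_ : 0 < t), ∃ C : ℝ, ∀ w : Fin n → ℝ,
      Summable (fun y : Fin n → ℤ => rexp (-t * tiDual n d c (fun i => (y i : ℝ) + w i))) ∧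
      ∑' y : Fin n → ℤ, rexp (-t * tiDual n d c (fun i => (y i : ℝ) + w i)) ≤ C := by
  induction n with
  | zero =>
    intro d _ c t _
    refine ⟨1, fun h => ⟨Summable.of_finite, ?_⟩⟩
    rw [(hasSum_unique _).tsum_eq]
    simp [tiDual]
  | succ n ih =>
    intro d hd c t ht
    obtain ⟨C', hC'⟩ := ih (fun i => d i.succ) (fun i => hd _) (fun i j => c i.succ j.succ) t ht
    obtain ⟨C0, hC0⟩ := ti_gauss1_bound (t / d 0) (div_pos ht (hd 0))
    refine ⟨C0 * C', fun w => ?_⟩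
    have hC'nn : 0 ≤ C' := le_trans (tsum_nonneg (fun n => (Real.exp_pos _).le)) (hC' 0).2
    have hstep := ti_step_summable_dual (t / d 0) C0 hC0 (w 0)
      (fun (m : ℤ) (y' : Fin n → ℤ) => rexp (-t * tiDual n (fun i => d i.succ)
        (fun i j => c i.succ j.succ)
        (fun i => (y' i : ℝ) + (w i.succ - ((m : ℝ) + w 0) * c 0 i.succ))))
      (fun _ _ => (Real.exp_pos _).le) C'
      (fun m => hC' (fun i => w i.succ - ((m : ℝ) + w 0) * c 0 i.succ)) hC'nn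
    have hfeq : ∀ q : ℤ × (Fin n → ℤ),
        rexp (-t * tiDual (n + 1) d c (fun i => ((tiCons n q) i : ℝ) + w i)) =
        rexp (-(t / d 0) * ((q.1 : ℝ) + w 0) ^ 2) *
        rexp (-t * tiDual n (fun i => d i.succ) (fun i j => c i.succ j.succ)
          (fun i => (q.2 i : ℝ) + (w i.succ - ((q.1 : ℝ) + w 0) * c 0 i.succ))) := by
      intro q
      simp only [tiDual, tiCons_zero, tiCons_succ]
      rw [← Real.exp_add]
      congr 1
      have hrw : (fun i : Fin n => (q.2 i : ℝ) + w i.succ - ((q.1 : ℝ) + w 0) * c 0 i.succ) =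
          (fun i : Fin n => (q.2 i : ℝ) + (w i.succ - ((q.1 : ℝ) + w 0) * c 0 i.succ)) := by
        funext i
        ring
      rw [hrw]
      ring
    constructor
    · have h1 : Summable (fun q => rexp (-t * tiDual (n + 1) d c
          (fun i => ((tiCons n q) i : ℝ) + w i))) := hstep.1.congr (fun q => (hfeq q).symm)
      exact (tiCons n).summable_iff.mp h1
    · rw [← (tiCons n).tsum_eq, tsum_congr hfeq]
      exact hstep.2

/-! ## The inversion formula -/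

theorem ti_norm1 (τ : ℂ) (r s : ℝ) :
    ‖cexp (2 * π * I * (τ * r + s))‖ = rexp (-(2 * π * τ.im) * r) := by
  rw [Complex.norm_exp]
  congr 1
  simp only [mul_re, mul_im, add_re, add_im, ofReal_re, ofReal_im, I_re, I_im, re_ofNat, im_ofNat]
  ring

theorem ti_im_pos (τ : ℂ) (hτ : 0 < τ.im) : 0 < (-1 / (4 * τ)).im := by
  have hτ0 : τ ≠ 0 := by
    rintro rfl
    simp at hτ
  have h : (-1 / (4 * τ)) = ((1 / 4 : ℝ) : ℂ) * (-τ⁻¹) := by
    push_cast
    field_simp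
  rw [h, im_ofReal_mul, neg_im, inv_im]
  have h2 : 0 < normSq τ := normSq_pos.mpr hτ0
  have h3 : 0 < τ.im / normSq τ := div_pos hτ h2
  have h4 : -(-τ.im / normSq τ) = τ.im / normSq τ := by ring
  rw [h4]
  positivity

/-- The first step of the induction: Poisson summation in the first variable. -/
theorem ti_first_step {β : Type*} (d0 : ℝ) (hd0 : 0 < d0) (τ : ℂ) (hτ : 0 < τ.im) (v0 : ℝ)
    (A : β → ℝ) (G : β → ℂ)
    (hL : Summable (fun q : ℤ × β =>
      cexp (2 * π * I * (τ * d0 * ((q.1 : ℂ) + A q.2) ^ 2 + v0 * q.1)) * G q.2))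
    (hK : Summable (fun q : ℤ × β =>
      cexp (2 * π * I * (-((q.1 : ℂ) - v0) ^ 2 / (4 * d0 * τ) + ((q.1 : ℂ) - v0) * A q.2)) *
        G q.2)) :
    ∑' q : ℤ × β, cexp (2 * π * I * (τ * d0 * ((q.1 : ℂ) + A q.2) ^ 2 + v0 * q.1)) * G q.2 =
      1 / (-I * (2 * d0 * τ)) ^ (1 / 2 : ℂ) * ∑' m : ℤ, ∑' b : β,
        cexp (2 * π * I * (-((m : ℂ) - v0) ^ 2 / (4 * d0 * τ) + ((m : ℂ) - v0) * A b)) * G b := by
  rw [hL.tsum_prod]
  have hcomm := Summable.tsum_comm (f := fun (a : ℤ) (b : β) =>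
    cexp (2 * π * I * (τ * d0 * ((a : ℂ) + A b) ^ 2 + v0 * a)) * G b) hL
  rw [← hcomm]
  have hcomm2 := Summable.tsum_comm (f := fun (m : ℤ) (b : β) =>
    cexp (2 * π * I * (-((m : ℂ) - v0) ^ 2 / (4 * d0 * τ) + ((m : ℂ) - v0) * A b)) * G b) hK
  rw [← hcomm2, ← tsum_mul_left]
  refine tsum_congr (fun b => ?_)
  rw [tsum_mul_right, tsum_mul_right, ti_one_dim d0 hd0 τ hτ (A b) v0]
  ring

/-- The prefactor of the inversion formula. -/
noncomputable def tiFactor (n : ℕ) (d : Fin n → ℝ) (τ : ℂ) : ℂ :=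
  ∏ i : Fin n, 1 / (-I * (2 * (d i : ℂ) * τ)) ^ (1 / 2 : ℂ)

/-- auxiliary: the shift of the first variable caused by the other variables -/
noncomputable def tiA (n : ℕ) (c : Fin (n + 1) → Fin (n + 1) → ℝ) (h : Fin (n + 1) → ℝ)
    (x' : Fin n → ℤ) : ℝ :=
  h 0 + ∑ j : Fin n, c 0 j.succ * ((x' j : ℝ) + h j.succ)

/-- auxiliary: the summand in the remaining variables -/
noncomputable def tiG (n : ℕ) (d : Fin (n + 1) → ℝ) (c : Fin (n + 1) → Fin (n + 1) → ℝ) (τ : ℂ)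
    (h v : Fin (n + 1) → ℝ) (x' : Fin n → ℤ) : ℂ :=
  cexp (2 * π * I * (τ * (tiEval n (fun i => d i.succ) (fun i j => c i.succ j.succ)
    (fun i => (x' i : ℝ) + h i.succ) : ℝ) + ((∑ j : Fin n, v j.succ * (x' j : ℝ) : ℝ) : ℂ)))

/-- The summand of the left-hand side of the inversion formula. -/
noncomputable def tiL (n : ℕ) (d : Fin n → ℝ) (c : Fin n → Fin n → ℝ) (τ : ℂ) (h v : Fin n → ℝ)
    (x : Fin n → ℤ) : ℂ :=
  cexp (2 * π * I * (τ * (tiEval n d c (fun i => (x i : ℝ) + h i) : ℝ) +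
    ((∑ i, v i * (x i : ℝ) : ℝ) : ℂ)))

/-- The summand of the right-hand side of the inversion formula. -/
noncomputable def tiR (n : ℕ) (d : Fin n → ℝ) (c : Fin n → Fin n → ℝ) (τ : ℂ) (h v : Fin n → ℝ)
    (y : Fin n → ℤ) : ℂ :=
  cexp (2 * π * I * (-((tiDual n d c (fun i => (y i : ℝ) - v i) : ℝ) : ℂ) / (4 * τ) +
    ((∑ i, ((y i : ℝ) - v i) * h i : ℝ) : ℂ)))

theorem ti_summand_eq (n : ℕ) (d : Fin (n + 1) → ℝ) (c : Fin (n + 1) → Fin (n + 1) → ℝ) (τ : ℂ)
    (h v : Fin (n + 1) → ℝ) (q : ℤ × (Fin n → ℤ)) :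
    tiL (n + 1) d c τ h v (tiCons n q) =
      cexp (2 * π * I * (τ * (d 0 : ℝ) * ((q.1 : ℂ) + (tiA n c h q.2 : ℝ)) ^ 2 +
        (v 0 : ℝ) * q.1)) * tiG n d c τ h v q.2 := by
  simp only [tiL, tiEval, tiG, tiA, Fin.sum_univ_succ, tiCons_zero, tiCons_succ]
  rw [← Complex.exp_add]
  congr 1
  push_cast
  ring

theorem ti_summable_L (n : ℕ) (d : Fin n → ℝ) (hd : ∀ i, 0 < d i) (c : Fin n → Fin n → ℝ)
    (τ : ℂ) (hτ : 0 < τ.im) (h v : Fin n → ℝ) : Summable (tiL n d c τ h v) := by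
  have hpi : (0 : ℝ) < 2 * π := by positivity
  obtain ⟨C, hC⟩ := ti_summable_eval n d hd c (2 * π * τ.im) (mul_pos hpi hτ)
  exact Summable.of_norm ((hC h).1.congr (fun x => (ti_norm1 τ _ _).symm))

theorem ti_summable_R (n : ℕ) (d : Fin n → ℝ) (hd : ∀ i, 0 < d i) (c : Fin n → Fin n → ℝ)
    (τ : ℂ) (hτ : 0 < τ.im) (h v : Fin n → ℝ) : Summable (tiR n d c τ h v) := by
  have hpi : (0 : ℝ) < 2 * π := by positivity
  have hτ' := ti_im_pos τ hτ
  obtain ⟨C, hC⟩ := ti_summable_dual n d hd c (2 * π * (-1 / (4 * τ)).im) (mul_pos hpi hτ')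
  refine Summable.of_norm ((hC (fun i => -v i)).1.congr (fun y => ?_))
  have e : (-((tiDual n d c (fun i => (y i : ℝ) - v i) : ℝ) : ℂ) / (4 * τ) +
      ((∑ i, ((y i : ℝ) - v i) * h i : ℝ) : ℂ)) =
      (-1 / (4 * τ)) * ((tiDual n d c (fun i => (y i : ℝ) - v i) : ℝ) : ℂ) +
        ((∑ i, ((y i : ℝ) - v i) * h i : ℝ) : ℂ) := by ring
  simp only [tiR]
  rw [e, ti_norm1]
  simp only [sub_eq_add_neg]

/-- **Theta inversion** for Gaussian sums in triangular form, with shift `h` and phase `v`. -/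
theorem ti_inversion' (n : ℕ) : ∀ (d : Fin n → ℝ) (_ : ∀ i, 0 < d i) (c : Fin n → Fin n → ℝ)
    (τ : ℂ) (_ : 0 < τ.im) (h v : Fin n → ℝ),
    ∑' x : Fin n → ℤ, tiL n d c τ h v x = tiFactor n d τ * ∑' y : Fin n → ℤ, tiR n d c τ h v y := by
  induction n with
  | zero =>
    intro d _ c τ _ h v
    rw [(hasSum_unique _).tsum_eq, (hasSum_unique _).tsum_eq]
    simp [tiL, tiR, tiEval, tiDual, tiFactor]
  | succ n ih =>
    intro d hd c τ hτ h v
    have hτ0 : τ ≠ 0 := by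
      rintro rfl
      simp at hτ
    have hd0 : (d 0 : ℂ) ≠ 0 := by exact_mod_cast (hd 0).ne'
    have hτ' := ti_im_pos τ hτ
    have hpi : (0 : ℝ) < 2 * π := by positivity
    -- summability of the original family
    have hLsum : Summable (fun q : ℤ × (Fin n → ℤ) =>
        cexp (2 * π * I * (τ * (d 0 : ℝ) * ((q.1 : ℂ) + (tiA n c h q.2 : ℝ)) ^ 2 +
          (v 0 : ℝ) * q.1)) * tiG n d c τ h v q.2) := by
      have h3 := (tiCons n).summable_iff.mpr (ti_summable_L (n + 1) d hd c τ hτ h v)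
      exact h3.congr (fun q => ti_summand_eq n d c τ h v q)
    -- summability after Poisson summation in the first variable
    have hKsum : Summable (fun q : ℤ × (Fin n → ℤ) =>
        cexp (2 * π * I * (-((q.1 : ℂ) - (v 0 : ℝ)) ^ 2 / (4 * (d 0 : ℝ) * τ) +
          ((q.1 : ℂ) - (v 0 : ℝ)) * (tiA n c h q.2 : ℝ))) * tiG n d c τ h v q.2) := by
      obtain ⟨C', hC'⟩ := ti_summable_eval n (fun i => d i.succ) (fun i => hd _)
        (fun i j => c i.succ j.succ) (2 * π * τ.im) (mul_pos hpi hτ)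
      obtain ⟨C0, hC0⟩ := ti_gauss1_bound (2 * π * (-1 / (4 * τ)).im / d 0)
        (div_pos (mul_pos hpi hτ') (hd 0))
      have hC'nn : 0 ≤ C' := le_trans (tsum_nonneg (fun _ => (Real.exp_pos _).le)) (hC' 0).2
      have hstep := ti_step_summable_dual (2 * π * (-1 / (4 * τ)).im / d 0) C0 hC0 (-(v 0))
        (fun (_ : ℤ) (x' : Fin n → ℤ) => rexp (-(2 * π * τ.im) * tiEval n (fun i => d i.succ)
          (fun i j => c i.succ j.succ) (fun i => (x' i : ℝ) + h i.succ)))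
        (fun _ _ => (Real.exp_pos _).le) C' (fun _ => hC' (fun i => h i.succ)) hC'nn
      refine Summable.of_norm (hstep.1.congr (fun q => ?_))
      rw [norm_mul]
      have e1 : cexp (2 * π * I * (-((q.1 : ℂ) - (v 0 : ℝ)) ^ 2 / (4 * (d 0 : ℝ) * τ) +
          ((q.1 : ℂ) - (v 0 : ℝ)) * (tiA n c h q.2 : ℝ))) =
          cexp (2 * π * I * ((-1 / (4 * τ)) * ((((q.1 : ℝ) - v 0) ^ 2 / d 0 : ℝ) : ℂ) +
            ((((q.1 : ℝ) - v 0) * tiA n c h q.2 : ℝ) : ℂ))) := by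
        congr 1
        push_cast
        field_simp
      rw [e1, ti_norm1]
      simp only [tiG]
      rw [ti_norm1]
      congr 1
      congr 1
      ring
    -- the inner sums, by the induction hypothesis
    have hm : ∀ m : ℤ, ∑' b : Fin n → ℤ,
        cexp (2 * π * I * (-((m : ℂ) - (v 0 : ℝ)) ^ 2 / (4 * (d 0 : ℝ) * τ) +
          ((m : ℂ) - (v 0 : ℝ)) * (tiA n c h b : ℝ))) * tiG n d c τ h v b =
        tiFactor n (fun i => d i.succ) τ *
          ∑' y' : Fin n → ℤ, tiR (n + 1) d c τ h v (tiCons n (m, y')) := by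
      intro m
      have e1 : ∀ b : Fin n → ℤ,
          cexp (2 * π * I * (-((m : ℂ) - (v 0 : ℝ)) ^ 2 / (4 * (d 0 : ℝ) * τ) +
            ((m : ℂ) - (v 0 : ℝ)) * (tiA n c h b : ℝ))) * tiG n d c τ h v b =
          cexp (2 * π * I * (-((m : ℂ) - (v 0 : ℝ)) ^ 2 / (4 * (d 0 : ℝ) * τ) +
            ((m : ℂ) - (v 0 : ℝ)) * ((h 0 + ∑ j : Fin n, c 0 j.succ * h j.succ : ℝ) : ℂ))) *
          tiL n (fun i => d i.succ) (fun i j => c i.succ j.succ) τ (fun i => h i.succ)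
            (fun j => v j.succ + ((m : ℝ) - v 0) * c 0 j.succ) b := by
        intro b
        have hreal : ((m : ℝ) - v 0) * tiA n c h b + ∑ j : Fin n, v j.succ * (b j : ℝ) =
            ((m : ℝ) - v 0) * (h 0 + ∑ j : Fin n, c 0 j.succ * h j.succ) +
              ∑ j : Fin n, (v j.succ + ((m : ℝ) - v 0) * c 0 j.succ) * (b j : ℝ) := by
          simp only [tiA]
          rw [mul_add, mul_add, Finset.mul_sum, Finset.mul_sum, add_assoc, add_assoc,
            ← Finset.sum_add_distrib, ← Finset.sum_add_distrib]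
          congr 1
          exact Finset.sum_congr rfl (fun j _ => by ring)
        have hc : ((m : ℂ) - (v 0 : ℝ)) * (tiA n c h b : ℝ) +
            ((∑ j : Fin n, v j.succ * (b j : ℝ) : ℝ) : ℂ) =
            ((m : ℂ) - (v 0 : ℝ)) * ((h 0 + ∑ j : Fin n, c 0 j.succ * h j.succ : ℝ) : ℂ) +
              ((∑ j : Fin n, (v j.succ + ((m : ℝ) - v 0) * c 0 j.succ) * (b j : ℝ) : ℝ) : ℂ) := by
          exact_mod_cast hreal
        simp only [tiG, tiL]
        rw [← Complex.exp_add, ← Complex.exp_add]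
        congr 1
        linear_combination (2 * π * I) * hc
      rw [tsum_congr e1, tsum_mul_left, ih (fun i => d i.succ) (fun i => hd _)
        (fun i j => c i.succ j.succ) τ hτ (fun i => h i.succ)
        (fun j => v j.succ + ((m : ℝ) - v 0) * c 0 j.succ)]
      rw [← mul_assoc, mul_comm _ (tiFactor n _ τ), mul_assoc, ← tsum_mul_left]
      congr 1
      refine tsum_congr (fun y' => ?_)
      simp only [tiR, tiDual, Fin.sum_univ_succ, tiCons_zero, tiCons_succ]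
      rw [← Complex.exp_add]
      congr 1
      have hfun : (fun i : Fin n => (y' i : ℝ) - v i.succ - ((m : ℝ) - v 0) * c 0 i.succ) =
          (fun i : Fin n => (y' i : ℝ) - (v i.succ + ((m : ℝ) - v 0) * c 0 i.succ)) := by
        funext i
        ring
      have hsum : ∑ j : Fin n, ((y' j : ℝ) - (v j.succ + ((m : ℝ) - v 0) * c 0 j.succ)) *
          h j.succ = ∑ j : Fin n, ((y' j : ℝ) - v j.succ) * h j.succ -
            ((m : ℝ) - v 0) * ∑ j : Fin n, c 0 j.succ * h j.succ := by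
        rw [Finset.mul_sum, ← Finset.sum_sub_distrib]
        exact Finset.sum_congr rfl (fun j _ => by ring)
      rw [hfun, hsum]
      push_cast
      field_simp
      ring
    have hRsum : Summable (fun q : ℤ × (Fin n → ℤ) => tiR (n + 1) d c τ h v (tiCons n q)) :=
      (tiCons n).summable_iff.mpr (ti_summable_R (n + 1) d hd c τ hτ h v)
    have hstep := ti_first_step (d 0) (hd 0) τ hτ (v 0) (tiA n c h) (tiG n d c τ h v) hLsum hKsum
    calc ∑' x : Fin (n + 1) → ℤ, tiL (n + 1) d c τ h v x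
        = ∑' q : ℤ × (Fin n → ℤ), tiL (n + 1) d c τ h v (tiCons n q) :=
          ((tiCons n).tsum_eq _).symm
      _ = ∑' q : ℤ × (Fin n → ℤ),
            cexp (2 * π * I * (τ * (d 0 : ℝ) * ((q.1 : ℂ) + (tiA n c h q.2 : ℝ)) ^ 2 +
              (v 0 : ℝ) * q.1)) * tiG n d c τ h v q.2 :=
          tsum_congr (fun q => ti_summand_eq n d c τ h v q)
      _ = 1 / (-I * (2 * (d 0 : ℝ) * τ)) ^ (1 / 2 : ℂ) * ∑' m : ℤ, ∑' b : Fin n → ℤ,
            cexp (2 * π * I * (-((m : ℂ) - (v 0 : ℝ)) ^ 2 / (4 * (d 0 : ℝ) * τ) +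
              ((m : ℂ) - (v 0 : ℝ)) * (tiA n c h b : ℝ))) * tiG n d c τ h v b := hstep
      _ = 1 / (-I * (2 * (d 0 : ℝ) * τ)) ^ (1 / 2 : ℂ) * (tiFactor n (fun i => d i.succ) τ *
            ∑' m : ℤ, ∑' y' : Fin n → ℤ, tiR (n + 1) d c τ h v (tiCons n (m, y'))) := by
          rw [tsum_congr hm, tsum_mul_left]
      _ = 1 / (-I * (2 * (d 0 : ℝ) * τ)) ^ (1 / 2 : ℂ) * (tiFactor n (fun i => d i.succ) τ *
            ∑' q : ℤ × (Fin n → ℤ), tiR (n + 1) d c τ h v (tiCons n q)) := by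
          rw [hRsum.tsum_prod]
      _ = 1 / (-I * (2 * (d 0 : ℝ) * τ)) ^ (1 / 2 : ℂ) * (tiFactor n (fun i => d i.succ) τ *
            ∑' y : Fin (n + 1) → ℤ, tiR (n + 1) d c τ h v y) := by
          rw [(tiCons n).tsum_eq (tiR (n + 1) d c τ h v)]
      _ = tiFactor (n + 1) d τ * ∑' y : Fin (n + 1) → ℤ, tiR (n + 1) d c τ h v y := by
          rw [← mul_assoc]
          congr 1
          simp only [tiFactor]
          rw [Fin.prod_univ_succ]

/-- **Theta inversion** (expanded form). -/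
theorem ti_inversion (n : ℕ) (d : Fin n → ℝ) (hd : ∀ i, 0 < d i) (c : Fin n → Fin n → ℝ)
    (τ : ℂ) (hτ : 0 < τ.im) (h v : Fin n → ℝ) :
    ∑' x : Fin n → ℤ, cexp (2 * π * I * (τ * (tiEval n d c (fun i => (x i : ℝ) + h i) : ℝ) +
        ((∑ i, v i * (x i : ℝ) : ℝ) : ℂ))) =
      tiFactor n d τ * ∑' y : Fin n → ℤ, cexp (2 * π * I *
        (-((tiDual n d c (fun i => (y i : ℝ) - v i) : ℝ) : ℂ) / (4 * τ) +
          ((∑ i, ((y i : ℝ) - v i) * h i : ℝ) : ℂ))) :=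
  ti_inversion' n d hd c τ hτ h v

end Fermat.Agent.S16
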