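import Fermat.Agent.S16.ThetaSeries

/-!
# S16, piece TH4: packaging a theta series as a modular form of weight 2 on `Γ₀(p)`

Shape-independent core: a counting exponential sum `Θ z = ∑ x, exp (2 π i N(x) z)` which is
`Γ₀(p)`-invariant in weight `2` and all of whose `SL(2, ℤ)`-translates are bounded at `i∞` is a
modular form; its `q`-expansion coefficients are the fibre cardinalities of `N`.
-/

set_option autoImplicit false
set_option linter.unusedSectionVars false
set_option linter.style.haveILetI false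
set_option linter.unusedTactic false

namespace Fermat.Agent.S16

open UpperHalfPlane Complex Filter Topology ModularForm CongruenceSubgroup
open scoped Real Manifold MatrixGroups

/-- A finite type with a fixed point free involution has even cardinality. -/
theorem thp_even_card {α : Type*} [Finite α] (σ : α → α) (hσ : ∀ x, σ (σ x) = x)
    (hfix : ∀ x, σ x ≠ x) : Even (Nat.card α) := by
  classical
  haveI : Fintype α := Fintype.ofFinite α
  let e : Equiv.Perm α := ⟨σ, σ, hσ, hσ⟩
  have he : e ^ 2 = 1 := by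
    ext x
    simp [sq, e, hσ]
  have h2 := Equiv.Perm.two_dvd_card_support he
  have hs : e.support = Finset.univ := by
    ext x
    simp [Equiv.Perm.mem_support, e, hfix]
  rw [hs, Finset.card_univ] at h2
  rw [Nat.card_eq_fintype_card]
  exact even_iff_two_dvd.mpr h2

/-- Fibre cardinalities of an even function on an additive group without `2`-torsion are even
away from the value at `0`. -/
theorem thp_even_fiber {ι : Type*} [AddGroup ι] (N : ι → ℕ) (hneg : ∀ x, N (-x) = N x)
    (h2 : ∀ x : ι, x = -x → N x = 0) (n : ℕ) (hn : 1 ≤ n) [Finite {x : ι // N x = n}] :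
    Even (Nat.card {x : ι // N x = n}) := by
  refine thp_even_card (fun x => ⟨-x.1, by rw [hneg]; exact x.2⟩) (fun x => by simp) ?_
  rintro ⟨x, hx⟩ h
  have h' : -x = x := congrArg Subtype.val h
  have := h2 x h'.symm
  omega

theorem thp_card_zero {ι : Type*} [Zero ι] (N : ι → ℕ) (h0 : ∀ x, N x = 0 ↔ x = 0) :
    Nat.card {x : ι // N x = 0} = 1 := by
  haveI : Unique {x : ι // N x = 0} :=
    { default := ⟨0, (h0 0).mpr rfl⟩
      uniq := fun x => Subtype.ext ((h0 x.1).mp x.2) }
  exact Nat.card_unique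

/-- Boundedness at `i∞` is invariant under integer translations (and scalar multiples). -/
theorem thp_bdd_translate {g : ℂ → ℂ} (hg : IsBoundedAtImInfty (fun z : ℍ => g z)) (c : ℂ)
    (t : ℝ) : IsBoundedAtImInfty (fun z : ℍ => c * g ((z : ℂ) + t)) := by
  rw [isBoundedAtImInfty_iff] at hg ⊢
  obtain ⟨B, A, h⟩ := hg
  refine ⟨‖c‖ * B, A, fun z hz => ?_⟩
  have him' : ((z : ℂ) + t).im = z.im := by
    rw [Complex.add_im, Complex.ofReal_im, add_zero]
    rfl
  have him : 0 < ((z : ℂ) + t).im := by rw [him']; exact z.im_pos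
  have := h ⟨(z : ℂ) + t, him⟩ (by show A ≤ ((z : ℂ) + t).im; rw [him']; exact hz)
  rw [norm_mul]
  exact mul_le_mul_of_nonneg_left this (norm_nonneg c)

/-- Shape-independent packaging. -/
theorem thp_pack (p : ℕ) [NeZero p] {ι : Type*} (N : ι → ℕ) (Θ : ℍ → ℂ)
    (hΘ : ∀ z : ℍ, HasSum (fun x : ι => thpTerm 1 (N x) z) (Θ z))
    (hΓ : ∀ γ : SL(2, ℤ), γ ∈ Gamma0 p → Θ ∣[(2 : ℤ)] γ = Θ)
    (hbdd : ∀ γ : SL(2, ℤ), IsBoundedAtImInfty (Θ ∣[(2 : ℤ)] γ))
    (h0 : Nat.card {x : ι // N x = 0} = 1)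
    (hev : ∀ n, 1 ≤ n → Even (Nat.card {x : ι // N x = n})) :
    ∃ F : ModularForm (Gamma0 p) 2, ⇑F = Θ ∧ (qExpansion 1 F).coeff 0 = 1 ∧
      ∀ n, 1 ≤ n → ∃ m : ℤ, (qExpansion 1 F).coeff n = 2 * (m : ℂ) := by
  have hmem : Θ ∈ Fermat.Agent.S20.MF (Fermat.Agent.S20.G0 p) 2 :=
    Fermat.Agent.S20.mem_MF_of_slash p (thp_mdiff 1 N Θ hΘ) hΓ hbdd
  obtain ⟨F, hF⟩ := hmem
  have hF' : (⇑F : ℍ → ℂ) = Θ := hF
  have hcoeff : ∀ n, (qExpansion 1 F).coeff n = (Nat.card {x : ι // N x = n} : ℂ) := by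
    intro n
    have := thp_qExpansion_coeff 1 N Θ hΘ n
    rw [hF']
    simpa using this
  refine ⟨F, hF', ?_, fun n hn => ?_⟩
  · rw [hcoeff, h0]; simp
  · obtain ⟨m, hm⟩ := hev n hn
    refine ⟨m, ?_⟩
    rw [hcoeff, hm]
    push_cast
    ring

end Fermat.Agent.S16
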