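import Fermat.Agent.S20.Basic
import Fermat.Agent.S28.QExp

/-!
# S16, piece TH4 (generic part): functions given by "counting" exponential sums

For a family `N : ι → ℕ` and a function `Θ : ℍ → ℂ` with
`Θ z = ∑ x, exp (2 π i N(x) z / M)` (as a `HasSum`, for every `z`), we show that the fibres of `N`
are finite, that `Θ` has the expansion `∑ n, #{N = n} q_M ^ n`, that it is holomorphic, bounded at
`i∞`, tends to `#{N = 0}` at `i∞`, and (for `M = 1`) we identify its Mathlib `qExpansion`.
-/

set_option autoImplicit false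
set_option linter.unusedSectionVars false
set_option linter.style.haveILetI false
set_option linter.unusedTactic false

namespace Fermat.Agent.S16

open UpperHalfPlane Complex Filter Topology
open scoped Real Manifold

/-- The general term of a counting exponential sum. -/
noncomputable def thpTerm (M : ℕ) (n : ℕ) (z : ℂ) : ℂ :=
  cexp (2 * π * Complex.I * (n : ℂ) * z / M)

theorem thpTerm_eq_pow (M : ℕ) (n : ℕ) (z : ℂ) :
    thpTerm M n z = Function.Periodic.qParam M z ^ n := by
  unfold thpTerm Function.Periodic.qParam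
  rw [← Complex.exp_nat_mul]
  congr 1
  push_cast
  ring

theorem thpTerm_norm (M : ℕ) (n : ℕ) (z : ℂ) :
    ‖thpTerm M n z‖ = Real.exp (-(2 * π * z.im / M)) ^ n := by
  rw [thpTerm_eq_pow, norm_pow, Function.Periodic.norm_qParam]
  congr 2
  push_cast
  ring

section generic

variable {ι : Type*} (M : ℕ) [NeZero M] (N : ι → ℕ) (Θ : ℍ → ℂ)

/-- The fibres of `N` are finite as soon as one of the sums converges. -/
theorem thp_fiber_finite (z : ℍ) (h : Summable (fun x : ι => thpTerm M (N x) z)) (n : ℕ) :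
    Finite {x : ι // N x = n} := by
  have h1 : Summable (fun x : ι => ‖thpTerm M (N x) z‖) := h.norm
  set r : ℝ := Real.exp (-(2 * π * (z : ℂ).im / M)) with hr
  have hrpos : 0 < r := Real.exp_pos _
  have h2 := h1.tendsto_cofinite_zero
  have h3 : ∀ᶠ x in cofinite, ‖thpTerm M (N x) z‖ < r ^ n :=
    h2.eventually (gt_mem_nhds (pow_pos hrpos n))
  rw [Filter.eventually_cofinite] at h3
  refine Set.Finite.subset h3 ?_ |> Set.finite_coe_iff.mpr
  intro x hx
  simp only [Set.mem_ofPred_eq] at hx ⊢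
  rw [thpTerm_norm, hx]
  exact lt_irrefl _

/-- Regrouping a counting exponential sum along the fibres of `N`. -/
theorem thp_hasSum_fiber (z : ℍ) (hΘ : HasSum (fun x : ι => thpTerm M (N x) z) (Θ z)) :
    HasSum (fun n : ℕ => (Nat.card {x : ι // N x = n} : ℂ) * Function.Periodic.qParam M z ^ n)
      (Θ z) := by
  have hfin : ∀ n : ℕ, Finite {x : ι // N x = n} := thp_fiber_finite M N z hΘ.summable
  have h1 : HasSum (fun s : (n : ℕ) × {x : ι // N x = n} => thpTerm M (N s.2.1) z) (Θ z) := by
    have := (Equiv.sigmaFiberEquiv N).hasSum_iff (f := fun x : ι => thpTerm M (N x) z)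
      (a := Θ z)
    exact this.mpr hΘ
  refine h1.sigma fun n => ?_
  haveI := hfin n
  haveI : Fintype {x : ι // N x = n} := Fintype.ofFinite _
  have h2 := hasSum_fintype (fun c : {x : ι // N x = n} => thpTerm M (N c.1) z)
  convert h2 using 1
  rw [Finset.sum_congr rfl (fun c _ => by rw [c.2]), Finset.sum_const, Finset.card_univ,
    Nat.card_eq_fintype_card, nsmul_eq_mul, thpTerm_eq_pow]

variable (hΘ : ∀ z : ℍ, HasSum (fun x : ι => thpTerm M (N x) z) (Θ z))
include hΘ

theorem thp_hasSum_qParam (z : ℍ) :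
    HasSum (fun n : ℕ => (Nat.card {x : ι // N x = n} : ℂ) • Function.Periodic.qParam M z ^ n)
      (Θ z) := by
  simpa [smul_eq_mul] using thp_hasSum_fiber M N Θ z (hΘ z)

theorem thp_hasQExp :
    Fermat.Agent.S28.HasQExp M Θ (HahnSeries.ofPowerSeries ℤ ℂ
      (PowerSeries.mk fun n : ℕ => (Nat.card {x : ι // N x = n} : ℂ))) := by
  rw [Fermat.Agent.S28.hasQExp_ofPowerSeries_iff]
  intro z
  have := thp_hasSum_fiber M N Θ z (hΘ z)
  simpa [Fermat.Agent.S28.tParam_eq_qParam] using this

theorem thp_mdiff : MDiff Θ := (thp_hasQExp M N Θ hΘ).mdifferentiable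

theorem thp_bdd : IsBoundedAtImInfty Θ :=
  isBoundedAtImInfty_of_hasSum_qExpansion (h := (M : ℝ))
    (by exact_mod_cast Nat.pos_of_ne_zero (NeZero.ne M)) (thp_hasSum_qParam M N Θ hΘ)

theorem thp_periodic : Function.Periodic (Θ ∘ ofComplex) (M : ℂ) := by
  intro w
  simp only [Function.comp_apply]
  by_cases hw : 0 < w.im
  · have hw' : 0 < (w + (M : ℂ)).im := by simpa using hw
    rw [ofComplex_apply_of_im_pos hw', ofComplex_apply_of_im_pos hw]
    refine (hΘ ⟨w + M, hw'⟩).unique ?_
    convert hΘ ⟨w, hw⟩ using 2 with x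
    simp only [thpTerm]
    have hM : (M : ℂ) ≠ 0 := by exact_mod_cast NeZero.ne M
    have : 2 * (π : ℂ) * Complex.I * (N x : ℂ) * (w + M) / M =
        2 * π * Complex.I * (N x : ℂ) * w / M + (N x : ℕ) * (2 * π * Complex.I) := by
      field_simp
    rw [this, Complex.exp_add, Complex.exp_nat_mul_two_pi_mul_I, mul_one]
  · have hw' : ¬ 0 < (w + (M : ℂ)).im := by simpa using hw
    rw [ofComplex_apply_of_im_nonpos (not_lt.mp hw'), ofComplex_apply_of_im_nonpos (not_lt.mp hw)]

theorem thp_analyticAt : AnalyticAt ℂ (cuspFunction (M : ℝ) Θ) 0 :=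
  analyticAt_cuspFunction_zero (by exact_mod_cast Nat.pos_of_ne_zero (NeZero.ne M))
    (by exact_mod_cast thp_periodic M N Θ hΘ) (thp_mdiff M N Θ hΘ) (thp_bdd M N Θ hΘ)

theorem thp_qExpansion_coeff (n : ℕ) :
    (qExpansion (M : ℝ) Θ).coeff n = (Nat.card {x : ι // N x = n} : ℂ) := by
  have hM : (0 : ℝ) < M := by exact_mod_cast Nat.pos_of_ne_zero (NeZero.ne M)
  have han := thp_analyticAt M N Θ hΘ
  have h1 := (hasFPowerSeriesOnBall_cuspFunction hM han
    (thp_hasSum_qParam M N Θ hΘ)).hasFPowerSeriesAt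
  have h2 : HasFPowerSeriesAt (cuspFunction (M : ℝ) Θ)
      (FormalMultilinearSeries.ofScalars ℂ fun m ↦ (qExpansion (M : ℝ) Θ).coeff m) 0 := by
    simpa [qExpansion_coeff, div_eq_mul_inv, mul_comm] using han.hasFPowerSeriesAt
  have h3 := congr_arg (FormalMultilinearSeries.coeff · n) (h1.eq_formalMultilinearSeries h2)
  simp only [FormalMultilinearSeries.coeff_ofScalars] at h3
  exact h3.symm

theorem thp_tendsto :
    Tendsto Θ atImInfty (𝓝 (Nat.card {x : ι // N x = 0} : ℂ)) := by
  have hM : (0 : ℝ) < M := by exact_mod_cast Nat.pos_of_ne_zero (NeZero.ne M)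
  have han := thp_analyticAt M N Θ hΘ
  have hper : Function.Periodic (Θ ∘ ofComplex) ((M : ℝ) : ℂ) := by
    exact_mod_cast thp_periodic M N Θ hΘ
  have h0 : cuspFunction (M : ℝ) Θ 0 = (Nat.card {x : ι // N x = 0} : ℂ) := by
    have := thp_qExpansion_coeff M N Θ hΘ 0
    simpa [qExpansion_coeff] using this
  have hcomp : (cuspFunction (M : ℝ) Θ ∘ fun τ : ℍ ↦ Function.Periodic.qParam (M : ℝ) τ) = Θ := by
    funext τ
    simpa using eq_cuspFunction (h := (M : ℝ)) τ hM.ne' hper
  have h := han.continuousAt.tendsto.comp (qParam_tendsto_atImInfty hM)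
  rw [hcomp, h0] at h
  exact h

end generic

end Fermat.Agent.S16
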