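import Fermat.Agent.S20.Basic

/-!
# S16: triangular basis lemma (Sturm bound + triangular elimination)

If `m_0, …, m_B` are modular forms of weight `w` on `Γ₀(N)` whose `q`-expansions have
coefficients in a subring `R ⊆ ℂ`, with `m_j = u_j q^j + …`, `u_j` a unit of `R`, and `B` is at
least the Sturm bound, then every form `F` of weight `w` on `Γ₀(N)` whose `q`-coefficients lie in
an `R`-stable additive subgroup `J ⊆ ℂ` is a `J`-linear combination of the `m_j`.
-/

set_option autoImplicit false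

namespace Fermat.Agent.S16

open UpperHalfPlane ModularForm CongruenceSubgroup
open Fermat.Agent.S20
open scoped MatrixGroups

section
variable (N : ℕ) [NeZero N] {w : ℤ}

/-- `n`-th `q`-coefficient as a linear functional on `M_w(Γ₀(N))`. -/
noncomputable def triCoeff (n : ℕ) : ModularForm (G0 N) w →ₗ[ℂ] ℂ :=
  (LinearMap.proj (⟨n, Nat.lt_succ_self n⟩ : Fin (n + 1))).comp (sturmMap N (w := w) n)

theorem triCoeff_apply (n : ℕ) (F : ModularForm (G0 N) w) :
    triCoeff N n F = (qExpansion 1 F).coeff n := rfl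

/-- Sturm: a form all of whose coefficients up to `B ≥` Sturm bound vanish is zero. -/
theorem tri_eq_zero {B : ℕ} (hB : (w * (Gamma0 N).index).toNat / 12 ≤ B)
    (F : ModularForm (G0 N) w) (h : ∀ n, n ≤ B → (qExpansion 1 F).coeff n = 0) : F = 0 :=
  ModularForm.sturm_bound_Gamma0 N F fun n hn => h n (hn.trans hB)

/-- Auxiliary statement for the triangular elimination (downward induction on the order of
vanishing). -/
theorem tri_basis_aux {B : ℕ} (hB : (w * (Gamma0 N).index).toNat / 12 ≤ B)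
    (R : Subring ℂ) (J : AddSubgroup ℂ) (hJ : ∀ r ∈ R, ∀ x ∈ J, r * x ∈ J)
    (m : Fin (B + 1) → ModularForm (G0 N) w)
    (hmR : ∀ j n, (qExpansion 1 (m j)).coeff n ∈ R)
    (hm0 : ∀ (j : Fin (B + 1)) (n : ℕ), n < (j : ℕ) → (qExpansion 1 (m j)).coeff n = 0)
    (hmu : ∀ j : Fin (B + 1), ∃ u ∈ R, (qExpansion 1 (m j)).coeff (j : ℕ) * u = 1)
    (d : ℕ) :
    ∀ (t : ℕ), t + d = B + 1 → ∀ (F : ModularForm (G0 N) w),
      (∀ n, (qExpansion 1 F).coeff n ∈ J) → (∀ n, n < t → (qExpansion 1 F).coeff n = 0) →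
      ∃ c : Fin (B + 1) → ℂ, (∀ j, c j ∈ J) ∧ (∀ j : Fin (B + 1), (j : ℕ) < t → c j = 0) ∧
        F = ∑ j, c j • m j := by
  induction d with
  | zero =>
    intro t ht F _ hF0
    have hF : F = 0 := tri_eq_zero N hB F fun n hn => hF0 n (by omega)
    exact ⟨0, fun _ => J.zero_mem, fun _ _ => rfl, by simp [hF]⟩
  | succ d ih =>
    intro t ht F hFJ hF0
    have htB : t < B + 1 := by omega
    set jt : Fin (B + 1) := ⟨t, htB⟩ with hjt
    obtain ⟨u, huR, hu⟩ := hmu jt
    set a : ℂ := (qExpansion 1 F).coeff t with ha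
    have haJ : a ∈ J := hFJ t
    set ct : ℂ := u * a with hct
    have hctJ : ct ∈ J := hJ u huR a haJ
    set F' : ModularForm (G0 N) w := F - ct • m jt with hF'
    have hcoef : ∀ n, (qExpansion 1 F').coeff n =
        (qExpansion 1 F).coeff n - ct * (qExpansion 1 (m jt)).coeff n := by
      intro n
      have := (triCoeff N (w := w) n).map_sub F (ct • m jt)
      rw [(triCoeff N (w := w) n).map_smul] at this
      simpa [triCoeff_apply, hF'] using this
    have hF'J : ∀ n, (qExpansion 1 F').coeff n ∈ J := by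
      intro n
      rw [hcoef n]
      refine J.sub_mem (hFJ n) ?_
      rw [mul_comm]
      exact hJ _ (hmR jt n) _ hctJ
    have hF'0 : ∀ n, n < t + 1 → (qExpansion 1 F').coeff n = 0 := by
      intro n hn
      rw [hcoef n]
      rcases Nat.lt_succ_iff_lt_or_eq.mp hn with h | h
      · rw [hF0 n h, hm0 jt n (by simpa [hjt] using h)]; simp
      · subst h
        have hu' : (qExpansion 1 (m jt)).coeff n * u = 1 := by simpa [hjt] using hu
        rw [← ha, hct]
        linear_combination (-a) * hu'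
    obtain ⟨c', hc'J, hc'0, hc'⟩ := ih (t + 1) (by omega) F' hF'J hF'0
    refine ⟨c' + Pi.single jt ct, ?_, ?_, ?_⟩
    · intro j
      by_cases hj : j = jt
      · subst hj; simpa using J.add_mem (hc'J jt) hctJ
      · simpa [Pi.single_apply, hj] using hc'J j
    · intro j hj
      have hne : j ≠ jt := by
        intro h; rw [h] at hj; simp [hjt] at hj
      have := hc'0 j (by omega)
      simp [Pi.single_apply, hne, this]
    · have hFeq : F = F' + ct • m jt := by simp [hF']
      rw [hFeq, hc']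
      simp only [Pi.add_apply, add_smul, Finset.sum_add_distrib]
      congr 1
      rw [Finset.sum_eq_single jt]
      · simp
      · intro j _ hj; simp [Pi.single_apply, hj]
      · intro h; exact absurd (Finset.mem_univ _) h

/-- **Triangular basis lemma.** -/
theorem tri_basis {B : ℕ} (hB : (w * (Gamma0 N).index).toNat / 12 ≤ B)
    (R : Subring ℂ) (J : AddSubgroup ℂ) (hJ : ∀ r ∈ R, ∀ x ∈ J, r * x ∈ J)
    (m : Fin (B + 1) → ModularForm (G0 N) w)
    (hmR : ∀ j n, (qExpansion 1 (m j)).coeff n ∈ R)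
    (hm0 : ∀ (j : Fin (B + 1)) (n : ℕ), n < (j : ℕ) → (qExpansion 1 (m j)).coeff n = 0)
    (hmu : ∀ j : Fin (B + 1), ∃ u ∈ R, (qExpansion 1 (m j)).coeff (j : ℕ) * u = 1)
    (F : ModularForm (G0 N) w) (hF : ∀ n, (qExpansion 1 F).coeff n ∈ J) :
    ∃ c : Fin (B + 1) → ℂ, (∀ j, c j ∈ J) ∧ F = ∑ j, c j • m j := by
  obtain ⟨c, hc, -, hF'⟩ := tri_basis_aux N hB R J hJ m hmR hm0 hmu (B + 1) 0 (by omega) F hF
    (fun n hn => absurd hn (Nat.not_lt_zero n))
  exact ⟨c, hc, hF'⟩

/-- Pointwise form of the triangular basis lemma. -/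
theorem tri_basis_apply {B : ℕ} (hB : (w * (Gamma0 N).index).toNat / 12 ≤ B)
    (R : Subring ℂ) (J : AddSubgroup ℂ) (hJ : ∀ r ∈ R, ∀ x ∈ J, r * x ∈ J)
    (m : Fin (B + 1) → ModularForm (G0 N) w)
    (hmR : ∀ j n, (qExpansion 1 (m j)).coeff n ∈ R)
    (hm0 : ∀ (j : Fin (B + 1)) (n : ℕ), n < (j : ℕ) → (qExpansion 1 (m j)).coeff n = 0)
    (hmu : ∀ j : Fin (B + 1), ∃ u ∈ R, (qExpansion 1 (m j)).coeff (j : ℕ) * u = 1)
    (F : ModularForm (G0 N) w) (hF : ∀ n, (qExpansion 1 F).coeff n ∈ J) :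
    ∃ c : Fin (B + 1) → ℂ, (∀ j, c j ∈ J) ∧ ∀ z : ℍ, F z = ∑ j, c j * m j z := by
  obtain ⟨c, hc, hF'⟩ := tri_basis N hB R J hJ m hmR hm0 hmu F hF
  refine ⟨c, hc, fun z => ?_⟩
  have := congrArg (fun G : ModularForm (G0 N) w => G z) hF'
  simpa using this

end

end Fermat.Agent.S16
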