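import Mathlib

/-!
# S16, piece U1 (core): `G ≡ 1 mod M` on `Γ₀(p)` in weight two forces `M ∣ p + 1`

Pure power series algebra.  The two inputs are the trace identities
`p¹² · G · VΔ = U(U(G) · Δ)` (the trace of `G · VΔ` is a level one cusp form of weight `14`,
hence zero) and `p¹¹ · VΔ + UΔ = c · Δ` (the trace of `VΔ` is a level one cusp form of
weight `12`), as identities between integral `q`-series.
-/

set_option autoImplicit false

namespace Fermat.Agent.S16

open PowerSeries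

/-- If `g ≡ 1 mod M` coefficientwise, then `g * f ≡ f mod M` coefficientwise. -/
theorem u1_coeff_mul_of_congr_one (M : ℤ) (g f : PowerSeries ℤ)
    (hg0 : M ∣ PowerSeries.coeff 0 g - 1) (hg : ∀ k, 1 ≤ k → M ∣ PowerSeries.coeff k g) (n : ℕ) :
    M ∣ PowerSeries.coeff n (g * f) - PowerSeries.coeff n f := by
  have h1 : PowerSeries.coeff n (g * f) - PowerSeries.coeff n f
      = PowerSeries.coeff n ((g - 1) * f) := by
    rw [sub_mul, one_mul, map_sub]
  rw [h1, PowerSeries.coeff_mul]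
  refine Finset.dvd_sum fun x _ => ?_
  refine Dvd.dvd.mul_right ?_ _
  rcases Nat.eq_zero_or_pos x.1 with h0 | hpos
  · rw [h0, map_sub, PowerSeries.coeff_zero_one]
    exact hg0
  · rw [map_sub, PowerSeries.coeff_one, if_neg (by omega), sub_zero]
    exact hg _ hpos

/-- **U1, core.**  `d` plays the role of `Δ` (`d₁ = 1`), `vd` of `VΔ = Δ(q^p)`,
`g` of the `q`-series of `G` and `g₁` of `U_p G`. -/
theorem u1_core (p M : ℕ) (hp : p.Prime) (hMp : Nat.Coprime M p)
    (g g₁ d vd : PowerSeries ℤ)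
    (hd1 : PowerSeries.coeff 1 d = 1)
    (hvd : ∀ n, PowerSeries.coeff n vd = if p ∣ n then PowerSeries.coeff (n / p) d else 0)
    (hg0 : (M : ℤ) ∣ PowerSeries.coeff 0 g - 1)
    (hg : ∀ k, 1 ≤ k → (M : ℤ) ∣ PowerSeries.coeff k g)
    (hg₁0 : (M : ℤ) ∣ PowerSeries.coeff 0 g₁ - 1)
    (hg₁ : ∀ k, 1 ≤ k → (M : ℤ) ∣ PowerSeries.coeff k g₁)
    (h14 : ∀ n, (p : ℤ) ^ 12 * PowerSeries.coeff n (g * vd) = PowerSeries.coeff (n * p) (g₁ * d))
    (h12 : ∃ c : ℤ, ∀ n, (p : ℤ) ^ 11 * PowerSeries.coeff n vd + PowerSeries.coeff (n * p) d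
      = c * PowerSeries.coeff n d) :
    (M : ℤ) ∣ (p : ℤ) + 1 := by
  obtain ⟨c, hc⟩ := h12
  have hp2 : 2 ≤ p := hp.two_le
  have hp0 : 0 < p := hp.pos
  -- coefficients of `vd`
  have hvd1 : PowerSeries.coeff 1 vd = 0 := by
    rw [hvd, if_neg]
    intro h
    have := Nat.le_of_dvd one_pos h
    omega
  have hvdp : PowerSeries.coeff p vd = 1 := by
    rw [hvd, if_pos dvd_rfl, Nat.div_self hp0, hd1]
  -- weight 12: `c = τ(p)` and `p^11 + τ(p²) = τ(p)²`
  have hc1 : c = PowerSeries.coeff p d := by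
    have := hc 1
    rw [hvd1, hd1, one_mul] at this
    linarith
  have hc2 : (p : ℤ) ^ 11 + PowerSeries.coeff (p * p) d
      = PowerSeries.coeff p d * PowerSeries.coeff p d := by
    have := hc p
    rw [hvdp, hc1] at this
    linarith
  -- weight 14 at `n = 1`
  have e1 := h14 1
  rw [one_mul] at e1
  have a1 := u1_coeff_mul_of_congr_one M g vd hg0 hg 1
  rw [hvd1, sub_zero] at a1
  have b1 := u1_coeff_mul_of_congr_one M g₁ d hg₁0 hg₁ p
  have hτ : (M : ℤ) ∣ PowerSeries.coeff p d := by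
    have h3 : (M : ℤ) ∣ PowerSeries.coeff p (g₁ * d) := by
      rw [← e1]; exact Dvd.dvd.mul_left a1 _
    have := dvd_sub h3 b1
    simpa using this
  -- weight 14 at `n = p`
  have e2 := h14 p
  have a2 := u1_coeff_mul_of_congr_one M g vd hg0 hg p
  rw [hvdp] at a2
  have b2 := u1_coeff_mul_of_congr_one M g₁ d hg₁0 hg₁ (p * p)
  have h4 : (M : ℤ) ∣ (p : ℤ) ^ 12 - PowerSeries.coeff (p * p) d := by
    have h5 : (p : ℤ) ^ 12 - PowerSeries.coeff (p * p) d
        = -((p : ℤ) ^ 12 * (PowerSeries.coeff p (g * vd) - 1))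
          + (PowerSeries.coeff (p * p) (g₁ * d) - PowerSeries.coeff (p * p) d) := by
      rw [← e2]; ring
    rw [h5]
    exact dvd_add (Dvd.dvd.neg_right (Dvd.dvd.mul_left a2 _)) b2
  have h6 : (M : ℤ) ∣ (p : ℤ) ^ 11 * ((p : ℤ) + 1) := by
    have h7 : (p : ℤ) ^ 11 * ((p : ℤ) + 1)
        = ((p : ℤ) ^ 12 - PowerSeries.coeff (p * p) d)
          + PowerSeries.coeff p d * PowerSeries.coeff p d := by
      rw [← hc2]; ring
    rw [h7]
    exact dvd_add h4 (Dvd.dvd.mul_right hτ _)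
  have hcop : IsCoprime (M : ℤ) ((p : ℤ) ^ 11) := by
    have : IsCoprime (M : ℤ) (p : ℤ) := Nat.isCoprime_iff_coprime.mpr hMp
    exact this.pow_right
  exact hcop.dvd_of_dvd_mul_left h6

end Fermat.Agent.S16
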