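import Mathlib
import Fermat.Agent.S23.TN
import Fermat.Agent.S23.QNice
import Fermat.Agent.S23.LevelOne
import Fermat.Agent.S20.Basic
import Fermat.Agent.S24.Index
import Fermat.Agent.S16.QSeries
import Fermat.Agent.S28.JDelta
import Fermat.Prelude.Thm_ModularForm_sturm_bound_Gamma0

/-!
# S16, piece U8: the level three core

Forms of even weight on `Γ₀(3)` built from `E₄`, `E₆`, `Δ` and their translates `φ(3z)`:

* `u8T4 = (E₄ + 9 E₄(3z)) / 10`  (`= 1 + …`),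
* `u8X4 = (E₄ - E₄(3z)) / 240`  (`= q + 9 q² + …`),
* `u8X6 = (E₆(3z) - E₆) / 504`   (`≡ u8X4 mod 8` coefficientwise),
* `u8M = (u8X4 ^ 3 - Δ(3z)) / 27` (`= q⁴ + …`).

At the elliptic point `u8z1 = (3 + i√3)/6` of `Γ₀(3)`, `u8T4` and `u8X4` vanish, `u8M` does not,
and `u8X6 z1 ^ 2 = 144 * u8M z1`.  A form of weight `12 m` on `Γ₀(3)` with `q`-coefficients in a
subring `O ∋ 1/3` takes at `u8z1` a value in `O · u8M z1 ^ m`.
-/

set_option autoImplicit false

namespace Fermat.Agent.S16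

open UpperHalfPlane ModularForm CongruenceSubgroup
open scoped MatrixGroups Manifold

open Fermat.Agent.S20 Fermat.Agent.S23

/-- `V_N φ = φ ∣[k] diag(N, 1)`, i.e. `τ ↦ N ^ (k - 1) * φ (N τ)`, as a form of level `Γ₀(N)`. -/
noncomputable def u8V (N : ℕ) [NeZero N] {k : ℤ} (φ : ModularForm 𝒮ℒ k) :
    ModularForm (Gamma0 N) k :=
  tN_restrict (tN_Gamma0_le N) (ModularForm.translate φ (heckeDiagMatrix N))

theorem u8V_apply (N : ℕ) [NeZero N] {k : ℤ} (φ : ModularForm 𝒮ℒ k) (τ : ℍ) :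
    u8V N φ τ = (N : ℂ) ^ (k - 1) * φ (heckeDiagMatrix N • τ) := by
  have h : ⇑(u8V N φ) = ⇑φ ∣[k] heckeDiagMatrix N := rfl
  rw [h, slash_heckeDiagMatrix_apply k (NeZero.ne N)]

theorem u8V_coeff (N : ℕ) [NeZero N] {k : ℤ} (φ : ModularForm 𝒮ℒ k) (n : ℕ) :
    (qExpansion 1 (u8V N φ)).coeff n =
      if N ∣ n then (N : ℂ) ^ (k - 1) * (qExpansion 1 φ).coeff (n / N) else 0 := by
  have hN : N ≠ 0 := NeZero.ne N
  have hper : Function.Periodic (⇑φ ∘ ofComplex) 1 :=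
    SlashInvariantFormClass.periodic_comp_ofComplex φ one_mem_strictPeriods_SL
  have hhol := ModularFormClass.holo φ
  have hbdd : IsBoundedAtImInfty φ := ModularFormClass.bdd_at_infty φ
  have hsum : ∀ τ : ℍ, HasSum (fun m ↦ (if N ∣ m then
      (N : ℂ) ^ (k - 1) * (qExpansion 1 φ).coeff (m / N) else 0) •
        Function.Periodic.qParam 1 τ ^ m) (u8V N φ τ) := by
    intro τ
    have := P2MW.S_UpperHalfPlane_qCoeff_heckeT.M4cP1W2.hasSum_diag hN hper hhol hbdd k τ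
    rw [u8V_apply]
    convert this using 2 with m
    simp only [ModularFormClass.qCoeff, smul_eq_mul, ite_mul, zero_mul]
  have := ModularFormClass.qExpansion_coeff_unique one_pos
    (CongruenceSubgroup.one_mem_strictPeriods_Gamma0 N) hsum n
  rw [← this]

/-! ### `q`-expansions of the level one forms -/

/-- `σ_k(n)` as an integer. -/
noncomputable def u8s (k n : ℕ) : ℤ := (ArithmeticFunction.sigma k n : ℤ)

theorem u8s_zero (k : ℕ) : u8s k 0 = 0 := by simp [u8s]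

theorem u8s_one (k : ℕ) : u8s k 1 = 1 := by simp [u8s]

theorem u8_E4_coeff (n : ℕ) :
    (qExpansion 1 E₄).coeff n = (((if n = 0 then 1 else 0) + 240 * u8s 3 n : ℤ) : ℂ) := by
  rw [EisensteinSeries.E_qExpansion_coeff _ ⟨2, rfl⟩ n]
  split_ifs with h
  · subst h; simp [u8s]
  · simp only [u8s]
    norm_num [show bernoulli 4 = -1 / 30 by decide +kernel]

theorem u8_E6_coeff (n : ℕ) :
    (qExpansion 1 E₆).coeff n = (((if n = 0 then 1 else 0) - 504 * u8s 5 n : ℤ) : ℂ) := by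
  rw [EisensteinSeries.E_qExpansion_coeff _ ⟨3, rfl⟩ n]
  split_ifs with h
  · subst h; simp [u8s]
  · simp only [u8s]
    norm_num [show bernoulli 6 = 1 / 42 by decide +kernel]

/-- The discriminant as a modular form of level one. -/
noncomputable def u8Delta : ModularForm 𝒮ℒ 12 := basicCuspToMod CuspForm.discriminant

theorem u8Delta_apply (z : ℍ) : u8Delta z = ModularForm.discriminant z := by
  have h : ⇑u8Delta = ⇑CuspForm.discriminant := rfl
  rw [h, CuspForm.coe_discriminant]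

theorem u8_Delta_coeff (n : ℕ) :
    (qExpansion 1 u8Delta).coeff n = ((PowerSeries.coeff n deltaZ : ℤ) : ℂ) := by
  have h := Fermat.Agent.S28.hasQExp_discriminant
  have e : Fermat.Agent.S28.deltaSeries ℂ = HahnSeries.ofPowerSeries ℤ ℂ
      (deltaZ.map (Int.castRingHom ℂ)) := rfl
  rw [e, Fermat.Agent.S28.hasQExp_ofPowerSeries_iff] at h
  have hsum : ∀ τ : ℍ, HasSum (fun m ↦ ((PowerSeries.coeff m deltaZ : ℤ) : ℂ) •
        Function.Periodic.qParam 1 τ ^ m) (u8Delta τ) := by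
    intro τ
    have := h τ
    rw [u8Delta_apply]
    simpa [Fermat.Agent.S28.tParam_one_eq] using this
  exact (ModularFormClass.qExpansion_coeff_unique one_pos one_mem_strictPeriods_SL hsum n).symm

/-! ### The level three forms -/

/-- `E₄(3z)`. -/
noncomputable def u8E4' : ℍ → ℂ := (27 : ℂ)⁻¹ • ⇑(u8V 3 E₄)

/-- `E₆(3z)`. -/
noncomputable def u8E6' : ℍ → ℂ := (243 : ℂ)⁻¹ • ⇑(u8V 3 E₆)

/-- `Δ(3z)`. -/
noncomputable def u8D' : ℍ → ℂ := (177147 : ℂ)⁻¹ • ⇑(u8V 3 u8Delta)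

/-- `(E₄ + 9 E₄(3z)) / 10`. -/
noncomputable def u8T4 : ℍ → ℂ := (10 : ℂ)⁻¹ • (⇑E₄ + (9 : ℂ) • u8E4')

/-- `(E₄ - E₄(3z)) / 240`. -/
noncomputable def u8X4 : ℍ → ℂ := (240 : ℂ)⁻¹ • (⇑E₄ - u8E4')

/-- `(E₆(3z) - E₆) / 504`. -/
noncomputable def u8X6 : ℍ → ℂ := (504 : ℂ)⁻¹ • (u8E6' - ⇑E₆)

/-- `(X4 ^ 3 - Δ(3z)) / 27`. -/
noncomputable def u8M : ℍ → ℂ := (27 : ℂ)⁻¹ • (u8X4 ^ 3 - u8D')

theorem u8E4'_apply (z : ℍ) : u8E4' z = E₄ (heckeDiagMatrix 3 • z) := by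
  simp only [u8E4', Pi.smul_apply, smul_eq_mul, u8V_apply]
  norm_num
  ring

theorem u8E6'_apply (z : ℍ) : u8E6' z = E₆ (heckeDiagMatrix 3 • z) := by
  simp only [u8E6', Pi.smul_apply, smul_eq_mul, u8V_apply]
  norm_num
  ring

theorem u8D'_apply (z : ℍ) : u8D' z = ModularForm.discriminant (heckeDiagMatrix 3 • z) := by
  simp only [u8D', Pi.smul_apply, smul_eq_mul, u8V_apply, u8Delta_apply]
  norm_num
  ring

theorem u8_E4_mem : ⇑E₄ ∈ MF (G0 3) 4 := MF_levelOne_le 3 ⟨E₄, rfl⟩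

theorem u8_E6_mem : ⇑E₆ ∈ MF (G0 3) 6 := MF_levelOne_le 3 ⟨E₆, rfl⟩

theorem u8E4'_mem : u8E4' ∈ MF (G0 3) 4 := Submodule.smul_mem _ _ ⟨u8V 3 E₄, rfl⟩

theorem u8E6'_mem : u8E6' ∈ MF (G0 3) 6 := Submodule.smul_mem _ _ ⟨u8V 3 E₆, rfl⟩

theorem u8D'_mem : u8D' ∈ MF (G0 3) 12 := Submodule.smul_mem _ _ ⟨u8V 3 u8Delta, rfl⟩

theorem u8T4_mem : u8T4 ∈ MF (G0 3) 4 :=
  Submodule.smul_mem _ _ (Submodule.add_mem _ u8_E4_mem (Submodule.smul_mem _ _ u8E4'_mem))

theorem u8X4_mem : u8X4 ∈ MF (G0 3) 4 :=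
  Submodule.smul_mem _ _ (Submodule.sub_mem _ u8_E4_mem u8E4'_mem)

theorem u8X6_mem : u8X6 ∈ MF (G0 3) 6 :=
  Submodule.smul_mem _ _ (Submodule.sub_mem _ u8E6'_mem u8_E6_mem)

theorem u8M_mem : u8M ∈ MF (G0 3) 12 :=
  Submodule.smul_mem _ _ (Submodule.sub_mem _
    (MF_congr (by norm_num) (MF_pow u8X4_mem 3)) u8D'_mem)

theorem u8_qnice {N : ℕ} {w : ℤ} {f : ℍ → ℂ} (hf : f ∈ MF (G0 N) w) : QNice f := by
  obtain ⟨F, rfl⟩ := hf
  exact qnice_Gamma0 F

theorem u8E4'_coeff (n : ℕ) :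
    (qExpansion 1 u8E4').coeff n = if 3 ∣ n then (qExpansion 1 E₄).coeff (n / 3) else 0 := by
  rw [u8E4', QNice.qExpansion_smul _ (qnice_Gamma0 (u8V 3 E₄)), PowerSeries.coeff_smul,
    u8V_coeff]
  split_ifs
  · norm_num
    ring
  · norm_num

theorem u8E6'_coeff (n : ℕ) :
    (qExpansion 1 u8E6').coeff n = if 3 ∣ n then (qExpansion 1 E₆).coeff (n / 3) else 0 := by
  rw [u8E6', QNice.qExpansion_smul _ (qnice_Gamma0 (u8V 3 E₆)), PowerSeries.coeff_smul,
    u8V_coeff]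
  split_ifs
  · norm_num
    ring
  · norm_num

theorem u8D'_coeff (n : ℕ) :
    (qExpansion 1 u8D').coeff n =
      if 3 ∣ n then ((PowerSeries.coeff (n / 3) deltaZ : ℤ) : ℂ) else 0 := by
  rw [u8D', QNice.qExpansion_smul _ (qnice_Gamma0 (u8V 3 u8Delta)), PowerSeries.coeff_smul,
    u8V_coeff]
  split_ifs
  · rw [u8_Delta_coeff]
    norm_num
    ring
  · norm_num

/-- Coefficients of `u8X4`. -/
noncomputable def u8x4c (n : ℕ) : ℤ := u8s 3 n - if 3 ∣ n then u8s 3 (n / 3) else 0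

/-- Coefficients of `u8X6`. -/
noncomputable def u8x6c (n : ℕ) : ℤ := u8s 5 n - if 3 ∣ n then u8s 5 (n / 3) else 0

/-- Coefficients of `u8T4`. -/
noncomputable def u8t4c (n : ℕ) : ℤ :=
  (if n = 0 then 1 else 0) + 24 * u8s 3 n + if 3 ∣ n then 216 * u8s 3 (n / 3) else 0

theorem u8X4_coeff (n : ℕ) : (qExpansion 1 u8X4).coeff n = ((u8x4c n : ℤ) : ℂ) := by
  rw [u8X4, QNice.qExpansion_smul _ ((u8_qnice u8_E4_mem).sub (u8_qnice u8E4'_mem)),
    QNice.qExpansion_sub (u8_qnice u8_E4_mem) (u8_qnice u8E4'_mem), PowerSeries.coeff_smul,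
    map_sub, u8E4'_coeff, u8_E4_coeff, u8x4c]
  by_cases h3 : 3 ∣ n
  · rw [if_pos h3, if_pos h3, u8_E4_coeff]
    have hn : n / 3 = 0 ↔ n = 0 := by omega
    by_cases h0 : n = 0
    · subst h0; simp [u8s_zero]
    · rw [if_neg h0, if_neg (fun h => h0 (hn.mp h))]
      push_cast
      simp only [smul_eq_mul]
      ring
  · rw [if_neg h3, if_neg h3]
    have h0 : n ≠ 0 := fun h => h3 (h ▸ dvd_zero 3)
    rw [if_neg h0]
    push_cast
    simp only [smul_eq_mul]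
    ring

theorem u8X6_coeff (n : ℕ) : (qExpansion 1 u8X6).coeff n = ((u8x6c n : ℤ) : ℂ) := by
  rw [u8X6, QNice.qExpansion_smul _ ((u8_qnice u8E6'_mem).sub (u8_qnice u8_E6_mem)),
    QNice.qExpansion_sub (u8_qnice u8E6'_mem) (u8_qnice u8_E6_mem), PowerSeries.coeff_smul,
    map_sub, u8E6'_coeff, u8_E6_coeff n, u8x6c]
  by_cases h3 : 3 ∣ n
  · rw [if_pos h3, if_pos h3, u8_E6_coeff (n / 3)]
    have hn : n / 3 = 0 ↔ n = 0 := by omega
    by_cases h0 : n = 0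
    · subst h0; simp [u8s_zero]
    · rw [if_neg h0, if_neg (fun h => h0 (hn.mp h))]
      push_cast
      simp only [smul_eq_mul]
      ring
  · rw [if_neg h3, if_neg h3]
    have h0 : n ≠ 0 := fun h => h3 (h ▸ dvd_zero 3)
    rw [if_neg h0]
    push_cast
    simp only [smul_eq_mul]
    ring

theorem u8T4_coeff (n : ℕ) : (qExpansion 1 u8T4).coeff n = ((u8t4c n : ℤ) : ℂ) := by
  have hq : QNice ((9 : ℂ) • u8E4') := (u8_qnice u8E4'_mem).smul 9
  rw [u8T4, QNice.qExpansion_smul _ ((u8_qnice u8_E4_mem).add hq),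
    QNice.qExpansion_add (u8_qnice u8_E4_mem) hq, QNice.qExpansion_smul _ (u8_qnice u8E4'_mem),
    PowerSeries.coeff_smul, map_add, PowerSeries.coeff_smul, u8E4'_coeff, u8_E4_coeff, u8t4c]
  by_cases h3 : 3 ∣ n
  · rw [if_pos h3, if_pos h3, u8_E4_coeff]
    have hn : n / 3 = 0 ↔ n = 0 := by omega
    by_cases h0 : n = 0
    · subst h0; simp [u8s_zero]; norm_num
    · rw [if_neg h0, if_neg (fun h => h0 (hn.mp h))]
      push_cast
      simp only [smul_eq_mul]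
      ring
  · rw [if_neg h3, if_neg h3]
    have h0 : n ≠ 0 := fun h => h3 (h ▸ dvd_zero 3)
    rw [if_neg h0]
    push_cast
    simp only [smul_eq_mul]
    ring

/-! ### The congruence `X4 ≡ X6 mod 8` -/

theorem u8s_three_sub_five (n : ℕ) : (8 : ℤ) ∣ u8s 3 n - u8s 5 n := by
  simp only [u8s, ArithmeticFunction.sigma_apply]
  push_cast
  rw [← Finset.sum_sub_distrib]
  refine Finset.dvd_sum fun d _ => ?_
  have h : ∀ r : ZMod 8, r ^ 3 - r ^ 5 = 0 := by decide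
  have h2 : (((d : ℤ) ^ 3 - (d : ℤ) ^ 5 : ℤ) : ZMod 8) = 0 := by
    push_cast
    exact h _
  exact (ZMod.intCast_zmod_eq_zero_iff_dvd _ 8).mp h2

theorem u8x4c_sub_u8x6c (n : ℕ) : (8 : ℤ) ∣ u8x4c n - u8x6c n := by
  unfold u8x4c u8x6c
  split_ifs with h
  · have := dvd_sub (u8s_three_sub_five n) (u8s_three_sub_five (n / 3))
    have e : u8s 3 n - u8s 3 (n / 3) - (u8s 5 n - u8s 5 (n / 3)) =
        u8s 3 n - u8s 5 n - (u8s 3 (n / 3) - u8s 5 (n / 3)) := by ring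
    rw [e]
    exact this
  · simpa using u8s_three_sub_five n

/-! ### Power series bookkeeping -/

/-- `P = X ^ j * u` with `u(0) = 1`. -/
def u8Lead (j : ℕ) (P : PowerSeries ℂ) : Prop :=
  ∃ u : PowerSeries ℂ, P = PowerSeries.X ^ j * u ∧ PowerSeries.constantCoeff u = 1

theorem u8Lead_of_coeff {j : ℕ} {P : PowerSeries ℂ} (h : ∀ n < j, PowerSeries.coeff n P = 0)
    (h1 : PowerSeries.coeff j P = 1) : u8Lead j P := by
  refine ⟨PowerSeries.mk fun n => PowerSeries.coeff (n + j) P, ?_, ?_⟩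
  · ext n
    rw [PowerSeries.coeff_X_pow_mul']
    split_ifs with hn
    · rw [PowerSeries.coeff_mk, Nat.sub_add_cancel hn]
    · exact h n (by omega)
  · rw [← PowerSeries.coeff_zero_eq_constantCoeff_apply, PowerSeries.coeff_mk, zero_add, h1]

theorem u8Lead.coeff_lt {j n : ℕ} {P : PowerSeries ℂ} (h : u8Lead j P) (hn : n < j) :
    PowerSeries.coeff n P = 0 := by
  obtain ⟨u, rfl, -⟩ := h
  rw [PowerSeries.coeff_X_pow_mul', if_neg (by omega)]

theorem u8Lead.coeff_self {j : ℕ} {P : PowerSeries ℂ} (h : u8Lead j P) :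
    PowerSeries.coeff j P = 1 := by
  obtain ⟨u, rfl, hu⟩ := h
  rw [PowerSeries.coeff_X_pow_mul', if_pos le_rfl, Nat.sub_self,
    PowerSeries.coeff_zero_eq_constantCoeff_apply, hu]

theorem u8Lead.mul {i j : ℕ} {P Q : PowerSeries ℂ} (hP : u8Lead i P) (hQ : u8Lead j Q) :
    u8Lead (i + j) (P * Q) := by
  obtain ⟨u, rfl, hu⟩ := hP
  obtain ⟨v, rfl, hv⟩ := hQ
  exact ⟨u * v, by ring, by simp [hu, hv]⟩

theorem u8Lead.pow {i : ℕ} {P : PowerSeries ℂ} (hP : u8Lead i P) (n : ℕ) :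
    u8Lead (n * i) (P ^ n) := by
  obtain ⟨u, rfl, hu⟩ := hP
  exact ⟨u ^ n, by rw [mul_pow, ← pow_mul, mul_comm i n], by simp [hu]⟩

/-- All coefficients of `P` lie in the subring `O`. -/
def u8InO (O : Subring ℂ) (P : PowerSeries ℂ) : Prop := ∀ n, PowerSeries.coeff n P ∈ O

theorem u8InO.mul {O : Subring ℂ} {P Q : PowerSeries ℂ} (hP : u8InO O P) (hQ : u8InO O Q) :
    u8InO O (P * Q) := fun n => by
  rw [PowerSeries.coeff_mul]
  exact Subring.sum_mem O fun x _ => O.mul_mem (hP _) (hQ _)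

theorem u8InO.one {O : Subring ℂ} : u8InO O 1 := fun n => by
  rw [PowerSeries.coeff_one]
  split_ifs
  · exact O.one_mem
  · exact O.zero_mem

theorem u8InO.pow {O : Subring ℂ} {P : PowerSeries ℂ} (hP : u8InO O P) (n : ℕ) :
    u8InO O (P ^ n) := by
  induction n with
  | zero => simpa using (u8InO.one : u8InO O 1)
  | succ n ih => rw [pow_succ]; exact ih.mul hP

theorem u8InO.sub {O : Subring ℂ} {P Q : PowerSeries ℂ} (hP : u8InO O P) (hQ : u8InO O Q) :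
    u8InO O (P - Q) := fun n => by
  rw [map_sub]
  exact O.sub_mem (hP n) (hQ n)

theorem u8InO.add {O : Subring ℂ} {P Q : PowerSeries ℂ} (hP : u8InO O P) (hQ : u8InO O Q) :
    u8InO O (P + Q) := fun n => by
  rw [map_add]
  exact O.add_mem (hP n) (hQ n)

theorem u8InO.smul {O : Subring ℂ} {P : PowerSeries ℂ} {c : ℂ} (hc : c ∈ O) (hP : u8InO O P) :
    u8InO O (c • P) := fun n => by
  rw [PowerSeries.coeff_smul, smul_eq_mul]
  exact O.mul_mem hc (hP n)

theorem u8InO.sum {O : Subring ℂ} {ι : Type*} (s : Finset ι) {P : ι → PowerSeries ℂ}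
    (h : ∀ i ∈ s, u8InO O (P i)) : u8InO O (∑ i ∈ s, P i) := fun n => by
  rw [map_sum]
  exact Subring.sum_mem O fun i hi => h i hi n

theorem u8InO_of_int {O : Subring ℂ} {P : PowerSeries ℂ} (a : ℕ → ℤ)
    (h : ∀ n, PowerSeries.coeff n P = ((a n : ℤ) : ℂ)) : u8InO O P := fun n => by
  rw [h]
  exact intCast_mem O _

/-- Triangular elimination. -/
theorem u8_elim (O : Subring ℂ) (B : ℕ → PowerSeries ℂ) (J : ℕ)
    (hB : ∀ i < J, u8InO O (B i) ∧ u8Lead i (B i)) (P : PowerSeries ℂ) (hP : u8InO O P) :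
    ∃ c : ℕ → ℂ, (∀ i, c i ∈ O) ∧
      ∀ n < J, PowerSeries.coeff n (P - ∑ i ∈ Finset.range J, c i • B i) = 0 := by
  induction J with
  | zero => exact ⟨fun _ => 0, fun _ => O.zero_mem, fun n hn => absurd hn (Nat.not_lt_zero n)⟩
  | succ J ih =>
    obtain ⟨c, hc, h⟩ := ih (fun i hi => hB i (Nat.lt_succ_of_lt hi))
    set R := P - ∑ i ∈ Finset.range J, c i • B i with hR
    have hRO : u8InO O R :=
      hP.sub (u8InO.sum _ fun i hi =>
        (hB i (Nat.lt_succ_of_lt (Finset.mem_range.mp hi))).1.smul (hc i))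
    refine ⟨Function.update c J (PowerSeries.coeff J R), ?_, ?_⟩
    · intro i
      by_cases hi : i = J
      · subst hi
        rw [Function.update_self]
        exact hRO i
      · rw [Function.update_of_ne hi]
        exact hc i
    · intro n hn
      have hsum : ∑ i ∈ Finset.range (J + 1),
          Function.update c J (PowerSeries.coeff J R) i • B i =
          ∑ i ∈ Finset.range J, c i • B i + PowerSeries.coeff J R • B J := by
        rw [Finset.sum_range_succ, Function.update_self]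
        congr 1
        refine Finset.sum_congr rfl fun i hi => ?_
        rw [Function.update_of_ne (Finset.mem_range.mp hi).ne]
      rw [hsum, ← sub_sub, ← hR, map_sub, PowerSeries.coeff_smul, smul_eq_mul]
      rcases Nat.lt_succ_iff_lt_or_eq.mp hn with hlt | rfl
      · rw [h n hlt, (hB J (Nat.lt_succ_self J)).2.coeff_lt hlt]
        ring
      · rw [(hB n (Nat.lt_succ_self n)).2.coeff_self]
        ring

/-! ### Leading terms of the level three forms -/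

theorem u8X4_inO (O : Subring ℂ) : u8InO O (qExpansion 1 u8X4) :=
  u8InO_of_int u8x4c u8X4_coeff

theorem u8X6_inO (O : Subring ℂ) : u8InO O (qExpansion 1 u8X6) :=
  u8InO_of_int u8x6c u8X6_coeff

theorem u8T4_inO (O : Subring ℂ) : u8InO O (qExpansion 1 u8T4) :=
  u8InO_of_int u8t4c u8T4_coeff

theorem u8X4_lead : u8Lead 1 (qExpansion 1 u8X4) := by
  refine u8Lead_of_coeff (fun n hn => ?_) ?_
  · interval_cases n
    rw [u8X4_coeff]
    simp [u8x4c, u8s_zero]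
  · rw [u8X4_coeff]
    simp [u8x4c, u8s_one]

theorem u8T4_lead : u8Lead 0 (qExpansion 1 u8T4) := by
  refine u8Lead_of_coeff (fun n hn => absurd hn (Nat.not_lt_zero n)) ?_
  rw [u8T4_coeff]
  simp [u8t4c, u8s_zero]

theorem u8X4_coeff_two : (qExpansion 1 u8X4).coeff 2 = 9 := by
  rw [u8X4_coeff]
  have h : u8s 3 2 = 9 := by
    have : (ArithmeticFunction.sigma 3 2 : ℕ) = 9 := by decide
    simp [u8s, this]
  simp [u8x4c, h]

theorem u8M_qexp :
    qExpansion 1 u8M = (27 : ℂ)⁻¹ • (qExpansion 1 u8X4 ^ 3 - qExpansion 1 u8D') := by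
  have h3 : QNice (u8X4 ^ 3) := (u8_qnice u8X4_mem).pow 3
  rw [u8M, QNice.qExpansion_smul _ (h3.sub (u8_qnice u8D'_mem)),
    QNice.qExpansion_sub h3 (u8_qnice u8D'_mem), QNice.qExpansion_pow (u8_qnice u8X4_mem)]

theorem u8D'_inO (O : Subring ℂ) : u8InO O (qExpansion 1 u8D') := fun n => by
  rw [u8D'_coeff]
  split_ifs
  · exact intCast_mem O _
  · exact O.zero_mem

theorem u8M_inO (O : Subring ℂ) (h3 : (3 : ℂ)⁻¹ ∈ O) : u8InO O (qExpansion 1 u8M) := by
  rw [u8M_qexp]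
  have h27 : (27 : ℂ)⁻¹ ∈ O := by
    have : (27 : ℂ)⁻¹ = (3 : ℂ)⁻¹ ^ 3 := by norm_num
    rw [this]
    exact O.pow_mem h3 3
  exact u8InO.smul h27 (((u8X4_inO O).pow 3).sub (u8D'_inO O))

theorem u8M_lead : u8Lead 4 (qExpansion 1 u8M) := by
  obtain ⟨u, hu, hu0⟩ := u8X4_lead
  have hu1 : PowerSeries.coeff 1 u = 9 := by
    have h := u8X4_coeff_two
    rw [hu, PowerSeries.coeff_X_pow_mul', if_pos (by norm_num)] at h
    exact h
  have hcube : qExpansion 1 u8X4 ^ 3 = PowerSeries.X ^ 3 * u ^ 3 := by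
    rw [hu]; ring
  have hc : ∀ n, PowerSeries.coeff n (qExpansion 1 u8M) =
      (27 : ℂ)⁻¹ * ((if 3 ≤ n then PowerSeries.coeff (n - 3) (u ^ 3) else 0) -
        if 3 ∣ n then ((PowerSeries.coeff (n / 3) deltaZ : ℤ) : ℂ) else 0) := by
    intro n
    rw [u8M_qexp, PowerSeries.coeff_smul, smul_eq_mul, map_sub, hcube,
      PowerSeries.coeff_X_pow_mul', u8D'_coeff]
  have h0 : PowerSeries.coeff 0 (u ^ 3) = 1 := by
    rw [PowerSeries.coeff_zero_eq_constantCoeff_apply, map_pow, hu0, one_pow]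
  have h1 : PowerSeries.coeff 1 (u ^ 3) = 27 := by
    rw [PowerSeries.coeff_one_pow, hu1, hu0]
    norm_num
  have hd0 : PowerSeries.coeff 0 deltaZ = 0 := by
    rw [PowerSeries.coeff_zero_eq_constantCoeff_apply, constantCoeff_deltaZ]
  refine u8Lead_of_coeff (fun n hn => ?_) ?_
  · rw [hc]
    interval_cases n
    · simp [hd0]
    · norm_num
    · norm_num
    · simp [h0, coeff_one_deltaZ]
  · rw [hc]
    simp [h1]

/-! ### The elliptic point -/

/-- The elliptic point `(3 + i√3)/6` of `Γ₀(3)`. -/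
noncomputable def u8z1 : ℍ := ⟨⟨1 / 2, Real.sqrt 3 / 6⟩, by
  show (0 : ℝ) < Real.sqrt 3 / 6
  positivity⟩

theorem u8z1_coe : (u8z1 : ℂ) = ⟨1 / 2, Real.sqrt 3 / 6⟩ := rfl

theorem u8z1_quad : 3 * (u8z1 : ℂ) ^ 2 - 3 * (u8z1 : ℂ) + 1 = 0 := by
  have h3 : Real.sqrt 3 ^ 2 = 3 := Real.sq_sqrt (by norm_num)
  rw [u8z1_coe]
  apply Complex.ext
  · simp [pow_two]
    nlinarith [h3]
  · simp [pow_two]
    ring

/-- The elliptic element `[[1, -1], [3, -2]]`. -/
def u8g1 : SL(2, ℤ) := ⟨!![1, -1; 3, -2], by norm_num [Matrix.det_fin_two_of]⟩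

theorem u8g1_mem : u8g1 ∈ Gamma0 3 := by
  rw [Gamma0_mem]
  simp [u8g1]
  rfl

theorem u8g1_smul : u8g1 • u8z1 = u8z1 := by
  apply UpperHalfPlane.ext
  rw [coe_specialLinearGroup_apply]
  have hq := u8z1_quad
  have hden : (3 : ℂ) * (u8z1 : ℂ) - 2 ≠ 0 := by
    intro h
    have := congrArg Complex.im h
    rw [u8z1_coe] at this
    simp at this
  simp [u8g1]
  rw [div_eq_iff (by convert hden using 1; ring)]
  linear_combination (-1 : ℂ) * hq

theorem u8g1_denom : denom u8g1 u8z1 = 3 * (u8z1 : ℂ) - 2 := by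
  rw [ModularGroup.denom_apply]
  simp [u8g1]
  ring

/-- Forms of weight `4` on `Γ₀(3)` vanish at `u8z1`. -/
theorem u8_wt4_z1 {f : ℍ → ℂ} (hf : f ∈ MF (G0 3) 4) : f u8z1 = 0 := by
  obtain ⟨F, rfl⟩ := hf
  have h := SlashInvariantForm.slash_action_eqn_SL'' F u8g1_mem u8z1
  rw [u8g1_smul, u8g1_denom] at h
  have hq := u8z1_quad
  set z : ℂ := (u8z1 : ℂ) with hz
  have hw3 : (3 * z - 2) ^ (4 : ℤ) = 3 * z - 2 := by
    have : (3 * z - 2) ^ (4 : ℤ) = (3 * z - 2) ^ 4 := by norm_cast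
    rw [this]
    linear_combination (27 * z ^ 2 - 45 * z + 18) * hq
  rw [hw3] at h
  have hne : (3 : ℂ) * z - 2 - 1 ≠ 0 := by
    intro h0
    have := congrArg Complex.im h0
    rw [hz, u8z1_coe] at this
    simp at this
  have h2 : (3 * z - 2 - 1) * F u8z1 = 0 := by linear_combination -h
  exact (mul_eq_zero.mp h2).resolve_left hne

/-- The point `3 z₁`. -/
noncomputable def u8z3 : ℍ := heckeDiagMatrix 3 • u8z1

theorem u8z3_coe : (u8z3 : ℂ) = 3 * (u8z1 : ℂ) := by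
  rw [u8z3, coe_heckeDiagMatrix_smul (by norm_num)]
  norm_num

/-- The element `[[0, -1], [1, -3]]`, mapping `3 z₁` to `z₁`. -/
def u8g2 : SL(2, ℤ) := ⟨!![0, -1; 1, -3], by norm_num [Matrix.det_fin_two_of]⟩

theorem u8g2_smul : u8g2 • u8z3 = u8z1 := by
  apply UpperHalfPlane.ext
  rw [coe_specialLinearGroup_apply]
  have hq := u8z1_quad
  have hden : (3 : ℂ) * (u8z1 : ℂ) - 3 ≠ 0 := by
    intro h
    have := congrArg Complex.im h
    rw [u8z1_coe] at this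
    simp at this
  simp [u8g2, u8z3_coe]
  rw [eq_comm, eq_div_iff (by convert hden using 1; ring)]
  linear_combination hq

theorem u8g2_denom : denom u8g2 u8z3 = 3 * (u8z1 : ℂ) - 3 := by
  rw [ModularGroup.denom_apply, u8z3_coe]
  simp [u8g2]
  ring

theorem u8_levelOne_z1 {k : ℤ} (φ : ModularForm 𝒮ℒ k) :
    φ u8z1 = (3 * (u8z1 : ℂ) - 3) ^ k * φ u8z3 := by
  have h := SlashInvariantForm.slash_action_eqn'' φ (⟨u8g2, rfl⟩ :
    (Matrix.SpecialLinearGroup.mapGL ℝ u8g2) ∈ 𝒮ℒ) u8z3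
  have e : (Matrix.SpecialLinearGroup.mapGL ℝ u8g2) • u8z3 = u8z1 := u8g2_smul
  rw [e] at h
  rw [h]
  congr 1
  exact congrArg (· ^ k) u8g2_denom

theorem u8_w_ne : 3 * (u8z1 : ℂ) - 3 ≠ 0 := by
  intro h
  have := congrArg Complex.im h
  rw [u8z1_coe] at this
  simp at this

theorem u8_w6 : (3 * (u8z1 : ℂ) - 3) ^ (6 : ℤ) = -27 := by
  have hq := u8z1_quad
  set z : ℂ := (u8z1 : ℂ) with hz
  have : (3 * z - 3) ^ (6 : ℤ) = (3 * z - 3) ^ 6 := by norm_cast
  rw [this]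
  linear_combination (243 * z ^ 4 - 1215 * z ^ 3 + 2349 * z ^ 2 - 2106 * z + 756) * hq

theorem u8_E4_z3 : E₄ u8z3 = 0 := by
  have h := u8_levelOne_z1 E₄
  rw [u8_wt4_z1 u8_E4_mem] at h
  exact (mul_eq_zero.mp h.symm).resolve_left (zpow_ne_zero _ u8_w_ne)

theorem u8_E6_z1 : E₆ u8z1 = -27 * E₆ u8z3 := by
  rw [u8_levelOne_z1 E₆, u8_w6]

theorem u8X4_z1 : u8X4 u8z1 = 0 := u8_wt4_z1 u8X4_mem

theorem u8T4_z1 : u8T4 u8z1 = 0 := u8_wt4_z1 u8T4_mem

theorem u8X6_z1 : u8X6 u8z1 = E₆ u8z3 / 18 := by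
  simp only [u8X6, Pi.smul_apply, Pi.sub_apply, smul_eq_mul, u8E6'_apply]
  rw [u8_E6_z1]
  show (504 : ℂ)⁻¹ * (E₆ u8z3 - -27 * E₆ u8z3) = E₆ u8z3 / 18
  ring

theorem u8_disc_z3 : ModularForm.discriminant u8z3 = -(E₆ u8z3 ^ 2) / 1728 := by
  rw [ModularForm.discriminant_eq_E₄_cube_sub_E₆_sq, u8_E4_z3]
  ring

theorem u8M_z1 : u8M u8z1 = E₆ u8z3 ^ 2 / 46656 := by
  simp only [u8M, Pi.smul_apply, Pi.sub_apply, Pi.pow_apply, smul_eq_mul, u8D'_apply, u8X4_z1]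
  show (27 : ℂ)⁻¹ * (0 ^ 3 - ModularForm.discriminant u8z3) = E₆ u8z3 ^ 2 / 46656
  rw [u8_disc_z3]
  ring

theorem u8M_z1_ne : u8M u8z1 ≠ 0 := by
  simp only [u8M, Pi.smul_apply, Pi.sub_apply, Pi.pow_apply, smul_eq_mul, u8D'_apply, u8X4_z1]
  have h : ModularForm.discriminant (heckeDiagMatrix 3 • u8z1) ≠ 0 :=
    ModularForm.discriminant_ne_zero _
  simpa using h

theorem u8X6_z1_sq : u8X6 u8z1 ^ 2 = 144 * u8M u8z1 := by
  rw [u8X6_z1, u8M_z1]
  ring

/-! ### The triangular family and the structure theorem -/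

/-- The monomial of weight `12 m` with `q`-order `i`. -/
noncomputable def u8mono (m i : ℕ) : ℍ → ℂ :=
  u8M ^ (i / 4) * u8X4 ^ (i % 4) * u8T4 ^ (3 * m - 3 * (i / 4) - i % 4)

theorem u8mono_mem (m i : ℕ) (hi : i ≤ 4 * m) : u8mono m i ∈ MF (G0 3) (12 * m) := by
  have h := MF_mul (MF_mul (MF_pow u8M_mem (i / 4)) (MF_pow u8X4_mem (i % 4)))
    (MF_pow u8T4_mem (3 * m - 3 * (i / 4) - i % 4))
  refine MF_congr ?_ h
  have h1 : 3 * (i / 4) + i % 4 ≤ 3 * m := by omega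
  omega

theorem u8mono_qexp (m i : ℕ) :
    qExpansion 1 (u8mono m i) = qExpansion 1 u8M ^ (i / 4) * qExpansion 1 u8X4 ^ (i % 4) *
      qExpansion 1 u8T4 ^ (3 * m - 3 * (i / 4) - i % 4) := by
  have hM := u8_qnice u8M_mem
  have hX := u8_qnice u8X4_mem
  have hT := u8_qnice u8T4_mem
  unfold u8mono
  rw [QNice.qExpansion_mul ((hM.pow _).mul (hX.pow _)) (hT.pow _),
    QNice.qExpansion_mul (hM.pow _) (hX.pow _), hM.qExpansion_pow, hX.qExpansion_pow,
    hT.qExpansion_pow]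

theorem u8mono_lead (m i : ℕ) : u8Lead i (qExpansion 1 (u8mono m i)) := by
  rw [u8mono_qexp]
  have h := ((u8M_lead.pow (i / 4)).mul (u8X4_lead.pow (i % 4))).mul
    (u8T4_lead.pow (3 * m - 3 * (i / 4) - i % 4))
  have e : i / 4 * 4 + i % 4 * 1 + (3 * m - 3 * (i / 4) - i % 4) * 0 = i := by omega
  rw [e] at h
  exact h

theorem u8mono_inO (O : Subring ℂ) (h3 : (3 : ℂ)⁻¹ ∈ O) (m i : ℕ) :
    u8InO O (qExpansion 1 (u8mono m i)) := by
  rw [u8mono_qexp]
  exact (((u8M_inO O h3).pow _).mul ((u8X4_inO O).pow _)).mul ((u8T4_inO O).pow _)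

theorem u8mono_z1 (m i : ℕ) (hi : i ≤ 4 * m) :
    u8mono m i u8z1 = if i = 4 * m then u8M u8z1 ^ m else 0 := by
  simp only [u8mono, Pi.mul_apply, Pi.pow_apply, u8X4_z1, u8T4_z1]
  split_ifs with h
  · subst h
    have h1 : 4 * m / 4 = m := by omega
    have h2 : 4 * m % 4 = 0 := by omega
    rw [h1, h2]
    have h3 : 3 * m - 3 * m - 0 = 0 := by omega
    rw [h3]
    simp
  · by_cases hb : i % 4 = 0
    · have he : 3 * m - 3 * (i / 4) - i % 4 ≠ 0 := by omega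
      rw [zero_pow he, mul_zero]
    · rw [zero_pow hb, mul_zero, zero_mul]

theorem u8_index : (Gamma0 3).index = 4 := by
  rw [Fermat.Agent.S24.idx_index_eq 3 (by norm_num)]
  have h := Fermat.Agent.S24.idx_dedekindPsi_mul_of_not_dvd (M := 1) (p := 3) one_ne_zero
    (by norm_num) (by norm_num)
  rw [ModularCurve.dedekindPsi_one] at h
  exact h

/-- Structure theorem at the elliptic point: a form of weight `12 m` on `Γ₀(3)` whose
`q`-coefficients lie in a subring `O ∋ 1/3` has value in `O · u8M z₁ ^ m` at `z₁`. -/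
theorem u8_structure (O : Subring ℂ) (h3 : (3 : ℂ)⁻¹ ∈ O) (m : ℕ) (F : ℍ → ℂ)
    (hF : F ∈ MF (G0 3) (12 * m)) (hO : u8InO O (qExpansion 1 F)) :
    ∃ c ∈ O, F u8z1 = c * u8M u8z1 ^ m := by
  obtain ⟨c, hc, h⟩ := u8_elim O (fun i => qExpansion 1 (u8mono m i)) (4 * m + 1)
    (fun i _ => ⟨u8mono_inO O h3 m i, u8mono_lead m i⟩) _ hO
  have hmem : ∀ i ∈ Finset.range (4 * m + 1), c i • u8mono m i ∈ MF (G0 3) (12 * m) :=
    fun i hi => Submodule.smul_mem _ _ (u8mono_mem m i (by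
      have := Finset.mem_range.mp hi
      omega))
  have hS : ∑ i ∈ Finset.range (4 * m + 1), c i • u8mono m i ∈ MF (G0 3) (12 * m) :=
    Submodule.sum_mem _ hmem
  have hH : F - ∑ i ∈ Finset.range (4 * m + 1), c i • u8mono m i ∈ MF (G0 3) (12 * m) :=
    Submodule.sub_mem _ hF hS
  have hq : qExpansion 1 (F - ∑ i ∈ Finset.range (4 * m + 1), c i • u8mono m i) =
      qExpansion 1 F - ∑ i ∈ Finset.range (4 * m + 1), c i • qExpansion 1 (u8mono m i) := by
    rw [QNice.qExpansion_sub (u8_qnice hF) (u8_qnice hS),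
      QNice.qExpansion_sum _ (fun i hi => u8_qnice (hmem i hi))]
    congr 1
    refine Finset.sum_congr rfl fun i hi => ?_
    rw [QNice.qExpansion_smul _ (u8_qnice (u8mono_mem m i (by
      have := Finset.mem_range.mp hi
      omega)))]
  have hH0 : F - ∑ i ∈ Finset.range (4 * m + 1), c i • u8mono m i = 0 := by
    obtain ⟨Hf, hHf⟩ := hH
    have hHf' : ⇑Hf = F - ∑ i ∈ Finset.range (4 * m + 1), c i • u8mono m i := hHf
    have h0 : Hf = 0 := by
      refine ModularForm.sturm_bound_Gamma0 3 Hf fun n hn => ?_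
      rw [hHf', hq]
      apply h n
      rw [u8_index] at hn
      have e : ((12 * (m : ℤ)) * ((4 : ℕ) : ℤ)).toNat / 12 = 4 * m := by omega
      rw [e] at hn
      omega
    rw [← hHf', h0]
    rfl
  have hFz : F u8z1 = ∑ i ∈ Finset.range (4 * m + 1), c i * u8mono m i u8z1 := by
    have := congrFun hH0 u8z1
    simp only [Pi.sub_apply, Finset.sum_apply, Pi.smul_apply, smul_eq_mul, Pi.zero_apply] at this
    exact sub_eq_zero.mp this
  refine ⟨c (4 * m), hc _, ?_⟩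
  rw [hFz, Finset.sum_eq_single (4 * m)]
  · rw [u8mono_z1 m (4 * m) le_rfl, if_pos rfl]
  · intro i hi hne
    rw [u8mono_z1 m i (by
      have := Finset.mem_range.mp hi
      omega), if_neg hne, mul_zero]
  · intro hn
    exact absurd (Finset.mem_range.mpr (Nat.lt_succ_self _)) hn


end Fermat.Agent.S16
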