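import Fermat.Agent.S16.Eis2
import Fermat.Agent.S16.Ramanujan
import Fermat.Agent.S16.TriBasis
import Fermat.Agent.S24.Index

/-!
# S16, piece U8 (formal route): the quartic of level three

For `b = 1 + 12 ∑ σ'₃(n) qⁿ` (`σ'₃(n)` the sum of the divisors of `n` prime to `3`), i.e.
`b = -(1/2) (E₂(z) - 3 E₂(3z))`, we prove the identity of integral power series
`27 b⁴ - 18 E₄ b² - 8 E₆ b - E₄² = 0` (`u8q_quartic`, `u8q_quartic'`): the left side is the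
`q`-expansion of a modular form of weight `8` and level `Γ₀(3)` whose first three coefficients
vanish (Sturm bound `2`).
-/

set_option autoImplicit false

open UpperHalfPlane ModularForm Complex EisensteinSeries
open scoped Real MatrixGroups CongruenceSubgroup Manifold

noncomputable section

namespace Fermat.Agent.S16

open PowerSeries


/-- `∑ σ'₃(n) qⁿ`, `σ'₃(n)` the sum of the divisors of `n` prime to `3`. -/
def u8qX : PowerSeries ℤ := PowerSeries.mk fun n => ∑ d ∈ n.divisors with ¬ 3 ∣ d, (d : ℤ)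

/-- `∑ σ₃(n) qⁿ`. -/
def u8qS3 : PowerSeries ℤ := PowerSeries.mk fun n => ∑ d ∈ n.divisors, (d : ℤ) ^ 3

theorem u8q_constantCoeff_X : constantCoeff u8qX = 0 := by
  rw [← coeff_zero_eq_constantCoeff_apply]
  simp [u8qX]

theorem u8q_coeff_one_X : coeff 1 u8qX = 1 := by
  rw [u8qX, coeff_mk]
  decide

theorem u8q_constantCoeff_S3 : constantCoeff u8qS3 = 0 := by
  rw [← coeff_zero_eq_constantCoeff_apply]
  simp [u8qS3]

theorem u8q_coeff_one_S3 : coeff 1 u8qS3 = 1 := by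
  simp [u8qS3]

theorem u8q_e4Z_eq : e4Z = 1 + 240 * u8qS3 := by
  ext n
  rw [coeff_e4Z]
  have h240 : (240 : PowerSeries ℤ) = C (240 : ℤ) := (map_ofNat (C (R := ℤ)) 240).symm
  rw [map_add, h240, coeff_C_mul, coeff_one]
  rcases Nat.eq_zero_or_pos n with rfl | hn
  · simp [u8qS3]
  · have hn0 : n ≠ 0 := by omega
    simp [u8qS3, hn0]

theorem u8q_e2pZ_eq : e2pZ 3 = -2 * (1 + 12 * u8qX) := by
  ext n
  rw [coeff_e2pZ]
  have h2 : (-2 : PowerSeries ℤ) = C (-2 : ℤ) := by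
    rw [map_neg]; congr 1
  have h12 : (12 : PowerSeries ℤ) = C (12 : ℤ) := (map_ofNat (C (R := ℤ)) 12).symm
  rw [h2, coeff_C_mul, map_add, h12, coeff_C_mul, coeff_one]
  rcases Nat.eq_zero_or_pos n with rfl | hn
  · simp [u8qX, e2pCoeff]
  · have hn0 : n ≠ 0 := by omega
    rw [e2pCoeff_of_ne_zero 3 n hn0]
    simp [u8qX, hn0]
    ring

theorem u8q_coeff_mul_zero (f g : PowerSeries ℤ) :
    coeff 0 (f * g) = coeff 0 f * coeff 0 g := by
  simp [coeff_mul]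

theorem u8q_coeff_mul_one (f g : PowerSeries ℤ) :
    coeff 1 (f * g) = coeff 0 f * coeff 1 g + coeff 1 f * coeff 0 g := by
  rw [coeff_mul, Finset.Nat.sum_antidiagonal_eq_sum_range_succ_mk]
  simp [Finset.sum_range_succ]

theorem u8q_coeff_mul_two (f g : PowerSeries ℤ) :
    coeff 2 (f * g) = coeff 0 f * coeff 2 g + coeff 1 f * coeff 1 g + coeff 2 f * coeff 0 g := by
  rw [coeff_mul, Finset.Nat.sum_antidiagonal_eq_sum_range_succ_mk]
  simp [Finset.sum_range_succ]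

theorem u8q_coeffs_a : coeff 0 (e2pZ 3) = -2 ∧ coeff 1 (e2pZ 3) = -24 ∧ coeff 2 (e2pZ 3) = -72 := by
  refine ⟨?_, ?_, ?_⟩
  · rw [coeff_e2pZ]; rfl
  · rw [coeff_e2pZ, e2pCoeff_of_ne_zero 3 1 one_ne_zero]; decide
  · rw [coeff_e2pZ, e2pCoeff_of_ne_zero 3 2 two_ne_zero]; decide

theorem u8q_coeffs_e4 : coeff 0 e4Z = 1 ∧ coeff 1 e4Z = 240 ∧ coeff 2 e4Z = 2160 := by
  refine ⟨?_, ?_, ?_⟩
  · rw [coeff_e4Z]; rfl
  · rw [coeff_e4Z]; decide
  · rw [coeff_e4Z]; decide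

theorem u8q_coeffs_e6 : coeff 0 e6Z = 1 ∧ coeff 1 e6Z = -504 ∧ coeff 2 e6Z = -16632 := by
  refine ⟨?_, ?_, ?_⟩
  · rw [coeff_e6Z]; rfl
  · rw [coeff_e6Z]; decide
  · rw [coeff_e6Z]; decide

theorem u8q_ramQ_e2p (p : ℕ) [NeZero p] :
    RamQ (e2p p) ((e2pZ p).map (Int.castRingHom ℂ)) := by
  intro z
  have h := e2p_hasSum p z
  convert h using 2 with n
  rw [coeff_map, coeff_e2pZ, smul_eq_mul]
  rfl

/-- The weight `8` form `27 A⁴ - 72 E₄ A² + 64 E₆ A - 16 E₄²` of level `Γ₀(3)`, `A = e2p 3`. -/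
def u8qF : ℍ → ℂ :=
  (27 : ℂ) • ((e2p 3 * e2p 3) * (e2p 3 * e2p 3)) - (72 : ℂ) • (⇑E₄ * (e2p 3 * e2p 3))
    + (64 : ℂ) • (⇑E₆ * e2p 3) - (16 : ℂ) • (⇑E₄ * ⇑E₄)

/-- The integral `q`-series of `u8qF`. -/
def u8qP : PowerSeries ℤ :=
  C (27 : ℤ) * ((e2pZ 3 * e2pZ 3) * (e2pZ 3 * e2pZ 3)) - C (72 : ℤ) * (e4Z * (e2pZ 3 * e2pZ 3))
    + C (64 : ℤ) * (e6Z * e2pZ 3) - C (16 : ℤ) * (e4Z * e4Z)

theorem u8qF_mem : u8qF ∈ Fermat.Agent.S20.MF (Fermat.Agent.S20.G0 3) 8 := by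
  have hA : e2p 3 ∈ Fermat.Agent.S20.MF (Fermat.Agent.S20.G0 3) 2 := e2p_mem_MF 3
  have h4 : (⇑E₄ : ℍ → ℂ) ∈ Fermat.Agent.S20.MF (Fermat.Agent.S20.G0 3) 4 :=
    Fermat.Agent.S20.MF_levelOne_le 3 ⟨E₄, rfl⟩
  have h6 : (⇑E₆ : ℍ → ℂ) ∈ Fermat.Agent.S20.MF (Fermat.Agent.S20.G0 3) 6 :=
    Fermat.Agent.S20.MF_levelOne_le 3 ⟨E₆, rfl⟩
  have hAA := Fermat.Agent.S20.MF_mul hA hA
  have t1 := Fermat.Agent.S20.MF_congr (w' := 8) (by norm_num) (Fermat.Agent.S20.MF_mul hAA hAA)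
  have t2 := Fermat.Agent.S20.MF_congr (w' := 8) (by norm_num) (Fermat.Agent.S20.MF_mul h4 hAA)
  have t3 := Fermat.Agent.S20.MF_congr (w' := 8) (by norm_num) (Fermat.Agent.S20.MF_mul h6 hA)
  have t4 := Fermat.Agent.S20.MF_congr (w' := 8) (by norm_num) (Fermat.Agent.S20.MF_mul h4 h4)
  exact Submodule.sub_mem _ (Submodule.add_mem _ (Submodule.sub_mem _
    (Submodule.smul_mem _ _ t1) (Submodule.smul_mem _ _ t2)) (Submodule.smul_mem _ _ t3))
    (Submodule.smul_mem _ _ t4)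

theorem u8q_ramQ_F : RamQ u8qF (u8qP.map (Int.castRingHom ℂ)) := by
  have hA := u8q_ramQ_e2p 3
  have h4 := ramQ_E4
  have h6 := ramQ_E6
  have hAA := hA.mul hA
  have t1 := ((hAA.mul hAA).const_mul 27)
  have t2 := ((h4.mul hAA).const_mul 72)
  have t3 := ((h6.mul hA).const_mul 64)
  have t4 := ((h4.mul h4).const_mul 16)
  have h := ((t1.sub t2).add t3).sub t4
  have hP : u8qP.map (Int.castRingHom ℂ) =
      C (27 : ℂ) * (((e2pZ 3).map (Int.castRingHom ℂ) * (e2pZ 3).map (Int.castRingHom ℂ)) *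
        ((e2pZ 3).map (Int.castRingHom ℂ) * (e2pZ 3).map (Int.castRingHom ℂ)))
      - C (72 : ℂ) * (e4Z.map (Int.castRingHom ℂ) *
        ((e2pZ 3).map (Int.castRingHom ℂ) * (e2pZ 3).map (Int.castRingHom ℂ)))
      + C (64 : ℂ) * (e6Z.map (Int.castRingHom ℂ) * (e2pZ 3).map (Int.castRingHom ℂ))
      - C (16 : ℂ) * (e4Z.map (Int.castRingHom ℂ) * e4Z.map (Int.castRingHom ℂ)) := by
    simp only [u8qP, map_sub, map_add, map_mul, PowerSeries.map_C]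
    simp
  rw [hP]
  exact h.congr (fun z => rfl)

theorem u8q_index_three : (CongruenceSubgroup.Gamma0 3).index = 4 := by
  rw [Fermat.Agent.S24.idx_index_eq 3 (by norm_num)]
  have h := Fermat.Agent.S24.idx_dedekindPsi_mul_of_not_dvd (M := 1) (p := 3) one_ne_zero
    (by norm_num) (by norm_num)
  rw [ModularCurve.dedekindPsi_one] at h
  exact h

theorem u8qP_coeff_zero : coeff 0 u8qP = 0 := by
  obtain ⟨a0, a1, a2⟩ := u8q_coeffs_a
  obtain ⟨b0, b1, b2⟩ := u8q_coeffs_e4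
  obtain ⟨c0, c1, c2⟩ := u8q_coeffs_e6
  simp only [u8qP, map_sub, map_add, coeff_C_mul, u8q_coeff_mul_zero, a0, b0, c0]
  norm_num

theorem u8qP_coeff_one : coeff 1 u8qP = 0 := by
  obtain ⟨a0, a1, a2⟩ := u8q_coeffs_a
  obtain ⟨b0, b1, b2⟩ := u8q_coeffs_e4
  obtain ⟨c0, c1, c2⟩ := u8q_coeffs_e6
  simp only [u8qP, map_sub, map_add, coeff_C_mul, u8q_coeff_mul_zero, u8q_coeff_mul_one,
    a0, b0, c0, a1, b1, c1]
  norm_num

theorem u8qP_coeff_two : coeff 2 u8qP = 0 := by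
  obtain ⟨a0, a1, a2⟩ := u8q_coeffs_a
  obtain ⟨b0, b1, b2⟩ := u8q_coeffs_e4
  obtain ⟨c0, c1, c2⟩ := u8q_coeffs_e6
  simp only [u8qP, map_sub, map_add, coeff_C_mul, u8q_coeff_mul_zero, u8q_coeff_mul_one,
    u8q_coeff_mul_two, a0, b0, c0, a1, b1, c1, a2, b2, c2]
  norm_num

/-- The weight `8` form vanishes (Sturm bound). -/
theorem u8qP_eq_zero : u8qP = 0 := by
  obtain ⟨F, hF⟩ := u8qF_mem
  have hF' : (⇑F : ℍ → ℂ) = u8qF := hF
  have hcoeff : ∀ n, (qExpansion 1 F).coeff n = (u8qP.map (Int.castRingHom ℂ)).coeff n := by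
    intro n
    exact (ModularFormClass.qExpansion_coeff_unique
      (c := fun m => (u8qP.map (Int.castRingHom ℂ)).coeff m) one_pos
      (CongruenceSubgroup.one_mem_strictPeriods_Gamma0 3) (f := F)
      (fun τ => by rw [hF']; exact u8q_ramQ_F τ) n).symm
  have hzero : F = 0 := by
    refine tri_eq_zero 3 (B := 2) ?_ F (fun n hn => ?_)
    · rw [u8q_index_three]
      decide
    · rw [hcoeff n, coeff_map]
      have : n = 0 ∨ n = 1 ∨ n = 2 := by omega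
      rcases this with rfl | rfl | rfl
      · rw [u8qP_coeff_zero]; simp
      · rw [u8qP_coeff_one]; simp
      · rw [u8qP_coeff_two]; simp
  have hfun : ∀ z, u8qF z = 0 := by
    intro z
    rw [← hF', hzero]
    rfl
  have h0 : RamQ (fun _ : ℍ => (0 : ℂ)) (u8qP.map (Int.castRingHom ℂ)) :=
    u8q_ramQ_F.congr hfun
  have hmap : u8qP.map (Int.castRingHom ℂ) = 0 := h0.unique ramQ_zero
  ext n
  have := congrArg (coeff n) hmap
  rw [coeff_map, map_zero] at this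
  rw [map_zero]
  have h' : ((coeff n u8qP : ℤ) : ℂ) = 0 := this
  exact_mod_cast h'

/-- **The quartic** satisfied by `b = 1 + 12 ∑ σ'₃(n) qⁿ` (`= -(1/2) (E₂(z) - 3 E₂(3z))`):
`27 b⁴ - 18 E₄ b² - 8 E₆ b - E₄² = 0`. -/
theorem u8q_quartic :
    27 * (1 + 12 * u8qX) ^ 4 - 18 * e4Z * (1 + 12 * u8qX) ^ 2 - 8 * e6Z * (1 + 12 * u8qX)
      - e4Z ^ 2 = 0 := by
  have h := u8qP_eq_zero
  rw [u8qP, u8q_e2pZ_eq] at h
  have h27 : C (27 : ℤ) = (27 : PowerSeries ℤ) := map_ofNat (C (R := ℤ)) 27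
  have h72 : C (72 : ℤ) = (72 : PowerSeries ℤ) := map_ofNat (C (R := ℤ)) 72
  have h64 : C (64 : ℤ) = (64 : PowerSeries ℤ) := map_ofNat (C (R := ℤ)) 64
  have h16 : C (16 : ℤ) = (16 : PowerSeries ℤ) := map_ofNat (C (R := ℤ)) 16
  rw [h27, h72, h64, h16] at h
  have h16ne : (16 : PowerSeries ℤ) ≠ 0 := by
    intro h0
    have h0' : C (16 : ℤ) = 0 := by rw [h16]; exact h0
    have h1 : constantCoeff (C (16 : ℤ)) = (16 : ℤ) := PowerSeries.constantCoeff_C 16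
    rw [h0', map_zero] at h1
    norm_num at h1
  refine mul_left_cancel₀ h16ne ?_
  rw [mul_zero, ← h]
  ring

/-- The quartic in the shape of the hypothesis `hquart` of `u8u_core`. -/
theorem u8q_quartic' :
    27 * (1 + 12 * u8qX) ^ 4 - 18 * (1 + 240 * u8qS3) * (1 + 12 * u8qX) ^ 2
      - 8 * e6Z * (1 + 12 * u8qX) - (1 + 240 * u8qS3) ^ 2 = 0 := by
  rw [← u8q_e4Z_eq]
  exact u8q_quartic

end Fermat.Agent.S16
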