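import Mathlib

/-!
# S16, piece U8: the formal core of the "uniformizer" argument

Let `b = 1 + 12 X`, `E4 = 1 + 240 S3`, `E6`, `Δ` be power series over a domain `O` in which `3` is a
unit and `2 ≠ 0`, related by the quartic `27 b⁴ - 18 E4 b² - 8 E6 b - E4² = 0` and
`1728 Δ = E4³ - E6²`.  Put `H = (E4 - b²)/216` and `h = H / b²` (a uniformizer: `h = q + …`).
Then `E4 = b² (1 + 216 h)`, `E6 = b³ (1 - 540 h - 5832 h²)`, `Δ = b⁶ h (1 - 27 h)³`, and
`1 / b ≡ 1 + 4 h mod 8`.  Consequently, if a family of `n` elements `≡ 1 mod 8` (in an overring)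
has all its elementary symmetric functions `e_k` given by isobaric polynomials of weight `2 k`
in `E4, E6, Δ`, then `4 ^ n ∈ 8 ^ n O` (`u8u_core`).
-/

set_option autoImplicit false

namespace Fermat.Agent.S16

open PowerSeries

section u8u

variable {O : Type*} [CommRing O]

/-- Triangularity: if `h = q + …` and every `q`-coefficient of `R(h)` lies in the ideal `I`, then
every coefficient of the polynomial `R` lies in `I`. -/
theorem u8u_coeff_mem (I : Ideal O) (h : PowerSeries O) (h0 : constantCoeff h = 0)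
    (h1 : coeff 1 h = 1) (Rp : Polynomial O)
    (hR : ∀ m, coeff m (Polynomial.aeval h Rp) ∈ I) (m : ℕ) : Rp.coeff m ∈ I := by
  obtain ⟨v, hv, hv0⟩ : ∃ v : PowerSeries O, h = X * v ∧ constantCoeff v = 1 := by
    refine ⟨PowerSeries.mk fun p => coeff (p + 1) h, ?_, ?_⟩
    · have := eq_X_mul_shift_add_const h
      rw [h0, map_zero, add_zero] at this
      exact this
    · rw [← coeff_zero_eq_constantCoeff_apply, coeff_mk]
      simpa using h1
  have hpow : ∀ j d : ℕ, coeff d (h ^ j) = if j ≤ d then coeff (d - j) (v ^ j) else 0 := by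
    intro j d
    rw [hv, mul_pow, coeff_X_pow_mul']
  induction m using Nat.strong_induction_on with
  | _ m ih =>
    have hlt : Rp.natDegree < max Rp.natDegree m + 1 := by omega
    have hm : m ∈ Finset.range (max Rp.natDegree m + 1) := by
      rw [Finset.mem_range]; omega
    have key := hR m
    rw [Polynomial.aeval_eq_sum_range' hlt, map_sum, ← Finset.add_sum_erase _ _ hm] at key
    have hmm : coeff m (Rp.coeff m • h ^ m) = Rp.coeff m := by
      rw [coeff_smul, hpow, if_pos le_rfl, Nat.sub_self, coeff_zero_eq_constantCoeff_apply,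
        map_pow, hv0, one_pow, smul_eq_mul, mul_one]
    rw [hmm] at key
    have hrest : ∑ j ∈ (Finset.range (max Rp.natDegree m + 1)).erase m,
        coeff m (Rp.coeff j • h ^ j) ∈ I := by
      refine Ideal.sum_mem _ fun j hj => ?_
      rw [coeff_smul, hpow]
      split_ifs with hjm
      · have : j < m := lt_of_le_of_ne hjm (Finset.ne_of_mem_erase hj)
        exact I.mul_mem_right _ (ih j this)
      · simp
    exact (Ideal.add_mem_iff_left I hrest).mp key

/-- The `h`-polynomial attached to a polynomial in `E4, E6, Δ`. -/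
noncomputable def u8uQ (P : MvPolynomial (Fin 3) O) : Polynomial O :=
  MvPolynomial.aeval ![1 + 216 * Polynomial.X,
    1 - 540 * Polynomial.X - 5832 * Polynomial.X ^ 2,
    Polynomial.X * (1 - 27 * Polynomial.X) ^ 3] P

theorem u8u_weight3_apply (d : Fin 3 →₀ ℕ) :
    Finsupp.weight (![4, 6, 12] : Fin 3 → ℕ) d = d 0 * 4 + d 1 * 6 + d 2 * 12 := by
  rw [Finsupp.weight_apply, Finsupp.sum_fintype _ _ (fun i => by simp), Fin.sum_univ_three]
  simp

theorem u8uQ_monomial (d : Fin 3 →₀ ℕ) (r : O) :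
    u8uQ (MvPolynomial.monomial d r) = Polynomial.C r *
      ((1 + 216 * Polynomial.X) ^ d 0 *
        (1 - 540 * Polynomial.X - 5832 * Polynomial.X ^ 2) ^ d 1 *
        (Polynomial.X * (1 - 27 * Polynomial.X) ^ 3) ^ d 2) := by
  rw [u8uQ, MvPolynomial.aeval_monomial, Finsupp.prod_fintype _ _ (fun i => by simp),
    Fin.prod_univ_three]
  rfl

theorem u8uQ_natDegree {P : MvPolynomial (Fin 3) O} {k : ℕ}
    (hP : P.IsWeightedHomogeneous ![4, 6, 12] (2 * k)) : 3 * (u8uQ P).natDegree ≤ 2 * k := by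
  induction hP using MvPolynomial.IsWeightedHomogeneous.induction_on with
  | zero => simp [u8uQ]
  | add p q hp hq ihp ihq =>
    have : (u8uQ (p + q)).natDegree ≤ max (u8uQ p).natDegree (u8uQ q).natDegree := by
      rw [u8uQ, map_add]
      exact Polynomial.natDegree_add_le _ _
    rcases le_max_iff.mp this with h | h <;> omega
  | monomial d r hr =>
    rw [u8u_weight3_apply] at hr
    rw [u8uQ_monomial]
    have h4 : ((1 + 216 * Polynomial.X : Polynomial O) ^ d 0).natDegree ≤ d 0 * 1 := by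
      refine Polynomial.natDegree_pow_le_of_le _ ?_
      compute_degree
    have h6 : ((1 - 540 * Polynomial.X - 5832 * Polynomial.X ^ 2 : Polynomial O) ^ d 1).natDegree
        ≤ d 1 * 2 := by
      refine Polynomial.natDegree_pow_le_of_le _ ?_
      compute_degree
    have h12 : ((Polynomial.X * (1 - 27 * Polynomial.X) ^ 3 : Polynomial O) ^ d 2).natDegree
        ≤ d 2 * 4 := by
      refine Polynomial.natDegree_pow_le_of_le _ ?_
      compute_degree
    have hall : (Polynomial.C r *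
      ((1 + 216 * Polynomial.X) ^ d 0 *
        (1 - 540 * Polynomial.X - 5832 * Polynomial.X ^ 2) ^ d 1 *
        (Polynomial.X * (1 - 27 * Polynomial.X) ^ 3) ^ d 2)).natDegree
        ≤ d 0 * 1 + d 1 * 2 + d 2 * 4 := by
      refine (Polynomial.natDegree_C_mul_le _ _).trans ?_
      refine (Polynomial.natDegree_mul_le).trans ?_
      refine add_le_add ((Polynomial.natDegree_mul_le).trans (add_le_add h4 h6)) h12
    omega

theorem u8uQ_aeval (b E4 E6 Δ h : PowerSeries O)
    (e4 : E4 = b ^ 2 * (1 + 216 * h)) (e6 : E6 = b ^ 3 * (1 - 540 * h - 5832 * h ^ 2))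
    (e12 : Δ = b ^ 6 * (h * (1 - 27 * h) ^ 3))
    {P : MvPolynomial (Fin 3) O} {k : ℕ}
    (hP : P.IsWeightedHomogeneous ![4, 6, 12] (2 * k)) :
    MvPolynomial.aeval ![E4, E6, Δ] P = b ^ k * Polynomial.aeval h (u8uQ P) := by
  induction hP using MvPolynomial.IsWeightedHomogeneous.induction_on with
  | zero => simp [u8uQ]
  | add p q hp hq ihp ihq =>
    rw [map_add, ihp, ihq, u8uQ, u8uQ, u8uQ, map_add, map_add, mul_add]
  | monomial d r hr =>
    rw [u8u_weight3_apply] at hr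
    have hk : k = d 0 * 2 + d 1 * 3 + d 2 * 6 := by omega
    rw [u8uQ_monomial]
    have e : MvPolynomial.aeval ![E4, E6, Δ] (MvPolynomial.monomial d r) =
        PowerSeries.C r * (E4 ^ d 0 * E6 ^ d 1 * Δ ^ d 2) := by
      rw [MvPolynomial.aeval_monomial, Finsupp.prod_fintype _ _ (fun i => by simp),
        Fin.prod_univ_three]
      rfl
    rw [e]
    simp only [map_mul, map_pow, map_add, map_sub, map_one, Polynomial.aeval_C,
      Polynomial.aeval_X, map_ofNat]
    have : (algebraMap O (PowerSeries O)) r = PowerSeries.C r := rfl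
    rw [this, hk, pow_add, pow_add, pow_mul', pow_mul', pow_mul']
    conv_lhs => rw [e4, e6, e12, mul_pow, mul_pow, mul_pow]
    ring

theorem u8u_prod_dvd {R : Type*} [CommRing R] (Y : R) (s : Multiset R)
    (hs : ∀ r ∈ s, ∃ w : R, Y - r = 8 * w) :
    ∃ W : R, (s.map fun t => Y - t).prod = 8 ^ (Multiset.card s) * W := by
  induction s using Multiset.induction_on with
  | empty => exact ⟨1, by simp⟩
  | cons a s ih =>
    obtain ⟨W, hW⟩ := ih (fun r hr => hs r (Multiset.mem_cons_of_mem hr))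
    obtain ⟨w, hw⟩ := hs a (Multiset.mem_cons_self a s)
    refine ⟨w * W, ?_⟩
    rw [Multiset.map_cons, Multiset.prod_cons, hW, hw, Multiset.card_cons]
    ring

theorem u8u_vieta {R : Type*} [CommRing R] (Y : R) (s : Multiset R) :
    (s.map fun t => Y - t).prod =
      ∑ j ∈ Finset.range (Multiset.card s + 1),
        (-1) ^ j * (s.esymm j * Y ^ (Multiset.card s - j)) := by
  have h := congrArg (Polynomial.eval Y) (Multiset.prod_X_sub_X_eq_sum_esymm s)
  rw [Polynomial.eval_multiset_prod, Multiset.map_map, Polynomial.eval_finsetSum] at h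
  simpa using h

/-- **Formal core of U8**, abstract form: `b`, `h` with `E4 = b² (1 + 216 h)`,
`E6 = b³ (1 - 540 h - 5832 h²)`, `Δ = b⁶ h (1 - 27 h)³`, `b ≡ 1 + 4 h mod 8`, `h = q + …`. -/
theorem u8u_core_abs {R : Type*} [CommRing R]
    (b h w E4 E6 Δ : PowerSeries O)
    (hb0 : constantCoeff b = 1) (hh0 : constantCoeff h = 0) (hh1 : coeff 1 h = 1)
    (e4 : E4 = b ^ 2 * (1 + 216 * h)) (e6 : E6 = b ^ 3 * (1 - 540 * h - 5832 * h ^ 2))
    (e12 : Δ = b ^ 6 * (h * (1 - 27 * h) ^ 3)) (hbw : b = 1 + 4 * h + 8 * w)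
    (ψ : PowerSeries O →+* R) (s : Multiset R)
    (hψ : ∀ (f : PowerSeries O) (w : R), ψ f = 8 ^ (Multiset.card s) * w →
      ∃ w' : PowerSeries O, f = 8 ^ (Multiset.card s) * w')
    (hs : ∀ r ∈ s, ∃ w : R, r = 1 + 8 * w)
    (P : ℕ → MvPolynomial (Fin 3) O)
    (hP : ∀ k, 1 ≤ k → k ≤ Multiset.card s →
      (P k).IsWeightedHomogeneous ![4, 6, 12] (2 * k))
    (hPs : ∀ k, 1 ≤ k → k ≤ Multiset.card s →
      ψ (MvPolynomial.aeval ![E4, E6, Δ] (P k)) = s.esymm k) :
    ∃ x : O, (4 : O) ^ (Multiset.card s) = 8 ^ (Multiset.card s) * x := by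
  obtain ⟨n, hn⟩ : ∃ n, n = Multiset.card s := ⟨_, rfl⟩
  rw [← hn] at hψ hP hPs ⊢
  obtain ⟨binv, hbinv⟩ : ∃ binv : PowerSeries O, b * binv = 1 := by
    have : IsUnit b := by rw [PowerSeries.isUnit_iff_constantCoeff, hb0]; exact isUnit_one
    obtain ⟨u, hu⟩ := this
    exact ⟨↑u⁻¹, by rw [← hu]; exact u.mul_inv⟩
  have key : ∀ m : ℕ, b ^ m * binv ^ m = 1 := fun m => by rw [← mul_pow, hbinv, one_pow]
  obtain ⟨c, hc⟩ : ∃ c : PowerSeries O, b * (1 + 4 * h) - 1 = 8 * c :=
    ⟨h + 2 * h ^ 2 + w * (1 + 4 * h), by rw [hbw]; ring⟩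
  -- the Vieta product
  set Y : R := ψ (b * (1 + 4 * h)) with hY
  have hfac : ∀ r ∈ s, ∃ w : R, Y - r = 8 * w := by
    intro r hr
    obtain ⟨w, hw⟩ := hs r hr
    refine ⟨ψ c - w, ?_⟩
    have : Y - 1 = 8 * ψ c := by
      rw [hY, ← map_one ψ, ← map_sub, hc, map_mul, map_ofNat]
    rw [hw]; linear_combination this
  obtain ⟨W, hW⟩ := u8u_prod_dvd Y s hfac
  rw [u8u_vieta, ← hn] at hW
  -- the polynomial `R(h)`
  set Qp : ℕ → Polynomial O := fun j => if j = 0 then 1 else u8uQ (P j) with hQp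
  set Rp : Polynomial O := ∑ j ∈ Finset.range (n + 1),
    (-1) ^ j * (Qp j * (1 + 4 * Polynomial.X) ^ (n - j)) with hRp
  have hterm : ∀ j ∈ Finset.range (n + 1), (-1 : R) ^ j * (s.esymm j * Y ^ (n - j))
      = ψ (b ^ n * Polynomial.aeval h ((-1) ^ j * (Qp j * (1 + 4 * Polynomial.X) ^ (n - j)))) := by
    intro j hj
    have hjn : j ≤ n := Nat.lt_succ_iff.mp (Finset.mem_range.mp hj)
    have hes : s.esymm j = ψ (b ^ j * Polynomial.aeval h (Qp j)) := by
      rcases Nat.eq_zero_or_pos j with h0 | hpos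
      · subst h0
        simp [hQp, Multiset.esymm, Multiset.powersetCard_zero_left]
      · rw [← hPs j hpos hjn, u8uQ_aeval b E4 E6 Δ h e4 e6 e12 (hP j hpos hjn)]
        simp [hQp, Nat.pos_iff_ne_zero.mp hpos]
    have hbn : b ^ n = b ^ j * b ^ (n - j) := by rw [← pow_add]; congr 1; omega
    have hYp : Y ^ (n - j) = ψ (b ^ (n - j) * (1 + 4 * h) ^ (n - j)) := by
      rw [hY, ← map_pow, mul_pow]
    have haev : Polynomial.aeval h ((-1) ^ j * (Qp j * (1 + 4 * Polynomial.X) ^ (n - j)))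
        = (-1) ^ j * (Polynomial.aeval h (Qp j) * (1 + 4 * h) ^ (n - j)) := by
      simp only [map_mul, map_pow, map_neg, map_one, map_add, Polynomial.aeval_X, map_ofNat]
    rw [hes, hYp, hbn, haev, ← map_mul]
    have hm1 : (-1 : R) ^ j = ψ ((-1) ^ j) := by rw [map_pow, map_neg, map_one]
    rw [hm1, ← map_mul]
    congr 1
    ring
  rw [Finset.sum_congr rfl hterm, ← map_sum, ← Finset.mul_sum, ← map_sum, ← hRp] at hW
  obtain ⟨w', hw'⟩ := hψ _ _ hW
  have haev : Polynomial.aeval h Rp = 8 ^ n * (w' * binv ^ n) := by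
    calc Polynomial.aeval h Rp = (b ^ n * binv ^ n) * Polynomial.aeval h Rp := by
          rw [key n, one_mul]
      _ = (b ^ n * Polynomial.aeval h Rp) * binv ^ n := by ring
      _ = _ := by rw [hw']; ring
  have hmem : ∀ m, coeff m (Polynomial.aeval h Rp) ∈ Ideal.span {(8 : O) ^ n} := by
    intro m
    rw [haev]
    have e : (8 : PowerSeries O) ^ n = C ((8 : O) ^ n) := by rw [map_pow, map_ofNat]
    rw [e, coeff_C_mul]
    exact Ideal.mul_mem_right _ _ (Ideal.subset_span rfl)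
  have hcn := u8u_coeff_mem _ h hh0 hh1 Rp hmem n
  obtain ⟨x, hx⟩ := Ideal.mem_span_singleton'.mp hcn
  refine ⟨x, ?_⟩
  rw [mul_comm, hx, hRp, Polynomial.finsetSum_coeff]
  rw [Finset.sum_eq_single 0]
  · have e1 : ((1 + 4 * Polynomial.X : Polynomial O) ^ n).coeff (n * 1)
        = ((1 + 4 * Polynomial.X : Polynomial O).coeff 1) ^ n :=
      Polynomial.coeff_pow_of_natDegree_le (by compute_degree)
    have e2 : (1 + 4 * Polynomial.X : Polynomial O).coeff 1 = 4 := by
      have e : (4 : Polynomial O) = Polynomial.C (4 : O) := (map_ofNat Polynomial.C 4).symm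
      rw [Polynomial.coeff_add, e, Polynomial.coeff_C_mul, Polynomial.coeff_X_one,
        Polynomial.coeff_one]
      simp
    rw [mul_one] at e1
    simp only [hQp, if_true, pow_zero, one_mul, Nat.sub_zero]
    rw [e1, e2]
  · intro j hj hj0
    have hjn : j ≤ n := Nat.lt_succ_iff.mp (Finset.mem_range.mp hj)
    have hpos : 1 ≤ j := Nat.one_le_iff_ne_zero.mpr hj0
    have hdeg := u8uQ_natDegree (hP j hpos hjn)
    have hQ : Qp j = u8uQ (P j) := by simp [hQp, hj0]
    apply Polynomial.coeff_eq_zero_of_natDegree_lt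
    have h1 : ((1 + 4 * Polynomial.X : Polynomial O) ^ (n - j)).natDegree ≤ (n - j) * 1 :=
      Polynomial.natDegree_pow_le_of_le _ (by compute_degree)
    have h2 : ((-1 : Polynomial O) ^ j * (Qp j * (1 + 4 * Polynomial.X) ^ (n - j))).natDegree
        ≤ 0 + ((u8uQ (P j)).natDegree + (n - j) * 1) := by
      refine (Polynomial.natDegree_mul_le).trans (add_le_add ?_ ?_)
      · refine (Polynomial.natDegree_pow_le).trans ?_
        simp
      · rw [hQ]
        exact (Polynomial.natDegree_mul_le).trans (add_le_add le_rfl h1)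
    omega
  · intro h0
    exact absurd (Finset.mem_range.mpr (Nat.succ_pos n)) h0

/-- **Formal core of U8**, concrete form: `b = 1 + 12 X`, `E4 = 1 + 240 S3` and the quartic
`27 b⁴ - 18 E4 b² - 8 E6 b - E4² = 0`. -/
theorem u8u_core [IsDomain O] {R : Type*} [CommRing R] (h2 : (2 : O) ≠ 0) (h3 : IsUnit (3 : O))
    (Xs S3 E6 Δ : PowerSeries O)
    (hX0 : constantCoeff Xs = 0) (hS0 : constantCoeff S3 = 0)
    (hX1 : coeff 1 Xs = 1) (hS1 : coeff 1 S3 = 1)
    (hquart : 27 * (1 + 12 * Xs) ^ 4 - 18 * (1 + 240 * S3) * (1 + 12 * Xs) ^ 2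
        - 8 * E6 * (1 + 12 * Xs) - (1 + 240 * S3) ^ 2 = 0)
    (hΔ : 1728 * Δ = (1 + 240 * S3) ^ 3 - E6 ^ 2)
    (ψ : PowerSeries O →+* R) (s : Multiset R)
    (hψ : ∀ (f : PowerSeries O) (w : R), ψ f = 8 ^ (Multiset.card s) * w →
      ∃ w' : PowerSeries O, f = 8 ^ (Multiset.card s) * w')
    (hs : ∀ r ∈ s, ∃ w : R, r = 1 + 8 * w)
    (P : ℕ → MvPolynomial (Fin 3) O)
    (hP : ∀ k, 1 ≤ k → k ≤ Multiset.card s →
      (P k).IsWeightedHomogeneous ![4, 6, 12] (2 * k))
    (hPs : ∀ k, 1 ≤ k → k ≤ Multiset.card s →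
      ψ (MvPolynomial.aeval ![1 + 240 * S3, E6, Δ] (P k)) = s.esymm k) :
    ∃ x : O, (4 : O) ^ (Multiset.card s) = 8 ^ (Multiset.card s) * x := by
  obtain ⟨b, hb⟩ : ∃ b : PowerSeries O, b = 1 + 12 * Xs := ⟨_, rfl⟩
  obtain ⟨E4, hE4⟩ : ∃ E4 : PowerSeries O, E4 = 1 + 240 * S3 := ⟨_, rfl⟩
  rw [← hb, ← hE4] at hquart
  rw [← hE4] at hΔ hPs
  obtain ⟨t, ht⟩ : ∃ t : O, 3 * t = 1 := by
    obtain ⟨u, hu⟩ := h3
    exact ⟨↑u⁻¹, by rw [← hu]; exact u.mul_inv⟩
  have h27t : (27 : O) * t ^ 3 = 1 := by linear_combination (9 * t ^ 2 + 3 * t + 1) * ht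
  have hC27 : (27 : PowerSeries O) * C (t ^ 3) = 1 := by
    have e : (27 : PowerSeries O) = C (27 : O) := (map_ofNat (C (R := O)) 27).symm
    rw [e, ← map_mul, h27t, map_one]
  obtain ⟨H, hH⟩ : ∃ H : PowerSeries O, H = C (t ^ 3) * (30 * S3 - 3 * Xs - 18 * Xs ^ 2) :=
    ⟨_, rfl⟩
  have h27 : 27 * H = 30 * S3 - 3 * Xs - 18 * Xs ^ 2 := by
    rw [hH, ← mul_assoc, hC27, one_mul]
  have hE4H : E4 = b ^ 2 + 216 * H := by
    rw [hb, hE4]; linear_combination (-8 : PowerSeries O) * h27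
  have h2' : (2 : PowerSeries O) ≠ 0 := by
    intro h
    apply h2
    have := congrArg constantCoeff h
    rw [map_zero, map_ofNat] at this
    exact this
  have h3O : (3 : O) ≠ 0 := h3.ne_zero
  have h3' : (3 : PowerSeries O) ≠ 0 := by
    intro h
    apply h3O
    have := congrArg constantCoeff h
    rw [map_zero, map_ofNat] at this
    exact this
  have h8 : (8 : PowerSeries O) ≠ 0 := by
    have : (8 : PowerSeries O) = 2 ^ 3 := by norm_num
    rw [this]; exact pow_ne_zero _ h2'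
  have h1728 : (1728 : PowerSeries O) ≠ 0 := by
    have : (1728 : PowerSeries O) = 2 ^ 6 * 3 ^ 3 := by norm_num
    rw [this]; exact mul_ne_zero (pow_ne_zero _ h2') (pow_ne_zero _ h3')
  have hB : b * E6 = b ^ 4 - 540 * b ^ 2 * H - 5832 * H ^ 2 := by
    have : (8 : PowerSeries O) * (b * E6) = 8 * (b ^ 4 - 540 * b ^ 2 * H - 5832 * H ^ 2) := by
      rw [hE4H] at hquart
      linear_combination (-1 : PowerSeries O) * hquart
    exact mul_left_cancel₀ h8 this
  have hCc : b ^ 2 * Δ = H * (b ^ 2 - 27 * H) ^ 3 := by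
    have : (1728 : PowerSeries O) * (b ^ 2 * Δ) = 1728 * (H * (b ^ 2 - 27 * H) ^ 3) := by
      linear_combination b ^ 2 * hΔ
        + b ^ 2 * (E4 ^ 2 + E4 * (b ^ 2 + 216 * H) + (b ^ 2 + 216 * H) ^ 2) * hE4H
        - (b * E6 + (b ^ 4 - 540 * b ^ 2 * H - 5832 * H ^ 2)) * hB
    exact mul_left_cancel₀ h1728 this
  -- the inverse of `b`
  have hb0 : constantCoeff b = 1 := by rw [hb]; simp [hX0]
  obtain ⟨binv, hbinv⟩ : ∃ binv : PowerSeries O, b * binv = 1 := by
    have : IsUnit b := by rw [PowerSeries.isUnit_iff_constantCoeff, hb0]; exact isUnit_one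
    obtain ⟨u, hu⟩ := this
    exact ⟨↑u⁻¹, by rw [← hu]; exact u.mul_inv⟩
  have hbinv0 : constantCoeff binv = 1 := by
    have := congrArg constantCoeff hbinv
    rw [map_mul, hb0, one_mul, map_one] at this
    exact this
  have key : ∀ m : ℕ, b ^ m * binv ^ m = 1 := fun m => by rw [← mul_pow, hbinv, one_pow]
  obtain ⟨h, hh⟩ : ∃ h : PowerSeries O, h = H * binv ^ 2 := ⟨_, rfl⟩
  have h4 : E4 * binv ^ 2 = 1 + 216 * h := by
    calc E4 * binv ^ 2 = b ^ 2 * binv ^ 2 + 216 * (H * binv ^ 2) := by rw [hE4H]; ring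
      _ = 1 + 216 * h := by rw [key 2, hh]
  have h6 : E6 * binv ^ 3 = 1 - 540 * h - 5832 * h ^ 2 := by
    calc E6 * binv ^ 3 = (b * binv) * (E6 * binv ^ 3) := by rw [hbinv, one_mul]
      _ = (b * E6) * binv ^ 4 := by ring
      _ = b ^ 4 * binv ^ 4 - 540 * (b ^ 2 * binv ^ 2) * (H * binv ^ 2)
          - 5832 * (H * binv ^ 2) ^ 2 := by rw [hB]; ring
      _ = 1 - 540 * h - 5832 * h ^ 2 := by rw [key 4, key 2, hh]; ring
  have h12 : Δ * binv ^ 6 = h * (1 - 27 * h) ^ 3 := by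
    calc Δ * binv ^ 6 = (b ^ 2 * binv ^ 2) * (Δ * binv ^ 6) := by rw [key 2, one_mul]
      _ = (b ^ 2 * Δ) * binv ^ 8 := by ring
      _ = (H * binv ^ 2) * (b ^ 2 * binv ^ 2 - 27 * (H * binv ^ 2)) ^ 3 := by rw [hCc]; ring
      _ = h * (1 - 27 * h) ^ 3 := by rw [key 2, hh]
  -- `h` is a uniformizer
  have hH0 : constantCoeff H = 0 := by rw [hH]; simp [hX0, hS0]
  have hH1 : coeff 1 H = 1 := by
    have hXX : coeff 1 (Xs ^ 2) = 0 := by
      rw [pow_two, coeff_one_mul, hX0]; ring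
    rw [hH, coeff_C_mul]
    simp only [map_sub]
    have e30 : coeff 1 (30 * S3) = 30 := by
      have e : (30 : PowerSeries O) = C (30 : O) := (map_ofNat (C (R := O)) 30).symm
      rw [e, coeff_C_mul, hS1, mul_one]
    have e3 : coeff 1 (3 * Xs) = 3 := by
      have e : (3 : PowerSeries O) = C (3 : O) := (map_ofNat (C (R := O)) 3).symm
      rw [e, coeff_C_mul, hX1, mul_one]
    have e18 : coeff 1 (18 * Xs ^ 2) = 0 := by
      have e : (18 : PowerSeries O) = C (18 : O) := (map_ofNat (C (R := O)) 18).symm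
      rw [e, coeff_C_mul, hXX, mul_zero]
    rw [e30, e3, e18]
    linear_combination h27t
  have hh0 : constantCoeff h = 0 := by rw [hh, map_mul, hH0, zero_mul]
  have hh1 : coeff 1 h = 1 := by
    rw [hh, coeff_one_mul, hH0, hH1, map_pow, hbinv0]; ring
  -- the congruence `1 / b ≡ 1 + 4 h mod 8`
  obtain ⟨c, hc⟩ : ∃ c : PowerSeries O, b * (1 + 4 * h) - 1 = 8 * c := by
    refine ⟨-(C (t ^ 3) * (39 * Xs + 477 * Xs ^ 2 + 15 * S3)) * (-binv), ?_⟩
    have e1 : (27 : PowerSeries O) * (b - b ^ 2 - 4 * H)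
        = -8 * (39 * Xs + 477 * Xs ^ 2 + 15 * S3) := by
      rw [hb]; linear_combination (-4 : PowerSeries O) * h27
    have e2 : b - b ^ 2 - 4 * H = 8 * (-(C (t ^ 3) * (39 * Xs + 477 * Xs ^ 2 + 15 * S3))) := by
      calc b - b ^ 2 - 4 * H = (27 * C (t ^ 3)) * (b - b ^ 2 - 4 * H) := by rw [hC27, one_mul]
        _ = C (t ^ 3) * (27 * (b - b ^ 2 - 4 * H)) := by ring
        _ = _ := by rw [e1]; ring
    rw [hh]
    linear_combination (-b + 4 * H * binv + 1) * hbinv - binv * e2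
  -- apply the abstract core
  have e4' : E4 = b ^ 2 * (1 + 216 * h) := by
    calc E4 = (b ^ 2 * binv ^ 2) * E4 := by rw [key 2, one_mul]
      _ = b ^ 2 * (E4 * binv ^ 2) := by ring
      _ = _ := by rw [h4]
  have e6' : E6 = b ^ 3 * (1 - 540 * h - 5832 * h ^ 2) := by
    calc E6 = (b ^ 3 * binv ^ 3) * E6 := by rw [key 3, one_mul]
      _ = b ^ 3 * (E6 * binv ^ 3) := by ring
      _ = _ := by rw [h6]
  have e12' : Δ = b ^ 6 * (h * (1 - 27 * h) ^ 3) := by
    calc Δ = (b ^ 6 * binv ^ 6) * Δ := by rw [key 6, one_mul]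
      _ = b ^ 6 * (Δ * binv ^ 6) := by ring
      _ = _ := by rw [h12]
  have hbw : b = 1 + 4 * h + 8 * (c - h - 6 * h * Xs) := by
    linear_combination hc - 4 * h * hb
  exact u8u_core_abs b h (c - h - 6 * h * Xs) E4 E6 Δ hb0 hh0 hh1 e4' e6' e12' hbw ψ s hψ hs P hP hPs

end u8u

end Fermat.Agent.S16
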