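import Fermat.Agent.S16.U9
import Fermat.Agent.S16.U9Cong

/-!
# S16, piece U9 (final statement)

`u9`: for a prime `p` with `9 ∣ p + 1` there is no weight two modular form on `Γ₀(p)` with integer
`q`-coefficients `a`, `a 0 ≡ 1 mod 9` and `a n ≡ 0 mod 9` for `n ≥ 1`.
-/

set_option autoImplicit false

namespace Fermat.Agent.S16

open UpperHalfPlane ModularForm CongruenceSubgroup
open scoped MatrixGroups Manifold

/-- **(U9).** -/
theorem u9 (p : ℕ) [Fact p.Prime] (h9 : 9 ∣ p + 1)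
    (G : ModularForm (CongruenceSubgroup.Gamma0 p) 2) (a : ℕ → ℤ)
    (ha : ∀ n, (qExpansion 1 G).coeff n = (a n : ℂ))
    (h0 : (9 : ℤ) ∣ a 0 - 1) (hn : ∀ n, 1 ≤ n → (9 : ℤ) ∣ a n) : False := by
  have hp : p.Prime := Fact.out
  obtain ⟨A, B, hA9, hB9, hA, hB⟩ := u9_cong p hp h9 (PowerSeries.mk a)
    (by simpa using h0) (fun n hn1 => by simpa using hn n hn1)
  have hU : u9U p (PowerSeries.mk a) = PowerSeries.mk fun n => a (p * n) := by
    ext n
    simp [u9U]
  rw [hU] at hB9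
  exact u9_of_cong p G a ha A B hA9 hB9 hA hB

end Fermat.Agent.S16
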