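import Mathlib
import Fermat.Agent.S16.QSeries
import Fermat.Agent.S16.U9Core

/-!
# S16, piece U9 (middle layer, pure power series)

`u9_mid`: if a multiset of `p + 1` power series over a ring `O` all reduce (under `φ : O → κ`,
`κ` a perfect field of characteristic `3`) to `s(t^p)`, `s = ∑ σ(n) qⁿ`, and its `3^k`-th
elementary symmetric function is `E(t^p)` with `E` an `O`-polynomial in `E₄, E₆, Δ`, where
`p + 1 = 3^k m'`, `3 ∤ m'`, then we have a contradiction.
-/

set_option autoImplicit false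

namespace Fermat.Agent.S16

open PowerSeries

/-- Lucas: `3 ∤ C(3^k m', 3^k)` when `3 ∤ m'`. -/
theorem u9_lucas (k m' : ℕ) (hm : ¬ 3 ∣ m') : ¬ 3 ∣ Nat.choose (3 ^ k * m') (3 ^ k) := by
  have : Fact (Nat.Prime 3) := ⟨Nat.prime_three⟩
  induction k with
  | zero => simpa using hm
  | succ k ih =>
    have h := Choose.choose_modEq_choose_mod_mul_choose_div_nat (n := 3 ^ (k + 1) * m')
      (k := 3 ^ (k + 1)) (p := 3)
    have e1 : 3 ^ (k + 1) * m' % 3 = 0 := by
      rw [pow_succ, mul_comm (3 ^ k) 3, mul_assoc]; exact Nat.mul_mod_right 3 _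
    have e2 : 3 ^ (k + 1) % 3 = 0 := by
      rw [pow_succ]; exact Nat.mul_mod_left _ 3
    have e3 : 3 ^ (k + 1) * m' / 3 = 3 ^ k * m' := by
      rw [pow_succ, mul_comm (3 ^ k) 3, mul_assoc]; exact Nat.mul_div_cancel_left _ (by norm_num)
    have e4 : 3 ^ (k + 1) / 3 = 3 ^ k := by
      rw [pow_succ]; exact Nat.mul_div_cancel _ (by norm_num)
    rw [e1, e2, e3, e4, Nat.choose_self, one_mul] at h
    intro hdvd
    exact ih ((Nat.modEq_zero_iff_dvd.mp (h.symm.trans (Nat.modEq_zero_iff_dvd.mpr hdvd))))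

section

variable {O : Type*} [CommRing O] {κ : Type*} [Field κ]

/-- The image under a ring hom of `esymm` of a multiset all of whose members map to `x`. -/
theorem u9_map_esymm_const {R S : Type*} [CommRing R] [CommRing S] (Φ : R →+* S)
    (m : Multiset R) (x : S) (h : ∀ f ∈ m, Φ f = x) (i : ℕ) :
    Φ (m.esymm i) = (Nat.choose (Multiset.card m) i : S) * x ^ i := by
  rw [Multiset.esymm, map_multiset_sum, Multiset.map_map]
  have h1 : ∀ t ∈ m.powersetCard i, (Φ ∘ Multiset.prod) t = x ^ i := by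
    intro t ht
    rw [Multiset.mem_powersetCard] at ht
    rw [Function.comp_apply, map_multiset_prod]
    have h2 : t.map Φ = Multiset.replicate i x := by
      rw [Multiset.eq_replicate]
      refine ⟨by rw [Multiset.card_map, ht.2], ?_⟩
      intro b hb
      obtain ⟨a, ha, rfl⟩ := Multiset.mem_map.mp hb
      exact h a (Multiset.mem_of_le ht.1 ha)
    rw [h2, Multiset.prod_replicate]
  rw [Multiset.map_congr rfl h1, Multiset.map_const', Multiset.sum_replicate,
    Multiset.card_powersetCard, nsmul_eq_mul]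

theorem u9_expand_injective {R : Type*} [CommRing R] (p : ℕ) (hp : p ≠ 0) {f g : PowerSeries R}
    (h : PowerSeries.expand p hp f = PowerSeries.expand p hp g) : f = g := by
  ext n
  have := congrArg (PowerSeries.coeff (p * n)) h
  rwa [PowerSeries.coeff_expand_mul, PowerSeries.coeff_expand_mul] at this

theorem u9_map_map_int (φ : O →+* κ) (f : PowerSeries ℤ) :
    (f.map (Int.castRingHom O)).map φ = f.map (Int.castRingHom κ) := by
  ext n
  simp

variable [CharP κ 3]

theorem u9_map_eq_of_dvd (A A' : PowerSeries ℤ)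
    (h : ∀ n, (3 : ℤ) ∣ PowerSeries.coeff n A - PowerSeries.coeff n A') :
    A.map (Int.castRingHom κ) = A'.map (Int.castRingHom κ) := by
  ext n
  have := u9_cast_eq_zero_of_dvd (κ := κ) (h n)
  rw [Int.cast_sub, sub_eq_zero] at this
  simpa using this

/-- The member `A(t^p)` of the family. -/
theorem u9_map_A (p : ℕ) (hp : p ≠ 0) (φ : O →+* κ) (A : PowerSeries ℤ)
    (hA : ∀ n, (3 : ℤ) ∣ PowerSeries.coeff n A - PowerSeries.coeff n sZ) :
    ((A.map (Int.castRingHom O)).expand p hp).map φ =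
      PowerSeries.expand p hp (sZ.map (Int.castRingHom κ)) := by
  rw [PowerSeries.map_expand, u9_map_map_int, u9_map_eq_of_dvd A sZ hA]

/-- The members `B(ζ^j t)` of the family. -/
theorem u9_map_B (p : ℕ) (hp : p ≠ 0) (φ : O →+* κ) (ζ : O) (hζ : ζ ^ p = 1) (j : ℕ)
    (B : PowerSeries ℤ)
    (hB : ∀ n, (3 : ℤ) ∣ PowerSeries.coeff n B - PowerSeries.coeff n (PowerSeries.expand p hp sZ)) :
    (PowerSeries.rescale (ζ ^ j) (B.map (Int.castRingHom O))).map φ =
      PowerSeries.expand p hp (sZ.map (Int.castRingHom κ)) := by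
  have h1 := u9_map_eq_of_dvd (κ := κ) B (PowerSeries.expand p hp sZ) hB
  rw [PowerSeries.map_expand] at h1
  ext n
  rw [PowerSeries.coeff_map, PowerSeries.coeff_rescale, map_mul, ← PowerSeries.coeff_map,
    u9_map_map_int, h1, PowerSeries.coeff_expand]
  split_ifs with hn
  · obtain ⟨c, rfl⟩ := hn
    have : (ζ ^ j) ^ (p * c) = 1 := by
      rw [← pow_mul, mul_comm j, mul_assoc, pow_mul, hζ, one_pow]
    rw [this, map_one, one_mul]
  · rw [mul_zero]

theorem u9_e4_map : e4Z.map (Int.castRingHom κ) = 1 := by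
  ext n
  rw [PowerSeries.coeff_map, coeff_e4Z, PowerSeries.coeff_one]
  split_ifs with h
  · simp
  · have : (3 : ℤ) ∣ 240 * ∑ d ∈ n.divisors, (d : ℤ) ^ 3 := Dvd.dvd.mul_right (by norm_num) _
    exact u9_cast_eq_zero_of_dvd this

theorem u9_e6_map : e6Z.map (Int.castRingHom κ) = 1 := by
  ext n
  rw [PowerSeries.coeff_map, coeff_e6Z, PowerSeries.coeff_one]
  split_ifs with h
  · simp
  · have : (3 : ℤ) ∣ -504 * ∑ d ∈ n.divisors, (d : ℤ) ^ 5 := Dvd.dvd.mul_right (by norm_num) _
    exact u9_cast_eq_zero_of_dvd this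

/-- In characteristic `3`, an `O`-polynomial in `E₄, E₆, Δ` reduces to a polynomial in `Δ`. -/
theorem u9_repr_poly (φ : O →+* κ) (PE : MvPolynomial (Fin 3) O) :
    ∃ P : Polynomial κ,
      (MvPolynomial.aeval ![e4Z.map (Int.castRingHom O), e6Z.map (Int.castRingHom O),
        deltaZ.map (Int.castRingHom O)] PE).map φ =
      Polynomial.aeval (deltaZ.map (Int.castRingHom κ)) P := by
  refine ⟨MvPolynomial.eval₂ (Polynomial.C.comp φ) ![1, 1, Polynomial.X] PE, ?_⟩
  have hL : (MvPolynomial.aeval ![e4Z.map (Int.castRingHom O), e6Z.map (Int.castRingHom O),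
        deltaZ.map (Int.castRingHom O)] PE).map φ =
      MvPolynomial.eval₂ ((PowerSeries.map φ).comp (algebraMap O (PowerSeries O)))
        ((PowerSeries.map φ) ∘ ![e4Z.map (Int.castRingHom O), e6Z.map (Int.castRingHom O),
          deltaZ.map (Int.castRingHom O)]) PE := by
    rw [MvPolynomial.aeval_def]
    exact MvPolynomial.eval₂_comp_left (PowerSeries.map φ) _ _ PE
  have hR : Polynomial.aeval (deltaZ.map (Int.castRingHom κ))
        (MvPolynomial.eval₂ (Polynomial.C.comp φ) ![1, 1, Polynomial.X] PE) =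
      MvPolynomial.eval₂
        (((Polynomial.aeval (deltaZ.map (Int.castRingHom κ)) : Polynomial κ →ₐ[κ] PowerSeries κ) :
          Polynomial κ →+* PowerSeries κ).comp (Polynomial.C.comp φ))
        (((Polynomial.aeval (deltaZ.map (Int.castRingHom κ)) : Polynomial κ →ₐ[κ] PowerSeries κ) :
          Polynomial κ →+* PowerSeries κ) ∘ ![1, 1, Polynomial.X]) PE :=
    MvPolynomial.eval₂_comp_left _ _ _ PE
  rw [hL, hR]
  congr 1
  · ext a
    simp
  · funext i
    fin_cases i
    · simp [u9_map_map_int, u9_e4_map]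
    · simp [u9_map_map_int, u9_e6_map]
    · simp [u9_map_map_int]

/-- (U9), middle layer. -/
theorem u9_mid [PerfectField κ] (p : ℕ) (hp : p ≠ 0) (φ : O →+* κ)
    (k m' : ℕ) (hk : p + 1 = 3 ^ k * m') (hm : ¬ 3 ∣ m')
    (m : Multiset (PowerSeries O)) (hcard : Multiset.card m = p + 1)
    (hmem : ∀ f ∈ m, f.map φ = PowerSeries.expand p hp (sZ.map (Int.castRingHom κ)))
    (E : PowerSeries O) (PE : MvPolynomial (Fin 3) O)
    (hE : E = MvPolynomial.aeval ![e4Z.map (Int.castRingHom O), e6Z.map (Int.castRingHom O),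
      deltaZ.map (Int.castRingHom O)] PE)
    (hsym : PowerSeries.expand p hp E = m.esymm (3 ^ k)) : False := by
  obtain ⟨P, hP⟩ := u9_repr_poly φ PE
  rw [← hE] at hP
  set c : ℕ := Nat.choose (p + 1) (3 ^ k) with hc
  have hc0 : (c : κ) ≠ 0 := by
    rw [Ne, CharP.cast_eq_zero_iff κ 3, hc, hk]
    exact u9_lucas k m' hm
  have h1 := u9_map_esymm_const (PowerSeries.map φ) m _ hmem (3 ^ k)
  rw [← hsym, hcard, PowerSeries.map_expand] at h1
  have h2 : E.map φ = PowerSeries.C (c : κ) * (sZ.map (Int.castRingHom κ)) ^ (3 ^ k) := by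
    apply u9_expand_injective p hp
    rw [h1, map_mul, map_pow, PowerSeries.expand_C, map_natCast]
  rw [hP] at h2
  refine u9_sZ_not_poly_delta (κ := κ) k (Polynomial.C ((c : κ)⁻¹) * P) ?_
  rw [map_mul, Polynomial.aeval_C, h2]
  have : (algebraMap κ (PowerSeries κ)) ((c : κ)⁻¹) = PowerSeries.C ((c : κ)⁻¹) := rfl
  rw [this, ← mul_assoc, ← map_mul, inv_mul_cancel₀ hc0, map_one, one_mul]

end

/-- The subring of algebraic integers of `ℂ`. -/
noncomputable def u9O : Subring ℂ := (integralClosure ℤ ℂ).toSubring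

theorem u9_mem_O_iff (x : ℂ) : x ∈ u9O ↔ IsIntegral ℤ x := Iff.rfl

theorem u9_three_not_unit : ¬ IsUnit ((3 : ℕ) : u9O) := by
  intro h
  obtain ⟨x, hx⟩ := h.exists_right_inv
  have hx' : (3 : ℂ) * (x : ℂ) = 1 := by
    have := congrArg (Subtype.val : u9O → ℂ) hx
    rw [Subring.coe_mul, Subring.coe_natCast, Subring.coe_one] at this
    exact_mod_cast this
  have hxint : IsIntegral ℤ (x : ℂ) := x.2
  have hx3 : (x : ℂ) = algebraMap ℚ ℂ (1 / 3) := by
    have h3 : (3 : ℂ) ≠ 0 := by norm_num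
    have : (x : ℂ) = 1 / 3 := by field_simp; linear_combination hx'
    rw [this]; simp
  rw [hx3] at hxint
  have hq : IsIntegral ℤ (1 / 3 : ℚ) :=
    (isIntegral_algebraMap_iff (algebraMap ℚ ℂ).injective).mp hxint
  obtain ⟨n, hn⟩ := IsIntegrallyClosed.isIntegral_iff.mp hq
  have hn' : (n : ℚ) = 1 / 3 := by simpa using hn
  have h3n : (3 : ℚ) * n = 1 := by rw [hn']; norm_num
  have : (3 : ℤ) * n = 1 := by exact_mod_cast h3n
  omega

/-- A ring homomorphism from the algebraic integers to a perfect field of characteristic `3`. -/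
theorem u9_exists_residue :
    ∃ (κ : Type) (_ : Field κ) (_ : CharP κ 3) (_ : PerfectField κ), Nonempty (u9O →+* κ) := by
  have hI : Ideal.span {((3 : ℕ) : u9O)} ≠ ⊤ := by
    rw [Ne, Ideal.span_singleton_eq_top]
    exact u9_three_not_unit
  obtain ⟨M, hM, hIM⟩ := Ideal.exists_le_maximal _ hI
  let _ : Field (u9O ⧸ M) := Ideal.Quotient.field M
  have h3 : ((3 : ℕ) : u9O ⧸ M) = 0 := by
    have : (Ideal.Quotient.mk M) ((3 : ℕ) : u9O) = 0 :=
      Ideal.Quotient.eq_zero_iff_mem.mpr (hIM (Ideal.subset_span rfl))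
    rwa [map_natCast] at this
  have : CharP (u9O ⧸ M) 3 := (CharP.charP_iff_prime_eq_zero Nat.prime_three).mpr h3
  refine ⟨AlgebraicClosure (u9O ⧸ M), inferInstance, ?_, inferInstance,
    ⟨(algebraMap (u9O ⧸ M) (AlgebraicClosure (u9O ⧸ M))).comp (Ideal.Quotient.mk M)⟩⟩
  exact charP_of_injective_algebraMap (algebraMap (u9O ⧸ M) (AlgebraicClosure (u9O ⧸ M))).injective 3

end Fermat.Agent.S16
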