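import Mathlib
import Fermat.Agent.S16.QSeries

/-!
# S16, piece U9 (formal part): `s^(3^k)` is not a polynomial in `Δ` modulo `3`

`sigmaZ = ∑ σ(n) qⁿ`.  Over a field `K` of characteristic `3` the reduction of `Δ` is `q · f(q³)`,
so `Δ^j` is supported on exponents `≡ j mod 3`, while `s - s³` is supported on exponents
`≡ 1 mod 3`.  Consequently no power `s^(3^k)` is a polynomial in `Δ` with coefficients in `K`.
-/

set_option autoImplicit false

namespace Fermat.Agent.S16

open PowerSeries

/-- The integral `q`-series `s = ∑ σ(n) qⁿ`. -/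
noncomputable def sigmaZ : PowerSeries ℤ := PowerSeries.mk fun n => ∑ d ∈ n.divisors, (d : ℤ)

theorem coeff_sigmaZ (n : ℕ) : PowerSeries.coeff n sigmaZ = ∑ d ∈ n.divisors, (d : ℤ) := by
  simp [sigmaZ]

theorem e2Z_eq_sigmaZ : e2Z = 1 - PowerSeries.C (24 : ℤ) * sigmaZ := by
  ext n
  rw [coeff_e2Z, map_sub, PowerSeries.coeff_C_mul, coeff_sigmaZ, PowerSeries.coeff_one]
  split_ifs with h
  · subst h; simp
  · ring

/-! ### Arithmetic of `σ` modulo `3` -/

theorem u9_sigma_three_mul (m : ℕ) :
    (3 : ℤ) ∣ ∑ d ∈ (3 * m).divisors, (d : ℤ) - ∑ d ∈ m.divisors, (d : ℤ) := by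
  rcases Nat.eq_zero_or_pos m with rfl | hm
  · simp
  have hsub : m.divisors ⊆ (3 * m).divisors := by
    intro d hd
    rw [Nat.mem_divisors] at hd ⊢
    exact ⟨Dvd.dvd.mul_left hd.1 3, by omega⟩
  rw [← Finset.sum_sdiff hsub, add_sub_cancel_right]
  refine Finset.dvd_sum fun d hd => ?_
  rw [Finset.mem_sdiff, Nat.mem_divisors, Nat.mem_divisors] at hd
  have h3 : 3 ∣ d := by
    by_contra h
    have hc : Nat.Coprime d 3 := (Nat.Coprime.symm ((Nat.Prime.coprime_iff_not_dvd Nat.prime_three).mpr h))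
    exact hd.2 ⟨hc.dvd_of_dvd_mul_left hd.1.1, hm.ne'⟩
  exact_mod_cast h3

theorem u9_sigma_two_mod_three (n : ℕ) (hn : n % 3 = 2) :
    (3 : ℤ) ∣ ∑ d ∈ n.divisors, (d : ℤ) := by
  have h2 : (3 : ℤ) ∣ 2 * ∑ d ∈ n.divisors, (d : ℤ) := by
    have e : 2 * ∑ d ∈ n.divisors, (d : ℤ) =
        ∑ d ∈ n.divisors, (((d + n / d : ℕ)) : ℤ) := by
      have h1 := Nat.sum_div_divisors n (fun d => (d : ℤ))
      simp only [Nat.cast_add, Finset.sum_add_distrib]
      rw [h1]
      ring
    rw [e]
    refine Finset.dvd_sum fun d hd => ?_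
    have hd' := Nat.dvd_of_mem_divisors hd
    have hmul : d * (n / d) = n := Nat.mul_div_cancel' hd'
    have h3 : (d + n / d) % 3 = 0 := by
      have h4 : (d % 3) * ((n / d) % 3) % 3 = 2 := by
        rw [← Nat.mul_mod, hmul, hn]
      have h5 : d % 3 < 3 := Nat.mod_lt _ (by norm_num)
      have h6 : (n / d) % 3 < 3 := Nat.mod_lt _ (by norm_num)
      rw [Nat.add_mod]
      interval_cases h7 : d % 3 <;> interval_cases h8 : (n / d) % 3 <;> simp_all
    exact_mod_cast Nat.dvd_of_mod_eq_zero h3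
  exact (IsCoprime.dvd_of_dvd_mul_left (by norm_num : IsCoprime (3 : ℤ) 2) h2)

theorem u9_int_cube (a : ℤ) : (3 : ℤ) ∣ a ^ 3 - a := by
  have h : a ^ 3 - a = (a - 1) * a * (a + 1) := by ring
  rw [h]
  have h3 : a % 3 = 0 ∨ a % 3 = 1 ∨ a % 3 = 2 := by omega
  rcases h3 with h3 | h3 | h3
  · exact Dvd.dvd.mul_right (Dvd.dvd.mul_left (Int.dvd_of_emod_eq_zero h3) _) _
  · exact Dvd.dvd.mul_right (Dvd.dvd.mul_right (Int.dvd_of_emod_eq_zero (by omega)) _) _
  · exact Dvd.dvd.mul_left (Int.dvd_of_emod_eq_zero (by omega)) _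

/-! ### Frobenius on power series in characteristic `3` -/

theorem u9_coeff_pow_three {K : Type*} [CommRing K] [CharP K 3] (f : PowerSeries K) (n : ℕ) :
    PowerSeries.coeff n (f ^ 3) = if 3 ∣ n then (PowerSeries.coeff (n / 3) f) ^ 3 else 0 := by
  have h := MvPowerSeries.map_frobenius_expand (σ := Unit) (R := K) 3 (by norm_num) (f := f)
  have h' : PowerSeries.map (frobenius K 3) (PowerSeries.expand 3 (by norm_num) f) = f ^ 3 := h
  rw [← h', PowerSeries.coeff_map, PowerSeries.coeff_expand]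
  split_ifs with h3
  · rw [frobenius_def]
  · rw [map_zero]

/-! ### Residue classes of exponents -/

/-- `f` is supported on exponents in the class `r` modulo `3`. -/
def U9Cls {K : Type*} [Semiring K] (r : ZMod 3) (f : PowerSeries K) : Prop :=
  ∀ n : ℕ, (n : ZMod 3) ≠ r → PowerSeries.coeff n f = 0

section Cls

variable {K : Type*} [CommRing K]

theorem U9Cls.zero (r : ZMod 3) : U9Cls r (0 : PowerSeries K) := fun n _ => by simp

theorem U9Cls.add {r : ZMod 3} {f g : PowerSeries K} (hf : U9Cls r f) (hg : U9Cls r g) :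
    U9Cls r (f + g) := fun n hn => by rw [map_add, hf n hn, hg n hn, add_zero]

theorem U9Cls.sub {r : ZMod 3} {f g : PowerSeries K} (hf : U9Cls r f) (hg : U9Cls r g) :
    U9Cls r (f - g) := fun n hn => by rw [map_sub, hf n hn, hg n hn, sub_zero]

theorem U9Cls.C_mul {r : ZMod 3} {f : PowerSeries K} (c : K) (hf : U9Cls r f) :
    U9Cls r (PowerSeries.C c * f) := fun n hn => by
  rw [PowerSeries.coeff_C_mul, hf n hn, mul_zero]

theorem U9Cls.sum {ι : Type*} {r : ZMod 3} (s : Finset ι) (f : ι → PowerSeries K)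
    (hf : ∀ i ∈ s, U9Cls r (f i)) : U9Cls r (∑ i ∈ s, f i) := fun n hn => by
  rw [map_sum]
  exact Finset.sum_eq_zero fun i hi => hf i hi n hn

theorem U9Cls.mul {a b : ZMod 3} {f g : PowerSeries K} (hf : U9Cls a f) (hg : U9Cls b g) :
    U9Cls (a + b) (f * g) := fun n hn => by
  rw [PowerSeries.coeff_mul]
  refine Finset.sum_eq_zero fun x hx => ?_
  have hx' : x.1 + x.2 = n := Finset.HasAntidiagonal.mem_antidiagonal.mp hx
  by_cases h1 : ((x.1 : ℕ) : ZMod 3) = a
  · by_cases h2 : ((x.2 : ℕ) : ZMod 3) = b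
    · exfalso
      apply hn
      rw [← hx', Nat.cast_add, h1, h2]
    · rw [hg _ h2, mul_zero]
  · rw [hf _ h1, zero_mul]

theorem U9Cls.one : U9Cls 0 (1 : PowerSeries K) := fun n hn => by
  rw [PowerSeries.coeff_one, if_neg]
  rintro rfl
  exact hn (by simp)

theorem U9Cls.pow {a : ZMod 3} {f : PowerSeries K} (hf : U9Cls a f) (j : ℕ) :
    U9Cls ((j : ZMod 3) * a) (f ^ j) := by
  induction j with
  | zero => simpa using (U9Cls.one (K := K))
  | succ j ih =>
    rw [pow_succ]
    have h := ih.mul hf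
    have e : ((j : ZMod 3) * a + a) = ((j + 1 : ℕ) : ZMod 3) * a := by push_cast; ring
    rwa [e] at h

theorem U9Cls.X : U9Cls 1 (PowerSeries.X : PowerSeries K) := fun n hn => by
  rw [PowerSeries.coeff_X, if_neg]
  rintro rfl
  exact hn (by simp)

theorem U9Cls.cube [CharP K 3] (f : PowerSeries K) : U9Cls 0 (f ^ 3) := fun n hn => by
  rw [u9_coeff_pow_three, if_neg]
  intro h3
  apply hn
  exact (ZMod.natCast_eq_zero_iff n 3).mpr h3

theorem U9Cls.eq_zero_of_ne {a b : ZMod 3} (hab : a ≠ b) {f : PowerSeries K} (ha : U9Cls a f)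
    (hb : U9Cls b f) : f = 0 := by
  ext n
  rw [map_zero]
  by_cases h : (n : ZMod 3) = a
  · exact hb n (by rw [h]; exact hab)
  · exact ha n h

end Cls

/-! ### The reductions of `Δ` and `s` -/

section Field

variable (K : Type*) [Field K] [CharP K 3]

/-- The reduction of `Δ` to `K`. -/
noncomputable def u9Delta : PowerSeries K := deltaZ.map (Int.castRingHom K)

/-- The reduction of `s = ∑ σ(n) qⁿ` to `K`. -/
noncomputable def u9Sigma : PowerSeries K := sigmaZ.map (Int.castRingHom K)

/-- The unit part of `Δ`. -/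
noncomputable def u9Unit : PowerSeries K := ModularCurve.dedekindEtaUnit.map (Int.castRingHom K)

omit [CharP K 3] in
theorem u9Delta_eq : u9Delta K = PowerSeries.X * u9Unit K := by
  rw [u9Delta, u9Unit, deltaZ, map_mul, PowerSeries.map_X]

omit [CharP K 3] in
theorem u9Unit_constantCoeff : PowerSeries.constantCoeff (u9Unit K) = 1 := by
  rw [u9Unit, ← PowerSeries.coeff_zero_eq_constantCoeff_apply, PowerSeries.coeff_map,
    PowerSeries.coeff_zero_eq_constantCoeff_apply, ModularCurve.constantCoeff_dedekindEtaUnit]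
  simp

theorem u9Unit_cls : U9Cls 0 (u9Unit K) := by
  have h : u9Unit K = ((ModularCurve.etaProd.map (Int.castRingHom K)) ^ 8) ^ 3 := by
    rw [u9Unit, ModularCurve.dedekindEtaUnit, map_pow, ← pow_mul]
  rw [h]
  exact U9Cls.cube _

theorem u9Delta_cls : U9Cls 1 (u9Delta K) := by
  rw [u9Delta_eq]
  have h := (U9Cls.X (K := K)).mul (u9Unit_cls K)
  rwa [add_zero] at h

theorem u9Delta_pow_cls (j : ℕ) : U9Cls (j : ZMod 3) (u9Delta K ^ j) := by
  have h := (u9Delta_cls K).pow j
  rwa [mul_one] at h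

omit [CharP K 3] in
theorem u9_coeff_delta_pow (j n : ℕ) :
    PowerSeries.coeff n (u9Delta K ^ j) =
      if j ≤ n then PowerSeries.coeff (n - j) (u9Unit K ^ j) else 0 := by
  rw [u9Delta_eq, mul_pow, PowerSeries.coeff_X_pow_mul']

omit [CharP K 3] in
theorem u9_coeff_delta_pow_self (j : ℕ) : PowerSeries.coeff j (u9Delta K ^ j) = 1 := by
  rw [u9_coeff_delta_pow, if_pos le_rfl, Nat.sub_self, PowerSeries.coeff_zero_eq_constantCoeff_apply,
    map_pow, u9Unit_constantCoeff, one_pow]

omit [CharP K 3] in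
/-- Linear independence of the powers of `Δ`. -/
theorem u9_sum_delta_pow_eq_zero (N : ℕ) (c : ℕ → K)
    (h : ∑ j ∈ Finset.range N, PowerSeries.C (c j) * u9Delta K ^ j = 0) :
    ∀ j < N, c j = 0 := by
  intro j
  induction j using Nat.strong_induction_on with
  | _ j ih =>
    intro hj
    have h1 := congrArg (PowerSeries.coeff j) h
    rw [map_sum, map_zero] at h1
    rw [Finset.sum_eq_single j] at h1
    · rwa [PowerSeries.coeff_C_mul, u9_coeff_delta_pow_self, mul_one] at h1
    · intro i hi hij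
      rw [PowerSeries.coeff_C_mul, u9_coeff_delta_pow]
      rcases lt_or_gt_of_ne hij with h2 | h2
      · rw [ih i h2 (Finset.mem_range.mp hi), zero_mul]
      · rw [if_neg (by omega), mul_zero]
    · intro h2
      exact absurd (Finset.mem_range.mpr hj) h2

/-- If a `K`-combination of powers of `Δ` is supported on one residue class of exponents, then
only the powers in that class occur. -/
theorem u9_coeff_eq_zero_of_cls (N : ℕ) (c : ℕ → K) (r : ZMod 3)
    (h : U9Cls r (∑ j ∈ Finset.range N, PowerSeries.C (c j) * u9Delta K ^ j)) :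
    ∀ j < N, (j : ZMod 3) ≠ r → c j = 0 := by
  intro j hj hjr
  set r' : ZMod 3 := (j : ZMod 3) with hr'
  have key : ∑ i ∈ Finset.range N,
      PowerSeries.C (if (i : ZMod 3) = r' then c i else 0) * u9Delta K ^ i = 0 := by
    ext n
    rw [map_zero, map_sum]
    by_cases hn : (n : ZMod 3) = r'
    · have h1 := h n (by rw [hn]; exact hjr)
      rw [map_sum] at h1
      refine Eq.trans ?_ h1
      refine Finset.sum_congr rfl fun i _ => ?_
      by_cases hi : (i : ZMod 3) = r'
      · rw [if_pos hi]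
      · rw [if_neg hi, map_zero, zero_mul, map_zero, PowerSeries.coeff_C_mul,
          u9Delta_pow_cls K i n (by rw [hn]; exact fun h => hi h.symm), mul_zero]
    · refine Finset.sum_eq_zero fun i _ => ?_
      by_cases hi : (i : ZMod 3) = r'
      · rw [PowerSeries.coeff_C_mul, u9Delta_pow_cls K i n (by rw [hi]; exact hn), mul_zero]
      · rw [if_neg hi, map_zero, zero_mul, map_zero]
  have h2 := u9_sum_delta_pow_eq_zero K N _ key j hj
  rwa [if_pos rfl] at h2

omit [CharP K 3] in
theorem u9_aeval_eq_sum (P : Polynomial K) :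
    Polynomial.aeval (u9Delta K) P =
      ∑ j ∈ Finset.range (P.natDegree + 1), PowerSeries.C (P.coeff j) * u9Delta K ^ j := by
  rw [Polynomial.aeval_eq_sum_range]
  refine Finset.sum_congr rfl fun j _ => ?_
  rw [PowerSeries.smul_eq_C_mul]

theorem u9_poly_coeff_eq_zero_of_cls (P : Polynomial K) (r : ZMod 3)
    (h : U9Cls r (Polynomial.aeval (u9Delta K) P)) (j : ℕ) (hj : (j : ZMod 3) ≠ r) :
    P.coeff j = 0 := by
  by_cases hjN : j < P.natDegree + 1
  · rw [u9_aeval_eq_sum] at h
    exact u9_coeff_eq_zero_of_cls K _ _ r h j hjN hj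
  · exact Polynomial.coeff_eq_zero_of_natDegree_lt (by omega)

instance u9_charP_powerSeries : CharP (PowerSeries K) 3 :=
  charP_of_injective_algebraMap (algebraMap K (PowerSeries K)).injective 3

/-- Cubes of polynomials in `Δ`. -/
theorem u9_aeval_cube (P : Polynomial K) :
    (Polynomial.aeval (u9Delta K) P) ^ 3 =
      Polynomial.aeval (u9Delta K) (Polynomial.expand K 3 (P.map (frobenius K 3))) := by
  rw [Polynomial.expand_aeval, Polynomial.aeval_def, Polynomial.aeval_def, Polynomial.eval₂_map]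
  have h := Polynomial.hom_eval₂ P (algebraMap K (PowerSeries K)) (frobenius (PowerSeries K) 3)
    (u9Delta K)
  rw [frobenius_def, frobenius_def] at h
  rw [h]
  congr 1
  ext c
  simp [frobenius_def]

theorem u9_pow_three_injective {f g : PowerSeries K} (h : f ^ 3 = g ^ 3) : f = g :=
  frobenius_inj (PowerSeries K) 3 (by rw [frobenius_def, frobenius_def]; exact h)

/-- `s - s³` is supported on exponents `≡ 1 mod 3`. -/
theorem u9Sigma_sub_cube_cls : U9Cls 1 (u9Sigma K - u9Sigma K ^ 3) := by
  intro n hn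
  have hcast : ∀ a : ℤ, ((a : K)) ^ 3 = (a : K) := by
    intro a
    have h := (CharP.intCast_eq_zero_iff K 3 (a ^ 3 - a)).mpr (by exact_mod_cast u9_int_cube a)
    push_cast at h
    exact sub_eq_zero.mp h
  rw [map_sub, u9_coeff_pow_three]
  simp only [u9Sigma, PowerSeries.coeff_map, coeff_sigmaZ, eq_intCast]
  have hn3 : n % 3 = 0 ∨ n % 3 = 2 := by
    have h1 : n % 3 ≠ 1 := by
      intro h1
      apply hn
      have : (n : ZMod 3) = ((n % 3 : ℕ) : ZMod 3) := by
        rw [ZMod.natCast_mod]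
      rw [this, h1]
      simp
    omega
  rcases hn3 with h0 | h2
  · obtain ⟨m, rfl⟩ := Nat.dvd_of_mod_eq_zero h0
    rw [if_pos (dvd_mul_right 3 m), Nat.mul_div_cancel_left m (by norm_num), hcast]
    have h := (CharP.intCast_eq_zero_iff K 3 _).mpr (by exact_mod_cast u9_sigma_three_mul m)
    push_cast at h ⊢
    exact h
  · rw [if_neg (by omega), sub_zero]
    exact (CharP.intCast_eq_zero_iff K 3 _).mpr (by exact_mod_cast u9_sigma_two_mod_three n h2)

omit [CharP K 3] in
theorem u9Sigma_coeff_one : PowerSeries.coeff 1 (u9Sigma K) = 1 := by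
  simp [u9Sigma, coeff_sigmaZ]

/-- `s` is not a polynomial in `Δ`. -/
theorem u9_sigma_ne_aeval (P : Polynomial K) : u9Sigma K ≠ Polynomial.aeval (u9Delta K) P := by
  intro h
  -- the coefficient recursion `c_{3i} = c_i ^ 3`
  have hrec : ∀ i : ℕ, P.coeff (3 * i) = P.coeff i ^ 3 := by
    intro i
    have h1 : U9Cls 1 (Polynomial.aeval (u9Delta K)
        (P - Polynomial.expand K 3 (P.map (frobenius K 3)))) := by
      rw [map_sub, ← u9_aeval_cube, ← h]
      exact u9Sigma_sub_cube_cls K
    have h2 := u9_poly_coeff_eq_zero_of_cls K _ 1 h1 (3 * i) (by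
      have : ((3 * i : ℕ) : ZMod 3) = 0 := by
        rw [ZMod.natCast_eq_zero_iff]; exact dvd_mul_right 3 i
      rw [this]; decide)
    rw [Polynomial.coeff_sub, mul_comm 3 i, Polynomial.coeff_expand_mul (by norm_num),
      Polynomial.coeff_map, frobenius_def] at h2
    rw [mul_comm 3 i]
    exact sub_eq_zero.mp h2
  -- all higher coefficients vanish
  have hzero : ∀ i : ℕ, 1 ≤ i → P.coeff i = 0 := by
    intro i hi
    by_contra hne
    have hpow : ∀ m : ℕ, P.coeff (3 ^ m * i) ≠ 0 := by
      intro m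
      induction m with
      | zero => simpa using hne
      | succ m ih =>
        rw [pow_succ, mul_comm (3 ^ m) 3, mul_assoc, hrec]
        exact pow_ne_zero 3 ih
    have hle := Polynomial.le_natDegree_of_ne_zero (hpow (P.natDegree + 1))
    have h3 : P.natDegree + 1 < 3 ^ (P.natDegree + 1) := Nat.lt_pow_self (by norm_num)
    have h4 : 3 ^ (P.natDegree + 1) ≤ 3 ^ (P.natDegree + 1) * i := Nat.le_mul_of_pos_right _ hi
    omega
  have h1 := congrArg (PowerSeries.coeff 1) h
  rw [u9Sigma_coeff_one, u9_aeval_eq_sum, map_sum] at h1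
  have h5 : ∑ j ∈ Finset.range (P.natDegree + 1),
      PowerSeries.coeff 1 (PowerSeries.C (P.coeff j) * u9Delta K ^ j) = 0 := by
    refine Finset.sum_eq_zero fun j _ => ?_
    rcases Nat.eq_zero_or_pos j with rfl | hj
    · rw [pow_zero, mul_one, PowerSeries.coeff_C, if_neg one_ne_zero]
    · rw [hzero j hj, map_zero, zero_mul, map_zero]
  rw [h5] at h1
  exact one_ne_zero h1

/-- Descent: a cube which is a polynomial in `Δ` is the cube of a polynomial in `Δ`. -/
theorem u9_descent [PerfectRing K 3] (t : PowerSeries K) (P : Polynomial K)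
    (h : t ^ 3 = Polynomial.aeval (u9Delta K) P) :
    ∃ P' : Polynomial K, t = Polynomial.aeval (u9Delta K) P' := by
  have hcls : U9Cls 0 (Polynomial.aeval (u9Delta K) P) := h ▸ U9Cls.cube t
  have hc : ∀ j : ℕ, (j : ZMod 3) ≠ 0 → P.coeff j = 0 :=
    fun j hj => u9_poly_coeff_eq_zero_of_cls K P 0 hcls j hj
  have hder : Polynomial.derivative P = 0 := by
    ext n
    rw [Polynomial.coeff_derivative, Polynomial.coeff_zero]
    by_cases h3 : ((n + 1 : ℕ) : ZMod 3) = 0
    · have : ((n : K) + 1) = 0 := by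
        have h4 := (ZMod.natCast_eq_zero_iff (n + 1) 3).mp h3
        have h5 := (CharP.cast_eq_zero_iff K 3 (n + 1)).mpr h4
        exact_mod_cast h5
      rw [this, mul_zero]
    · rw [hc (n + 1) h3, zero_mul]
  have hP : Polynomial.expand K 3 (Polynomial.contract 3 P) = P :=
    Polynomial.expand_contract' 3 hder
  set P'' : Polynomial K := (Polynomial.contract 3 P).map
    ((frobeniusEquiv K 3).symm : K →+* K) with hP''
  have hmap : P''.map (frobenius K 3) = Polynomial.contract 3 P := by
    rw [hP'', Polynomial.map_map]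
    have : (frobenius K 3).comp ((frobeniusEquiv K 3).symm : K →+* K) = RingHom.id K := by
      ext x
      simp
    rw [this, Polynomial.map_id]
  refine ⟨P'', u9_pow_three_injective K ?_⟩
  rw [u9_aeval_cube, hmap, hP, h]

/-- **Formal core of (U9)**: no power `s^(3^k)` is a polynomial in `Δ`, over a perfect field of
characteristic `3`. -/
theorem u9_sigma_pow_ne_aeval_of_perfect [PerfectRing K 3] (k : ℕ) (P : Polynomial K) :
    u9Sigma K ^ 3 ^ k ≠ Polynomial.aeval (u9Delta K) P := by
  induction k generalizing P with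
  | zero => simpa using u9_sigma_ne_aeval K P
  | succ k ih =>
    intro h
    rw [pow_succ, pow_mul] at h
    obtain ⟨P', hP'⟩ := u9_descent K _ P h
    exact ih P' hP'

end Field

/-- **Formal core of (U9)**: over any field `K` of characteristic `3`, no power `s^(3^k)` of
`s = ∑ σ(n) qⁿ` is a polynomial in `Δ` with coefficients in `K`. -/
theorem u9_sigma_pow_ne_aeval (K : Type*) [Field K] [CharP K 3] (k : ℕ) (P : Polynomial K) :
    u9Sigma K ^ 3 ^ k ≠ Polynomial.aeval (u9Delta K) P := by
  intro h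
  let L := AlgebraicClosure K
  have : CharP L 3 := charP_of_injective_algebraMap (algebraMap K L).injective 3
  let φ : K →+* L := algebraMap K L
  have hS : PowerSeries.map φ (u9Sigma K) = u9Sigma L := by
    rw [u9Sigma, u9Sigma]
    ext n
    simp [PowerSeries.coeff_map]
  have hD : PowerSeries.map φ (u9Delta K) = u9Delta L := by
    rw [u9Delta, u9Delta]
    ext n
    simp [PowerSeries.coeff_map]
  have h1 := congrArg (PowerSeries.map φ) h
  rw [map_pow, hS, Polynomial.aeval_def, Polynomial.hom_eval₂, hD] at h1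
  have h2 : (PowerSeries.map φ).comp (algebraMap K (PowerSeries K)) =
      (algebraMap L (PowerSeries L)).comp φ := by
    ext c
    simp
  rw [h2, ← Polynomial.eval₂_map, ← Polynomial.aeval_def] at h1
  exact u9_sigma_pow_ne_aeval_of_perfect L k _ h1

end Fermat.Agent.S16
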