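import Mathlib
import Fermat.Agent.S16.QSeries
import Fermat.Agent.S16.DeltaId

/-!
# S16: formal level-3 / level-2 coordinates for the level one `q`-series

For `U8` and `U9` we need "coordinates" in which the integral `q`-series of `E₄`, `E₆`, `Δ`
become polynomials in a unit `b` of weight two and a uniformizer `h = q + ⋯` of weight zero:

* (`uform_two`)  `E₄ = b² (1 + 216 h)`, `E₆ = b³ (1 - 540 h - 5832 h²)`, `Δ = b⁶ h (1 - 27 h)³`,
  with `b ≡ 1 + 4 h mod 8`;
* (`uform_three`) `E₄ = A² (1 + 192 v)`, `E₆ = A³ (1 - 576 v)`, `Δ = A⁶ v (1 - 64 v)²`,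
  with `A ≡ 1 mod 3` and `(A - 1)/3 = 8 q + ⋯`.

(These are the expansions of the Hauptmoduln and weight two Eisenstein series of `Γ₀(3)` and
`Γ₀(2)`, but we construct them purely formally: `h` is the fixed point of a `q`-adic contraction
and the identities are algebra from `1728 Δ = E₄³ - E₆²`.)
-/

set_option autoImplicit false

namespace Fermat.Agent.S16

open PowerSeries

section FixedPoint

variable {A : Type*} [CommRing A]

theorem uf_alg_aux {R : Type*} [CommRing R] (x d iE nm iv dn E : R) (e : ℕ)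
    (h1 : dn * iv = 1) (hEi : E * iE = 1) :
    x * (d * iE ^ 3 * (nm ^ 3 * iv ^ e)) * dn ^ e * E ^ 3 = x * d * nm ^ 3 := by
  have hpow : (dn * iv) ^ e = 1 := by rw [h1, one_pow]
  have hE3 : (E * iE) ^ 3 = 1 := by rw [hEi, one_pow]
  calc x * (d * iE ^ 3 * (nm ^ 3 * iv ^ e)) * dn ^ e * E ^ 3
      = x * d * nm ^ 3 * ((dn * iv) ^ e * (E * iE) ^ 3) := by ring
    _ = x * d * nm ^ 3 := by rw [hpow, hE3]; ring

/-- A `q`-adic contraction of `A⟦X⟧` has a fixed point. -/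
theorem uf_fixed_point (T : PowerSeries A → PowerSeries A)
    (hT : ∀ (x y : PowerSeries A) (n : ℕ), (X : PowerSeries A) ^ n ∣ x - y →
      (X : PowerSeries A) ^ (n + 1) ∣ T x - T y) :
    ∃ u, T u = u := by
  set s : ℕ → PowerSeries A := fun n => T^[n] 0 with hs
  have hsucc : ∀ n, s (n + 1) = T (s n) := fun n => Function.iterate_succ_apply' T n 0
  have hstep : ∀ n, (X : PowerSeries A) ^ n ∣ s (n + 1) - s n := by
    intro n
    induction n with
    | zero => simp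
    | succ n ih =>
      have := hT _ _ n ih
      rwa [← hsucc, ← hsucc] at this
  have hle : ∀ n m, n ≤ m → (X : PowerSeries A) ^ n ∣ s m - s n := by
    intro n m hnm
    induction m, hnm using Nat.le_induction with
    | base => simp
    | succ m hm ih =>
      have h1 : (X : PowerSeries A) ^ n ∣ s (m + 1) - s m := (pow_dvd_pow _ hm).trans (hstep m)
      have e : s (m + 1) - s n = (s (m + 1) - s m) + (s m - s n) := by ring
      rw [e]
      exact dvd_add h1 ih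
  let u : PowerSeries A := PowerSeries.mk fun k => coeff k (s (k + 1))
  have hu : ∀ n, (X : PowerSeries A) ^ n ∣ u - s n := by
    intro n
    rw [X_pow_dvd_iff]
    intro k hk
    have h1 := (X_pow_dvd_iff.mp (hle (k + 1) n hk)) k (Nat.lt_succ_self k)
    rw [map_sub] at h1
    rw [map_sub, coeff_mk]
    linear_combination -h1
  refine ⟨u, ?_⟩
  ext k
  have h1 : (X : PowerSeries A) ^ (k + 1) ∣ T u - s (k + 1) := by
    have := hT u (s k) k (hu k)
    rwa [← hsucc] at this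
  have h2 : (X : PowerSeries A) ^ (k + 1) ∣ T u - u := by
    have e : T u - u = (T u - s (k + 1)) - (u - s (k + 1)) := by ring
    rw [e]
    exact dvd_sub h1 (hu (k + 1))
  have h3 := (X_pow_dvd_iff.mp h2) k (Nat.lt_succ_self k)
  rw [map_sub] at h3
  exact sub_eq_zero.mp h3

/-- Existence of the formal uniformizer: a solution `h = q + ⋯` of
`h (1 - c h)^e E³ = q D (1 + a h)³`. -/
theorem uf_exists_unif (a c : PowerSeries A) (e : ℕ) (E D : PowerSeries A)
    (hE : constantCoeff E = 1) (hD : constantCoeff D = 1) :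
    ∃ h : PowerSeries A, constantCoeff h = 0 ∧ coeff 1 h = 1 ∧
      h * (1 - c * h) ^ e * E ^ 3 = X * D * (1 + a * h) ^ 3 := by
  set iE : PowerSeries A := invOfUnit E 1 with hiE
  have hEi : E * iE = 1 := mul_invOfUnit E 1 (by simpa using hE)
  let den : PowerSeries A → PowerSeries A := fun g => 1 - c * (X * g)
  let num : PowerSeries A → PowerSeries A := fun g => 1 + a * (X * g)
  let inv : PowerSeries A → PowerSeries A := fun g => invOfUnit (den g) 1
  have hden : ∀ g, den g * inv g = 1 := fun g => mul_invOfUnit (den g) 1 (by simp [den])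
  let T : PowerSeries A → PowerSeries A := fun g => D * iE ^ 3 * (num g ^ 3 * inv g ^ e)
  have hT : ∀ (x y : PowerSeries A) (n : ℕ), (X : PowerSeries A) ^ n ∣ x - y →
      (X : PowerSeries A) ^ (n + 1) ∣ T x - T y := by
    intro x y n hxy
    have hX : (X : PowerSeries A) ^ (n + 1) ∣ X * x - X * y := by
      rw [← mul_sub, pow_succ']
      exact mul_dvd_mul_left X hxy
    have hnum : (X : PowerSeries A) ^ (n + 1) ∣ num x - num y := by
      have e1 : num x - num y = a * (X * x - X * y) := by simp only [num]; ring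
      rw [e1]
      exact Dvd.dvd.mul_left hX a
    have hdn : (X : PowerSeries A) ^ (n + 1) ∣ den y - den x := by
      have e1 : den y - den x = c * (X * x - X * y) := by simp only [den]; ring
      rw [e1]
      exact Dvd.dvd.mul_left hX c
    have hinv : (X : PowerSeries A) ^ (n + 1) ∣ inv x - inv y := by
      have e1 : inv x - inv y = inv x * inv y * (den y - den x) := by
        have h1 := hden x
        have h2 := hden y
        linear_combination (-(inv x)) * h2 + (inv y) * h1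
      rw [e1]
      exact Dvd.dvd.mul_left hdn _
    have hnum3 : (X : PowerSeries A) ^ (n + 1) ∣ num x ^ 3 - num y ^ 3 :=
      hnum.trans (sub_dvd_pow_sub_pow _ _ 3)
    have hinve : (X : PowerSeries A) ^ (n + 1) ∣ inv x ^ e - inv y ^ e :=
      hinv.trans (sub_dvd_pow_sub_pow _ _ e)
    have e2 : T x - T y = D * iE ^ 3 * ((num x ^ 3 - num y ^ 3) * inv x ^ e
        + num y ^ 3 * (inv x ^ e - inv y ^ e)) := by
      simp only [T]; ring
    rw [e2]
    exact Dvd.dvd.mul_left (dvd_add (Dvd.dvd.mul_right hnum3 _) (Dvd.dvd.mul_left hinve _)) _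
  obtain ⟨g, hg⟩ := uf_fixed_point T hT
  have hciE : constantCoeff iE = 1 := by
    have := congrArg (constantCoeff (R := A)) hEi
    rwa [map_mul, hE, one_mul, map_one] at this
  have hcinv : constantCoeff (inv g) = 1 := by
    have := congrArg (constantCoeff (R := A)) (hden g)
    have hd : constantCoeff (den g) = 1 := by simp [den]
    rwa [map_mul, hd, one_mul, map_one] at this
  have hcg : constantCoeff g = 1 := by
    rw [← hg]
    simp only [T, map_mul, map_pow, hD, hciE, hcinv, one_pow, one_mul, mul_one]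
    simp [num]
  refine ⟨X * g, by simp, ?_, ?_⟩
  · rw [show (1 : ℕ) = 0 + 1 from rfl, coeff_succ_X_mul, coeff_zero_eq_constantCoeff_apply, hcg]
  · have h1 := hden g
    have hg' : g = D * iE ^ 3 * (num g ^ 3 * inv g ^ e) := hg.symm
    show X * g * den g ^ e * E ^ 3 = X * D * num g ^ 3
    calc X * g * den g ^ e * E ^ 3
        = X * (D * iE ^ 3 * (num g ^ 3 * inv g ^ e)) * den g ^ e * E ^ 3 := by rw [← hg']
      _ = X * D * num g ^ 3 := uf_alg_aux _ _ _ _ _ _ _ e h1 hEi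

end FixedPoint

/-- The algebra behind the parametrisations. -/
theorem uf_param {R : Type*} [CommRing R] {E4 E6 Δ h P1 P2 P3 iE4 iP1 iP2 : R}
    (hE4 : E4 * iE4 = 1) (hP1 : P1 * iP1 = 1) (hP2 : P2 * iP2 = 1)
    (ha : h * P3 * E4 ^ 3 = Δ * P1 ^ 3) (hb : 1728 * Δ = E4 ^ 3 - E6 ^ 2)
    (hc : P1 ^ 3 - 1728 * (h * P3) = P2 ^ 2) :
    E4 = (E6 * iE4 * P1 * iP2) ^ 2 * P1 ∧ E6 = (E6 * iE4 * P1 * iP2) ^ 3 * P2 ∧
      Δ = (E6 * iE4 * P1 * iP2) ^ 6 * (h * P3) := by
  have star : E6 ^ 2 * P1 ^ 3 = E4 ^ 3 * P2 ^ 2 := by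
    linear_combination P1 ^ 3 * hb + 1728 * ha + E4 ^ 3 * hc
  have h1 : (E4 * iE4) ^ 2 = 1 := by rw [hE4, one_pow]
  have h2 : (P2 * iP2) ^ 2 = 1 := by rw [hP2, one_pow]
  have hi : (E6 * iE4 * P1 * iP2) ^ 2 * P1 = E4 := by
    calc (E6 * iE4 * P1 * iP2) ^ 2 * P1 = (E6 ^ 2 * P1 ^ 3) * (iE4 ^ 2 * iP2 ^ 2) := by ring
      _ = (E4 ^ 3 * P2 ^ 2) * (iE4 ^ 2 * iP2 ^ 2) := by rw [star]
      _ = E4 * ((E4 * iE4) ^ 2 * (P2 * iP2) ^ 2) := by ring
      _ = E4 := by rw [h1, h2]; ring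
  have hsq : (E6 * iE4 * P1 * iP2) ^ 2 = E4 * iP1 := by
    calc (E6 * iE4 * P1 * iP2) ^ 2 = (E6 * iE4 * P1 * iP2) ^ 2 * (P1 * iP1) := by
          rw [hP1, mul_one]
      _ = ((E6 * iE4 * P1 * iP2) ^ 2 * P1) * iP1 := by ring
      _ = E4 * iP1 := by rw [hi]
  refine ⟨hi.symm, ?_, ?_⟩
  · calc E6 = E6 * ((E4 * iE4) * (P1 * iP1) * (P2 * iP2)) := by rw [hE4, hP1, hP2]; ring
      _ = (E6 * iE4 * P1 * iP2) * (E4 * iP1) * P2 := by ring
      _ = (E6 * iE4 * P1 * iP2) * (E6 * iE4 * P1 * iP2) ^ 2 * P2 := by rw [hsq]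
      _ = (E6 * iE4 * P1 * iP2) ^ 3 * P2 := by ring
  · have h3 : (P1 * iP1) ^ 3 = 1 := by rw [hP1, one_pow]
    calc Δ = Δ * (P1 * iP1) ^ 3 := by rw [h3, mul_one]
      _ = (Δ * P1 ^ 3) * iP1 ^ 3 := by ring
      _ = (h * P3 * E4 ^ 3) * iP1 ^ 3 := by rw [ha]
      _ = (E4 * iP1) ^ 3 * (h * P3) := by ring
      _ = ((E6 * iE4 * P1 * iP2) ^ 2) ^ 3 * (h * P3) := by rw [hsq]
      _ = (E6 * iE4 * P1 * iP2) ^ 6 * (h * P3) := by ring

/-- An integer power series which vanishes modulo `n` is divisible by `n`. -/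
theorem uf_dvd_of_map_eq_zero (n : ℕ) (f : PowerSeries ℤ)
    (hf : PowerSeries.map (Int.castRingHom (ZMod n)) f = 0) :
    ∃ w : PowerSeries ℤ, f = C (n : ℤ) * w := by
  refine ⟨PowerSeries.mk fun k => coeff k f / n, ?_⟩
  ext k
  have h1 : ((coeff k f : ℤ) : ZMod n) = 0 := by
    have := congrArg (coeff k) hf
    simpa [coeff_map] using this
  have h2 : (n : ℤ) ∣ coeff k f := (ZMod.intCast_zmod_eq_zero_iff_dvd _ _).mp h1
  rw [coeff_C_mul, coeff_mk, Int.mul_ediv_cancel' h2]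

theorem uf_map_e4Z (n : ℕ) (hn : n ∣ 240) :
    PowerSeries.map (Int.castRingHom (ZMod n)) e4Z = 1 := by
  ext k
  rw [coeff_map, coeff_e4Z, coeff_one]
  split_ifs with h
  · simp
  · have h240 : (Int.castRingHom (ZMod n)) (240 : ℤ) = 0 := by
      have : ((240 : ℕ) : ZMod n) = 0 := (ZMod.natCast_eq_zero_iff _ _).mpr hn
      rw [eq_intCast]
      exact_mod_cast this
    rw [map_mul, h240, zero_mul]

theorem uf_map_e6Z (n : ℕ) (hn : n ∣ 504) :
    PowerSeries.map (Int.castRingHom (ZMod n)) e6Z = 1 := by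
  ext k
  rw [coeff_map, coeff_e6Z, coeff_one]
  split_ifs with h
  · simp
  · have h504 : (Int.castRingHom (ZMod n)) (-504 : ℤ) = 0 := by
      have : ((504 : ℕ) : ZMod n) = 0 := (ZMod.natCast_eq_zero_iff _ _).mpr hn
      rw [eq_intCast, Int.cast_neg, neg_eq_zero]
      exact_mod_cast this
    rw [map_mul, h504, zero_mul]

theorem uf_natCast_eq_zero (n m : ℕ) (h : n ∣ m) : ((m : ℕ) : PowerSeries (ZMod n)) = 0 := by
  have : ((m : ℕ) : PowerSeries (ZMod n)) = C ((m : ℕ) : ZMod n) := (map_natCast C m).symm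
  rw [this, (ZMod.natCast_eq_zero_iff _ _).mpr h, map_zero]

theorem uf_ofNat_eq_zero (n m : ℕ) [m.AtLeastTwo] (h : n ∣ m) :
    (OfNat.ofNat m : PowerSeries (ZMod n)) = 0 := by
  rw [← Nat.cast_ofNat (R := PowerSeries (ZMod n))]
  exact uf_natCast_eq_zero n m h

theorem uf_constantCoeff_invOfUnit (f : PowerSeries ℤ) (hf : constantCoeff f = 1) :
    f * invOfUnit f 1 = 1 ∧ constantCoeff (invOfUnit f 1) = 1 := by
  have h1 : f * invOfUnit f 1 = 1 := mul_invOfUnit f 1 (by simpa using hf)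
  refine ⟨h1, ?_⟩
  have := congrArg (constantCoeff (R := ℤ)) h1
  rwa [map_mul, hf, one_mul, map_one] at this

/-- **Formal level three coordinates.**  There are `b = 1 + ⋯` and `h = q + ⋯` in `ℤ⟦q⟧` with
`E₄ = b² (1 + 216 h)`, `E₆ = b³ (1 - 540 h - 5832 h²)`, `Δ = b⁶ h (1 - 27 h)³` and
`b ≡ 1 + 4 h mod 8`. -/
theorem uform_two_of (hΔ : (1728 : PowerSeries ℤ) * deltaZ = e4Z ^ 3 - e6Z ^ 2) :
    ∃ b h w : PowerSeries ℤ, constantCoeff b = 1 ∧ constantCoeff h = 0 ∧ coeff 1 h = 1 ∧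
      e4Z = b ^ 2 * (1 + 216 * h) ∧ e6Z = b ^ 3 * (1 - 540 * h - 5832 * h ^ 2) ∧
      deltaZ = b ^ 6 * (h * (1 - 27 * h) ^ 3) ∧ b = 1 + 4 * h + 8 * w := by
  obtain ⟨h, hh0, hh1, hh⟩ := uf_exists_unif (216 : PowerSeries ℤ) 27 3 e4Z
    ModularCurve.dedekindEtaUnit constantCoeff_e4Z ModularCurve.constantCoeff_dedekindEtaUnit
  have hh' : h * (1 - 27 * h) ^ 3 * e4Z ^ 3 = deltaZ * (1 + 216 * h) ^ 3 := hh
  obtain ⟨P1, hP1⟩ : ∃ P1 : PowerSeries ℤ, P1 = 1 + 216 * h := ⟨_, rfl⟩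
  obtain ⟨P2, hP2⟩ : ∃ P2 : PowerSeries ℤ, P2 = 1 - 540 * h - 5832 * h ^ 2 := ⟨_, rfl⟩
  have hP1c : constantCoeff P1 = 1 := by
    rw [hP1]; simp [hh0]
  have hP2c : constantCoeff P2 = 1 := by
    rw [hP2]; simp [hh0]
  obtain ⟨iE4, hE4i, hE4ic⟩ : ∃ i : PowerSeries ℤ, e4Z * i = 1 ∧ constantCoeff i = 1 :=
    ⟨_, uf_constantCoeff_invOfUnit e4Z constantCoeff_e4Z⟩
  obtain ⟨iP1, hP1i, hP1ic⟩ : ∃ i : PowerSeries ℤ, P1 * i = 1 ∧ constantCoeff i = 1 :=
    ⟨_, uf_constantCoeff_invOfUnit P1 hP1c⟩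
  obtain ⟨iP2, hP2i, hP2ic⟩ : ∃ i : PowerSeries ℤ, P2 * i = 1 ∧ constantCoeff i = 1 :=
    ⟨_, uf_constantCoeff_invOfUnit P2 hP2c⟩
  have hc : P1 ^ 3 - 1728 * (h * (1 - 27 * h) ^ 3) = P2 ^ 2 := by
    rw [hP1, hP2]; ring
  rw [← hP1] at hh'
  obtain ⟨b, hb⟩ : ∃ b : PowerSeries ℤ, b = e6Z * iE4 * P1 * iP2 := ⟨_, rfl⟩
  obtain ⟨h4, h6, h12⟩ := uf_param hE4i hP1i hP2i hh' hΔ hc
  rw [← hb] at h4 h6 h12
  have hb0 : constantCoeff b = 1 := by
    rw [hb, map_mul, map_mul, map_mul, constantCoeff_e6Z, hE4ic, hP1c, hP2ic]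
    norm_num
  -- the congruence modulo `8`
  have hkey : b * P2 * e4Z = e6Z * P1 := by
    calc b * P2 * e4Z = e6Z * P1 * ((e4Z * iE4) * (P2 * iP2)) := by rw [hb]; ring
      _ = e6Z * P1 := by rw [hE4i, hP2i]; ring
  have hkey8 := congrArg (PowerSeries.map (Int.castRingHom (ZMod 8))) hkey
  rw [map_mul, map_mul, map_mul, uf_map_e4Z 8 (by norm_num), uf_map_e6Z 8 (by norm_num),
    hP1, hP2] at hkey8
  simp only [map_sub, map_add, map_mul, map_pow, map_one, map_ofNat] at hkey8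
  have h8 : (8 : PowerSeries (ZMod 8)) = 0 := uf_ofNat_eq_zero 8 8 (by norm_num)
  have hmap : PowerSeries.map (Int.castRingHom (ZMod 8)) (b - 1 - 4 * h) = 0 := by
    simp only [map_sub, map_mul, map_one, map_ofNat]
    generalize PowerSeries.map (Int.castRingHom (ZMod 8)) b = β at hkey8 ⊢
    generalize PowerSeries.map (Int.castRingHom (ZMod 8)) h = η at hkey8 ⊢
    linear_combination (1 + 4 * η) * hkey8 +
      (2 * β * η ^ 2 + (1 + 4 * η) * (67 * β * η + 729 * β * η ^ 2 + 27 * η)) * h8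
  obtain ⟨w, hw⟩ := uf_dvd_of_map_eq_zero 8 _ hmap
  refine ⟨b, h, w, hb0, hh0, hh1, ?_, ?_, h12, ?_⟩
  · rw [← hP1]; exact h4
  · rw [← hP2]; exact h6
  · have hC : (C ((8 : ℕ) : ℤ) : PowerSeries ℤ) = 8 := by
      simp
    rw [hC] at hw
    linear_combination hw

/-- Formal level three coordinates for the integral `q`-series of `E₄`, `E₆`, `Δ`. -/
theorem uform_two :
    ∃ b h w : PowerSeries ℤ, constantCoeff b = 1 ∧ constantCoeff h = 0 ∧ coeff 1 h = 1 ∧
      e4Z = b ^ 2 * (1 + 216 * h) ∧ e6Z = b ^ 3 * (1 - 540 * h - 5832 * h ^ 2) ∧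
      deltaZ = b ^ 6 * (h * (1 - 27 * h) ^ 3) ∧ b = 1 + 4 * h + 8 * w :=
  uform_two_of did_deltaZ_identity

/-- The same coordinates over an arbitrary commutative ring. -/
theorem uform_two_map (O : Type*) [CommRing O] :
    ∃ b h w : PowerSeries O, constantCoeff b = 1 ∧ constantCoeff h = 0 ∧ coeff 1 h = 1 ∧
      e4Z.map (Int.castRingHom O) = b ^ 2 * (1 + 216 * h) ∧
      e6Z.map (Int.castRingHom O) = b ^ 3 * (1 - 540 * h - 5832 * h ^ 2) ∧
      deltaZ.map (Int.castRingHom O) = b ^ 6 * (h * (1 - 27 * h) ^ 3) ∧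
      b = 1 + 4 * h + 8 * w := by
  obtain ⟨b, h, w, hb0, hh0, hh1, h4, h6, h12, hbw⟩ := uform_two
  refine ⟨b.map (Int.castRingHom O), h.map (Int.castRingHom O), w.map (Int.castRingHom O),
    ?_, ?_, ?_, ?_, ?_, ?_, ?_⟩
  · rw [← coeff_zero_eq_constantCoeff_apply, coeff_map, coeff_zero_eq_constantCoeff_apply, hb0,
      map_one]
  · rw [← coeff_zero_eq_constantCoeff_apply, coeff_map, coeff_zero_eq_constantCoeff_apply, hh0,
      map_zero]
  · rw [coeff_map, hh1, map_one]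
  · have := congrArg (PowerSeries.map (Int.castRingHom O)) h4
    simpa only [map_sub, map_add, map_mul, map_pow, map_one, map_ofNat] using this
  · have := congrArg (PowerSeries.map (Int.castRingHom O)) h6
    simpa only [map_sub, map_add, map_mul, map_pow, map_one, map_ofNat] using this
  · have := congrArg (PowerSeries.map (Int.castRingHom O)) h12
    simpa only [map_sub, map_add, map_mul, map_pow, map_one, map_ofNat] using this
  · have := congrArg (PowerSeries.map (Int.castRingHom O)) hbw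
    simpa only [map_sub, map_add, map_mul, map_pow, map_one, map_ofNat] using this

end Fermat.Agent.S16
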