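import Mathlib

/-!
# S16 piece Ul, formal part (Mathlib only)

* `ul_esymm_replicate`, `ul_esymm_zero_cons_replicate`: elementary symmetric functions of
  (almost) constant families;
* `ul_map_esymm`: ring homomorphisms commute with `Multiset.esymm`;
* `ul_esymm_coeff`: the elementary symmetric functions of a family of complex power series with
  coefficients in a subring `O`, all reducing to constants under `φ : O →+* κ`;
* `ul_choose_not_dvd` (Lucas), `ul_gcd_lt`, `ul_gcd_lt'`;
* `ul_exists_residue`, `ul_not_unit`, `ul_not_unit'`: residue fields of characteristic `l` of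
  `ℤ[ζ, 1/p]` (`l ≠ p`) and of `ℤ[ζ]`.
-/

set_option autoImplicit false

namespace Fermat.Agent.S16

open Polynomial in
/-- Elementary symmetric functions of a constant family. -/
theorem ul_esymm_replicate {R : Type*} [CommSemiring R] (n i : ℕ) (c : R) (hi : i ≤ n) :
    (Multiset.replicate n c).esymm i = (n.choose i : R) * c ^ i := by
  have h := Multiset.prod_X_add_C_coeff (Multiset.replicate n c) (k := n - i) (by simp)
  rw [Multiset.map_replicate, Multiset.prod_replicate, Multiset.card_replicate,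
    Polynomial.coeff_X_add_C_pow, Nat.sub_sub_self hi, Nat.choose_symm hi] at h
  rw [← h, mul_comm]

open Polynomial in
/-- Elementary symmetric functions of a family with one zero and all other entries equal. -/
theorem ul_esymm_zero_cons_replicate {R : Type*} [CommSemiring R] (n i : ℕ) (c : R) (hi : i ≤ n) :
    ((0 : R) ::ₘ Multiset.replicate n c).esymm i = (n.choose i : R) * c ^ i := by
  have h := Multiset.prod_X_add_C_coeff ((0 : R) ::ₘ Multiset.replicate n c) (k := n + 1 - i)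
    (by simp)
  rw [Multiset.map_cons, Multiset.prod_cons, Multiset.map_replicate, Multiset.prod_replicate,
    Multiset.card_cons, Multiset.card_replicate, map_zero, add_zero,
    show n + 1 - i = (n - i) + 1 by omega, Polynomial.coeff_X_mul,
    Polynomial.coeff_X_add_C_pow, Nat.sub_sub_self hi, Nat.choose_symm hi,
    show n + 1 - (n - i + 1) = i by omega] at h
  rw [← h, mul_comm]

/-- Ring homomorphisms commute with elementary symmetric functions. -/
theorem ul_map_esymm {R S : Type*} [CommSemiring R] [CommSemiring S] (f : R →+* S)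
    (s : Multiset R) (n : ℕ) : f (s.esymm n) = (s.map f).esymm n := by
  simp only [Multiset.esymm, map_multiset_sum, Multiset.powersetCard_map, Multiset.map_map,
    Function.comp_def, map_multiset_prod]

/-- Lucas: `l ∤ C(l^a m, l^a)` when `l ∤ m`. -/
theorem ul_choose_not_dvd (l : ℕ) [Fact l.Prime] (a m : ℕ) (hm : ¬ l ∣ m) :
    ¬ l ∣ Nat.choose (l ^ a * m) (l ^ a) := by
  induction a with
  | zero => simpa using hm
  | succ a ih =>
    have h := Choose.choose_mul_mul_modEq_choose_nat (p := l) (a := l ^ a * m) (b := l ^ a)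
    rw [← mul_assoc, ← pow_succ'] at h
    intro hd
    exact ih ((Nat.modEq_zero_iff_dvd.mp (h.symm.trans (Nat.modEq_zero_iff_dvd.mpr hd))))

theorem ul_gcd_lt (l : ℕ) [Fact l.Prime] (a : ℕ) : Nat.gcd (l - 1) (2 * l ^ a) < 4 := by
  have hl : l.Prime := Fact.out
  have hcop : Nat.Coprime (l - 1) (l ^ a) := by
    apply Nat.Coprime.pow_right
    rw [Nat.coprime_comm, Nat.Prime.coprime_iff_not_dvd hl]
    intro h
    have := Nat.le_of_dvd (by have := hl.two_le; omega) h
    have := hl.two_le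
    omega
  rw [Nat.Coprime.gcd_mul_right_cancel_right _ hcop.symm] 
  have := Nat.gcd_le_right (l - 1) (show 0 < 2 by norm_num)
  omega

theorem ul_gcd_lt' (p : ℕ) [Fact p.Prime] : Nat.gcd (p - 1) (2 * p) < 4 := by
  simpa using ul_gcd_lt p 1

/-- Coefficients of the elementary symmetric functions of a family of power series with
coefficients in a subring `O`, all of which reduce to constants under `φ : O → κ`. -/
theorem ul_esymm_coeff {σ : Type*} [Fintype σ] (O : Subring ℂ) {κ : Type*} [CommRing κ]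
    (φ : O →+* κ) (J : σ → PowerSeries ℂ) (c : σ → κ)
    (hJ : ∀ q n, ∃ x : O, (x : ℂ) = (J q).coeff n ∧ φ x = if n = 0 then c q else 0)
    (i n : ℕ) :
    ∃ x : O, (x : ℂ) = ((Finset.univ.val.map J).esymm i).coeff n ∧
      φ x = if n = 0 then (Finset.univ.val.map c).esymm i else 0 := by
  choose x hx1 hx2 using hJ
  set J' : σ → PowerSeries O := fun q => PowerSeries.mk (x q) with hJ'
  have h1 : ∀ q, PowerSeries.map O.subtype (J' q) = J q := by
    intro q
    ext n
    simp [hJ', hx1]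
  have h2 : ∀ q, PowerSeries.map φ (J' q) = PowerSeries.C (c q) := by
    intro q
    ext n
    simp only [hJ', PowerSeries.coeff_map, PowerSeries.coeff_mk, hx2, PowerSeries.coeff_C]
  refine ⟨((Finset.univ.val.map J').esymm i).coeff n, ?_, ?_⟩
  · have := ul_map_esymm (PowerSeries.map O.subtype) (Finset.univ.val.map J') i
    rw [Multiset.map_map] at this
    have h3 : (⇑(PowerSeries.map O.subtype) ∘ J') = J := funext h1
    rw [h3] at this
    rw [← this, PowerSeries.coeff_map]
    rfl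
  · have := ul_map_esymm (PowerSeries.map φ) (Finset.univ.val.map J') i
    rw [Multiset.map_map] at this
    have h3 : (⇑(PowerSeries.map φ) ∘ J') = (⇑(PowerSeries.C : κ →+* PowerSeries κ)) ∘ c :=
      funext h2
    rw [h3, ← Multiset.map_map, ← ul_map_esymm] at this
    rw [← PowerSeries.coeff_map, this, PowerSeries.coeff_C]

/-- A residue field of characteristic `l` of a subring in which `l` is not invertible. -/
theorem ul_exists_residue (l : ℕ) [Fact l.Prime] (O : Subring ℂ)
    (hO : ∀ x : O, (l : ℂ) * x ≠ 1) :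
    ∃ (κ : Type) (_ : Field κ) (_ : CharP κ l) (_ : O →+* κ), True := by
  have hI : Ideal.span {(l : O)} ≠ ⊤ := by
    rw [Ne, Ideal.span_singleton_eq_top]
    rintro ⟨u, hu⟩
    apply hO (↑(u⁻¹ : Oˣ))
    have h1 : (l : O) * ((u⁻¹ : Oˣ) : O) = 1 := by rw [← hu]; simp
    have h2 := congrArg (Subtype.val : O → ℂ) h1
    simpa using h2
  obtain ⟨M, hM, hIM⟩ := Ideal.exists_le_maximal _ hI
  let _ : Field (O ⧸ M) := Ideal.Quotient.field M
  have hl0 : ((l : ℕ) : O ⧸ M) = 0 := by
    have : (l : O) ∈ M := hIM (Ideal.subset_span rfl)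
    have h3 := Ideal.Quotient.eq_zero_iff_mem.mpr this
    simpa using h3
  have hchar : CharP (O ⧸ M) l := by
    have hdvd : ringChar (O ⧸ M) ∣ l := (ringChar.spec (O ⧸ M) l).mp hl0
    have hl : l.Prime := Fact.out
    rcases (Nat.dvd_prime hl).mp hdvd with h1 | h1
    · exact absurd h1 (CharP.ringChar_ne_one)
    · exact ringChar.of_eq h1
  exact ⟨O ⧸ M, inferInstance, hchar, Ideal.Quotient.mk M, trivial⟩

/-- A rational number `a / b` (in `ℂ`) which is integral over `ℤ` has `b ∣ a`. -/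
theorem ul_dvd_of_isIntegral_div (a b : ℕ) (hb : b ≠ 0)
    (h : IsIntegral ℤ ((a : ℂ) / (b : ℂ))) : b ∣ a := by
  have h1 : ((a : ℂ) / (b : ℂ)) = algebraMap ℚ ℂ ((a : ℚ) / (b : ℚ)) := by
    simp
  rw [h1, isIntegral_algebraMap_iff (algebraMap ℚ ℂ).injective] at h
  obtain ⟨y, hy⟩ := IsIntegrallyClosed.isIntegral_iff.mp h
  have hb' : (b : ℚ) ≠ 0 := Nat.cast_ne_zero.mpr hb
  have h2 : (y : ℚ) * (b : ℚ) = (a : ℚ) := by
    have : (algebraMap ℤ ℚ y) = (y : ℚ) := rfl
    rw [this] at hy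
    rw [hy]
    field_simp
  have h3 : y * (b : ℤ) = (a : ℤ) := by exact_mod_cast h2
  have h4 : (b : ℤ) ∣ (a : ℤ) := Dvd.intro_left y h3
  exact_mod_cast h4

/-- Elements of `ℤ[ζ, 1/p]` become integral after multiplication by a power of `p`. -/
theorem ul_closure_integral (p : ℕ) (hp : p ≠ 0) (ζ : ℂ) (hζ : ζ ^ p = 1) (x : ℂ)
    (hx : x ∈ Subring.closure ({ζ, (p : ℂ)⁻¹} : Set ℂ)) :
    ∃ k : ℕ, IsIntegral ℤ ((p : ℂ) ^ k * x) := by
  have hpi0 : IsIntegral ℤ (p : ℂ) := by
    have h := isIntegral_algebraMap (R := ℤ) (A := ℂ) (x := (p : ℤ))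
    simpa using h
  have hpi : ∀ k : ℕ, IsIntegral ℤ ((p : ℂ) ^ k) := fun k => hpi0.pow k
  induction hx using Subring.closure_induction with
  | mem x hx =>
    rcases hx with rfl | rfl
    · refine ⟨0, ?_⟩
      rw [pow_zero, one_mul]
      exact IsIntegral.of_pow (Nat.pos_of_ne_zero hp) (by rw [hζ]; exact isIntegral_one)
    · refine ⟨1, ?_⟩
      rw [pow_one, mul_inv_cancel₀ (Nat.cast_ne_zero.mpr hp)]
      exact isIntegral_one
  | zero => exact ⟨0, by simpa using isIntegral_zero⟩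
  | one => exact ⟨0, by simpa using isIntegral_one⟩
  | add x y _ _ hx hy =>
    obtain ⟨k1, h1⟩ := hx
    obtain ⟨k2, h2⟩ := hy
    refine ⟨k1 + k2, ?_⟩
    have : (p : ℂ) ^ (k1 + k2) * (x + y) =
        (p : ℂ) ^ k2 * ((p : ℂ) ^ k1 * x) + (p : ℂ) ^ k1 * ((p : ℂ) ^ k2 * y) := by ring
    rw [this]
    exact ((hpi k2).mul h1).add ((hpi k1).mul h2)
  | neg x _ hx =>
    obtain ⟨k1, h1⟩ := hx
    refine ⟨k1, ?_⟩
    rw [mul_neg]
    exact h1.neg
  | mul x y _ _ hx hy =>
    obtain ⟨k1, h1⟩ := hx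
    obtain ⟨k2, h2⟩ := hy
    refine ⟨k1 + k2, ?_⟩
    have : (p : ℂ) ^ (k1 + k2) * (x * y) = ((p : ℂ) ^ k1 * x) * ((p : ℂ) ^ k2 * y) := by ring
    rw [this]
    exact h1.mul h2

/-- A prime `l ≠ p` is not invertible in `ℤ[ζ, 1/p]`. -/
theorem ul_not_unit (p l : ℕ) [Fact p.Prime] [Fact l.Prime] (hlp : l ≠ p) (ζ : ℂ)
    (hζ : ζ ^ p = 1) (x : Subring.closure ({ζ, (p : ℂ)⁻¹} : Set ℂ)) : (l : ℂ) * x ≠ 1 := by
  have hp : p.Prime := Fact.out
  have hl : l.Prime := Fact.out
  intro h
  obtain ⟨k, hk⟩ := ul_closure_integral p hp.ne_zero ζ hζ x x.2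
  have hl0 : (l : ℂ) ≠ 0 := Nat.cast_ne_zero.mpr hl.ne_zero
  have hx : (x : ℂ) = 1 / (l : ℂ) := by
    field_simp
    rw [mul_comm]; exact h
  rw [hx, mul_one_div] at hk
  have h1 : l ∣ p ^ k := by
    apply ul_dvd_of_isIntegral_div (p ^ k) l hl.ne_zero
    simpa using hk
  have h2 := hl.dvd_of_dvd_pow h1
  exact hlp ((Nat.prime_dvd_prime_iff_eq hl hp).mp h2)

/-- `p` is not invertible in `ℤ[ζ]`. -/
theorem ul_not_unit' (p : ℕ) [Fact p.Prime] (ζ : ℂ) (hζ : ζ ^ p = 1)
    (x : Subring.closure ({ζ} : Set ℂ)) : (p : ℂ) * x ≠ 1 := by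
  have hp : p.Prime := Fact.out
  intro h
  have hle : Subring.closure ({ζ} : Set ℂ) ≤ (integralClosure ℤ ℂ).toSubring := by
    rw [Subring.closure_le]
    rintro y rfl
    exact IsIntegral.of_pow hp.pos (by rw [hζ]; exact isIntegral_one)
  have hx : IsIntegral ℤ (x : ℂ) := hle x.2
  have hp0 : (p : ℂ) ≠ 0 := Nat.cast_ne_zero.mpr hp.ne_zero
  have hx' : (x : ℂ) = ((1 : ℕ) : ℂ) / (p : ℂ) := by
    field_simp
    rw [mul_comm]; simpa using h
  rw [hx'] at hx
  have := ul_dvd_of_isIntegral_div 1 p hp.ne_zero hx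
  exact hp.one_lt.ne' (Nat.dvd_one.mp this)

end Fermat.Agent.S16
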