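import Fermat.Agent.S20.Jets
import Fermat.Agent.S23.Alg
import Fermat.Agent.S16.UlSeries

/-!
# S16 piece Ul, core

* `ul_qExpansion_eval`: the `q_h`-expansion of a polynomial expression in functions with analytic
  cusp functions is the polynomial expression in the expansions;
* `ul_esymm_form`: the elementary symmetric functions of the `SL₂(ℤ)`-conjugates of a form of
  level `Γ₀(N)` are level one forms, with `q`-expansion read off from the `q_N`-expansions
  of the conjugates.
-/

set_option autoImplicit false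

namespace Fermat.Agent.S16

open UpperHalfPlane ModularForm CongruenceSubgroup Fermat.Agent.S20
open scoped MatrixGroups Manifold

theorem ul_cuspFunction_one (h : ℝ) : cuspFunction h (1 : ℍ → ℂ) = 1 := by
  ext q
  rcases eq_or_ne q 0 with rfl | hq
  · simpa [cuspFunction, Function.Periodic.cuspFunction] using! tendsto_const_nhds.limUnder_eq
  · simp [cuspFunction, Function.Periodic.cuspFunction_eq_of_nonzero h _ hq]

/-- `q`-expansions of polynomial expressions. -/
theorem ul_qExpansion_eval {σ : Type*} (h : ℝ) (Q : σ → ℍ → ℂ)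
    (hQ : ∀ q, AnalyticAt ℂ (cuspFunction h (Q q)) 0) (P : MvPolynomial σ ℂ) :
    AnalyticAt ℂ (cuspFunction h (fun z => MvPolynomial.eval (fun q => Q q z) P)) 0 ∧
      qExpansion h (fun z => MvPolynomial.eval (fun q => Q q z) P) =
        MvPolynomial.aeval (fun q => qExpansion h (Q q)) P := by
  have h1a : AnalyticAt ℂ (cuspFunction h (1 : ℍ → ℂ)) 0 := by
    rw [ul_cuspFunction_one]
    exact analyticAt_const
  induction P using MvPolynomial.induction_on with
  | C a =>
    have hfun : (fun z : ℍ => MvPolynomial.eval (fun q => Q q z) (MvPolynomial.C a)) =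
        a • (1 : ℍ → ℂ) := by
      ext z
      simp
    rw [hfun]
    refine ⟨?_, ?_⟩
    · rw [cuspFunction_smul h1a.continuousAt]
      exact h1a.const_smul
    · rw [qExpansion_smul h1a, qExpansion_one, MvPolynomial.aeval_C,
        Algebra.algebraMap_eq_smul_one]
  | add P₁ P₂ ih₁ ih₂ =>
    have hfun : (fun z : ℍ => MvPolynomial.eval (fun q => Q q z) (P₁ + P₂)) =
        (fun z : ℍ => MvPolynomial.eval (fun q => Q q z) P₁) +
          (fun z : ℍ => MvPolynomial.eval (fun q => Q q z) P₂) := by
      ext z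
      simp
    rw [hfun]
    refine ⟨?_, ?_⟩
    · rw [cuspFunction_add ih₁.1.continuousAt ih₂.1.continuousAt]
      exact ih₁.1.add ih₂.1
    · rw [qExpansion_add ih₁.1 ih₂.1, ih₁.2, ih₂.2, map_add]
  | mul_X P₁ q ih =>
    have hfun : (fun z : ℍ => MvPolynomial.eval (fun q => Q q z) (P₁ * MvPolynomial.X q)) =
        (fun z : ℍ => MvPolynomial.eval (fun q => Q q z) P₁) * Q q := by
      ext z
      simp
    rw [hfun]
    refine ⟨?_, ?_⟩
    · rw [cuspFunction_mul ih.1.continuousAt (hQ q).continuousAt]
      exact ih.1.mul (hQ q)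
    · rw [qExpansion_mul ih.1 (hQ q), ih.2, map_mul, MvPolynomial.aeval_X]

/-- The elementary symmetric functions of the conjugates of a form of level `Γ₀(N)` are level
one forms; their `q`-expansions are given by the `q_N`-expansions of the conjugates. -/
theorem ul_esymm_form (N : ℕ) [NeZero N] (k : ℤ) (G : ModularForm (G0 N) k) (i : ℕ) :
    ∃ P : ModularForm 𝒮ℒ (i * k), ∀ n, (qExpansion 1 P).coeff n =
      ((Finset.univ.val.map
        (fun q : QQ N => qExpansion (N : ℝ) (cj N k G q))).esymm i).coeff (N * n) := by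
  obtain ⟨P, hP⟩ := Fermat.Agent.S23.exists_modularForm_eval_symm G
    (MvPolynomial.esymm (QQ N) ℂ i) i (MvPolynomial.esymm_isSymmetric _ _ i)
    (Fermat.Agent.S23.alg_esymm_isHomogeneous _ i)
  refine ⟨P, fun n => ?_⟩
  have hfun : (⇑P : ℍ → ℂ) = fun z => MvPolynomial.eval (fun q => cj N k G q z)
      (MvPolynomial.esymm (QQ N) ℂ i) := by
    ext z
    rw [hP z]
    have h2 : (fun q : QQ N => cj N k (⇑G) q z) =
        fun q => SlashInvariantForm.quotientFunc G q z :=
      funext fun q => by rw [cj_eq_quotientFunc]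
    rw [h2]
  have hG : (⇑G) ∈ MF (G0 N) k := ⟨G, rfl⟩
  have key := ul_qExpansion_eval (N : ℝ) (fun q => cj N k G q) (fun q => jets_analytic N hG q)
    (MvPolynomial.esymm (QQ N) ℂ i)
  have hper : Function.Periodic ((⇑P : ℍ → ℂ) ∘ ofComplex) (1 : ℝ) :=
    SlashInvariantFormClass.periodic_comp_ofComplex P (by simp)
  have h1 := UpperHalfPlane.qExpansion_coeff_nat_mul (h := 1) one_pos (F := ⇑P) hper
    (ModularFormClass.holo P) (ModularFormClass.bdd_at_infty P) (M := N) (NeZero.pos N) (N * n)
  rw [if_pos (dvd_mul_right N n), Nat.mul_div_cancel_left _ (NeZero.pos N), mul_one] at h1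
  rw [← h1, hfun, key.2, MvPolynomial.aeval_esymm_eq_multiset_esymm]

end Fermat.Agent.S16
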