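import Fermat.Agent.S16.UlCore
import Fermat.Prelude.Thm_CongruenceSubgroup_one_mem_strictPeriods_Gamma0

/-!
# S16 piece Ul: no congruence `G ≡ 1 mod l` for primes `l ≥ 5`, from the toolkit facts

`ul_of`: for a prime `l ≥ 5` there is no `G ∈ M₂(Γ₀(p))` with integral `q`-expansion congruent to
`1` modulo `l`.  The inputs from the other pieces are explicit hypotheses:

* `hcard`, `hjet` (toolkit): the `p + 1` conjugates of `G` are `G` and the `p` series
  `∑ₙ -(a (p n))/p ζ^(j n) x^n` in `x = q^(1/p)`;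
* `hU1` (piece U1): `l ∣ p + 1` when `l ≠ p`;
* `hWL` (level one weight lemma), in the shape `UlWL l`.
-/

set_option autoImplicit false

namespace Fermat.Agent.S16

open UpperHalfPlane ModularForm CongruenceSubgroup Fermat.Agent.S20
open scoped MatrixGroups Manifold

/-- The level one weight lemma for the prime `l`, as a hypothesis: a level one form with
coefficients in a subring `O ⊆ ℂ` which is congruent to a nonzero constant modulo a prime of `O`
of residue characteristic `l` has weight `w` with `gcd (l - 1, w) ≥ 4`. -/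
def UlWL (l : ℕ) : Prop :=
  ∀ (O : Subring ℂ) (κ : Type) [Field κ] [CharP κ l] (φ : O →+* κ) (w : ℕ)
    (F : ModularForm 𝒮ℒ (w : ℤ)) (c : ℕ → O), (∀ n, (qExpansion 1 F).coeff n = (c n : ℂ)) →
    φ (c 0) ≠ 0 → (∀ n, 1 ≤ n → φ (c n) = 0) → 4 ≤ Nat.gcd (l - 1) w

/-- The `q_p`-expansion of the trivial conjugate. -/
theorem ul_jet_one (p : ℕ) [NeZero p] (G : ModularForm (G0 p) 2) (n : ℕ) :
    (qExpansion (p : ℝ) (cj p 2 G (QuotientGroup.mk 1))).coeff n =
      if p ∣ n then (qExpansion 1 G).coeff (n / p) else 0 := by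
  have hone : cj p 2 (⇑G) (QuotientGroup.mk 1) = ⇑G := cj_one p (f := ⇑G) (w := 2) ⟨G, rfl⟩
  rw [hone]
  have hper : Function.Periodic ((⇑G : ℍ → ℂ) ∘ ofComplex) (1 : ℝ) :=
    SlashInvariantFormClass.periodic_comp_ofComplex G
      (CongruenceSubgroup.one_mem_strictPeriods_Gamma0 p)
  have := UpperHalfPlane.qExpansion_coeff_nat_mul (h := 1) one_pos (F := ⇑G) hper
    (ModularFormClass.holo G) (ModularFormClass.bdd_at_infty G) (M := p) (NeZero.pos p) n
  rwa [mul_one] at this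

/-- Case `l ≠ p`. -/
theorem ul_of_ne (p : ℕ) [Fact p.Prime] (l : ℕ) [Fact l.Prime] (hlp : l ≠ p)
    (G : ModularForm (G0 p) 2) (a : ℕ → ℤ)
    (ha : ∀ n, (qExpansion 1 G).coeff n = (a n : ℂ))
    (h0 : (l : ℤ) ∣ a 0 - 1) (hn : ∀ n, 1 ≤ n → (l : ℤ) ∣ a n)
    (hcard : Nat.card (QQ p) = p + 1)
    (ζ : ℂ) (hζ : ζ ^ p = 1)
    (hjet : ∀ q : QQ p, q ≠ QuotientGroup.mk 1 →
      ∃ j : ℕ, ∀ n, jet p 2 G q n = -(a (p * n) : ℂ) / p * ζ ^ (j * n))
    (hU1 : l ∣ p + 1) (hWL : UlWL l) : False := by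
  have hp : p.Prime := Fact.out
  have hl : l.Prime := Fact.out
  have : NeZero p := ⟨hp.ne_zero⟩
  set O : Subring ℂ := Subring.closure ({ζ, (p : ℂ)⁻¹} : Set ℂ) with hO
  obtain ⟨κ, _, _, φ, -⟩ := ul_exists_residue l O (ul_not_unit p l hlp ζ hζ)
  have hζO : ζ ∈ O := Subring.subset_closure (by simp)
  have hpO : (p : ℂ)⁻¹ ∈ O := Subring.subset_closure (by simp)
  set ζ' : O := ⟨ζ, hζO⟩ with hζ'
  set pinv : O := ⟨(p : ℂ)⁻¹, hpO⟩ with hpinv'
  have hpinv : pinv * (p : O) = 1 := by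
    apply Subtype.ext
    simp [hpinv', hp.ne_zero]
  have hφp : φ pinv = -1 := by
    have h1 : φ pinv * (p : κ) = 1 := by
      rw [← map_natCast φ p, ← map_mul, hpinv, map_one]
    have h2 : (p : κ) + 1 = 0 := by
      have := (CharP.cast_eq_zero_iff κ l (p + 1)).mpr hU1
      simpa using this
    have h3 : (p : κ) = -1 := by linear_combination h2
    rw [h3] at h1
    linear_combination -h1
  have hφa0 : ((a 0 : ℤ) : κ) = 1 := by
    have := (CharP.intCast_eq_zero_iff κ l (a 0 - 1)).mpr h0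
    push_cast at this
    linear_combination this
  have hφan : ∀ n, 1 ≤ n → ((a n : ℤ) : κ) = 0 := fun n hn1 =>
    (CharP.intCast_eq_zero_iff κ l (a n)).mpr (hn n hn1)
  obtain ⟨e, m, hm, hpe⟩ := Nat.exists_eq_pow_mul_and_not_dvd (n := p + 1) (by omega) l hl.ne_one
  obtain ⟨P, hP⟩ := ul_esymm_form p 2 G (l ^ e)
  set J : QQ p → PowerSeries ℂ := fun q => qExpansion (p : ℝ) (cj p 2 G q) with hJ
  have hJc : ∀ q n, ∃ x : O, (x : ℂ) = (J q).coeff n ∧ φ x = if n = 0 then (1 : κ) else 0 := by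
    intro q n
    by_cases hq : q = QuotientGroup.mk 1
    · subst hq
      have hc := ul_jet_one p G n
      by_cases hpn : p ∣ n
      · refine ⟨((a (n / p) : ℤ) : O), ?_, ?_⟩
        · simp only [hJ]
          rw [hc, if_pos hpn, ha]
          simp
        · rw [map_intCast]
          by_cases hn0 : n = 0
          · subst hn0
            simpa using hφa0
          · rw [if_neg hn0]
            exact hφan _ (Nat.div_pos (Nat.le_of_dvd (Nat.pos_of_ne_zero hn0) hpn) hp.pos)
      · refine ⟨0, ?_, ?_⟩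
        · simp only [hJ]
          rw [hc, if_neg hpn]
          simp
        · have : n ≠ 0 := by
            rintro rfl
            exact hpn (dvd_zero p)
          simp [this]
    · obtain ⟨j, hj⟩ := hjet q hq
      refine ⟨-((a (p * n) : ℤ) : O) * pinv * ζ' ^ (j * n), ?_, ?_⟩
      · have h1 : (J q).coeff n = jet p 2 G q n := rfl
        rw [h1, hj n]
        simp [hpinv', hζ', div_eq_mul_inv]
      · rw [map_mul, map_mul, map_neg, map_intCast, map_pow, hφp]
        by_cases hn0 : n = 0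
        · subst hn0
          simp [hφa0]
        · rw [if_neg hn0, hφan (p * n) (Nat.mul_pos hp.pos (Nat.pos_of_ne_zero hn0))]
          simp
  choose x hx1 hx2 using fun n => ul_esymm_coeff O φ J (fun _ => (1 : κ)) hJc (l ^ e) (p * n)
  have hcard' : Fintype.card (QQ p) = p + 1 := by
    rw [← Nat.card_eq_fintype_card]
    exact hcard
  have hms : (Finset.univ.val.map (fun _ : QQ p => (1 : κ))) = Multiset.replicate (p + 1) 1 := by
    rw [Multiset.map_const', Finset.card_val, Finset.card_univ, hcard']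
  have hm0 : m ≠ 0 := by
    rintro rfl
    simp at hm
  have hle : l ^ e ≤ p + 1 := by
    rw [hpe]
    exact Nat.le_mul_of_pos_right _ (Nat.pos_of_ne_zero hm0)
  have hx0 : φ (x 0) ≠ 0 := by
    rw [hx2 0, if_pos (by simp), hms, ul_esymm_replicate _ _ _ hle, one_pow, mul_one]
    intro h
    have := (CharP.cast_eq_zero_iff κ l _).mp h
    rw [hpe] at this
    exact ul_choose_not_dvd l e m hm this
  have hxn : ∀ n, 1 ≤ n → φ (x n) = 0 := by
    intro n hn1
    rw [hx2 n, if_neg (Nat.mul_pos hp.pos hn1).ne']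
  have hw : ((l ^ e : ℕ) : ℤ) * 2 = ((2 * l ^ e : ℕ) : ℤ) := by
    push_cast
    ring
  have h4 := hWL O κ φ (2 * l ^ e) (ModularForm.mcast hw P) x
    (fun n => by
      rw [hx1 n, ← hP n]
      rfl) hx0 hxn
  have := ul_gcd_lt l e
  omega

/-- Case `l = p`. -/
theorem ul_of_eq (p : ℕ) [Fact p.Prime]
    (G : ModularForm (G0 p) 2) (a : ℕ → ℤ)
    (ha : ∀ n, (qExpansion 1 G).coeff n = (a n : ℂ))
    (h0 : (p : ℤ) ∣ a 0 - 1) (hn : ∀ n, 1 ≤ n → (p : ℤ) ∣ a n)
    (hcard : Nat.card (QQ p) = p + 1)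
    (ζ : ℂ) (hζ : ζ ^ p = 1)
    (hjet : ∀ q : QQ p, q ≠ QuotientGroup.mk 1 →
      ∃ j : ℕ, ∀ n, jet p 2 G q n = -(a (p * n) : ℂ) / p * ζ ^ (j * n))
    (hWL : UlWL p) : False := by
  have hp : p.Prime := Fact.out
  have : NeZero p := ⟨hp.ne_zero⟩
  have hp0 : (p : ℂ) ≠ 0 := Nat.cast_ne_zero.mpr hp.ne_zero
  set O : Subring ℂ := Subring.closure ({ζ} : Set ℂ) with hO
  obtain ⟨κ, _, _, φ, -⟩ := ul_exists_residue p O (ul_not_unit' p ζ hζ)
  have hζO : ζ ∈ O := Subring.subset_closure (by simp)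
  set ζ' : O := ⟨ζ, hζO⟩ with hζ'
  have hφp : φ (p : O) = 0 := by
    rw [map_natCast]
    exact CharP.cast_eq_zero κ p
  have hφa0 : ((a 0 : ℤ) : κ) = 1 := by
    have := (CharP.intCast_eq_zero_iff κ p (a 0 - 1)).mpr h0
    push_cast at this
    linear_combination this
  have hφan : ∀ n, 1 ≤ n → ((a n : ℤ) : κ) = 0 := fun n hn1 =>
    (CharP.intCast_eq_zero_iff κ p (a n)).mpr (hn n hn1)
  obtain ⟨P, hP⟩ := ul_esymm_form p 2 G p
  set J0 : QQ p → PowerSeries ℂ := fun q => qExpansion (p : ℝ) (cj p 2 G q) with hJ0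
  set J : QQ p → PowerSeries ℂ := fun q => (p : ℂ) • J0 q with hJ
  set c : QQ p → κ := fun q => if q = QuotientGroup.mk 1 then 0 else -1 with hc
  have hJc : ∀ q n, ∃ x : O, (x : ℂ) = (J q).coeff n ∧ φ x = if n = 0 then c q else 0 := by
    intro q n
    by_cases hq : q = QuotientGroup.mk 1
    · subst hq
      have hcf := ul_jet_one p G n
      refine ⟨(p : O) * (if p ∣ n then ((a (n / p) : ℤ) : O) else 0), ?_, ?_⟩
      · simp only [hJ, hJ0, PowerSeries.coeff_smul]
        rw [hcf]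
        split_ifs <;> simp [ha]
      · rw [map_mul, hφp, zero_mul]
        simp [hc]
    · obtain ⟨j, hj⟩ := hjet q hq
      refine ⟨-((a (p * n) : ℤ) : O) * ζ' ^ (j * n), ?_, ?_⟩
      · have h1 : (J q).coeff n = (p : ℂ) * jet p 2 G q n := by
          simp only [hJ, hJ0, PowerSeries.coeff_smul, smul_eq_mul]
          rfl
        rw [h1, hj n]
        simp only [hζ', Subring.coe_mul, Subring.coe_neg, Subring.coe_intCast, Subring.coe_pow]
        field_simp
      · rw [map_mul, map_neg, map_intCast, map_pow]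
        by_cases hn0 : n = 0
        · subst hn0
          simp [hφa0, hc, hq]
        · rw [if_neg hn0, hφan (p * n) (Nat.mul_pos hp.pos (Nat.pos_of_ne_zero hn0))]
          simp
  choose x hx1 hx2 using fun n => ul_esymm_coeff O φ J c hJc p (p * n)
  have hcard' : Fintype.card (QQ p) = p + 1 := by
    rw [← Nat.card_eq_fintype_card]
    exact hcard
  have hms : Finset.univ.val.map c = (0 : κ) ::ₘ Multiset.replicate p (-1) := by
    classical
    rw [← Finset.insert_erase (Finset.mem_univ (QuotientGroup.mk 1 : QQ p)),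
      Finset.insert_val_of_notMem (Finset.notMem_erase _ _), Multiset.map_cons]
    have h1 : c (QuotientGroup.mk 1) = 0 := by simp [hc]
    have h2 : Multiset.map c (Finset.univ.erase (QuotientGroup.mk 1 : QQ p)).val =
        Multiset.replicate p (-1) := by
      rw [Multiset.map_congr rfl (g := fun _ => (-1 : κ)) (fun q hq => by
        have hq' : q ≠ QuotientGroup.mk 1 := Finset.ne_of_mem_erase hq
        simp [hc, hq']), Multiset.map_const', Finset.card_val,
        Finset.card_erase_of_mem (Finset.mem_univ _), Finset.card_univ, hcard']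
      rfl
    rw [h1, h2]
  have hx0 : φ (x 0) ≠ 0 := by
    rw [hx2 0, if_pos (by simp), hms, ul_esymm_zero_cons_replicate _ _ _ le_rfl,
      Nat.choose_self, Nat.cast_one, one_mul]
    exact pow_ne_zero _ (neg_ne_zero.mpr one_ne_zero)
  have hxn : ∀ n, 1 ≤ n → φ (x n) = 0 := by
    intro n hn1
    rw [hx2 n, if_neg (Nat.mul_pos hp.pos hn1).ne']
  have hw : ((p : ℕ) : ℤ) * 2 = ((2 * p : ℕ) : ℤ) := by
    push_cast
    ring
  have hesymm : (Finset.univ.val.map J).esymm p =
      ((p : ℂ) ^ p) • (Finset.univ.val.map J0).esymm p := by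
    rw [Multiset.pow_smul_esymm, Multiset.map_map]
    rfl
  have hF : ∀ n, (qExpansion 1 (ModularForm.mcast hw (((p : ℂ) ^ p) • P))).coeff n =
      (x n : ℂ) := by
    intro n
    have h1 : qExpansion 1 (⇑(((p : ℂ) ^ p) • P)) = ((p : ℂ) ^ p) • qExpansion 1 ⇑P :=
      ModularForm.qExpansion_smul one_pos one_mem_strictPeriods_SL _ P
    have h2 : (⇑(ModularForm.mcast hw (((p : ℂ) ^ p) • P)) : ℍ → ℂ) =
        ⇑(((p : ℂ) ^ p) • P) := rfl
    rw [h2, h1, PowerSeries.coeff_smul, hP n, hx1 n, hesymm, PowerSeries.coeff_smul]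
  have h4 := hWL O κ φ (2 * p) (ModularForm.mcast hw (((p : ℂ) ^ p) • P)) x hF hx0 hxn
  have := ul_gcd_lt' p
  omega

/-- **Ul**, from the toolkit facts: for a prime `l ≥ 5` there is no form `G` of weight two and
level `Γ₀(p)` with integral `q`-expansion congruent to `1` modulo `l`. -/
theorem ul_of (p : ℕ) [Fact p.Prime] (l : ℕ) [Fact l.Prime]
    (G : ModularForm (G0 p) 2) (a : ℕ → ℤ)
    (ha : ∀ n, (qExpansion 1 G).coeff n = (a n : ℂ))
    (h0 : (l : ℤ) ∣ a 0 - 1) (hn : ∀ n, 1 ≤ n → (l : ℤ) ∣ a n)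
    (hcard : Nat.card (QQ p) = p + 1)
    (ζ : ℂ) (hζ : ζ ^ p = 1)
    (hjet : ∀ q : QQ p, q ≠ QuotientGroup.mk 1 →
      ∃ j : ℕ, ∀ n, jet p 2 G q n = -(a (p * n) : ℂ) / p * ζ ^ (j * n))
    (hU1 : l ≠ p → l ∣ p + 1) (hWL : UlWL l) : False := by
  by_cases hlp : l = p
  · subst hlp
    exact ul_of_eq l G a ha h0 hn hcard ζ hζ hjet hWL
  · exact ul_of_ne p l hlp G a ha h0 hn hcard ζ hζ hjet (hU1 hlp) hWL

end Fermat.Agent.S16
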