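import Fermat.Agent.S16.UpperBound
import Fermat.Agent.S16.AlgSigma

/-!
# S16: the upper bound in the shape of the hypothesis `hUB` of `alg_main`
-/

set_option autoImplicit false

open UpperHalfPlane ModularForm Complex
open scoped Real MatrixGroups CongruenceSubgroup Manifold

noncomputable section

namespace Fermat.Agent.S16

/-- `sigmaP p k` is the sum of the divisors of `k` prime to `p`. -/
theorem ub_sigmaP_eq (p : ℕ) (hp : p ≠ 0) (k : ℕ) (hk : k ≠ 0) :
    sigmaP p k = ∑ d ∈ k.divisors with ¬ p ∣ d, (d : ℤ) := by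
  have h1 := e2p_sum_divisors_dvd p hp k hk
  have h2 : (∑ d ∈ k.divisors, (d : ℤ)) = (∑ d ∈ k.divisors with p ∣ d, (d : ℤ)) +
      ∑ d ∈ k.divisors with ¬ p ∣ d, (d : ℤ) :=
    (Finset.sum_filter_add_sum_filter_not k.divisors (fun d => p ∣ d) _).symm
  have hs : ∀ n : ℕ, ((ArithmeticFunction.sigma 1 n : ℕ) : ℤ) = ∑ d ∈ n.divisors, (d : ℤ) := by
    intro n
    rw [ArithmeticFunction.sigma_one_apply]
    push_cast
    rfl
  rw [sigmaP, hs k, h2, h1]
  split_ifs with hpk
  · rw [hs (k / p)]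
    ring
  · ring

/-- The upper bound, in the shape of the hypothesis `hUB` of `alg_main`, from the `U`-lemmas. -/
theorem ub_main_alg (p : ℕ) [Fact p.Prime] (hp : 5 ≤ p)
    (hU1 : ∀ M : ℕ, Nat.Coprime M p → UbCong p M → M ∣ p + 1)
    (hU8 : p % 8 = 7 → ¬ UbCong p 8)
    (hU9 : 9 ∣ p + 1 → ¬ UbCong p 9)
    (hUl : ∀ l : ℕ, l.Prime → 5 ≤ l → ¬ UbCong p l)
    (m : ℕ) (f : CuspForm (CongruenceSubgroup.Gamma0 p) 2)
    (hf : ∀ k : ℕ, 1 ≤ k → ∃ c : ℤ, ModularFormClass.qCoeff f k = c ∧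
      (m : ℤ) ∣ c - sigmaP p k) :
    m ∣ ModularCurve.eisensteinNumerator p := by
  have hpp : p.Prime := Fact.out
  choose! c hc hc' using hf
  have h0 : (qExpansion 1 f).coeff 0 = 0 :=
    CuspFormClass.qExpansion_coeff_zero (f := f) one_pos
      (CongruenceSubgroup.one_mem_strictPeriods_Gamma0 p)
  refine ub_main_of p hp hU1 hU8 hU9 hUl m f (fun k => if k = 0 then 0 else c k) (fun k => ?_)
    (fun k hk => ?_)
  · rcases Nat.eq_zero_or_pos k with rfl | hk
    · simpa using h0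
    · rw [if_neg (by omega)]
      exact hc k hk
  · rw [if_neg (by omega), ← ub_sigmaP_eq p hpp.ne_zero k (by omega)]
    exact hc' k hk

end Fermat.Agent.S16
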