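import Fermat.Agent.S16.UpperBoundFinal
import Fermat.Agent.S16.U8

/-!
# S16: the upper bound (no hypotheses left)

`ub_main`: for a prime `p ≥ 5`, a cusp form `f ∈ S₂(Γ₀(p))` with integer `q`-coefficients
`a_k ≡ σ'_p(k) mod m` (`k ≥ 1`) forces `m ∣ (p - 1) / gcd(p - 1, 12)`.  This is exactly the
hypothesis `hUB` of `alg_main_sum`.
-/

set_option autoImplicit false

open UpperHalfPlane ModularForm Complex
open scoped Real MatrixGroups CongruenceSubgroup Manifold

noncomputable section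

namespace Fermat.Agent.S16

/-- **The upper bound.** -/
theorem ub_main (p : ℕ) [Fact p.Prime] (hp : 5 ≤ p)
    (m : ℕ) (f : CuspForm (CongruenceSubgroup.Gamma0 p) 2) (a : ℕ → ℤ)
    (ha : ∀ k, (qExpansion 1 f).coeff k = (a k : ℂ))
    (hcong : ∀ k, 1 ≤ k → (m : ℤ) ∣ a k - ∑ d ∈ k.divisors with ¬ p ∣ d, (d : ℤ)) :
    m ∣ ModularCurve.eisensteinNumerator p :=
  ub_main_of_u8 p hp (u8_not_ubCong p) m f a ha hcong

end Fermat.Agent.S16
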