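import Fermat.Agent.S16.SwdGlue
import Fermat.Agent.S16.DeltaId
import Fermat.Agent.S16.VonStaudt

/-!
# S16, piece W: the level one weight lemma, from isobaric representations

`wl_core`: pure algebra.  Let `O` be a subring of `ℂ`, `φ : O →+* κ` a ring homomorphism to a field
of characteristic `l ≥ 5`.  If a series `∑ c n qⁿ ∈ O⟦q⟧` with `φ (c 0) ≠ 0`, `φ (c n) = 0`
(`n ≥ 1`) is an isobaric polynomial of weight `w` in `E₄, E₆, Δ`, and a series `∑ a n qⁿ ∈ ℤ⟦q⟧`
with `l ∤ a 0`, `l ∣ a n` (`n ≥ 1`) is an isobaric polynomial of weight `l - 1`, then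
`4 ≤ gcd (l - 1) w`.

`wl_of_repr`: the same for level one modular forms, given the integral structure theorem (L1) as a
hypothesis.
-/

set_option autoImplicit false

open UpperHalfPlane ModularForm MvPolynomial
open scoped MatrixGroups

namespace Fermat.Agent.S16

theorem wl_ne_zero_1728 (l : ℕ) [hl' : Fact l.Prime] (hl : 5 ≤ l) {κ : Type*} [Field κ]
    [CharP κ l] : (1728 : κ) ≠ 0 := by
  intro h
  have h1 : ((1728 : ℕ) : κ) = 0 := by exact_mod_cast h
  rw [CharP.cast_eq_zero_iff κ l] at h1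
  have h2 : l ∣ 2 ^ 6 * 3 ^ 3 := by
    have : (1728 : ℕ) = 2 ^ 6 * 3 ^ 3 := by norm_num
    rwa [this] at h1
  rcases (Nat.Prime.dvd_mul hl'.out).mp h2 with h3 | h3
  · have := Nat.le_of_dvd (by norm_num) (hl'.out.dvd_of_dvd_pow h3)
    omega
  · have := Nat.le_of_dvd (by norm_num) (hl'.out.dvd_of_dvd_pow h3)
    omega

/-- **Level one weight lemma, algebraic form.** -/
theorem wl_core (l : ℕ) [Fact l.Prime] (hl : 5 ≤ l) (O : Subring ℂ) {κ : Type*} [Field κ]
    [CharP κ l] (φ : O →+* κ) (w : ℕ) (c : ℕ → O) (h0 : φ (c 0) ≠ 0)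
    (hn : ∀ n, 1 ≤ n → φ (c n) = 0)
    (PF : MvPolynomial (Fin 3) O) (hPF : PF.IsWeightedHomogeneous ![4, 6, 12] w)
    (hPFc : PowerSeries.mk c = aeval ![e4Z.map (Int.castRingHom O), e6Z.map (Int.castRingHom O),
      deltaZ.map (Int.castRingHom O)] PF)
    (a : ℕ → ℤ) (ha0 : ¬ (l : ℤ) ∣ a 0) (han : ∀ n, 1 ≤ n → (l : ℤ) ∣ a n)
    (PA : MvPolynomial (Fin 3) O) (hPA : PA.IsWeightedHomogeneous ![4, 6, 12] (l - 1))
    (hPAc : PowerSeries.mk (fun n => ((a n : ℤ) : O)) =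
      aeval ![e4Z.map (Int.castRingHom O), e6Z.map (Int.castRingHom O),
        deltaZ.map (Int.castRingHom O)] PA) :
    4 ≤ Nat.gcd (l - 1) w := by
  have h4 : PowerSeries.constantCoeff (e4Z.map (Int.castRingHom O)) = 1 := by
    rw [← PowerSeries.coeff_zero_eq_constantCoeff_apply, PowerSeries.coeff_map,
      PowerSeries.coeff_zero_eq_constantCoeff_apply, constantCoeff_e4Z, map_one]
  have h6 : PowerSeries.constantCoeff (e6Z.map (Int.castRingHom O)) = 1 := by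
    rw [← PowerSeries.coeff_zero_eq_constantCoeff_apply, PowerSeries.coeff_map,
      PowerSeries.coeff_zero_eq_constantCoeff_apply, constantCoeff_e6Z, map_one]
  have hΔ : (1728 : PowerSeries O) * deltaZ.map (Int.castRingHom O) =
      e4Z.map (Int.castRingHom O) ^ 3 - e6Z.map (Int.castRingHom O) ^ 2 := by
    have h := congrArg (PowerSeries.map (Int.castRingHom O)) did_deltaZ_identity
    rwa [map_mul, map_sub, map_pow, map_pow, map_ofNat] at h
  have hΔ1 : PowerSeries.coeff 1 (deltaZ.map (Int.castRingHom O)) = 1 := by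
    rw [PowerSeries.coeff_map, coeff_one_deltaZ, map_one]
  have hφint : ∀ z : ℤ, φ ((z : ℤ) : O) = ((z : ℤ) : κ) := fun z => map_intCast φ z
  refine swd_gcd_of_repr φ (wl_ne_zero_1728 l hl) _ _ _ h4 h6 hΔ hΔ1 PA (l - 1) (by omega) hPA
    ?_ ?_ PF w hPF ?_ ?_
  · rw [← hPAc, ← PowerSeries.coeff_zero_eq_constantCoeff_apply, PowerSeries.coeff_mk, hφint]
    intro h
    exact ha0 ((CharP.intCast_eq_zero_iff κ l (a 0)).mp h)
  · intro n hn1
    rw [← hPAc, PowerSeries.coeff_mk, hφint]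
    exact (CharP.intCast_eq_zero_iff κ l (a n)).mpr (han n hn1)
  · rw [← hPFc, ← PowerSeries.coeff_zero_eq_constantCoeff_apply, PowerSeries.coeff_mk]
    exact h0
  · intro n hn1
    rw [← hPFc, PowerSeries.coeff_mk]
    exact hn n hn1

/-- **Level one weight lemma**, given the integral structure theorem (L1) as a hypothesis. -/
theorem wl_of_repr
    (hL1 : ∀ (O : Subring ℂ) (k : ℤ) (F : ModularForm 𝒮ℒ k) (c : ℕ → O),
      (∀ n, (qExpansion 1 F).coeff n = (c n : ℂ)) →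
      ∃ P : MvPolynomial (Fin 3) O, P.IsWeightedHomogeneous ![4, 6, 12] k.toNat ∧
        PowerSeries.mk c = aeval ![e4Z.map (Int.castRingHom O), e6Z.map (Int.castRingHom O),
          deltaZ.map (Int.castRingHom O)] P)
    (l : ℕ) [Fact l.Prime] (hl : 5 ≤ l) (O : Subring ℂ) {κ : Type*} [Field κ] [CharP κ l]
    (φ : O →+* κ) (w : ℕ) (F : ModularForm 𝒮ℒ (w : ℤ)) (c : ℕ → O)
    (hc : ∀ n, (qExpansion 1 F).coeff n = (c n : ℂ)) (h0 : φ (c 0) ≠ 0)
    (hn : ∀ n, 1 ≤ n → φ (c n) = 0) : 4 ≤ Nat.gcd (l - 1) w := by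
  obtain ⟨PF, hPF, hPFc⟩ := hL1 O (w : ℤ) F c hc
  rw [Int.toNat_natCast] at hPF
  obtain ⟨m, f, a, hm, haf, ha0, han⟩ := vs_exists_A l hl
  obtain ⟨PA, hPA, hPAc⟩ := hL1 O ((l - 1 : ℕ) : ℤ) f (fun n => ((a n : ℤ) : O))
    (fun n => by rw [haf n]; push_cast; rfl)
  rw [Int.toNat_natCast] at hPA
  exact wl_core l hl O φ w c h0 hn PF hPF hPFc a (by rw [ha0]; exact hm) han PA hPA hPAc

end Fermat.Agent.S16
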